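import Mathlib

/-!
# Case II of Fermat's Last Theorem over a `p`-th cyclotomic ring of integers which is a PID
(independent backup implementation, helper65)
-/

open NumberField Polynomial Finset

namespace Fermat.Agent.FLTReg.CaseIIAlt

variable {p : ℕ} [hp : Fact p.Prime] {K : Type*} [Field K] [NumberField K]
  [IsCyclotomicExtension {p} ℚ K] {ζ : K} (hζ : IsPrimitiveRoot ζ p)

/-- every element of `𝓞 K` is congruent to a rational integer modulo `ζ - 1`. -/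
lemma exists_int_sub_dvd (hodd : p ≠ 2) (α : 𝓞 K) :
    ∃ a : ℤ, (hζ.toInteger - 1) ∣ α - (a : 𝓞 K) := by
  classical
  set I : Ideal (𝓞 K) := Ideal.span {hζ.toInteger - 1} with hI
  have hcard : Nat.card (𝓞 K ⧸ I) = p := by
    rw [hI, hζ.card_quotient_toInteger_sub_one, hζ.norm_toInteger_sub_one_of_prime_ne_two' hodd]
    simp
  have hfin : Finite (𝓞 K ⧸ I) := Nat.finite_of_card_ne_zero (by rw [hcard]; exact hp.out.ne_zero)
  let f : ZMod p → 𝓞 K ⧸ I := fun a => Ideal.Quotient.mk I (((a.val : ℤ) : 𝓞 K))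
  have hinj : Function.Injective f := by
    intro a b hab
    simp only [f] at hab
    rw [Ideal.Quotient.eq, hI, Ideal.mem_span_singleton, ← Int.cast_sub,
      IsCyclotomicExtension.Rat.zeta_sub_one_dvd_intCast_iff' p hζ] at hab
    have := (ZMod.intCast_eq_intCast_iff_dvd_sub (b.val : ℤ) (a.val : ℤ) p).mpr hab
    simpa using this.symm
  have hbij : Function.Bijective f :=
    hinj.bijective_of_nat_card_le (by rw [hcard, Nat.card_zmod])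
  obtain ⟨a, ha⟩ := hbij.2 (Ideal.Quotient.mk I α)
  refine ⟨(a.val : ℤ), ?_⟩
  simp only [f] at ha
  rw [← Ideal.mem_span_singleton, ← hI, ← Ideal.Quotient.eq, ha]

/-- `ζ - 1` divides `ξ - 1` for every `p`-th root of unity `ξ`. -/
lemma lam_dvd_root_sub_one {ξ : 𝓞 K} (hξ : ξ ∈ nthRootsFinset p (1 : 𝓞 K)) :
    (hζ.toInteger - 1) ∣ ξ - 1 :=
  hζ.toInteger_isPrimitiveRoot.sub_one_dvd_sub hp.out hξ (one_mem_nthRootsFinset hp.out.pos)

/-- if `α ≡ β mod (ζ - 1)` then `α ^ p ≡ β ^ p mod (ζ - 1) ^ p`. -/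
lemma lam_pow_dvd_pow_sub_pow {α β : 𝓞 K} (h : (hζ.toInteger - 1) ∣ α - β) :
    (hζ.toInteger - 1) ^ p ∣ α ^ p - β ^ p := by
  rw [hζ.toInteger_isPrimitiveRoot.pow_sub_pow_eq_prod_sub_mul α β hp.out.pos]
  have hcard : (nthRootsFinset p (1 : 𝓞 K)).card = p :=
    hζ.toInteger_isPrimitiveRoot.card_nthRootsFinset
  calc (hζ.toInteger - 1) ^ p = ∏ _ξ ∈ nthRootsFinset p (1 : 𝓞 K), (hζ.toInteger - 1) := by
        rw [Finset.prod_const, hcard]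
    _ ∣ _ := by
        refine Finset.prod_dvd_prod_of_dvd _ _ fun ξ hξ => ?_
        have : α - ξ * β = (α - β) - (ξ - 1) * β := by ring
        rw [this]
        exact dvd_sub h (Dvd.dvd.mul_right (lam_dvd_root_sub_one hζ hξ) β)

/-- `Sol hζ M`: a solution of the generalised Fermat equation
`x ^ p + y ^ p = η * (ζ - 1) ^ (p * M) * w ^ p` with `x, y` coprime, `ζ - 1 ∤ y`, `ζ - 1 ∤ w`. -/
def Sol (M : ℕ) : Prop :=
  ∃ (x y w : 𝓞 K) (η : (𝓞 K)ˣ), ¬ (hζ.toInteger - 1) ∣ y ∧ ¬ (hζ.toInteger - 1) ∣ w ∧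
    IsCoprime x y ∧ x ^ p + y ^ p = η * (hζ.toInteger - 1) ^ (p * M) * w ^ p

/-- normalisation: a solution can be modified so that `(ζ - 1) ^ 2 ∣ x + y`. -/
lemma exists_normalised (hodd : p ≠ 2) {M : ℕ} (hM : 1 ≤ M) (h : Sol hζ M) :
    ∃ (x y w : 𝓞 K) (η : (𝓞 K)ˣ), ¬ (hζ.toInteger - 1) ∣ y ∧ ¬ (hζ.toInteger - 1) ∣ w ∧
      IsCoprime x y ∧ x ^ p + y ^ p = η * (hζ.toInteger - 1) ^ (p * M) * w ^ p ∧
      (hζ.toInteger - 1) ^ 2 ∣ x + y := by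
  obtain ⟨x, y, w, η, hy, hw, hxy, heq⟩ := h
  have hpodd : Odd p := hp.out.odd_of_ne_two hodd
  have hzprim := hζ.toInteger_isPrimitiveRoot
  have hprime : Prime (hζ.toInteger - 1) := hζ.zeta_sub_one_prime'
  -- `λ ∣ x + y`
  have h1 : (hζ.toInteger - 1) ∣ x ^ p + y ^ p := by
    rw [heq]
    refine Dvd.dvd.mul_right (Dvd.dvd.mul_left (dvd_pow_self _ ?_) _) _
    have := hp.out.pos
    positivity
  rw [hzprim.pow_add_pow_eq_prod_add_mul x y hpodd] at h1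
  obtain ⟨ξ, hξ, hξdvd⟩ := (Prime.dvd_finsetProd_iff hprime _).1 h1
  have hxy1 : (hζ.toInteger - 1) ∣ x + y := by
    have : x + y = (x + ξ * y) - (ξ - 1) * y := by ring
    rw [this]
    exact dvd_sub hξdvd (Dvd.dvd.mul_right (lam_dvd_root_sub_one hζ hξ) y)
  obtain ⟨t, ht⟩ := hxy1
  obtain ⟨a, ha⟩ := exists_int_sub_dvd hζ hodd t
  obtain ⟨b, hb⟩ := exists_int_sub_dvd hζ hodd y
  have hpb : ¬ (p : ℤ) ∣ b := by
    intro hpb
    apply hy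
    have : (hζ.toInteger - 1) ∣ (b : 𝓞 K) :=
      (IsCyclotomicExtension.Rat.zeta_sub_one_dvd_intCast_iff' p hζ).2 hpb
    have h2 := dvd_add hb this
    simpa using h2
  have hb0 : (b : ZMod p) ≠ 0 := by
    rwa [Ne, ZMod.intCast_zmod_eq_zero_iff_dvd]
  set i : ℕ := ((-(a : ZMod p)) / (b : ZMod p)).val with hi
  have hpi : (p : ℤ) ∣ a + i * b := by
    rw [← ZMod.intCast_zmod_eq_zero_iff_dvd]
    push_cast
    rw [hi, ZMod.natCast_zmod_val, div_mul_cancel₀ _ hb0]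
    ring
  have hlami : (hζ.toInteger - 1) ∣ ((a + i * b : ℤ) : 𝓞 K) :=
    (IsCyclotomicExtension.Rat.zeta_sub_one_dvd_intCast_iff' p hζ).2 hpi
  set s : 𝓞 K := ∑ j ∈ range i, hζ.toInteger ^ j with hs
  have hsi : (hζ.toInteger - 1) ∣ s - (i : 𝓞 K) := by
    have : s - (i : 𝓞 K) = ∑ j ∈ range i, (hζ.toInteger ^ j - 1) := by
      rw [Finset.sum_sub_distrib, hs]; simp
    rw [this]
    refine Finset.dvd_sum fun j _ => ?_
    simpa using sub_dvd_pow_sub_pow hζ.toInteger 1 j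
  have hgeom : (hζ.toInteger - 1) * s = hζ.toInteger ^ i - 1 := mul_geom_sum _ _
  have hunit : IsUnit (hζ.toInteger ^ i) := (hzprim.isUnit hp.out.ne_zero).pow i
  refine ⟨x, hζ.toInteger ^ i * y, w, η, ?_, hw, ?_, ?_, ?_⟩
  · rwa [hunit.dvd_mul_left]
  · exact (isCoprime_mul_unit_left_right hunit x y).2 hxy
  · rw [mul_pow, ← pow_mul, mul_comm i p, pow_mul, hzprim.pow_eq_one, one_pow, one_mul, heq]
  · have : x + hζ.toInteger ^ i * y = (hζ.toInteger - 1) * (t + s * y) := by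
      have : x + hζ.toInteger ^ i * y = (x + y) + (hζ.toInteger ^ i - 1) * y := by ring
      rw [this, ht, ← hgeom]; ring
    rw [this, pow_two]
    refine mul_dvd_mul_left _ ?_
    have : t + s * y = (t - a) + s * (y - b) + (s - i) * b + ((a + i * b : ℤ) : 𝓞 K) := by
      push_cast; ring
    rw [this]
    exact dvd_add (dvd_add (dvd_add ha (Dvd.dvd.mul_left hb s)) (Dvd.dvd.mul_right hsi _)) hlami

section factors

variable {x y : 𝓞 K} {d : 𝓞 K → 𝓞 K}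

/-- the difference of two distinct `p`-th roots of unity is `ζ - 1` times a unit. -/
lemma exists_unit_root_sub_root {ξ ξ' : 𝓞 K} (hξ : ξ ∈ nthRootsFinset p (1 : 𝓞 K))
    (hξ' : ξ' ∈ nthRootsFinset p (1 : 𝓞 K)) (hne : ξ ≠ ξ') :
    ∃ u : (𝓞 K)ˣ, (hζ.toInteger - 1) * u = ξ - ξ' :=
  hζ.toInteger_isPrimitiveRoot.nthRootsFinset_pairwise_associated_sub_one_sub_of_prime hp.out
    hξ hξ' hne

include hζ in
lemma lam_ne_zero : (hζ.toInteger - 1) ≠ 0 := hζ.zeta_sub_one_prime'.ne_zero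

/-- `d ξ - d ξ' = u * y` for a unit `u`. -/
lemma exists_unit_d_sub_d (hd : ∀ ξ ∈ nthRootsFinset p (1 : 𝓞 K),
      x + ξ * y = (hζ.toInteger - 1) * d ξ)
    {ξ ξ' : 𝓞 K} (hξ : ξ ∈ nthRootsFinset p (1 : 𝓞 K))
    (hξ' : ξ' ∈ nthRootsFinset p (1 : 𝓞 K)) (hne : ξ ≠ ξ') :
    ∃ u : (𝓞 K)ˣ, d ξ - d ξ' = u * y := by
  obtain ⟨u, hu⟩ := exists_unit_root_sub_root hζ hξ hξ' hne
  refine ⟨u, mul_left_cancel₀ (lam_ne_zero hζ) ?_⟩
  rw [mul_sub, ← hd ξ hξ, ← hd ξ' hξ', ← mul_assoc, hu]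
  ring

/-- the `d ξ` are pairwise coprime. -/
lemma isCoprime_d (hxy : IsCoprime x y) (hd : ∀ ξ ∈ nthRootsFinset p (1 : 𝓞 K),
      x + ξ * y = (hζ.toInteger - 1) * d ξ)
    {ξ ξ' : 𝓞 K} (hξ : ξ ∈ nthRootsFinset p (1 : 𝓞 K))
    (hξ' : ξ' ∈ nthRootsFinset p (1 : 𝓞 K)) (hne : ξ ≠ ξ') :
    IsCoprime (d ξ) (d ξ') := by
  obtain ⟨u, hu⟩ := exists_unit_d_sub_d hζ hd hξ hξ' hne
  obtain ⟨r, q, hrq⟩ := hxy
  have hy : y = (u⁻¹ : (𝓞 K)ˣ) * (d ξ - d ξ') := by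
    rw [hu, ← mul_assoc, ← Units.val_mul, inv_mul_cancel, Units.val_one, one_mul]
  have hx : x = (hζ.toInteger - 1) * d ξ - ξ * y := by
    rw [← hd ξ hξ]; ring
  refine ⟨r * (hζ.toInteger - 1) + (q - r * ξ) * (u⁻¹ : (𝓞 K)ˣ),
    -((q - r * ξ) * (u⁻¹ : (𝓞 K)ˣ)), ?_⟩
  have key : (r * (hζ.toInteger - 1) + (q - r * ξ) * (u⁻¹ : (𝓞 K)ˣ)) * d ξ +
      -((q - r * ξ) * (u⁻¹ : (𝓞 K)ˣ)) * d ξ' =
      r * ((hζ.toInteger - 1) * d ξ - ξ * ((u⁻¹ : (𝓞 K)ˣ) * (d ξ - d ξ'))) +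
        q * ((u⁻¹ : (𝓞 K)ˣ) * (d ξ - d ξ')) := by ring
  rw [key, ← hy, ← hx, hrq]

/-- `ζ - 1 ∤ d ξ` for `ξ ≠ 1` if `ζ - 1 ∣ d 1`. -/
lemma not_lam_dvd_d (hy : ¬ (hζ.toInteger - 1) ∣ y) (hd : ∀ ξ ∈ nthRootsFinset p (1 : 𝓞 K),
      x + ξ * y = (hζ.toInteger - 1) * d ξ) (hd1 : (hζ.toInteger - 1) ∣ d 1)
    {ξ : 𝓞 K} (hξ : ξ ∈ nthRootsFinset p (1 : 𝓞 K)) (hne : ξ ≠ 1) :
    ¬ (hζ.toInteger - 1) ∣ d ξ := by
  intro h
  obtain ⟨u, hu⟩ := exists_unit_d_sub_d hζ hd hξ (one_mem_nthRootsFinset hp.out.pos) hne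
  have h2 : (hζ.toInteger - 1) ∣ (u : 𝓞 K) * y := hu ▸ dvd_sub h hd1
  exact hy ((u.isUnit.dvd_mul_left).1 h2)

end factors

lemma le_of_prime_pow_dvd_pow_mul {R : Type*} [CommRing R] [IsDomain R] {π c : R} (hπ : Prime π)
    (hc : ¬ π ∣ c) {a b : ℕ} (h : π ^ a ∣ π ^ b * c) : a ≤ b := by
  by_contra hlt
  have hlt' : b + 1 ≤ a := Nat.lt_of_not_le hlt
  have h1 : π ^ (b + 1) ∣ π ^ b * c := dvd_trans (pow_dvd_pow π hlt') h
  rw [pow_succ] at h1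
  exact hc ((mul_dvd_mul_iff_left (pow_ne_zero b hπ.ne_zero)).1 h1)

/-- The descent step. `KL` is Kummer's lemma in the form: a unit congruent to the `p`-th power
of a rational integer modulo `(ζ - 1) ^ p` is a `p`-th power. -/
theorem descent (hodd : p ≠ 2) [IsPrincipalIdealRing (𝓞 K)]
    (KL : ∀ u : (𝓞 K)ˣ, (∃ n : ℤ, (hζ.toInteger - 1) ^ p ∣ (u : 𝓞 K) - (n : 𝓞 K) ^ p) →
      ∃ v : (𝓞 K)ˣ, u = v ^ p)
    {M : ℕ} (hM : 1 ≤ M) (h : Sol hζ M) : ∃ m, 1 ≤ m ∧ m < M ∧ Sol hζ m := by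
  classical
  obtain ⟨x, y, w, η, hy, hw, hxy, heq, hsq⟩ := exists_normalised hζ hodd hM h
  obtain ⟨M', rfl⟩ : ∃ M', M = M' + 1 := ⟨M - 1, by omega⟩
  have hprime : Prime (hζ.toInteger - 1) := hζ.zeta_sub_one_prime'
  have hzprim := hζ.toInteger_isPrimitiveRoot
  have hpodd : Odd p := hp.out.odd_of_ne_two hodd
  have hp3 : 3 ≤ p := by
    have := hp.out.two_le
    omega
  have hlam0 := lam_ne_zero hζ
  -- all factors are divisible by `ζ - 1`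
  have hdvd : ∀ ξ ∈ nthRootsFinset p (1 : 𝓞 K), ∃ c, x + ξ * y = (hζ.toInteger - 1) * c := by
    intro ξ hξ
    have : x + ξ * y = (x + y) + (ξ - 1) * y := by ring
    rw [this]
    exact dvd_add (dvd_trans (dvd_pow_self _ two_ne_zero) hsq)
      (Dvd.dvd.mul_right (lam_dvd_root_sub_one hζ hξ) y)
  choose! d hd using hdvd
  have h1mem : (1 : 𝓞 K) ∈ nthRootsFinset p (1 : 𝓞 K) := one_mem_nthRootsFinset hp.out.pos
  have hd1 : (hζ.toInteger - 1) ∣ d 1 := by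
    have := hd 1 h1mem
    rw [one_mul] at this
    rw [this, pow_two] at hsq
    exact (mul_dvd_mul_iff_left hlam0).1 hsq
  -- the product of the `d ξ`
  have hprod : ∏ ξ ∈ nthRootsFinset p (1 : 𝓞 K), d ξ =
      η * ((hζ.toInteger - 1) ^ M' * w) ^ p := by
    have h1 : x ^ p + y ^ p =
        (hζ.toInteger - 1) ^ p * ∏ ξ ∈ nthRootsFinset p (1 : 𝓞 K), d ξ := by
      rw [hzprim.pow_add_pow_eq_prod_add_mul x y hpodd, Finset.prod_congr rfl hd,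
        Finset.prod_mul_distrib, Finset.prod_const, hzprim.card_nthRootsFinset]
    rw [heq] at h1
    apply mul_left_cancel₀ (pow_ne_zero p hlam0)
    rw [← h1]
    ring
  -- each `d ξ` is associated to a `p`-th power
  have hpow : ∀ ξ ∈ nthRootsFinset p (1 : 𝓞 K), ∃ ρ, Associated (ρ ^ p) (d ξ) := by
    intro ξ hξ
    have hcop : IsCoprime (d ξ) (∏ ξ' ∈ (nthRootsFinset p (1 : 𝓞 K)).erase ξ, d ξ') :=
      IsCoprime.prod_right fun ξ' hξ' => isCoprime_d hζ hxy hd hξ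
        (Finset.mem_of_mem_erase hξ') (Finset.ne_of_mem_erase hξ').symm
    refine exists_associated_pow_of_associated_pow_mul hcop
      (c := (hζ.toInteger - 1) ^ M' * w) ?_
    rw [Finset.mul_prod_erase _ _ hξ, hprod]
    exact (associated_unit_mul_left _ _ η.isUnit).symm
  -- the three special roots
  have hzmem : hζ.toInteger ∈ nthRootsFinset p (1 : 𝓞 K) :=
    hzprim.mem_nthRootsFinset hp.out.pos
  have hz'mem : hζ.toInteger ^ (p - 1) ∈ nthRootsFinset p (1 : 𝓞 K) := by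
    rw [mem_nthRootsFinset hp.out.pos, ← pow_mul, mul_comm, pow_mul, hzprim.pow_eq_one, one_pow]
  have hz1 : hζ.toInteger ≠ 1 := hzprim.ne_one hp.out.one_lt
  have hz'1 : hζ.toInteger ^ (p - 1) ≠ 1 :=
    hzprim.pow_ne_one_of_pos_of_lt (by omega) (by omega)
  have hzz' : hζ.toInteger ≠ hζ.toInteger ^ (p - 1) := by
    intro hcontra
    have h2 : hζ.toInteger ^ (p - 2) = 1 := by
      have hu : IsUnit hζ.toInteger := hzprim.isUnit hp.out.ne_zero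
      apply hu.mul_left_cancel
      rw [← pow_succ', mul_one, show p - 2 + 1 = p - 1 by omega]
      exact hcontra.symm
    exact hzprim.pow_ne_one_of_pos_of_lt (by omega) (by omega) h2
  have hzmul : hζ.toInteger * hζ.toInteger ^ (p - 1) = 1 := by
    rw [← pow_succ', show p - 1 + 1 = p by omega, hzprim.pow_eq_one]
  obtain ⟨ρ₀, hρ₀⟩ := hpow 1 h1mem
  obtain ⟨ρ₁, hρ₁⟩ := hpow _ hzmem
  obtain ⟨ρ₂, hρ₂⟩ := hpow _ hz'mem
  obtain ⟨η₀, hη₀⟩ := hρ₀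
  obtain ⟨η₁, hη₁⟩ := hρ₁
  obtain ⟨η₂, hη₂⟩ := hρ₂
  -- the key identity
  have hident : d hζ.toInteger + hζ.toInteger * d (hζ.toInteger ^ (p - 1)) =
      (1 + hζ.toInteger) * d 1 := by
    apply mul_left_cancel₀ hlam0
    have e1 := hd 1 h1mem
    have e2 := hd _ hzmem
    have e3 := hd _ hz'mem
    calc (hζ.toInteger - 1) * (d hζ.toInteger + hζ.toInteger * d (hζ.toInteger ^ (p - 1)))
        = (hζ.toInteger - 1) * d hζ.toInteger +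
          hζ.toInteger * ((hζ.toInteger - 1) * d (hζ.toInteger ^ (p - 1))) := by ring
      _ = (x + hζ.toInteger * y) + hζ.toInteger * (x + hζ.toInteger ^ (p - 1) * y) := by
          rw [← e2, ← e3]
      _ = (1 + hζ.toInteger) * x + hζ.toInteger * y +
          (hζ.toInteger * hζ.toInteger ^ (p - 1)) * y := by ring
      _ = (1 + hζ.toInteger) * (x + 1 * y) := by rw [hzmul]; ring
      _ = (hζ.toInteger - 1) * ((1 + hζ.toInteger) * d 1) := by rw [e1]; ring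
  -- non-divisibility
  have hd1ne : ¬ (hζ.toInteger - 1) ∣ d hζ.toInteger :=
    not_lam_dvd_d hζ hy hd hd1 hzmem hz1
  have hd2ne : ¬ (hζ.toInteger - 1) ∣ d (hζ.toInteger ^ (p - 1)) :=
    not_lam_dvd_d hζ hy hd hd1 hz'mem hz'1
  have hρ₁ne : ¬ (hζ.toInteger - 1) ∣ ρ₁ := fun hdiv => hd1ne <| by
    rw [← hη₁]
    exact Dvd.dvd.mul_right (dvd_pow hdiv hp.out.ne_zero) _
  have hρ₂ne : ¬ (hζ.toInteger - 1) ∣ ρ₂ := fun hdiv => hd2ne <| by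
    rw [← hη₂]
    exact Dvd.dvd.mul_right (dvd_pow hdiv hp.out.ne_zero) _
  -- `w ≠ 0`, `d 1 ≠ 0`, `ρ₀ ≠ 0`
  have hw0 : w ≠ 0 := fun h0 => hw (h0 ▸ dvd_zero _)
  have hd10 : d 1 ≠ 0 := by
    intro h0
    have : ∏ ξ ∈ nthRootsFinset p (1 : 𝓞 K), d ξ = 0 := Finset.prod_eq_zero h1mem h0
    rw [hprod] at this
    simp [hw0, hlam0] at this
  have hρ₀0 : ρ₀ ≠ 0 := by
    rintro rfl
    apply hd10
    rw [← hη₀, zero_pow hp.out.ne_zero, zero_mul]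
  -- `ρ₀ = (ζ - 1) ^ m * w'`
  obtain ⟨m, w', hw', hρ₀w'⟩ := WfDvdMonoid.max_power_factor hρ₀0 hprime.irreducible
  have hρ₀dvd : (hζ.toInteger - 1) ∣ ρ₀ := by
    have : (hζ.toInteger - 1) ∣ ρ₀ ^ p := by
      have h3 : ρ₀ ^ p = d 1 * ((η₀⁻¹ : (𝓞 K)ˣ) : 𝓞 K) := by
        rw [← hη₀, mul_assoc, ← Units.val_mul, mul_inv_cancel, Units.val_one, mul_one]
      rw [h3]
      exact Dvd.dvd.mul_right hd1 _
    exact hprime.dvd_of_dvd_pow this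
  have hm1 : 1 ≤ m := by
    rcases Nat.eq_zero_or_pos m with rfl | hpos
    · rw [pow_zero, one_mul] at hρ₀w'
      exact absurd (hρ₀w' ▸ hρ₀dvd) hw'
    · exact hpos
  have hmM : m ≤ M' := by
    have h4 : (hζ.toInteger - 1) ^ (p * m) ∣ (hζ.toInteger - 1) ^ (p * M') * (η * w ^ p) := by
      have h5 : (hζ.toInteger - 1) ^ (p * m) ∣ d 1 := by
        rw [← hη₀, hρ₀w', mul_pow, ← pow_mul, mul_comm m p]
        exact Dvd.dvd.mul_right (Dvd.dvd.mul_right dvd_rfl _) _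
      have h6 : d 1 ∣ ∏ ξ ∈ nthRootsFinset p (1 : 𝓞 K), d ξ := Finset.dvd_prod_of_mem d h1mem
      have h7 := dvd_trans h5 h6
      rw [hprod] at h7
      convert h7 using 1
      ring
    have h8 : ¬ (hζ.toInteger - 1) ∣ (η : 𝓞 K) * w ^ p := by
      rw [η.isUnit.dvd_mul_left]
      exact fun h9 => hw (hprime.dvd_of_dvd_pow h9)
    have := le_of_prime_pow_dvd_pow_mul hprime h8 h4
    exact Nat.le_of_mul_le_mul_left this hp.out.pos
  -- `1 + ζ` is a unit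
  have hunit : IsUnit (1 + hζ.toInteger) := by
    have := hzprim.geom_sum_isUnit hp.out.two_le (j := 2)
      ((Nat.coprime_primes Nat.prime_two hp.out).2 (Ne.symm hodd))
    simpa [Finset.sum_range_succ] using this
  obtain ⟨ζu, hζu⟩ : ∃ u : (𝓞 K)ˣ, (u : 𝓞 K) = hζ.toInteger :=
    ⟨(hzprim.isUnit hp.out.ne_zero).unit, rfl⟩
  obtain ⟨ou, hou⟩ : ∃ u : (𝓞 K)ˣ, (u : 𝓞 K) = 1 + hζ.toInteger := ⟨hunit.unit, rfl⟩
  -- the new equation
  set ε : (𝓞 K)ˣ := ζu * η₂ * η₁⁻¹ with hε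
  set η' : (𝓞 K)ˣ := ou * η₀ * η₁⁻¹ with hη'
  have hnew : ρ₁ ^ p + ε * ρ₂ ^ p = η' * (hζ.toInteger - 1) ^ (p * m) * w' ^ p := by
    have h10 : (η₁ : 𝓞 K) * (ρ₁ ^ p + ε * ρ₂ ^ p) =
        η₁ * (η' * (hζ.toInteger - 1) ^ (p * m) * w' ^ p) := by
      have e1 : (η₁ : 𝓞 K) * ((η₁⁻¹ : (𝓞 K)ˣ) : 𝓞 K) = 1 := by
        rw [← Units.val_mul, mul_inv_cancel, Units.val_one]
      calc (η₁ : 𝓞 K) * (ρ₁ ^ p + ε * ρ₂ ^ p)
          = ρ₁ ^ p * η₁ + hζ.toInteger * (ρ₂ ^ p * η₂) *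
            ((η₁ : 𝓞 K) * ((η₁⁻¹ : (𝓞 K)ˣ) : 𝓞 K)) := by
            rw [hε]; push_cast; rw [hζu]; ring
        _ = d hζ.toInteger + hζ.toInteger * d (hζ.toInteger ^ (p - 1)) := by
            rw [e1, hη₁, hη₂, mul_one]
        _ = (1 + hζ.toInteger) * (ρ₀ ^ p * η₀) := by rw [hident, hη₀]
        _ = (1 + hζ.toInteger) * (((hζ.toInteger - 1) ^ m * w') ^ p * η₀) *
            ((η₁ : 𝓞 K) * ((η₁⁻¹ : (𝓞 K)ˣ) : 𝓞 K)) := by rw [e1, mul_one, ← hρ₀w']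
        _ = η₁ * (η' * (hζ.toInteger - 1) ^ (p * m) * w' ^ p) := by
            rw [hη']; push_cast; rw [hou]; ring
    exact mul_left_cancel₀ η₁.ne_zero h10
  -- apply Kummer's lemma
  obtain ⟨v, hv⟩ : ∃ v : (𝓞 K)ˣ, ε = v ^ p := by
    apply KL
    obtain ⟨a₁, ha₁⟩ := exists_int_sub_dvd hζ hodd ρ₁
    obtain ⟨a₂, ha₂⟩ := exists_int_sub_dvd hζ hodd ρ₂
    have hpa₂ : ¬ (p : ℤ) ∣ a₂ := by
      intro hpa
      apply hρ₂ne
      have : (hζ.toInteger - 1) ∣ (a₂ : 𝓞 K) :=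
        (IsCyclotomicExtension.Rat.zeta_sub_one_dvd_intCast_iff' p hζ).2 hpa
      simpa using dvd_add ha₂ this
    have ha₂0 : (a₂ : ZMod p) ≠ 0 := by
      rwa [Ne, ZMod.intCast_zmod_eq_zero_iff_dvd]
    set b : ℤ := (((a₂ : ZMod p)⁻¹).val : ℤ) with hb
    have hpb : (p : ℤ) ∣ a₂ * b - 1 := by
      rw [← ZMod.intCast_zmod_eq_zero_iff_dvd]
      push_cast
      rw [hb]
      push_cast
      rw [ZMod.natCast_zmod_val, mul_inv_cancel₀ ha₂0, sub_self]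
    have hlamb : (hζ.toInteger - 1) ∣ ((a₂ : 𝓞 K) * (b : 𝓞 K)) - 1 := by
      have := (IsCyclotomicExtension.Rat.zeta_sub_one_dvd_intCast_iff' p hζ).2 hpb
      simpa using this
    have k1 := lam_pow_dvd_pow_sub_pow hζ ha₁
    have k2 := lam_pow_dvd_pow_sub_pow hζ ha₂
    have k3 := lam_pow_dvd_pow_sub_pow hζ hlamb
    have k4 : (hζ.toInteger - 1) ^ p ∣ ρ₁ ^ p + ε * ρ₂ ^ p := by
      rw [hnew]
      refine Dvd.dvd.mul_right (Dvd.dvd.mul_left (pow_dvd_pow _ ?_) _) _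
      exact Nat.le_mul_of_pos_right p hm1
    refine ⟨-(a₁ * b), ?_⟩
    have hneg : ((-(a₁ * b) : ℤ) : 𝓞 K) ^ p = -((a₁ : 𝓞 K) ^ p * (b : 𝓞 K) ^ p) := by
      push_cast
      rw [hpodd.neg_pow, mul_pow]
    rw [hneg]
    have : (ε : 𝓞 K) - -((a₁ : 𝓞 K) ^ p * (b : 𝓞 K) ^ p) =
        (b : 𝓞 K) ^ p * (ρ₁ ^ p + ε * ρ₂ ^ p) - (b : 𝓞 K) ^ p * (ρ₁ ^ p - (a₁ : 𝓞 K) ^ p)
        - (ε : 𝓞 K) * (b : 𝓞 K) ^ p * (ρ₂ ^ p - (a₂ : 𝓞 K) ^ p)
        - ε * (((a₂ : 𝓞 K) * (b : 𝓞 K)) ^ p - 1 ^ p) := by ring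
    rw [this]
    exact dvd_sub (dvd_sub (dvd_sub (Dvd.dvd.mul_left k4 _) (Dvd.dvd.mul_left k1 _))
      (Dvd.dvd.mul_left k2 _)) (Dvd.dvd.mul_left k3 _)
  -- the new solution
  refine ⟨m, hm1, Nat.lt_succ_of_le hmM, ρ₁, v * ρ₂, w', η', ?_, hw', ?_, ?_⟩
  · rwa [v.isUnit.dvd_mul_left]
  · have hc : IsCoprime (d hζ.toInteger) (d (hζ.toInteger ^ (p - 1))) :=
      isCoprime_d hζ hxy hd hzmem hz'mem hzz'
    rw [← hη₁, ← hη₂] at hc
    have hc2 : IsCoprime (ρ₁ ^ p) (ρ₂ ^ p) :=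
      (hc.of_mul_left_left).of_mul_right_left
    have hc3 : IsCoprime ρ₁ ρ₂ := (IsCoprime.pow_iff hp.out.pos hp.out.pos).1 hc2
    exact (isCoprime_mul_unit_left_right v.isUnit ρ₁ ρ₂).2 hc3
  · rw [mul_pow, ← Units.val_pow_eq_pow_val, ← hv, hnew]

/-- there is no solution of the generalised equation (given Kummer's lemma `KL`). -/
theorem not_sol (hodd : p ≠ 2) [IsPrincipalIdealRing (𝓞 K)]
    (KL : ∀ u : (𝓞 K)ˣ, (∃ n : ℤ, (hζ.toInteger - 1) ^ p ∣ (u : 𝓞 K) - (n : 𝓞 K) ^ p) →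
      ∃ v : (𝓞 K)ˣ, u = v ^ p) :
    ∀ M, 1 ≤ M → ¬ Sol hζ M := by
  intro M
  induction M using Nat.strong_induction_on with
  | _ M ih =>
    intro hM hsol
    obtain ⟨m, hm1, hmM, hm⟩ := descent hζ hodd KL hM hsol
    exact ih m hmM hm1 hm

/-- The generalised Case II statement (same shape as `Fermat.Agent.FLTReg.CaseIIGen`). -/
def CaseIIGen : Prop :=
  ∀ x y z : 𝓞 K, ∀ ε : (𝓞 K)ˣ, z ≠ 0 → ¬ (hζ.toInteger - 1) ∣ x → ¬ (hζ.toInteger - 1) ∣ y →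
    (hζ.toInteger - 1) ∣ z → IsCoprime x y → x ^ p + y ^ p ≠ ε * z ^ p

/-- generalised Case II from Kummer's lemma in the `(ζ - 1) ^ p` form. -/
theorem caseIIGen_of_KL' (hodd : p ≠ 2) [IsPrincipalIdealRing (𝓞 K)]
    (KL : ∀ u : (𝓞 K)ˣ, (∃ n : ℤ, (hζ.toInteger - 1) ^ p ∣ (u : 𝓞 K) - (n : 𝓞 K) ^ p) →
      ∃ v : (𝓞 K)ˣ, u = v ^ p) : CaseIIGen hζ := by
  intro x y z ε hz0 _ hy hz hxy heq
  have hprime : Prime (hζ.toInteger - 1) := hζ.zeta_sub_one_prime'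
  obtain ⟨M, w, hw, hzw⟩ := WfDvdMonoid.max_power_factor hz0 hprime.irreducible
  have hM : 1 ≤ M := by
    rcases Nat.eq_zero_or_pos M with rfl | hpos
    · rw [pow_zero, one_mul] at hzw
      exact absurd (hzw ▸ hz) hw
    · exact hpos
  refine not_sol hζ hodd KL M hM ⟨x, y, w, ε, hy, hw, hxy, ?_⟩
  rw [heq, hzw, mul_pow, ← pow_mul, mul_comm M p, mul_assoc]

/-- Kummer's lemma in the "`u ≡ n mod p`" form implies the `(ζ - 1) ^ p` form. -/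
lemma KL'_of_KL
    (KL : ∀ u : (𝓞 K)ˣ, (∃ n : ℤ, (p : 𝓞 K) ∣ (u : 𝓞 K) - n) → ∃ v : (𝓞 K)ˣ, u = v ^ p) :
    ∀ u : (𝓞 K)ˣ, (∃ n : ℤ, (hζ.toInteger - 1) ^ p ∣ (u : 𝓞 K) - (n : 𝓞 K) ^ p) →
      ∃ v : (𝓞 K)ˣ, u = v ^ p := by
  intro u ⟨n, hn⟩
  refine KL u ⟨n ^ p, ?_⟩
  have h1 : (p : 𝓞 K) ∣ (hζ.toInteger - 1) ^ (p - 1) :=
    (IsCyclotomicExtension.Rat.associated_zeta_sub_one_pow_prime p hζ).symm.dvd
  have h2 : (hζ.toInteger - 1) ^ (p - 1) ∣ (hζ.toInteger - 1) ^ p :=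
    pow_dvd_pow _ (Nat.sub_le p 1)
  have h3 := dvd_trans (dvd_trans h1 h2) hn
  simpa using h3

/-- generalised Case II from Kummer's lemma in the "`u ≡ n mod p`" form
(same shape as `Fermat.Agent.FLTReg.caseIIGen`). -/
theorem caseIIGen (hp5 : 5 ≤ p) [IsPrincipalIdealRing (𝓞 K)]
    (KL : ∀ u : (𝓞 K)ˣ, (∃ n : ℤ, (p : 𝓞 K) ∣ (u : 𝓞 K) - n) → ∃ v : (𝓞 K)ˣ, u = v ^ p) :
    CaseIIGen hζ :=
  caseIIGen_of_KL' hζ (by omega) (KL'_of_KL hζ KL)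

/-- Case II over `ℤ` from the generalised Case II. -/
theorem caseII_of_caseIIGen (hodd : p ≠ 2) (H : CaseIIGen hζ) {a b c : ℤ} (hab : IsCoprime a b)
    (habc : a * b * c ≠ 0) (hcase : (p : ℤ) ∣ a * b * c) : a ^ p + b ^ p ≠ c ^ p := by
  have hpodd : Odd p := hp.out.odd_of_ne_two hodd
  have hpZ : Prime (p : ℤ) := Nat.prime_iff_prime_int.1 hp.out
  -- a general version with the divisible variable on the right
  have key : ∀ x y z : ℤ, IsCoprime x y → z ≠ 0 → (p : ℤ) ∣ z → x ^ p + y ^ p = z ^ p → False := by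
    intro x y z hxy hz0 hpz heq
    have hpx : ¬ (p : ℤ) ∣ x := by
      intro hpx
      have : (p : ℤ) ∣ y ^ p := by
        have : y ^ p = z ^ p - x ^ p := by rw [← heq]; ring
        rw [this]
        exact dvd_sub (dvd_pow hpz hp.out.ne_zero) (dvd_pow hpx hp.out.ne_zero)
      have hpy := hpZ.dvd_of_dvd_pow this
      exact hpZ.not_isUnit (hxy.isUnit_of_dvd' hpx hpy)
    have hpy : ¬ (p : ℤ) ∣ y := by
      intro hpy
      have : (p : ℤ) ∣ x ^ p := by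
        have : x ^ p = z ^ p - y ^ p := by rw [← heq]; ring
        rw [this]
        exact dvd_sub (dvd_pow hpz hp.out.ne_zero) (dvd_pow hpy hp.out.ne_zero)
      exact hpx (hpZ.dvd_of_dvd_pow this)
    refine H (x : 𝓞 K) (y : 𝓞 K) (z : 𝓞 K) 1 (by exact_mod_cast hz0) ?_ ?_ ?_ ?_ ?_
    · rwa [IsCyclotomicExtension.Rat.zeta_sub_one_dvd_intCast_iff' p hζ]
    · rwa [IsCyclotomicExtension.Rat.zeta_sub_one_dvd_intCast_iff' p hζ]
    · rwa [IsCyclotomicExtension.Rat.zeta_sub_one_dvd_intCast_iff' p hζ]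
    · exact hxy.intCast
    · rw [Units.val_one, one_mul]
      exact_mod_cast heq
  intro heq
  have ha0 : a ≠ 0 := fun h => habc (by simp [h])
  have hb0 : b ≠ 0 := fun h => habc (by simp [h])
  have hc0 : c ≠ 0 := fun h => habc (by simp [h])
  have hcb : IsCoprime c b := by
    have h1 : IsCoprime (a ^ p + b * b ^ (p - 1)) b := (hab.pow_left).add_mul_left_left _
    have h2 : a ^ p + b * b ^ (p - 1) = c ^ p := by
      rw [← pow_succ', show p - 1 + 1 = p by have := hp.out.pos; omega, heq]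
    rw [h2] at h1
    exact (IsCoprime.pow_left_iff hp.out.pos).1 h1
  have hca : IsCoprime c a := by
    have h1 : IsCoprime (b ^ p + a * a ^ (p - 1)) a := (hab.symm.pow_left).add_mul_left_left _
    have h2 : b ^ p + a * a ^ (p - 1) = c ^ p := by
      rw [← pow_succ', show p - 1 + 1 = p by have := hp.out.pos; omega, ← heq, add_comm]
    rw [h2] at h1
    exact (IsCoprime.pow_left_iff hp.out.pos).1 h1
  rcases (hpZ.dvd_or_dvd hcase) with hpab | hpc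
  · rcases (hpZ.dvd_or_dvd hpab) with hpa | hpb
    · -- `c ^ p + (-b) ^ p = a ^ p`
      refine key c (-b) a hcb.neg_right ha0 hpa ?_
      rw [hpodd.neg_pow, ← heq]; ring
    · refine key c (-a) b hca.neg_right hb0 hpb ?_
      rw [hpodd.neg_pow, ← heq]; ring
  · exact key a b c hab hc0 hpc heq

/-- Case II over `ℤ` (same shape as `Fermat.Agent.FLTReg.caseII`). -/
theorem caseII (hp5 : 5 ≤ p) [IsPrincipalIdealRing (𝓞 K)]
    (KL : ∀ u : (𝓞 K)ˣ, (∃ n : ℤ, (p : 𝓞 K) ∣ (u : 𝓞 K) - n) → ∃ v : (𝓞 K)ˣ, u = v ^ p)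
    {a b c : ℤ} (hab : IsCoprime a b) (habc : a * b * c ≠ 0) (hcase : (p : ℤ) ∣ a * b * c) :
    a ^ p + b ^ p ≠ c ^ p := by
  obtain ⟨ζ', hζ'⟩ := IsCyclotomicExtension.exists_isPrimitiveRoot ℚ K (Set.mem_singleton p)
    hp.out.ne_zero
  exact caseII_of_caseIIGen hζ' (by omega) (caseIIGen hζ' hp5 KL) hab habc hcase

end Fermat.Agent.FLTReg.CaseIIAlt
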