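/-
FLTREG project (S10 + S11), assembly (owner helper18).
`FermatLastTheoremFor p` for `p = 5, 7, 11, 13` from Kummer's lemma for the `p`-th cyclotomic field
`CyclotomicField p ℚ`, using the landed packages:
* Case I: `Fermat.Agent.FLTCaseI.caseI` (Sophie Germain, helper26),
* Case II: `Fermat.Agent.FLTReg.CaseIIAlt.caseII` (descent over a PID, helper65),
* class number one: Mathlib `five_pid`, `Fermat.Agent.Kummer.pid_seven / pid_eleven / pid_thirteen`
  (helper19).
No `sorry`.
-/
import Fermat.Agent.FLTReg.Top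
import Fermat.Agent.FLTCaseI.SophieGermain
import Fermat.Agent.FLTReg.CaseIIAlt
import Fermat.Agent.Kummer.PID7
import Fermat.Agent.Kummer.PID11
import Fermat.Agent.Kummer.PID13

set_option autoImplicit false

namespace Fermat.Agent.FLTReg.Assembly

open NumberField

/-- Kummer's lemma for the field `K` and the prime `p`: a unit of `𝓞 K` which is congruent to a
rational integer modulo `p` is a `p`-th power of a unit. -/
def KummerLemmaFor (p : ℕ) (K : Type*) [Field K] [NumberField K] : Prop :=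
  ∀ u : (𝓞 K)ˣ, (∃ n : ℤ, (p : 𝓞 K) ∣ (u : 𝓞 K) - n) → ∃ v : (𝓞 K)ˣ, u = v ^ p

/-- Fermat's Last Theorem for `p ∈ {5, 7, 11, 13}` from class number one and Kummer's lemma for
`CyclotomicField p ℚ`. -/
theorem flt_of_pid_of_KL (p : ℕ) [Fact p.Prime] (hp : p = 5 ∨ p = 7 ∨ p = 11 ∨ p = 13)
    (hpid : ∀ [IsCyclotomicExtension {p} ℚ (CyclotomicField p ℚ)],
      IsPrincipalIdealRing (𝓞 (CyclotomicField p ℚ)))
    (KL : KummerLemmaFor p (CyclotomicField p ℚ)) : FermatLastTheoremFor p := by
  have hp5 : 5 ≤ p := by rcases hp with rfl | rfl | rfl | rfl <;> norm_num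
  have hcyc := Top.isCyclotomicExtension_cyclotomicField p
  have hpid' : IsPrincipalIdealRing (𝓞 (CyclotomicField p ℚ)) := hpid
  exact Top.flt_of_inputs p (by omega) (CyclotomicField p ℚ)
    (fun a b c hab h hpabc => Fermat.Agent.FLTCaseI.caseI p hp a b c hab h hpabc)
    KL
    (fun KL' => Fermat.Agent.FLTReg.CaseIIAlt.caseII (K := CyclotomicField p ℚ) hp5 KL')

theorem fact_prime_five : Fact (Nat.Prime 5) := ⟨by norm_num⟩
theorem fact_prime_seven : Fact (Nat.Prime 7) := ⟨by norm_num⟩
theorem fact_prime_eleven : Fact (Nat.Prime 11) := ⟨by norm_num⟩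
theorem fact_prime_thirteen : Fact (Nat.Prime 13) := ⟨by norm_num⟩

/-- FLT for `5` from Kummer's lemma for `CyclotomicField 5 ℚ`. -/
theorem flt_five_of_KL (KL : KummerLemmaFor 5 (CyclotomicField 5 ℚ)) :
    FermatLastTheoremFor 5 :=
  haveI := fact_prime_five
  flt_of_pid_of_KL 5 (by norm_num) (IsCyclotomicExtension.Rat.five_pid _) KL

/-- FLT for `7` from Kummer's lemma for `CyclotomicField 7 ℚ`. -/
theorem flt_seven_of_KL (KL : KummerLemmaFor 7 (CyclotomicField 7 ℚ)) :
    FermatLastTheoremFor 7 :=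
  haveI := fact_prime_seven
  flt_of_pid_of_KL 7 (by norm_num) (Fermat.Agent.Kummer.pid_seven _) KL

/-- FLT for `11` from Kummer's lemma for `CyclotomicField 11 ℚ`. -/
theorem flt_eleven_of_KL (KL : KummerLemmaFor 11 (CyclotomicField 11 ℚ)) :
    FermatLastTheoremFor 11 :=
  haveI := fact_prime_eleven
  flt_of_pid_of_KL 11 (by norm_num) (Fermat.Agent.Kummer.pid_eleven _) KL

/-- FLT for `13` from Kummer's lemma for `CyclotomicField 13 ℚ`. -/
theorem flt_thirteen_of_KL (KL : KummerLemmaFor 13 (CyclotomicField 13 ℚ)) :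
    FermatLastTheoremFor 13 :=
  haveI := fact_prime_thirteen
  flt_of_pid_of_KL 13 (by norm_num) (Fermat.Agent.Kummer.pid_thirteen _) KL

end Fermat.Agent.FLTReg.Assembly
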