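/-
Basic congruence lemmas in the ring of integers `𝓞 K` of the `p`-th cyclotomic field
(`p` prime), `λ = ζ - 1`.  Shared library for the Kummer route (Case II / Kummer's lemma).
-/
import Mathlib

set_option autoImplicit false

namespace Fermat.Agent.FLTReg.Basic

open NumberField IsCyclotomicExtension.Rat

variable {p : ℕ} [hp : Fact p.Prime] {K : Type*} [Field K] [NumberField K]
  [IsCyclotomicExtension {p} ℚ K] {ζ : K} (hζ : IsPrimitiveRoot ζ p)

omit [NumberField K] [IsCyclotomicExtension {p} ℚ K] in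
/-- `ζ ^ p = 1` in `𝓞 K`. -/
lemma toInteger_pow_prime : hζ.toInteger ^ p = 1 :=
  hζ.toInteger_isPrimitiveRoot.pow_eq_one

omit [NumberField K] [IsCyclotomicExtension {p} ℚ K] in
/-- `λ ∣ ζ ^ k - 1`. -/
lemma lambda_dvd_zeta_pow_sub_one (k : ℕ) : hζ.toInteger - 1 ∣ hζ.toInteger ^ k - 1 := by
  simpa using sub_dvd_pow_sub_pow hζ.toInteger 1 k

/-- Every element of `𝓞 K` is congruent to a rational integer modulo `λ = ζ - 1`. -/
theorem exists_int_sub_dvd_lambda (α : 𝓞 K) : ∃ n : ℤ, hζ.toInteger - 1 ∣ α - n := by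
  have hα : α ∈ Algebra.adjoin ℤ {hζ.toInteger} := by
    rw [adjoin_singleton_eq_top hζ]; exact Algebra.mem_top
  induction hα using Algebra.adjoin_induction with
  | mem x hx =>
    rw [Set.mem_singleton_iff] at hx
    exact ⟨1, by simp [hx]⟩
  | algebraMap r => exact ⟨r, by simp⟩
  | add x y _ _ hx hy =>
    obtain ⟨n, hn⟩ := hx
    obtain ⟨m, hm⟩ := hy
    refine ⟨n + m, ?_⟩
    have : x + y - ((n + m : ℤ) : 𝓞 K) = (x - n) + (y - m) := by push_cast; ring
    rw [this]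
    exact dvd_add hn hm
  | mul x y _ _ hx hy =>
    obtain ⟨n, hn⟩ := hx
    obtain ⟨m, hm⟩ := hy
    refine ⟨n * m, ?_⟩
    have : x * y - ((n * m : ℤ) : 𝓞 K) = (x - n) * y + n * (y - m) := by push_cast; ring
    rw [this]
    exact dvd_add (Dvd.dvd.mul_right hn y) (Dvd.dvd.mul_left hm _)

/-- PPOW: the `p`-th power of any element of `𝓞 K` is congruent to a rational integer mod `p`. -/
theorem exists_int_prime_dvd_pow_sub (α : 𝓞 K) : ∃ n : ℤ, (p : 𝓞 K) ∣ α ^ p - n := by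
  have hζ := IsCyclotomicExtension.zeta_spec p ℚ K
  have hα : α ∈ Algebra.adjoin ℤ {hζ.toInteger} := by
    rw [adjoin_singleton_eq_top hζ]; exact Algebra.mem_top
  induction hα using Algebra.adjoin_induction with
  | mem x hx =>
    rw [Set.mem_singleton_iff] at hx
    exact ⟨1, by simp [hx, toInteger_pow_prime hζ]⟩
  | algebraMap r => exact ⟨r ^ p, by simp⟩
  | add x y _ _ hx hy =>
    obtain ⟨n, hn⟩ := hx
    obtain ⟨m, hm⟩ := hy
    obtain ⟨r, hr⟩ := exists_add_pow_prime_eq hp.out x y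
    refine ⟨n + m, ?_⟩
    have : (x + y) ^ p - ((n + m : ℤ) : 𝓞 K) = (x ^ p - n) + (y ^ p - m) + p * (x * y * r) := by
      rw [hr]; push_cast; ring
    rw [this]
    exact dvd_add (dvd_add hn hm) (dvd_mul_right _ _)
  | mul x y _ _ hx hy =>
    obtain ⟨n, hn⟩ := hx
    obtain ⟨m, hm⟩ := hy
    refine ⟨n * m, ?_⟩
    have : (x * y) ^ p - ((n * m : ℤ) : 𝓞 K) = (x ^ p - n) * y ^ p + n * (y ^ p - m) := by
      push_cast; ring
    rw [this]
    exact dvd_add (Dvd.dvd.mul_right hn _) (Dvd.dvd.mul_left hm _)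

end Fermat.Agent.FLTReg.Basic
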