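import Mathlib

/-!
# FLTREG / CASE2-descent

Second case of Fermat's Last Theorem for a prime `p` such that the ring of integers of `ℚ(ζ_p)`
is a PID, assuming Kummer's lemma as a hypothesis `KL`.  Generalised equation
`x ^ p + y ^ p = ε * z ^ p` over `𝓞 K`, descent on the `π`-adic valuation of `z`
(`π = ζ - 1`), in the style of `Mathlib/NumberTheory/FLT/Three.lean`.
-/

set_option autoImplicit false

open NumberField Polynomial Finset

namespace Fermat.Agent.FLTReg.CaseIIAux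

section abstract

variable {R : Type*} [CommRing R] [IsDomain R] {p : ℕ} {ζ : R}

/-- If `ζ - 1` divides `x ^ p + y ^ p` then it divides every factor `x + η * y`. -/
theorem dvd_add_mul_of_dvd_pow_add_pow (hp : p.Prime) (hp2 : p ≠ 2) (hζ : IsPrimitiveRoot ζ p)
    (hπ : Prime (ζ - 1)) {x y : R} (h : (ζ - 1) ∣ x ^ p + y ^ p) :
    ∀ η ∈ nthRootsFinset p (1 : R), (ζ - 1) ∣ x + η * y := by
  rw [hζ.pow_add_pow_eq_prod_add_mul x y (hp.odd_of_ne_two hp2)] at h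
  obtain ⟨η₀, hη₀, h0⟩ := (hπ.dvd_finsetProd_iff _).1 h
  intro η hη
  have e : x + η * y = (x + η₀ * y) + (η - η₀) * y := by ring
  rw [e]
  exact dvd_add h0 (dvd_mul_of_dvd_left (hζ.sub_one_dvd_sub hp hη hη₀) _)

/-- The quotients `(x + η * y) / (ζ - 1)` are pairwise incongruent modulo `ζ - 1`. -/
theorem eq_of_dvd_sub_of_quot (hp : p.Prime) (hζ : IsPrimitiveRoot ζ p) (hπ : Prime (ζ - 1))
    {x y : R} (hy : ¬ (ζ - 1) ∣ y) {a : R → R} {η₁ η₂ : R}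
    (h₁ : η₁ ∈ nthRootsFinset p (1 : R)) (h₂ : η₂ ∈ nthRootsFinset p (1 : R))
    (ha₁ : x + η₁ * y = (ζ - 1) * a η₁) (ha₂ : x + η₂ * y = (ζ - 1) * a η₂)
    (hd : (ζ - 1) ∣ a η₁ - a η₂) : η₁ = η₂ := by
  by_contra hne
  obtain ⟨u, hu⟩ := hζ.nthRootsFinset_pairwise_associated_sub_one_sub_of_prime hp h₁ h₂ hne
  apply hy
  obtain ⟨t, ht⟩ := hd
  have e : (ζ - 1) * (u * y) = (ζ - 1) * ((ζ - 1) * t) := by
    calc (ζ - 1) * (u * y) = (η₁ - η₂) * y := by rw [← hu]; ring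
      _ = (x + η₁ * y) - (x + η₂ * y) := by ring
      _ = (ζ - 1) * (a η₁ - a η₂) := by rw [ha₁, ha₂]; ring
      _ = _ := by rw [ht]
  have e' := mul_left_cancel₀ hπ.ne_zero e
  have hdvd : (ζ - 1) ∣ ↑u * y := ⟨t, e'⟩
  exact (hπ.dvd_or_dvd hdvd).resolve_left
    (fun h => hπ.not_isUnit (isUnit_of_dvd_unit h u.isUnit))

/-- Among the `p` factors `x + η * y`, one is divisible by `(ζ - 1) ^ 2`. -/
theorem exists_sq_dvd_add_mul (hp : p.Prime) (hζ : IsPrimitiveRoot ζ p) (hπ : Prime (ζ - 1))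
    (hfin : Finite (R ⧸ Ideal.span {ζ - 1})) (hcard : Nat.card (R ⧸ Ideal.span {ζ - 1}) = p)
    {x y : R} (hy : ¬ (ζ - 1) ∣ y) {a : R → R}
    (ha : ∀ η ∈ nthRootsFinset p (1 : R), x + η * y = (ζ - 1) * a η) :
    ∃ η₀ ∈ nthRootsFinset p (1 : R), (ζ - 1) ∣ a η₀ := by
  classical
  let f : (nthRootsFinset p (1 : R)) → R ⧸ Ideal.span {ζ - 1} :=
    fun η => Ideal.Quotient.mk _ (a η.1)
  have hinj : Function.Injective f := by
    intro η₁ η₂ h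
    apply Subtype.ext
    refine eq_of_dvd_sub_of_quot hp hζ hπ hy η₁.2 η₂.2 (ha _ η₁.2) (ha _ η₂.2) ?_
    rw [← Ideal.mem_span_singleton, ← Ideal.Quotient.eq]
    exact h
  have hbij : Function.Bijective f := by
    apply hinj.bijective_of_nat_card_le
    rw [hcard, Nat.card_eq_fintype_card, Fintype.card_coe, hζ.card_nthRootsFinset]
  obtain ⟨η, hη⟩ := hbij.2 0
  refine ⟨η.1, η.2, ?_⟩
  rw [← Ideal.mem_span_singleton, ← Ideal.Quotient.eq_zero_iff_mem]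
  exact hη

/-- The quotients `(x + η * y) / (ζ - 1)` are pairwise coprime when `x` and `y` are. -/
theorem isCoprime_quot (hp : p.Prime) (hζ : IsPrimitiveRoot ζ p) (hπ : Prime (ζ - 1))
    {x y : R} (hxy : IsCoprime x y) {a : R → R} {η₁ η₂ : R}
    (h₁ : η₁ ∈ nthRootsFinset p (1 : R)) (h₂ : η₂ ∈ nthRootsFinset p (1 : R)) (hne : η₁ ≠ η₂)
    (ha₁ : x + η₁ * y = (ζ - 1) * a η₁) (ha₂ : x + η₂ * y = (ζ - 1) * a η₂) :
    IsCoprime (a η₁) (a η₂) := by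
  obtain ⟨u, hu⟩ := hζ.nthRootsFinset_pairwise_associated_sub_one_sub_of_prime hp h₁ h₂ hne
  obtain ⟨r, s, hrs⟩ := hxy
  refine ⟨↑u⁻¹ * (s - r * η₂), ↑u⁻¹ * (r * η₁ - s), ?_⟩
  have key : (ζ - 1) * ((s - r * η₂) * a η₁ + (r * η₁ - s) * a η₂) = (ζ - 1) * u := by
    calc _ = (s - r * η₂) * ((ζ - 1) * a η₁) + (r * η₁ - s) * ((ζ - 1) * a η₂) := by ring
      _ = (s - r * η₂) * (x + η₁ * y) + (r * η₁ - s) * (x + η₂ * y) := by rw [ha₁, ha₂]
      _ = (η₁ - η₂) * (r * x + s * y) := by ring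
      _ = _ := by rw [hrs, mul_one, hu]
  have key' := mul_left_cancel₀ hπ.ne_zero key
  calc _ = ↑u⁻¹ * ((s - r * η₂) * a η₁ + (r * η₁ - s) * a η₂) := by ring
    _ = 1 := by rw [key']; simp

/-- If a product of pairwise coprime elements is associated to a `k`-th power, so is every
factor (Bézout domains). -/
theorem exists_associated_pow_of_prod [IsBezout R] {ι : Type*} [DecidableEq ι] (S : Finset ι)
    (c : ι → R) (hc : ∀ i ∈ S, ∀ j ∈ S, i ≠ j → IsCoprime (c i) (c j)) {z : R} {k : ℕ}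
    (h : Associated (z ^ k) (∏ i ∈ S, c i)) : ∀ i ∈ S, ∃ d : R, Associated (d ^ k) (c i) := by
  intro i hi
  rw [← Finset.mul_prod_erase S c hi] at h
  refine exists_associated_pow_of_associated_pow_mul ?_ h
  exact IsCoprime.prod_right fun j hj =>
    hc i hi j (Finset.mem_of_mem_erase hj) (Finset.ne_of_mem_erase hj).symm

/-- One step of Kummer's descent for the second case. -/
theorem descent_step [IsPrincipalIdealRing R] (hp : p.Prime) (hp2 : p ≠ 2)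
    (hζ : IsPrimitiveRoot ζ p) (hπ : Prime (ζ - 1))
    (hfin : Finite (R ⧸ Ideal.span {ζ - 1})) (hcard : Nat.card (R ⧸ Ideal.span {ζ - 1}) = p)
    (hpπ : (p : R) ∣ (ζ - 1) ^ (p - 1)) (hπp : (ζ - 1) ∣ (p : R))
    (PPOW : ∀ α : R, ∃ n : ℤ, (p : R) ∣ α ^ p - (n : R))
    (KL : ∀ u : Rˣ, (∃ n : ℤ, (p : R) ∣ (u : R) - (n : R)) → ∃ v : Rˣ, u = v ^ p)
    {n : ℕ} {x y z : R} {ε : Rˣ} (hxy : IsCoprime x y) (hz : ¬ (ζ - 1) ∣ z)
    (h : x ^ p + y ^ p = ε * ((ζ - 1) ^ (n + 1) * z) ^ p) :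
    1 ≤ n ∧ ∃ (x' y' z' : R) (ε' : Rˣ), IsCoprime x' y' ∧ ¬ (ζ - 1) ∣ z' ∧
      x' ^ p + y' ^ p = ε' * ((ζ - 1) ^ n * z') ^ p := by
  classical
  set π := ζ - 1 with hπdef
  set S := nthRootsFinset p (1 : R) with hS
  have hcardS : S.card = p := hζ.card_nthRootsFinset
  have hodd : Odd p := hp.odd_of_ne_two hp2
  -- `π ∣ x ^ p + y ^ p`
  have hdvd : π ∣ x ^ p + y ^ p := by
    rw [h, mul_pow, ← pow_mul]
    exact dvd_mul_of_dvd_right
      (dvd_mul_of_dvd_left (dvd_pow_self _ (Nat.mul_ne_zero (Nat.succ_ne_zero n) hp.ne_zero)) _) _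
  -- `¬ π ∣ y`
  have hy : ¬ π ∣ y := by
    intro hy
    have hx : π ∣ x := by
      have h1 : π ∣ x ^ p := by
        have h2 := dvd_sub hdvd (dvd_pow hy hp.ne_zero)
        simpa using h2
      exact hπ.dvd_of_dvd_pow h1
    exact hπ.not_isUnit (hxy.isUnit_of_dvd' hx hy)
  have all := dvd_add_mul_of_dvd_pow_add_pow hp hp2 hζ hπ hdvd
  choose! a ha using all
  obtain ⟨η₀, hη₀, h0⟩ := exists_sq_dvd_add_mul hp hζ hπ hfin hcard hy ha
  have hne : ∀ η ∈ S, η ≠ η₀ → ¬ π ∣ a η := by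
    intro η hη hne hd
    exact hne (eq_of_dvd_sub_of_quot hp hζ hπ hy hη hη₀ (ha η hη) (ha η₀ hη₀) (dvd_sub hd h0))
  -- the product formula
  have hprod : ∏ η ∈ S, a η = ε * (π ^ (p * n)) * z ^ p := by
    have h1 : π ^ p * ∏ η ∈ S, a η = π ^ p * (ε * (π ^ (p * n)) * z ^ p) := by
      calc π ^ p * ∏ η ∈ S, a η = ∏ η ∈ S, (π * a η) := by
            rw [Finset.prod_mul_distrib, Finset.prod_const, hcardS]
        _ = ∏ η ∈ S, (x + η * y) := Finset.prod_congr rfl (fun η hη => (ha η hη).symm)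
        _ = x ^ p + y ^ p := (hζ.pow_add_pow_eq_prod_add_mul x y hodd).symm
        _ = _ := by
            have e : (π ^ (n + 1)) ^ p = π ^ p * π ^ (p * n) := by
              rw [← pow_mul, ← pow_add]; congr 1; ring
            rw [h, mul_pow, e]; ring
    exact mul_left_cancel₀ (pow_ne_zero _ hπ.ne_zero) h1
  set P := ∏ η ∈ S.erase η₀, a η with hP
  have hsplit : a η₀ * P = ε * π ^ (p * n) * z ^ p := by
    rw [← hprod, Finset.mul_prod_erase S a hη₀]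
  have hP' : ¬ π ∣ P := by
    rw [hπ.dvd_finsetProd_iff]
    rintro ⟨η, hη, hd⟩
    exact hne η (Finset.mem_of_mem_erase hη) (Finset.ne_of_mem_erase hη) hd
  have hεz : ∀ w : R, π ∣ ↑ε * w ^ p → π ∣ w := by
    intro w hw
    have h1 := (hπ.dvd_or_dvd hw).resolve_left
      (fun h => hπ.not_isUnit (isUnit_of_dvd_unit h ε.isUnit))
    exact hπ.dvd_of_dvd_pow h1
  -- `1 ≤ n`
  have hn : 1 ≤ n := by
    by_contra hn0
    have hn0' : n = 0 := by omega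
    subst hn0'
    rw [mul_zero, pow_zero, mul_one] at hsplit
    exact hz (hεz z (hsplit ▸ dvd_mul_of_dvd_left h0 P))
  -- `π ^ (p * n) ∣ a η₀`
  have hpow : π ^ (p * n) ∣ a η₀ := by
    have h1 : π ^ (p * n) ∣ a η₀ * P := hsplit ▸ (dvd_mul_of_dvd_left (dvd_mul_left _ _) _)
    exact hπ.pow_dvd_of_dvd_mul_right _ hP' h1
  obtain ⟨c₀, hc₀⟩ := hpow
  have hc₀P : c₀ * P = ε * z ^ p := by
    have h1 : π ^ (p * n) * (c₀ * P) = π ^ (p * n) * (ε * z ^ p) := by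
      rw [← mul_assoc, ← hc₀, hsplit]; ring
    exact mul_left_cancel₀ (pow_ne_zero _ hπ.ne_zero) h1
  have hc₀π : ¬ π ∣ c₀ := fun hd => hz (hεz z (hc₀P ▸ dvd_mul_of_dvd_left hd P))
  -- the pairwise coprime family
  let c : R → R := fun η => if η = η₀ then c₀ else a η
  have hcη₀ : c η₀ = c₀ := if_pos rfl
  have hcne : ∀ η, η ≠ η₀ → c η = a η := fun η h => if_neg h
  have hcdvd : ∀ η, c η ∣ a η := by
    intro η
    by_cases h : η = η₀
    · subst h; rw [hcη₀, hc₀]; exact dvd_mul_left _ _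
    · rw [hcne η h]
  have hcprod : ∏ η ∈ S, c η = ε * z ^ p := by
    rw [← Finset.mul_prod_erase S c hη₀, hcη₀, ← hc₀P]
    congr 1
    exact Finset.prod_congr rfl (fun η hη => hcne η (Finset.ne_of_mem_erase hη))
  have hacop : ∀ η₁ ∈ S, ∀ η₂ ∈ S, η₁ ≠ η₂ → IsCoprime (a η₁) (a η₂) :=
    fun η₁ h₁ η₂ h₂ hne => isCoprime_quot hp hζ hπ hxy h₁ h₂ hne (ha _ h₁) (ha _ h₂)
  have hcop : ∀ η₁ ∈ S, ∀ η₂ ∈ S, η₁ ≠ η₂ → IsCoprime (c η₁) (c η₂) :=
    fun η₁ h₁ η₂ h₂ hne => ((hacop η₁ h₁ η₂ h₂ hne).of_isCoprime_of_dvd_left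
      (hcdvd _)).of_isCoprime_of_dvd_right (hcdvd _)
  have hassoc : Associated (z ^ p) (∏ η ∈ S, c η) := by
    rw [hcprod]
    exact associated_unit_mul_right _ _ ε.isUnit
  have hpows := exists_associated_pow_of_prod S c hcop hassoc
  -- the three roots `η₀`, `η₀ * ζ`, `η₀ * ζ ^ (p - 1)`
  have hη₀p : η₀ ^ p = 1 := (mem_nthRootsFinset hp.pos (1 : R)).1 hη₀
  have hη₀0 : η₀ ≠ 0 := by
    rintro rfl
    rw [zero_pow hp.ne_zero] at hη₀p
    exact zero_ne_one hη₀p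
  have hζp : ζ ^ (p - 1) * ζ = 1 := by
    rw [← pow_succ, Nat.sub_add_cancel hp.one_le, hζ.pow_eq_one]
  have hη₁ : η₀ * ζ ∈ S := by
    rw [hS, mem_nthRootsFinset hp.pos (1 : R), mul_pow, hη₀p, hζ.pow_eq_one, one_mul]
  have hη₂ : η₀ * ζ ^ (p - 1) ∈ S := by
    rw [hS, mem_nthRootsFinset hp.pos (1 : R), mul_pow, hη₀p, one_mul, ← pow_mul, mul_comm,
      pow_mul, hζ.pow_eq_one, one_pow]
  have hη₁ne : η₀ * ζ ≠ η₀ := by
    intro h1
    have h2 : η₀ * ζ = η₀ * 1 := by rw [h1, mul_one]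
    exact hζ.ne_one hp.one_lt (mul_left_cancel₀ hη₀0 h2)
  have hη₂ne : η₀ * ζ ^ (p - 1) ≠ η₀ := by
    intro h1
    have h2 : η₀ * ζ ^ (p - 1) = η₀ * 1 := by rw [h1, mul_one]
    have h3 := (hζ.pow_eq_one_iff_dvd _).1 (mul_left_cancel₀ hη₀0 h2)
    have h4 := Nat.le_of_dvd (by have := hp.two_le; omega) h3
    have := hp.two_le
    omega
  have hη₁₂ : η₀ * ζ ≠ η₀ * ζ ^ (p - 1) := by
    intro h1
    have h2 : ζ ^ 1 = ζ ^ (p - 1) := by rw [pow_one]; exact mul_left_cancel₀ hη₀0 h1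
    have h3 := hζ.pow_inj hp.one_lt (by have := hp.two_le; omega) h2
    have := hp.two_le
    omega
  obtain ⟨d₀, u₀, hd₀⟩ := hpows η₀ hη₀
  obtain ⟨d₁, u₁, hd₁⟩ := hpows _ hη₁
  obtain ⟨d₂, u₂, hd₂⟩ := hpows _ hη₂
  rw [hcη₀] at hd₀
  rw [hcne _ hη₁ne] at hd₁
  rw [hcne _ hη₂ne] at hd₂
  -- the key linear relation between the three factors
  have hlin : a (η₀ * ζ) + ζ * a (η₀ * ζ ^ (p - 1)) = (1 + ζ) * (π ^ (p * n) * c₀) := by
    have h1 : π * (a (η₀ * ζ) + ζ * a (η₀ * ζ ^ (p - 1))) =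
        π * ((1 + ζ) * (π ^ (p * n) * c₀)) := by
      calc _ = π * a (η₀ * ζ) + ζ * (π * a (η₀ * ζ ^ (p - 1))) := by ring
        _ = (x + η₀ * ζ * y) + ζ * (x + η₀ * ζ ^ (p - 1) * y) := by
            rw [← ha _ hη₁, ← ha _ hη₂]
        _ = (1 + ζ) * (x + η₀ * y) := by linear_combination (η₀ * y) * hζp
        _ = (1 + ζ) * (π * a η₀) := by rw [← ha _ hη₀]
        _ = _ := by rw [hc₀]; ring
    exact mul_left_cancel₀ hπ.ne_zero h1
  -- units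
  have h2p : Nat.Coprime 2 p := (Nat.coprime_primes Nat.prime_two hp).2 (Ne.symm hp2)
  have h1ζ : IsUnit (1 + ζ) := by
    have h1 := hζ.geom_sum_isUnit hp.two_le h2p
    simpa [Finset.sum_range_succ] using h1
  let ζu : Rˣ := (hζ.isUnit hp.ne_zero).unit
  let η' : Rˣ := ζu * u₂ * u₁⁻¹
  let ε' : Rˣ := h1ζ.unit * u₀ * u₁⁻¹
  have hη'val : (η' : R) = ζ * u₂ * ↑u₁⁻¹ := by
    simp [η', ζu]
  have hε'val : (ε' : R) = (1 + ζ) * u₀ * ↑u₁⁻¹ := by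
    simp [ε']
  have hu₁ : (↑u₁⁻¹ : R) * ↑u₁ = 1 := Units.inv_mul u₁
  have hnew : d₁ ^ p + (η' : R) * d₂ ^ p = ε' * (π ^ n * d₀) ^ p := by
    rw [← hd₁, ← hd₂, ← hd₀] at hlin
    rw [hη'val, hε'val]
    linear_combination (↑u₁⁻¹ : R) * hlin - d₁ ^ p * hu₁
  -- `η'` is congruent to a rational integer modulo `p`
  have hpdvd : (p : R) ∣ (π ^ n) ^ p := by
    rw [← pow_mul]
    refine hpπ.trans (pow_dvd_pow _ ?_)
    calc p - 1 ≤ p := Nat.sub_le _ _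
      _ = 1 * p := (one_mul p).symm
      _ ≤ n * p := Nat.mul_le_mul_right _ hn
  have hcong : (p : R) ∣ d₁ ^ p + (η' : R) * d₂ ^ p := by
    rw [hnew, mul_pow]
    exact dvd_mul_of_dvd_right (dvd_mul_of_dvd_left hpdvd _) _
  obtain ⟨n₁, hn₁⟩ := PPOW d₁
  obtain ⟨n₂, hn₂⟩ := PPOW d₂
  have hcong' : (p : R) ∣ (n₁ : R) + (η' : R) * (n₂ : R) := by
    have h1 := dvd_sub (dvd_sub hcong hn₁) (dvd_mul_of_dvd_right hn₂ (η' : R))
    have e : d₁ ^ p + (η' : R) * d₂ ^ p - (d₁ ^ p - (n₁ : R)) - (η' : R) * (d₂ ^ p - (n₂ : R)) =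
        (n₁ : R) + (η' : R) * (n₂ : R) := by ring
    rwa [e] at h1
  have hd₂π : ¬ π ∣ d₂ := by
    intro hd
    apply hne _ hη₂ hη₂ne
    rw [← hd₂]
    exact dvd_mul_of_dvd_left (dvd_pow hd hp.ne_zero) _
  have hn₂' : ¬ (p : ℤ) ∣ n₂ := by
    intro hdiv
    have h1 : (p : R) ∣ (n₂ : R) := by
      obtain ⟨k, hk⟩ := hdiv
      rw [hk]; push_cast; exact dvd_mul_right _ _
    have h2 : π ∣ d₂ ^ p := by
      have h3 := dvd_add (hπp.trans hn₂) (hπp.trans h1)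
      simpa using h3
    exact hd₂π (hπ.dvd_of_dvd_pow h2)
  have hcopZ : IsCoprime (n₂ : ℤ) (p : ℤ) :=
    ((Nat.prime_iff_prime_int.mp hp).coprime_iff_not_dvd.2 hn₂').symm
  obtain ⟨s, t, hst⟩ := hcopZ
  have hstR : (s : R) * n₂ + t * p = 1 := by
    have := congrArg (Int.cast : ℤ → R) hst
    push_cast at this
    exact this
  obtain ⟨ξ, hξ⟩ := KL η' ⟨-(s * n₁), by
    have e : (η' : R) - ((-(s * n₁) : ℤ) : R) =
        s * ((n₁ : R) + (η' : R) * (n₂ : R)) + (η' : R) * t * p := by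
      push_cast
      linear_combination (-(η' : R)) * hstR
    rw [e]
    exact dvd_add (dvd_mul_of_dvd_right hcong' _) (dvd_mul_left _ _)⟩
  have hξ' : (η' : R) = (ξ : R) ^ p := by
    rw [hξ, Units.val_pow_eq_pow_val]
  refine ⟨hn, d₁, ξ * d₂, d₀, ε', ?_, ?_, ?_⟩
  · have h12 := hacop _ hη₁ _ hη₂ hη₁₂
    rw [← hd₁, ← hd₂] at h12
    have h3 : IsCoprime (d₁ ^ p) (d₂ ^ p) := (IsCoprime.of_mul_left_left h12).of_mul_right_left
    have h4 := (IsCoprime.pow_iff hp.pos hp.pos).1 h3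
    exact (isCoprime_mul_unit_left_right ξ.isUnit _ _).2 h4
  · intro hd
    apply hc₀π
    rw [← hd₀]
    exact dvd_mul_of_dvd_left (dvd_pow hd hp.ne_zero) _
  · rw [mul_pow, ← hξ', hnew]

/-- Kummer's descent: the generalised second case has no solutions. -/
theorem descent [IsPrincipalIdealRing R] (hp : p.Prime) (hp2 : p ≠ 2)
    (hζ : IsPrimitiveRoot ζ p) (hπ : Prime (ζ - 1))
    (hfin : Finite (R ⧸ Ideal.span {ζ - 1})) (hcard : Nat.card (R ⧸ Ideal.span {ζ - 1}) = p)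
    (hpπ : (p : R) ∣ (ζ - 1) ^ (p - 1)) (hπp : (ζ - 1) ∣ (p : R))
    (PPOW : ∀ α : R, ∃ n : ℤ, (p : R) ∣ α ^ p - (n : R))
    (KL : ∀ u : Rˣ, (∃ n : ℤ, (p : R) ∣ (u : R) - (n : R)) → ∃ v : Rˣ, u = v ^ p) :
    ∀ n : ℕ, 1 ≤ n → ∀ (x y z : R) (ε : Rˣ), IsCoprime x y → ¬ (ζ - 1) ∣ z →
      x ^ p + y ^ p ≠ ε * ((ζ - 1) ^ n * z) ^ p := by
  intro n
  induction n with
  | zero => intro h; omega
  | succ n ih =>
    intro _ x y z ε hxy hz h
    obtain ⟨hn, x', y', z', ε', hxy', hz', h'⟩ :=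
      descent_step hp hp2 hζ hπ hfin hcard hpπ hπp PPOW KL hxy hz h
    exact ih hn x' y' z' ε' hxy' hz' h'

end abstract

section ppow

variable {p : ℕ} [hp : Fact p.Prime] {K : Type*} [Field K] [NumberField K]
  [IsCyclotomicExtension {p} ℚ K] {ζ : K} (hζ : IsPrimitiveRoot ζ p)

/-- `𝓞 K = ℤ[ζ]`. -/
theorem adjoin_toInteger_eq_top : Algebra.adjoin ℤ {hζ.toInteger} = ⊤ := by
  rw [← hζ.integralPowerBasis_gen]
  exact hζ.integralPowerBasis.adjoin_gen_eq_top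

include hζ in
/-- PPOW: the `p`-th power of any algebraic integer of `ℚ(ζ_p)` is congruent to a rational
integer modulo `p`. -/
theorem exists_int_dvd_pow_sub (α : 𝓞 K) : ∃ n : ℤ, (p : 𝓞 K) ∣ α ^ p - (n : 𝓞 K) := by
  have hα : α ∈ Algebra.adjoin ℤ {hζ.toInteger} := by
    rw [adjoin_toInteger_eq_top hζ]; trivial
  induction hα using Algebra.adjoin_induction with
  | mem x hx =>
    rw [Set.mem_singleton_iff] at hx
    subst hx
    refine ⟨1, ?_⟩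
    rw [hζ.toInteger_isPrimitiveRoot.pow_eq_one]
    simp
  | algebraMap r =>
    refine ⟨r ^ p, ?_⟩
    simp
  | add x y _ _ hx hy =>
    obtain ⟨a, ha⟩ := hx
    obtain ⟨b, hb⟩ := hy
    obtain ⟨r, hr⟩ := exists_add_pow_prime_eq hp.out x y
    refine ⟨a + b, ?_⟩
    have : (x + y) ^ p - ((a + b : ℤ) : 𝓞 K) =
        (x ^ p - a) + (y ^ p - b) + (p : 𝓞 K) * (x * y * r) := by
      rw [hr]; push_cast; ring
    rw [this]
    exact dvd_add (dvd_add ha hb) (dvd_mul_right _ _)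
  | mul x y _ _ hx hy =>
    obtain ⟨a, ha⟩ := hx
    obtain ⟨b, hb⟩ := hy
    refine ⟨a * b, ?_⟩
    have : (x * y) ^ p - ((a * b : ℤ) : 𝓞 K) = (x ^ p - a) * y ^ p + a * (y ^ p - b) := by
      push_cast; ring
    rw [this]
    exact dvd_add (dvd_mul_of_dvd_left ha _) (dvd_mul_of_dvd_right hb _)

end ppow

end Fermat.Agent.FLTReg.CaseIIAux

namespace Fermat.Agent.FLTReg

open CaseIIAux

section general

variable {p : ℕ} [hp : Fact p.Prime] {K : Type*} [Field K] [NumberField K]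
  [IsCyclotomicExtension {p} ℚ K] {ζ : K} (hζ : IsPrimitiveRoot ζ p)

/-- The generalised second case of Fermat's Last Theorem over `𝓞 K`, `K = ℚ(ζ_p)`. -/
def CaseIIGen : Prop :=
  ∀ x y z : 𝓞 K, ∀ ε : (𝓞 K)ˣ, z ≠ 0 → ¬ (hζ.toInteger - 1) ∣ x → ¬ (hζ.toInteger - 1) ∣ y →
    (hζ.toInteger - 1) ∣ z → IsCoprime x y → x ^ p + y ^ p ≠ ε * z ^ p

/-- The generalised second case holds when `𝓞 K` is a PID and Kummer's lemma holds
(any odd prime `p`). -/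
theorem caseIIGen_of_ne_two (hp2 : p ≠ 2) [IsPrincipalIdealRing (𝓞 K)]
    (KL : ∀ u : (𝓞 K)ˣ, (∃ n : ℤ, (p : 𝓞 K) ∣ (u : 𝓞 K) - (n : 𝓞 K)) →
      ∃ v : (𝓞 K)ˣ, u = v ^ p) : CaseIIGen hζ := by
  intro x y z ε hz0 _ _ hz hxy
  have hπ : Prime (hζ.toInteger - 1) := hζ.zeta_sub_one_prime'
  obtain ⟨n, z₀, hz₀, rfl⟩ := WfDvdMonoid.max_power_factor hz0 hπ.irreducible
  have hn : 1 ≤ n := by
    by_contra h0
    have hn0 : n = 0 := by omega
    subst hn0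
    rw [pow_zero, one_mul] at hz
    exact hz₀ hz
  have hfin : Finite (𝓞 K ⧸ Ideal.span {hζ.toInteger - 1}) :=
    hζ.finite_quotient_toInteger_sub_one hp.out.one_lt
  have hcard : Nat.card (𝓞 K ⧸ Ideal.span {hζ.toInteger - 1}) = p := by
    rw [hζ.card_quotient_toInteger_sub_one, hζ.norm_toInteger_sub_one_of_prime_ne_two' hp2,
      Int.natAbs_natCast]
  exact descent hp.out hp2 hζ.toInteger_isPrimitiveRoot hπ hfin hcard
    (IsCyclotomicExtension.Rat.associated_zeta_sub_one_pow_prime p hζ).symm.dvd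
    hζ.toInteger_sub_one_dvd_prime' (exists_int_dvd_pow_sub hζ) KL n hn x y z₀ ε hxy hz₀

/-- The generalised second case holds when `𝓞 K` is a PID and Kummer's lemma holds. -/
theorem caseIIGen (hp5 : 5 ≤ p) [IsPrincipalIdealRing (𝓞 K)]
    (KL : ∀ u : (𝓞 K)ˣ, (∃ n : ℤ, (p : 𝓞 K) ∣ (u : 𝓞 K) - (n : 𝓞 K)) →
      ∃ v : (𝓞 K)ˣ, u = v ^ p) : CaseIIGen hζ :=
  caseIIGen_of_ne_two hζ (by omega) KL

include hζ in
/-- Second case over `ℤ`, normalised form: `p ∤ a`, `p ∤ b`, `p ∣ c`. -/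
theorem caseII_of_dvd_c (hp2 : p ≠ 2) [IsPrincipalIdealRing (𝓞 K)]
    (KL : ∀ u : (𝓞 K)ˣ, (∃ n : ℤ, (p : 𝓞 K) ∣ (u : 𝓞 K) - (n : 𝓞 K)) →
      ∃ v : (𝓞 K)ˣ, u = v ^ p)
    {a b c : ℤ} (hc : c ≠ 0) (ha : ¬ (p : ℤ) ∣ a) (hb : ¬ (p : ℤ) ∣ b) (hpc : (p : ℤ) ∣ c)
    (hab : IsCoprime a b) : a ^ p + b ^ p ≠ c ^ p := by
  intro h
  obtain ⟨k, hk⟩ := hpc
  refine caseIIGen_of_ne_two hζ hp2 KL a b c 1 (by simp [hc]) (fun hdvd ↦ ha ?_)
    (fun hdvd ↦ hb ?_) ?_ ?_ ?_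
  · rwa [← Ideal.norm_dvd_iff (hζ.prime_norm_toInteger_sub_one_of_prime_ne_two' hp2),
      hζ.norm_toInteger_sub_one_of_prime_ne_two' hp2] at hdvd
  · rwa [← Ideal.norm_dvd_iff (hζ.prime_norm_toInteger_sub_one_of_prime_ne_two' hp2),
      hζ.norm_toInteger_sub_one_of_prime_ne_two' hp2] at hdvd
  · exact dvd_trans hζ.toInteger_sub_one_dvd_prime' ⟨k, by simp [hk]⟩
  · exact IsCoprime.intCast hab
  · simpa using mod_cast h

omit [NumberField K] [IsCyclotomicExtension {p} ℚ K] in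
/-- If `a ^ p + b ^ p = c ^ p` with `a`, `b` coprime then `c`, `b` are coprime. -/
theorem isCoprime_of_add_pow_eq {a b c : ℤ} (hab : IsCoprime a b) (h : a ^ p + b ^ p = c ^ p) :
    IsCoprime c b := by
  have h1 : IsCoprime (a ^ p + b * b ^ (p - 1)) b := (hab.pow_left).add_mul_left_left _
  have h2 : a ^ p + b * b ^ (p - 1) = c ^ p := by
    rw [← h, ← pow_succ', Nat.sub_add_cancel hp.out.one_le]
  rw [h2] at h1
  exact (IsCoprime.pow_left_iff hp.out.pos).1 h1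

omit [NumberField K] [IsCyclotomicExtension {p} ℚ K] in
/-- A prime cannot divide both of two coprime integers. -/
theorem not_dvd_of_isCoprime_of_dvd {a b : ℤ} (hab : IsCoprime a b) (ha : (p : ℤ) ∣ a) :
    ¬ (p : ℤ) ∣ b := fun hb =>
  (Nat.prime_iff_prime_int.mp hp.out).not_isUnit (hab.isUnit_of_dvd' ha hb)

/-- Second case of Fermat's Last Theorem over `ℤ` for a prime `p ≥ 5` such that `𝓞 ℚ(ζ_p)` is a
PID, assuming Kummer's lemma. -/
theorem caseII (hp5 : 5 ≤ p) [IsPrincipalIdealRing (𝓞 K)]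
    (KL : ∀ u : (𝓞 K)ˣ, (∃ n : ℤ, (p : 𝓞 K) ∣ (u : 𝓞 K) - (n : 𝓞 K)) →
      ∃ v : (𝓞 K)ˣ, u = v ^ p)
    {a b c : ℤ} (hab : IsCoprime a b) (habc : a * b * c ≠ 0) (hcase : (p : ℤ) ∣ a * b * c) :
    a ^ p + b ^ p ≠ c ^ p := by
  intro h
  have hp2 : p ≠ 2 := by omega
  have hodd : Odd p := hp.out.odd_of_ne_two hp2
  have hpZ : Prime (p : ℤ) := Nat.prime_iff_prime_int.mp hp.out
  have hζ : IsPrimitiveRoot (IsCyclotomicExtension.zeta p ℚ K) p :=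
    IsCyclotomicExtension.zeta_spec p ℚ K
  have ha0 : a ≠ 0 := fun h0 => habc (by simp [h0])
  have hb0 : b ≠ 0 := fun h0 => habc (by simp [h0])
  have hc0 : c ≠ 0 := fun h0 => habc (by simp [h0])
  have hcb : IsCoprime c b := isCoprime_of_add_pow_eq hab h
  have hca : IsCoprime c a := isCoprime_of_add_pow_eq hab.symm (by rw [add_comm]; exact h)
  rcases hpZ.dvd_or_dvd hcase with hab' | hc
  · rcases hpZ.dvd_or_dvd hab' with ha | hb
    · -- `p ∣ a` : use `c ^ p + (-b) ^ p = a ^ p`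
      refine caseII_of_dvd_c hζ hp2 KL (a := c) (b := -b) (c := a) ha0
        (not_dvd_of_isCoprime_of_dvd hca.symm ha) ?_ ha hcb.neg_right ?_
      · rw [dvd_neg]; exact not_dvd_of_isCoprime_of_dvd hab ha
      · rw [hodd.neg_pow, ← h]; ring
    · -- `p ∣ b` : use `c ^ p + (-a) ^ p = b ^ p`
      refine caseII_of_dvd_c hζ hp2 KL (a := c) (b := -a) (c := b) hb0
        (not_dvd_of_isCoprime_of_dvd hcb.symm hb) ?_ hb hca.neg_right ?_
      · rw [dvd_neg]; exact not_dvd_of_isCoprime_of_dvd hab.symm hb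
      · rw [hodd.neg_pow, ← h]; ring
  · exact caseII_of_dvd_c hζ hp2 KL hc0 (not_dvd_of_isCoprime_of_dvd hca hc)
      (not_dvd_of_isCoprime_of_dvd hcb hc) hc hab h

end general

end Fermat.Agent.FLTReg
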