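import Mathlib

/-!
# Case II of Fermat's Last Theorem for a prime `p`, PID case (helper41, FLTREG backup of CASE2)

`K` a `p`-th cyclotomic field whose ring of integers is a PID, `λ = ζ - 1`.
Assuming Kummer's lemma `KL` (a unit congruent to a rational integer mod `p` is a `p`-th power)
we prove that `x ^ p + y ^ p = ε * z ^ p` has no solution with `λ ∤ y`, `λ ∣ z`, `z ≠ 0`,
`x, y` coprime (`caseIIGen`), and deduce Case II over `ℤ` (`caseII`).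
The proof is the classical descent on the `λ`-adic valuation of `z`.
-/

set_option autoImplicit false
set_option linter.unusedSectionVars false
set_option linter.unusedVariables false

open NumberField Polynomial Finset

namespace Fermat.Agent.FLTReg.Alt41

section setup

variable {p : ℕ} [hp : Fact p.Prime] {K : Type*} [Field K] [NumberField K]
  [hK : IsCyclotomicExtension {p} ℚ K] {ζ : K} (hζ : IsPrimitiveRoot ζ p)

/-- `λ = ζ - 1`. -/
noncomputable def lam : 𝓞 K := hζ.toInteger - 1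

/-- geometric sums `g i = 1 + ζ + ... + ζ^(i-1)`. -/
noncomputable def gs (i : ℕ) : 𝓞 K := ∑ k ∈ range i, hζ.toInteger ^ k

theorem lam_prime : Prime (lam hζ) := hζ.zeta_sub_one_prime'

theorem lam_ne_zero : lam hζ ≠ 0 := (lam_prime hζ).ne_zero

theorem lam_mul_gs (i : ℕ) : lam hζ * gs hζ i = hζ.toInteger ^ i - 1 := by
  unfold lam gs
  rw [mul_comm]; exact geom_sum_mul _ _

theorem zeta_pow_p : hζ.toInteger ^ p = 1 := hζ.toInteger_isPrimitiveRoot.pow_eq_one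

theorem coprime_of_lt {i : ℕ} (hi0 : 0 < i) (hip : i < p) : Nat.Coprime i p :=
  ((Nat.Prime.coprime_iff_not_dvd hp.out).2 (Nat.not_dvd_of_pos_of_lt hi0 hip)).symm

theorem gs_isUnit {i : ℕ} (hi0 : 0 < i) (hip : i < p) : IsUnit (gs hζ i) :=
  hζ.toInteger_isPrimitiveRoot.geom_sum_isUnit hp.out.two_le (coprime_of_lt hi0 hip)

theorem gs_zero : gs hζ 0 = 0 := by simp [gs]

theorem gs_one : gs hζ 1 = 1 := by simp [gs]

theorem gs_two : gs hζ 2 = 1 + hζ.toInteger := by simp [gs, Finset.sum_range_succ]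

/-- `g (j + k) = g j + ζ^j g k`. -/
theorem gs_add (j k : ℕ) : gs hζ (j + k) = gs hζ j + hζ.toInteger ^ j * gs hζ k := by
  apply mul_left_cancel₀ (lam_ne_zero hζ)
  rw [mul_add, ← mul_assoc, mul_comm (lam hζ) (hζ.toInteger ^ j), mul_assoc, lam_mul_gs, lam_mul_gs,
    lam_mul_gs, pow_add]
  ring

/-- `g i - g j` is a unit for `i ≠ j`, `i, j < p`. -/
theorem gs_sub_isUnit {i j : ℕ} (hi : i < p) (hj : j < p) (hij : i ≠ j) :
    IsUnit (gs hζ i - gs hζ j) := by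
  have hzu : IsUnit hζ.toInteger := hζ.toInteger_isPrimitiveRoot.isUnit hp.out.ne_zero
  rcases lt_or_gt_of_ne hij with h | h
  · obtain ⟨k, rfl⟩ := Nat.exists_eq_add_of_lt h
    have : gs hζ i - gs hζ (i + k + 1) = -(hζ.toInteger ^ i * gs hζ (k + 1)) := by
      rw [add_assoc, gs_add]; ring
    rw [this]
    exact ((hzu.pow i).mul (gs_isUnit hζ (Nat.succ_pos k) (by omega))).neg
  · obtain ⟨k, rfl⟩ := Nat.exists_eq_add_of_lt h
    have : gs hζ (j + k + 1) - gs hζ j = (hζ.toInteger ^ j * gs hζ (k + 1)) := by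
      rw [add_assoc, gs_add]; ring
    rw [this]
    exact ((hzu.pow j).mul (gs_isUnit hζ (Nat.succ_pos k) (by omega)))

/-- `g i ≡ i mod λ`. -/
theorem lam_dvd_gs_sub (i : ℕ) : lam hζ ∣ gs hζ i - (i : 𝓞 K) := by
  have : gs hζ i - (i : 𝓞 K) = ∑ k ∈ range i, (hζ.toInteger ^ k - 1) := by
    simp [gs, Finset.sum_sub_distrib]
  rw [this]
  refine Finset.dvd_sum fun k _ => ?_
  have := sub_dvd_pow_sub_pow hζ.toInteger 1 k
  rw [one_pow] at this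
  exact this

/-- `λ ∣ (n : 𝓞 K) ↔ p ∣ n` for integers. -/
theorem lam_dvd_intCast_iff {n : ℤ} : lam hζ ∣ (n : 𝓞 K) ↔ (p : ℤ) ∣ n := by
  have hK' : IsCyclotomicExtension {p ^ (0 + 1)} ℚ K := by simpa using hK
  have hζ' : IsPrimitiveRoot ζ (p ^ (0 + 1)) := by simpa using hζ
  exact IsCyclotomicExtension.Rat.zeta_sub_one_dvd_intCast_iff p 0 hζ'

theorem lam_dvd_p : lam hζ ∣ (p : 𝓞 K) := hζ.toInteger_sub_one_dvd_prime'

/-- `p ∣ λ^p`-/
theorem p_dvd_lam_pow : (p : 𝓞 K) ∣ lam hζ ^ p := by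
  have h := (IsCyclotomicExtension.Rat.associated_zeta_sub_one_pow_prime p hζ).symm.dvd
  refine h.trans (pow_dvd_pow _ (Nat.sub_le p 1))

/-- every element of `𝓞 K` is congruent to a natural number modulo `λ`. -/
theorem exists_nat_lam_dvd_sub (a : 𝓞 K) : ∃ n : ℕ, lam hζ ∣ a - (n : 𝓞 K) := by
  have hK' : IsCyclotomicExtension {p ^ (0 + 1)} ℚ K := by simpa using hK
  have hζ' : IsPrimitiveRoot ζ (p ^ (0 + 1)) := by simpa using hζ
  have hcard : Nat.card (𝓞 K ⧸ Ideal.span {lam hζ}) = p := by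
    have := IsCyclotomicExtension.Rat.absNorm_span_zeta_sub_one p 0 hζ'
    rw [Ideal.absNorm_apply, Submodule.cardQuot_apply] at this
    exact this
  have h1 : (1 : 𝓞 K ⧸ Ideal.span {lam hζ}) ≠ 0 := by
    intro h
    have : Subsingleton (𝓞 K ⧸ Ideal.span {lam hζ}) := subsingleton_of_zero_eq_one h.symm
    have h2 := hp.out.one_lt
    rw [← hcard] at h2
    have := Nat.card_of_subsingleton (1 : 𝓞 K ⧸ Ideal.span {lam hζ})
    omega
  have htop := zmultiples_eq_top_of_prime_card (G := 𝓞 K ⧸ Ideal.span {lam hζ}) hcard h1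
  have hmem : (Ideal.Quotient.mk (Ideal.span {lam hζ}) a) ∈ AddSubgroup.zmultiples
      (1 : 𝓞 K ⧸ Ideal.span {lam hζ}) := by rw [htop]; trivial
  obtain ⟨k, hk⟩ := AddSubgroup.mem_zmultiples_iff.1 hmem
  -- a ≡ k mod λ
  have hk' : lam hζ ∣ a - (k : 𝓞 K) := by
    rw [← Ideal.mem_span_singleton, ← Ideal.Quotient.eq, ← hk]
    simp
  refine ⟨(k % (p : ℤ)).toNat, ?_⟩
  have hnn : 0 ≤ k % (p : ℤ) := Int.emod_nonneg _ (by exact_mod_cast hp.out.ne_zero)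
  have hcast : (((k % (p : ℤ)).toNat : ℕ) : 𝓞 K) = ((k % (p : ℤ) : ℤ) : 𝓞 K) := by
    rw [← Int.cast_natCast, Int.toNat_of_nonneg hnn]
  rw [hcast]
  have : a - ((k % (p : ℤ) : ℤ) : 𝓞 K) = (a - (k : 𝓞 K)) + (p : 𝓞 K) * ((k / (p : ℤ) : ℤ) : 𝓞 K) := by
    have := Int.emod_add_mul_ediv k p
    have h3 : (k : 𝓞 K) = ((k % (p : ℤ) : ℤ) : 𝓞 K) + (p : 𝓞 K) * ((k / (p : ℤ) : ℤ) : 𝓞 K) := by
      exact_mod_cast congrArg (Int.cast : ℤ → 𝓞 K) this.symm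
    rw [h3]; ring
  rw [this]
  exact dvd_add hk' (Dvd.dvd.mul_right (lam_dvd_p hζ) _)


open scoped Classical in
/-- reindexing of the `p`-th roots of unity. -/
theorem nthRootsFinset_eq_image :
    nthRootsFinset p (1 : 𝓞 K) = (range p).image (fun i => hζ.toInteger ^ i) := by
  classical
  have hprim := hζ.toInteger_isPrimitiveRoot
  symm
  apply Finset.eq_of_subset_of_card_le
  · intro μ hμ
    obtain ⟨i, -, rfl⟩ := Finset.mem_image.1 hμ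
    rw [mem_nthRootsFinset hp.out.pos, ← pow_mul, mul_comm, pow_mul, hprim.pow_eq_one, one_pow]
  · rw [hprim.card_nthRootsFinset, Finset.card_image_of_injOn hprim.injOn_pow, card_range]

/-- `x^p + y^p = ∏_{i<p} (x + ζ^i y)`. -/
theorem prod_formula (hodd : Odd p) (x y : 𝓞 K) :
    ∏ i ∈ range p, (x + hζ.toInteger ^ i * y) = x ^ p + y ^ p := by
  classical
  have hprim := hζ.toInteger_isPrimitiveRoot
  rw [hprim.pow_add_pow_eq_prod_add_mul (x := x) (y := y) hodd, nthRootsFinset_eq_image hζ,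
    Finset.prod_image hprim.injOn_pow]

/-- `α ≡ a mod λ ⟹ α^p ≡ a^p mod λ^p`. -/
theorem lam_pow_dvd_pow_sub_pow (hodd : Odd p) {α a : 𝓞 K} (h : lam hζ ∣ α - a) :
    lam hζ ^ p ∣ α ^ p - a ^ p := by
  have h1 : α ^ p - a ^ p = ∏ i ∈ range p, (α + hζ.toInteger ^ i * (-a)) := by
    rw [prod_formula hζ hodd, hodd.neg_pow]; ring
  rw [h1]
  have h2 : lam hζ ^ p = ∏ i ∈ range p, lam hζ := by simp
  rw [h2]
  refine Finset.prod_dvd_prod_of_dvd _ _ fun i _ => ?_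
  have h3 : α + hζ.toInteger ^ i * (-a) = (α - a) - (lam hζ * gs hζ i) * a := by
    rw [lam_mul_gs]; ring
  rw [h3]
  exact dvd_sub h ⟨gs hζ i * a, by ring⟩

/-- `α^p` is congruent to an integer mod `p`: precisely, if `α ≡ a mod λ` then
`α^p ≡ a^p mod p`. -/
theorem p_dvd_pow_sub_pow (hodd : Odd p) {α a : 𝓞 K} (h : lam hζ ∣ α - a) :
    (p : 𝓞 K) ∣ α ^ p - a ^ p :=
  (p_dvd_lam_pow hζ).trans (lam_pow_dvd_pow_sub_pow hζ hodd h)

/-- Lemma A': there is `i < p` with `λ ∣ q + g_i y`. -/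
theorem exists_lam_dvd_add_gs_mul {q y : 𝓞 K} (hy : ¬ lam hζ ∣ y) :
    ∃ i, i < p ∧ lam hζ ∣ q + gs hζ i * y := by
  obtain ⟨c, hc⟩ := exists_nat_lam_dvd_sub hζ q
  obtain ⟨b, hb⟩ := exists_nat_lam_dvd_sub hζ y
  have hpb : ¬ p ∣ b := by
    intro hpb
    apply hy
    have : lam hζ ∣ (b : 𝓞 K) := by
      have := (lam_dvd_intCast_iff hζ (n := (b : ℤ))).2 (by exact_mod_cast hpb)
      simpa using this
    have h2 := dvd_add hb this
    simpa using h2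
  have hb0 : (b : ZMod p) ≠ 0 := by
    rwa [Ne, ZMod.natCast_eq_zero_iff]
  refine ⟨(-(c : ZMod p) / (b : ZMod p)).val, ZMod.val_lt _, ?_⟩
  set i := (-(c : ZMod p) / (b : ZMod p)).val with hi
  have hzero : ((c + i * b : ℕ) : ZMod p) = 0 := by
    push_cast
    rw [hi, ZMod.natCast_val, ZMod.cast_id', id_eq, div_mul_cancel₀ _ hb0]
    ring
  have hdvd : p ∣ c + i * b := (ZMod.natCast_eq_zero_iff _ _).1 hzero
  have h4 : lam hζ ∣ ((c + i * b : ℕ) : 𝓞 K) := by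
    have := (lam_dvd_intCast_iff hζ (n := ((c + i * b : ℕ) : ℤ))).2 (by exact_mod_cast hdvd)
    simpa using this
  have h5 : q + gs hζ i * y
      = (q - c) + (gs hζ i - (i : 𝓞 K)) * y + (i : 𝓞 K) * (y - b) + ((c + i * b : ℕ) : 𝓞 K) := by
    push_cast; ring
  rw [h5]
  exact dvd_add (dvd_add (dvd_add hc (Dvd.dvd.mul_right (lam_dvd_gs_sub hζ i) _))
    (Dvd.dvd.mul_left hb _)) h4


/-- the cofactors `q_i = q0 + g_i y`. -/
noncomputable def qq (q0 y : 𝓞 K) (i : ℕ) : 𝓞 K := q0 + gs hζ i * y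

theorem factor_eq {x y q0 : 𝓞 K} (hq0 : x + y = lam hζ * q0) (i : ℕ) :
    x + hζ.toInteger ^ i * y = lam hζ * qq hζ q0 y i := by
  unfold qq
  rw [mul_add, ← hq0, ← mul_assoc, lam_mul_gs]; ring

theorem qq_coprime {x y q0 : 𝓞 K} (hq0 : x + y = lam hζ * q0) (hxy : IsCoprime x y) {i j : ℕ}
    (hi : i < p) (hj : j < p) (hij : i ≠ j) : IsCoprime (qq hζ q0 y i) (qq hζ q0 y j) := by
  obtain ⟨u, hu⟩ := gs_sub_isUnit hζ hi hj hij
  obtain ⟨a, b, hab⟩ := hxy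
  have h1 : qq hζ q0 y i - qq hζ q0 y j = u * y := by rw [hu]; unfold qq; ring
  have h2 : hζ.toInteger ^ j * qq hζ q0 y i - hζ.toInteger ^ i * qq hζ q0 y j = - (u * x) := by
    apply mul_left_cancel₀ (lam_ne_zero hζ)
    have ei := factor_eq hζ hq0 i
    have ej := factor_eq hζ hq0 j
    have gi := lam_mul_gs hζ i
    have gj := lam_mul_gs hζ j
    rw [hu]
    linear_combination (-hζ.toInteger ^ j) * ei + hζ.toInteger ^ i * ej + x * gi - x * gj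
  refine ⟨(-a * hζ.toInteger ^ j + b) * ↑u⁻¹, (a * hζ.toInteger ^ i - b) * ↑u⁻¹, ?_⟩
  have hu1 : (u : 𝓞 K) * ↑u⁻¹ = 1 := by simp
  linear_combination (-a * ↑u⁻¹) * h2 + (b * ↑u⁻¹) * h1 + (a * x + b * y) * hu1 + hab

theorem exists_shift (hodd : Odd p) {x y z : 𝓞 K} {ε : (𝓞 K)ˣ} (hy : ¬ lam hζ ∣ y)
    (hxy : IsCoprime x y) (hz : lam hζ ∣ z) (H : x ^ p + y ^ p = ε * z ^ p) :
    ∃ y' q0 : 𝓞 K, y' ^ p = y ^ p ∧ ¬ lam hζ ∣ y' ∧ IsCoprime x y' ∧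
      x + y' = lam hζ * q0 ∧ lam hζ ∣ q0 := by
  have hprime := lam_prime hζ
  have hzu : IsUnit hζ.toInteger := hζ.toInteger_isPrimitiveRoot.isUnit hp.out.ne_zero
  have h1 : lam hζ ∣ x ^ p + y ^ p := by
    rw [H]
    exact Dvd.dvd.mul_left (hz.trans (dvd_pow_self _ hp.out.ne_zero)) _
  rw [← prod_formula hζ hodd x y] at h1
  obtain ⟨i, -, hi⟩ := (Prime.dvd_finsetProd_iff hprime _).1 h1
  have h2 : lam hζ ∣ x + y := by
    have : x + y = (x + hζ.toInteger ^ i * y) - (lam hζ * gs hζ i) * y := by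
      rw [lam_mul_gs]; ring
    rw [this]
    exact dvd_sub hi ⟨gs hζ i * y, by ring⟩
  obtain ⟨q00, hq00⟩ := h2
  obtain ⟨j, hj, hjd⟩ := exists_lam_dvd_add_gs_mul hζ (q := q00) hy
  refine ⟨hζ.toInteger ^ j * y, q00 + gs hζ j * y, ?_, ?_, ?_, ?_, hjd⟩
  · rw [mul_pow, ← pow_mul, mul_comm j p, pow_mul, zeta_pow_p hζ, one_pow, one_mul]
  · intro h
    rcases hprime.dvd_or_dvd h with h | h
    · exact hprime.not_isUnit (isUnit_of_dvd_unit h (hzu.pow j))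
    · exact hy h
  · exact (isCoprime_mul_unit_left_right (hzu.pow j) x y).2 hxy
  · have := lam_mul_gs hζ j
    linear_combination hq00 - y * this


/-- `λ ∣ ε * z0 ^ p → λ ∣ z0`. -/
theorem lam_dvd_of_dvd_unit_mul_pow {z0 : 𝓞 K} {ε : (𝓞 K)ˣ} {k : ℕ}
    (h : lam hζ ∣ ε * z0 ^ k) : lam hζ ∣ z0 := by
  have hprime := lam_prime hζ
  rcases hprime.dvd_or_dvd h with h | h
  · exact absurd (isUnit_of_dvd_unit h ε.isUnit) hprime.not_isUnit
  · exact hprime.dvd_of_dvd_pow h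

/-- The descent step. -/
theorem descent_aux [IsPrincipalIdealRing (𝓞 K)] (hodd : Odd p) (hp3 : 3 ≤ p)
    (KL : ∀ u : (𝓞 K)ˣ, (∃ n : ℤ, (p : 𝓞 K) ∣ (u : 𝓞 K) - n) → ∃ v : (𝓞 K)ˣ, u = v ^ p)
    {x y z0 q0 : 𝓞 K} {ε : (𝓞 K)ˣ} {N : ℕ}
    (hy : ¬ lam hζ ∣ y) (hz0 : ¬ lam hζ ∣ z0) (hxy : IsCoprime x y)
    (H : x ^ p + y ^ p = ε * (lam hζ ^ N * z0) ^ p)
    (hq0 : x + y = lam hζ * q0) (hlq0 : lam hζ ∣ q0) :
    2 ≤ N ∧ ∃ (x' y' z0' : 𝓞 K) (ε' : (𝓞 K)ˣ), ¬ lam hζ ∣ x' ∧ ¬ lam hζ ∣ y' ∧ ¬ lam hζ ∣ z0' ∧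
      IsCoprime x' y' ∧ x' ^ p + y' ^ p = ε' * (lam hζ ^ (N - 1) * z0') ^ p := by
  have hprime := lam_prime hζ
  have hl0 := lam_ne_zero hζ
  have hppos : 0 < p := hp.out.pos
  set q := qq hζ q0 y with hq
  have hfac : ∀ i, x + hζ.toInteger ^ i * y = lam hζ * q i := factor_eq hζ hq0
  have hprod : lam hζ ^ p * ∏ i ∈ range p, q i = ε * (lam hζ ^ N * z0) ^ p := by
    rw [← H, ← prod_formula hζ hodd x y, Finset.prod_congr rfl (fun i _ => hfac i),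
      Finset.prod_mul_distrib, Finset.prod_const, card_range]
  have hN0 : N ≠ 0 := by
    rintro rfl
    rw [pow_zero, one_mul] at hprod
    have : lam hζ ∣ ε * z0 ^ p := hprod ▸ Dvd.dvd.mul_right (dvd_pow_self _ hp.out.ne_zero) _
    exact hz0 (lam_dvd_of_dvd_unit_mul_pow hζ this)
  obtain ⟨M, rfl⟩ : ∃ M, N = M + 1 := ⟨N - 1, by omega⟩
  have hprod' : ∏ i ∈ range p, q i = ε * (lam hζ ^ M * z0) ^ p := by
    apply mul_left_cancel₀ (pow_ne_zero p hl0)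
    rw [hprod]; ring
  have hq0eq : q 0 = q0 := by simp [hq, qq, gs_zero]
  have hM0 : M ≠ 0 := by
    rintro rfl
    rw [pow_zero, one_mul] at hprod'
    have h0 : q 0 ∣ ∏ i ∈ range p, q i := Finset.dvd_prod_of_mem q (mem_range.2 hppos)
    have : lam hζ ∣ ε * z0 ^ p := hprod' ▸ ((hq0eq ▸ hlq0).trans h0)
    exact hz0 (lam_dvd_of_dvd_unit_mul_pow hζ this)
  refine ⟨by omega, ?_⟩
  have hnot : ∀ i, 0 < i → i < p → ¬ lam hζ ∣ q i := by
    intro i hi0 hip hdiv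
    have h3 : lam hζ ∣ gs hζ i * y := by
      have h4 := dvd_sub hdiv hlq0
      simpa [hq, qq] using h4
    rcases hprime.dvd_or_dvd h3 with h | h
    · exact hprime.not_isUnit (isUnit_of_dvd_unit h (gs_isUnit hζ hi0 hip))
    · exact hy h
  have hcop : ∀ k, k < p → IsCoprime (q k) (∏ i ∈ (range p).erase k, q i) := by
    intro k hk
    refine IsCoprime.prod_right fun i hi => ?_
    have hi' := Finset.mem_erase.1 hi
    exact qq_coprime hζ hq0 hxy hk (mem_range.1 hi'.2) (Ne.symm hi'.1)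
  have hsplit : ∀ k, k < p →
      q k * ∏ i ∈ (range p).erase k, q i = ε * (lam hζ ^ M * z0) ^ p := by
    intro k hk
    rw [Finset.mul_prod_erase _ _ (mem_range.2 hk), hprod']
  have hext : ∀ k, k < p → ∃ d : 𝓞 K, Associated (d ^ p) (q k) := by
    intro k hk
    refine exists_associated_pow_of_associated_pow_mul (hcop k hk) (c := lam hζ ^ M * z0) ?_
    rw [hsplit k hk]
    exact associated_unit_mul_right _ _ ε.isUnit
  -- the index 0
  set P' := ∏ i ∈ (range p).erase 0, q i with hP'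
  have hP'not : ¬ lam hζ ∣ P' := by
    intro h
    obtain ⟨i, hi, hdi⟩ := (Prime.dvd_finsetProd_iff hprime _).1 h
    have hi' := Finset.mem_erase.1 hi
    exact hnot i (Nat.pos_of_ne_zero hi'.1) (mem_range.1 hi'.2) hdi
  have h0split := hsplit 0 hppos
  have hpow : lam hζ ^ (p * M) ∣ q 0 := by
    apply hprime.pow_dvd_of_dvd_mul_right _ hP'not
    rw [h0split]; exact ⟨ε * z0 ^ p, by ring⟩
  obtain ⟨q0', hq0'⟩ := hpow
  have h0split' : q0' * P' = ε * z0 ^ p := by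
    apply mul_left_cancel₀ (pow_ne_zero (p * M) hl0)
    rw [← mul_assoc, ← hq0', h0split]; ring
  have hq0'not : ¬ lam hζ ∣ q0' := by
    intro h
    have : lam hζ ∣ ε * z0 ^ p := h0split' ▸ Dvd.dvd.mul_right h _
    exact hz0 (lam_dvd_of_dvd_unit_mul_pow hζ this)
  have hcop0 : IsCoprime q0' P' := by
    have := hcop 0 hppos
    rw [hq0'] at this
    exact IsCoprime.of_mul_left_right this
  obtain ⟨d0, hd0⟩ : ∃ d : 𝓞 K, Associated (d ^ p) q0' := by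
    refine exists_associated_pow_of_associated_pow_mul hcop0 (c := z0) ?_
    rw [h0split']; exact associated_unit_mul_right _ _ ε.isUnit
  obtain ⟨d1, hd1⟩ := hext 1 (by omega)
  obtain ⟨d2, hd2⟩ := hext (p - 1) (by omega)
  obtain ⟨u0, hu0⟩ := hd0
  obtain ⟨u1, hu1⟩ := hd1
  obtain ⟨u2, hu2⟩ := hd2
  have hrel : q 1 + hζ.toInteger * q (p - 1) = (1 + hζ.toInteger) * q 0 := by
    have hgp : gs hζ p = 0 := by
      have := lam_mul_gs hζ p
      rw [zeta_pow_p, sub_self] at this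
      exact (mul_eq_zero.1 this).resolve_left hl0
    have hg : hζ.toInteger * gs hζ (p - 1) = -1 := by
      have h1 := gs_add hζ 1 (p - 1)
      rw [Nat.add_sub_cancel' hp.out.one_le, hgp, gs_one, pow_one] at h1
      linear_combination -h1
    simp only [hq, qq, gs_one, gs_zero]
    linear_combination y * hg
  have hzu : IsUnit hζ.toInteger := hζ.toInteger_isPrimitiveRoot.isUnit hp.out.ne_zero
  have h1zu : IsUnit (1 + hζ.toInteger) := by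
    rw [← gs_two]; exact gs_isUnit hζ (by norm_num) (by omega)
  obtain ⟨zu, hzu'⟩ := hzu
  obtain ⟨wu, hwu'⟩ := h1zu
  have e1 : (u1 : 𝓞 K) * ↑u1⁻¹ = 1 := by simp
  have hnew : d1 ^ p + ((zu * u2 * u1⁻¹ : (𝓞 K)ˣ) : 𝓞 K) * d2 ^ p
      = ((wu * u0 * u1⁻¹ : (𝓞 K)ˣ) : 𝓞 K) * (lam hζ ^ M * d0) ^ p := by
    simp only [Units.val_mul]
    have hL : (lam hζ ^ M * d0) ^ p = lam hζ ^ (p * M) * d0 ^ p := by ring
    rw [hL]
    linear_combination (↑u1⁻¹ : 𝓞 K) * hrel + (↑u1⁻¹ : 𝓞 K) * hu1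
      + (↑u1⁻¹ : 𝓞 K) * zu * hu2 + (↑u1⁻¹ : 𝓞 K) * q (p - 1) * hzu'
      - (↑u1⁻¹ : 𝓞 K) * wu * lam hζ ^ (p * M) * hu0 + (↑u1⁻¹ : 𝓞 K) * wu * hq0'
      - (↑u1⁻¹ : 𝓞 K) * q 0 * hwu' - d1 ^ p * e1
  -- Kummer's lemma input
  obtain ⟨r1, hr1⟩ := exists_nat_lam_dvd_sub hζ d1
  obtain ⟨r2, hr2⟩ := exists_nat_lam_dvd_sub hζ d2
  have hpr1 := p_dvd_pow_sub_pow hζ hodd hr1
  have hpr2 := p_dvd_pow_sub_pow hζ hodd hr2
  have hd2not : ¬ lam hζ ∣ d2 := by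
    intro h
    apply hnot (p - 1) (by omega) (by omega)
    rw [← hu2]
    exact Dvd.dvd.mul_right (h.trans (dvd_pow_self _ hp.out.ne_zero)) _
  have hd1not : ¬ lam hζ ∣ d1 := by
    intro h
    apply hnot 1 (by omega) (by omega)
    rw [← hu1]
    exact Dvd.dvd.mul_right (h.trans (dvd_pow_self _ hp.out.ne_zero)) _
  have hd0not : ¬ lam hζ ∣ d0 := by
    intro h
    apply hq0'not
    rw [← hu0]
    exact Dvd.dvd.mul_right (h.trans (dvd_pow_self _ hp.out.ne_zero)) _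
  have hpr2' : ¬ (p : ℤ) ∣ (r2 : ℤ) ^ p := by
    intro h
    have h5 : (p : ℤ) ∣ (r2 : ℤ) := (Nat.prime_iff_prime_int.1 hp.out).dvd_of_dvd_pow h
    have h6 : lam hζ ∣ ((r2 : ℤ) : 𝓞 K) := (lam_dvd_intCast_iff hζ).2 h5
    apply hd2not
    have h7 := dvd_add hr2 h6
    simpa using h7
  obtain ⟨a, b, hab⟩ : IsCoprime (p : ℤ) ((r2 : ℤ) ^ p) :=
    (Prime.coprime_iff_not_dvd (Nat.prime_iff_prime_int.1 hp.out)).2 hpr2'
  have hab' : (a : 𝓞 K) * (p : 𝓞 K) + (b : 𝓞 K) * (r2 : 𝓞 K) ^ p = 1 := by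
    have := congrArg (Int.cast : ℤ → 𝓞 K) hab
    push_cast at this
    exact this
  have hRHS : (p : 𝓞 K) ∣ (lam hζ ^ M * d0) ^ p := by
    refine (p_dvd_lam_pow hζ).trans (pow_dvd_pow_of_dvd ?_ p)
    exact Dvd.dvd.mul_right (dvd_pow_self _ hM0) _
  obtain ⟨ξ, hξ⟩ := KL (zu * u2 * u1⁻¹) ⟨-(b * (r1 : ℤ) ^ p), by
    obtain ⟨t1, ht1⟩ := hpr1
    obtain ⟨t2, ht2⟩ := hpr2
    obtain ⟨t3, ht3⟩ := hRHS
    set η' : 𝓞 K := ((zu * u2 * u1⁻¹ : (𝓞 K)ˣ) : 𝓞 K) with hη'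
    set ε'' : 𝓞 K := ((wu * u0 * u1⁻¹ : (𝓞 K)ˣ) : 𝓞 K) with hε''
    refine ⟨b * (ε'' * t3 - t1 - η' * t2) + η' * a, ?_⟩
    push_cast
    rw [ht3] at hnew
    linear_combination (b : 𝓞 K) * hnew - (b : 𝓞 K) * ht1 - (b : 𝓞 K) * η' * ht2 - η' * hab'⟩
  refine ⟨d1, ξ * d2, d0, wu * u0 * u1⁻¹, hd1not, ?_, hd0not, ?_, ?_⟩
  · intro h
    rcases hprime.dvd_or_dvd h with h | h
    · exact hprime.not_isUnit (isUnit_of_dvd_unit h ξ.isUnit)
    · exact hd2not h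
  · have h12 : IsCoprime (q 1) (q (p - 1)) :=
      qq_coprime hζ hq0 hxy (by omega) (by omega) (by omega)
    rw [← hu1, ← hu2] at h12
    have h13 : IsCoprime (d1 ^ p) (d2 ^ p) := h12.of_mul_left_left.of_mul_right_left
    have h14 : IsCoprime d1 d2 := (IsCoprime.pow_iff hppos hppos).1 h13
    exact (isCoprime_mul_unit_left_right ξ.isUnit d1 d2).2 h14
  · rw [Nat.add_sub_cancel, mul_pow, ← Units.val_pow_eq_pow_val, ← hξ]
    exact hnew


/-- No solution of the generalised Case II equation, by descent on the exponent of `λ`. -/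
theorem no_solution [IsPrincipalIdealRing (𝓞 K)] (hodd : Odd p) (hp3 : 3 ≤ p)
    (KL : ∀ u : (𝓞 K)ˣ, (∃ n : ℤ, (p : 𝓞 K) ∣ (u : 𝓞 K) - n) → ∃ v : (𝓞 K)ˣ, u = v ^ p) :
    ∀ (n : ℕ) (x y z0 : 𝓞 K) (ε : (𝓞 K)ˣ), ¬ lam hζ ∣ y → ¬ lam hζ ∣ z0 → IsCoprime x y →
      x ^ p + y ^ p ≠ ε * (lam hζ ^ (n + 1) * z0) ^ p := by
  intro n
  induction n with
  | zero =>
    intro x y z0 ε hy hz0 hxy H
    obtain ⟨y', q0, hy'p, hy', hxy', hq0, hlq0⟩ :=
      exists_shift hζ hodd hy hxy (z := lam hζ ^ (0 + 1) * z0) ⟨z0, by ring⟩ H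
    have H' : x ^ p + y' ^ p = ε * (lam hζ ^ (0 + 1) * z0) ^ p := by rw [hy'p]; exact H
    have := (descent_aux hζ hodd hp3 KL hy' hz0 hxy' H' hq0 hlq0).1
    omega
  | succ n ih =>
    intro x y z0 ε hy hz0 hxy H
    obtain ⟨y', q0, hy'p, hy', hxy', hq0, hlq0⟩ :=
      exists_shift hζ hodd hy hxy (z := lam hζ ^ (n + 1 + 1) * z0)
        ⟨lam hζ ^ (n + 1) * z0, by ring⟩ H
    have H' : x ^ p + y' ^ p = ε * (lam hζ ^ (n + 1 + 1) * z0) ^ p := by rw [hy'p]; exact H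
    obtain ⟨-, x', y'', z0', ε', hx', hy'', hz0', hxy'', H''⟩ :=
      descent_aux hζ hodd hp3 KL hy' hz0 hxy' H' hq0 hlq0
    rw [Nat.add_sub_cancel] at H''
    exact ih x' y'' z0' ε' hy'' hz0' hxy'' H''

/-- The generalised Case II statement (same shape as Mathlib's `FermatLastTheoremForThreeGen`). -/
def CaseIIGen : Prop :=
  ∀ x y z : 𝓞 K, ∀ ε : (𝓞 K)ˣ, z ≠ 0 → ¬ (hζ.toInteger - 1) ∣ x → ¬ (hζ.toInteger - 1) ∣ y →
    (hζ.toInteger - 1) ∣ z → IsCoprime x y → x ^ p + y ^ p ≠ ε * z ^ p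

theorem caseIIGen_of_odd [IsPrincipalIdealRing (𝓞 K)] (hp2 : p ≠ 2)
    (KL : ∀ u : (𝓞 K)ˣ, (∃ n : ℤ, (p : 𝓞 K) ∣ (u : 𝓞 K) - n) → ∃ v : (𝓞 K)ˣ, u = v ^ p) :
    CaseIIGen hζ := by
  have hodd : Odd p := hp.out.odd_of_ne_two hp2
  have hp3 : 3 ≤ p := by
    have := hp.out.two_le
    omega
  intro x y z ε hz hx hy hlz hxy
  have hprime := lam_prime hζ
  have hfin : FiniteMultiplicity (lam hζ) z := FiniteMultiplicity.of_not_isUnit hprime.not_isUnit hz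
  obtain ⟨z0, hz0eq, hz0⟩ := hfin.exists_eq_pow_mul_and_not_dvd
  have hm : multiplicity (lam hζ) z ≠ 0 := by
    intro h0
    rw [h0, pow_zero, one_mul] at hz0eq
    exact hz0 (hz0eq ▸ hlz)
  obtain ⟨n, hn⟩ : ∃ n, multiplicity (lam hζ) z = n + 1 := ⟨multiplicity (lam hζ) z - 1, by omega⟩
  rw [hn] at hz0eq
  rw [hz0eq]
  exact no_solution hζ hodd hp3 KL n x y z0 ε hy hz0 hxy

theorem caseIIGen (hp5 : 5 ≤ p) [IsPrincipalIdealRing (𝓞 K)]
    (KL : ∀ u : (𝓞 K)ˣ, (∃ n : ℤ, (p : 𝓞 K) ∣ (u : 𝓞 K) - n) → ∃ v : (𝓞 K)ˣ, u = v ^ p) :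
    CaseIIGen hζ :=
  caseIIGen_of_odd hζ (by omega) KL


/-- coprimality transfer along the Fermat equation. -/
theorem isCoprime_of_eq {a b c : ℤ} (hab : IsCoprime a b) (H : a ^ p + b ^ p = c ^ p) :
    IsCoprime c b := by
  have hppos : 0 < p := hp.out.pos
  have h1 : IsCoprime (a ^ p) b := hab.pow_left
  have h2 : IsCoprime (a ^ p + b * b ^ (p - 1)) b := h1.add_mul_left_left _
  have h3 : b * b ^ (p - 1) = b ^ p := by
    rw [← pow_succ', Nat.sub_add_cancel hp.out.one_le]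
  rw [h3, H] at h2
  exact (IsCoprime.pow_left_iff hppos).1 h2

include hζ in
/-- Case II when `p ∣ c`. -/
theorem caseII_aux [IsPrincipalIdealRing (𝓞 K)] (hp2 : p ≠ 2)
    (KL : ∀ u : (𝓞 K)ˣ, (∃ n : ℤ, (p : 𝓞 K) ∣ (u : 𝓞 K) - n) → ∃ v : (𝓞 K)ˣ, u = v ^ p)
    {a b c : ℤ} (hab : IsCoprime a b) (hc0 : c ≠ 0) (hpc : (p : ℤ) ∣ c) :
    a ^ p + b ^ p ≠ c ^ p := by
  intro H
  have hpZ : Prime (p : ℤ) := Nat.prime_iff_prime_int.1 hp.out
  have hcb : IsCoprime c b := isCoprime_of_eq hab H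
  have hca : IsCoprime c a := isCoprime_of_eq hab.symm (by rw [add_comm]; exact H)
  have hpa : ¬ (p : ℤ) ∣ a := fun h => hpZ.not_isUnit (hca.isUnit_of_dvd' hpc h)
  have hpb : ¬ (p : ℤ) ∣ b := fun h => hpZ.not_isUnit (hcb.isUnit_of_dvd' hpc h)
  refine caseIIGen_of_odd hζ hp2 KL (a : 𝓞 K) (b : 𝓞 K) (c : 𝓞 K) 1 ?_ ?_ ?_ ?_ ?_ ?_
  · exact_mod_cast hc0
  · exact fun h => hpa ((lam_dvd_intCast_iff hζ).1 h)
  · exact fun h => hpb ((lam_dvd_intCast_iff hζ).1 h)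
  · exact (lam_dvd_intCast_iff hζ).2 hpc
  · exact hab.intCast
  · rw [Units.val_one, one_mul]
    exact_mod_cast congrArg (Int.cast : ℤ → 𝓞 K) H

include hζ in
/-- **Case II** of Fermat's Last Theorem for the exponent `p`, assuming `𝓞 K` is a PID and
Kummer's lemma. -/
theorem caseII_of_odd [IsPrincipalIdealRing (𝓞 K)] (hp2 : p ≠ 2)
    (KL : ∀ u : (𝓞 K)ˣ, (∃ n : ℤ, (p : 𝓞 K) ∣ (u : 𝓞 K) - n) → ∃ v : (𝓞 K)ˣ, u = v ^ p)
    {a b c : ℤ} (hab : IsCoprime a b) (habc : a * b * c ≠ 0) (hcase : (p : ℤ) ∣ a * b * c) :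
    a ^ p + b ^ p ≠ c ^ p := by
  intro H
  have hodd : Odd p := hp.out.odd_of_ne_two hp2
  have hpZ : Prime (p : ℤ) := Nat.prime_iff_prime_int.1 hp.out
  have ha0 : a ≠ 0 := fun h => habc (by rw [h]; ring)
  have hb0 : b ≠ 0 := fun h => habc (by rw [h]; ring)
  have hc0 : c ≠ 0 := fun h => habc (by rw [h]; ring)
  have hcb : IsCoprime c b := isCoprime_of_eq hab H
  have hca : IsCoprime c a := isCoprime_of_eq hab.symm (by rw [add_comm]; exact H)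
  rcases hpZ.dvd_or_dvd hcase with h | h
  · rcases hpZ.dvd_or_dvd h with h | h
    · -- p ∣ a : c^p + (-b)^p = a^p
      refine caseII_aux hζ hp2 KL (a := c) (b := -b) (c := a) hcb.neg_right ha0 h ?_
      rw [hodd.neg_pow]; linear_combination -H
    · -- p ∣ b : c^p + (-a)^p = b^p
      refine caseII_aux hζ hp2 KL (a := c) (b := -a) (c := b) hca.neg_right hb0 h ?_
      rw [hodd.neg_pow]; linear_combination -H
  · exact caseII_aux hζ hp2 KL hab hc0 h H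

include hζ in
theorem caseII (hp5 : 5 ≤ p) [IsPrincipalIdealRing (𝓞 K)]
    (KL : ∀ u : (𝓞 K)ˣ, (∃ n : ℤ, (p : 𝓞 K) ∣ (u : 𝓞 K) - n) → ∃ v : (𝓞 K)ˣ, u = v ^ p)
    {a b c : ℤ} (hab : IsCoprime a b) (habc : a * b * c ≠ 0) (hcase : (p : ℤ) ∣ a * b * c) :
    a ^ p + b ^ p ≠ c ^ p :=
  caseII_of_odd hζ (by omega) KL hab habc hcase

end setup

end Fermat.Agent.FLTReg.Alt41

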