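import Mathlib

namespace Fermat.Agent.FLTReg.Alt85

open Finset

/-- The abstract algebraic setting in which the Case II descent is carried out. -/
structure Setting (O : Type*) [CommRing O] [IsDomain O] (p : ℕ) (z : O) : Prop where
  prime : p.Prime
  odd : Odd p
  root : IsPrimitiveRoot z p
  lam_prime : Prime (z - 1)
  p_dvd : (p : O) ∣ (z - 1) ^ (p - 1)
  res : ∀ α : O, ∃ n : ℤ, z - 1 ∣ α - n
  ppow : ∀ α : O, ∃ n : ℤ, (p : O) ∣ α ^ p - n
  int : ∀ n : ℤ, z - 1 ∣ (n : O) → (p : ℤ) ∣ n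
  kl : ∀ u : Oˣ, (∃ n : ℤ, (p : O) ∣ (u : O) - n) → ∃ v : Oˣ, u = v ^ p

namespace Setting

variable {O : Type*} [CommRing O] [IsDomain O] {p : ℕ} {z : O}

section basics

variable (S : Setting O p z)
include S

lemma two_lt : 2 < p := by
  have h2 := S.prime.two_le
  rcases S.odd with ⟨k, hk⟩
  omega

lemma lam_ne_zero : z - 1 ≠ 0 := S.lam_prime.ne_zero

lemma lam_dvd_p : z - 1 ∣ (p : O) := S.root.sub_one_dvd_natCast S.prime.one_lt

lemma z_pow : z ^ p = 1 := S.root.pow_eq_one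

omit [IsDomain O] S in
lemma lam_dvd_pow_sub_one (k : ℕ) : z - 1 ∣ z ^ k - 1 := by
  simpa using sub_dvd_pow_sub_pow z 1 k

/-- The product formula. -/
lemma prod_formula (x y : O) : x ^ p + y ^ p = ∏ i ∈ range p, (x + z ^ i * y) := by
  rw [S.root.pow_add_pow_eq_prod_add_mul x y S.odd]
  symm
  refine Finset.prod_bij (fun i _ => z ^ i) ?_ ?_ ?_ ?_
  · intro i _
    rw [Polynomial.mem_nthRootsFinset S.prime.pos]
    rw [← pow_mul, mul_comm, pow_mul, S.z_pow, one_pow]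
  · intro i hi j hj hij
    exact S.root.pow_inj (mem_range.1 hi) (mem_range.1 hj) hij
  · intro ξ hξ
    rw [Polynomial.mem_nthRootsFinset S.prime.pos] at hξ
    have : NeZero p := ⟨S.prime.ne_zero⟩
    obtain ⟨i, hi, rfl⟩ := S.root.eq_pow_of_pow_eq_one hξ
    exact ⟨i, mem_range.2 hi, rfl⟩
  · intro i _
    rfl

/-- For `0 < k < p`, `z^k - 1 = (z-1) * unit`. -/
lemma exists_unit_pow_sub_one {k : ℕ} (hk0 : 0 < k) (hkp : k < p) :
    ∃ u : Oˣ, z ^ k - 1 = (z - 1) * u := by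
  have hcop : k.Coprime p := (Nat.coprime_of_lt_prime (by omega) hkp S.prime).symm
  obtain ⟨u, hu⟩ := S.root.associated_sub_one_pow_sub_one_of_coprime hcop
  exact ⟨u, hu.symm⟩

lemma one_add_z_isUnit : IsUnit (1 + z) := by
  have hcop : (2 : ℕ).Coprime p := by
    rw [Nat.coprime_comm]
    exact (Nat.coprime_primes S.prime Nat.prime_two).2 (by have := S.two_lt; omega)
  have := S.root.geom_sum_isUnit S.prime.two_le hcop
  simpa [Finset.sum_range_succ] using this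

/-- `λ ∣ (n : O)` iff `p ∣ n` for integers `n`. -/
lemma lam_dvd_intCast_iff (n : ℤ) : z - 1 ∣ (n : O) ↔ (p : ℤ) ∣ n := by
  refine ⟨S.int n, fun ⟨k, hk⟩ => ?_⟩
  rw [hk]
  push_cast
  exact Dvd.dvd.mul_right S.lam_dvd_p _

end basics


section descent

variable (S : Setting O p z)
include S

omit [IsDomain O] S in
/-- `∑_{k<i} z^k ≡ i mod λ`. -/
lemma lam_dvd_geom_sub (i : ℕ) : z - 1 ∣ (∑ k ∈ range i, z ^ k) - (i : O) := by
  have : (∑ k ∈ range i, z ^ k) - (i : O) = ∑ k ∈ range i, (z ^ k - 1) := by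
    rw [Finset.sum_sub_distrib]
    simp
  rw [this]
  exact Finset.dvd_sum fun k _ => lam_dvd_pow_sub_one k

/-- If `λ ∣ x + y` and `λ ∤ y` then some `x + z^i y` is divisible by `λ²`. -/
lemma exists_sq_dvd {x y : O} (hxy : z - 1 ∣ x + y) (hy : ¬ z - 1 ∣ y) :
    ∃ i : ℕ, (z - 1) ^ 2 ∣ x + z ^ i * y := by
  obtain ⟨s, hs⟩ := hxy
  obtain ⟨ns, hns⟩ := S.res s
  obtain ⟨ny, hny⟩ := S.res y
  have hpny : ¬ (p : ℤ) ∣ ny := by
    intro h
    apply hy
    have h1 : z - 1 ∣ (ny : O) := (S.lam_dvd_intCast_iff ny).2 h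
    have := dvd_add hny h1
    simpa using this
  have : Fact p.Prime := ⟨S.prime⟩
  have hny0 : (ny : ZMod p) ≠ 0 := by
    intro h
    exact hpny ((ZMod.intCast_zmod_eq_zero_iff_dvd ny p).1 h)
  let t : ZMod p := - (ns : ZMod p) / (ny : ZMod p)
  let i : ℕ := t.val
  have hi : ((ns + i * ny : ℤ) : ZMod p) = 0 := by
    push_cast
    simp only [i, ZMod.natCast_val, ZMod.cast_id', id_eq, t]
    field_simp
    ring
  have hdiv : (p : ℤ) ∣ ns + i * ny := (ZMod.intCast_zmod_eq_zero_iff_dvd _ p).1 hi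
  have hdiv' : z - 1 ∣ ((ns + i * ny : ℤ) : O) := (S.lam_dvd_intCast_iff _).2 hdiv
  refine ⟨i, ?_⟩
  have key : x + z ^ i * y = (z - 1) * (s + (∑ k ∈ range i, z ^ k) * y) := by
    have hg : (z - 1) * (∑ k ∈ range i, z ^ k) = z ^ i - 1 := mul_geom_sum z i
    linear_combination hs - y * hg
  rw [key, pow_two]
  refine mul_dvd_mul_left _ ?_
  have h3 := lam_dvd_geom_sub (z := z) i
  have : s + (∑ k ∈ range i, z ^ k) * y
      = (s - ns) + ((∑ k ∈ range i, z ^ k) - (i : O)) * y + (i : O) * (y - ny)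
        + ((ns + i * ny : ℤ) : O) := by
    push_cast
    ring
  rw [this]
  exact dvd_add (dvd_add (dvd_add hns (Dvd.dvd.mul_right h3 _)) (Dvd.dvd.mul_left hny _)) hdiv'

end descent


section descent2

variable (S : Setting O p z)
include S

lemma z_isUnit : IsUnit z := S.root.isUnit S.prime.ne_zero

/-- The cofactors `b i = (x + z^i y)/λ` are pairwise coprime. -/
lemma coprime_b {x y : O} (hxy : IsCoprime x y) {b : ℕ → O}
    (hb : ∀ i, x + z ^ i * y = (z - 1) * b i) {i j : ℕ} (hji : j < i) (hip : i < p) :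
    IsCoprime (b i) (b j) := by
  obtain ⟨u, hu⟩ := S.exists_unit_pow_sub_one (k := i - j) (by omega) (by omega)
  have hz : z ^ i = z ^ j * z ^ (i - j) := by
    rw [← pow_add]
    congr 1
    omega
  have hl0 := S.lam_ne_zero
  have h1 : b i - b j = z ^ j * u * y := by
    apply mul_left_cancel₀ hl0
    linear_combination (-1) * hb i + hb j + y * hz + z ^ j * y * hu
  have h2 : z ^ j * b i - z ^ i * b j = -(z ^ j * u * x) := by
    apply mul_left_cancel₀ hl0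
    linear_combination (-(z ^ j)) * hb i + z ^ i * hb j - x * hz - z ^ j * x * hu
  have hv : IsUnit (z ^ j * (u : O)) := (S.z_isUnit.pow j).mul u.isUnit
  obtain ⟨v', hv'⟩ := isUnit_iff_exists_inv.1 hv
  obtain ⟨r, t, hrt⟩ := hxy
  refine ⟨v' * (t - r * z ^ j), v' * (r * z ^ i - t), ?_⟩
  linear_combination (v' * t) * h1 - (v' * r) * h2 + (r * x + t * y) * hv' + hrt

/-- The mod `p` argument and Kummer's lemma: the unit `η'` is a `p`-th power. -/
lemma unit_eq_pow {ρ1 ρ2 ρ0 : O} {η' η'' : Oˣ} {m : ℕ} (hm : 2 ≤ m)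
    (hρ2 : ¬ z - 1 ∣ ρ2)
    (heq : ρ1 ^ p + η' * ρ2 ^ p = η'' * ((z - 1) ^ (m - 1) * ρ0) ^ p) :
    ∃ ξ : Oˣ, η' = ξ ^ p := by
  apply S.kl
  have hpos : 0 < p := S.prime.pos
  -- p divides the right hand side
  have hN : p - 1 ≤ (m - 1) * p := by
    have h1 : 1 ≤ m - 1 := by omega
    calc p - 1 ≤ 1 * p := by omega
      _ ≤ (m - 1) * p := Nat.mul_le_mul_right p h1
  have hpR : (p : O) ∣ ρ1 ^ p + η' * ρ2 ^ p := by
    rw [heq, mul_pow, ← pow_mul]
    exact Dvd.dvd.mul_left (Dvd.dvd.mul_right (dvd_trans S.p_dvd (pow_dvd_pow _ hN)) _) _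
  obtain ⟨n1, hn1⟩ := S.ppow ρ1
  obtain ⟨n2, hn2⟩ := S.ppow ρ2
  have hsum : (p : O) ∣ (n1 : O) + η' * n2 := by
    have : (n1 : O) + η' * n2 = (ρ1 ^ p + η' * ρ2 ^ p) - (ρ1 ^ p - n1) - η' * (ρ2 ^ p - n2) := by
      ring
    rw [this]
    exact dvd_sub (dvd_sub hpR hn1) (Dvd.dvd.mul_left hn2 _)
  have hpn2 : ¬ (p : ℤ) ∣ n2 := by
    intro h
    apply hρ2
    have h1 : z - 1 ∣ (n2 : O) := (S.lam_dvd_intCast_iff n2).2 h
    have h2 : z - 1 ∣ ρ2 ^ p - n2 := dvd_trans S.lam_dvd_p hn2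
    have h3 : z - 1 ∣ ρ2 ^ p := by simpa using dvd_add h2 h1
    exact S.lam_prime.dvd_of_dvd_pow h3
  have hcop : IsCoprime (p : ℤ) n2 :=
    (Nat.prime_iff_prime_int.1 S.prime).irreducible.coprime_iff_not_dvd.2 hpn2
  obtain ⟨a, b, hab⟩ := hcop
  refine ⟨-(n1 * b), ?_⟩
  have hab' : (a : O) * p + b * n2 = 1 := by exact_mod_cast congrArg (Int.cast : ℤ → O) hab
  have : (η' : O) - ((-(n1 * b) : ℤ) : O) = ((n1 : O) + η' * n2) * b + (p : O) * (η' * a) := by
    push_cast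
    linear_combination (-(η' : O)) * hab'
  rw [this]
  exact dvd_add (Dvd.dvd.mul_right hsum _) (dvd_mul_right _ _)

end descent2


section descent3

variable [IsPrincipalIdealRing O] (S : Setting O p z)
include S

omit [IsPrincipalIdealRing O] in
/-- In a solution with `m ≥ 1`, `λ ∤ y`. -/
lemma not_dvd_of_sol {x y w : O} {ε : Oˣ} {m : ℕ} (hm : 1 ≤ m) (hxy : IsCoprime x y)
    (H : x ^ p + y ^ p = ε * ((z - 1) ^ m * w) ^ p) : ¬ z - 1 ∣ y := by
  intro hy
  have hp0 : p ≠ 0 := S.prime.ne_zero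
  have h1 : z - 1 ∣ (ε : O) * ((z - 1) ^ m * w) ^ p :=
    Dvd.dvd.mul_left (dvd_pow (Dvd.dvd.mul_right (dvd_pow_self _ (by omega)) _) hp0) _
  have h2 : z - 1 ∣ x ^ p := by
    have : x ^ p = (ε : O) * ((z - 1) ^ m * w) ^ p - y ^ p := by rw [← H]; ring
    rw [this]
    exact dvd_sub h1 (dvd_pow hy hp0)
  have h3 : z - 1 ∣ x := S.lam_prime.dvd_of_dvd_pow h2
  exact S.lam_prime.not_isUnit (hxy.isUnit_of_dvd' h3 hy)

omit [IsPrincipalIdealRing O] in
/-- In a solution with `m ≥ 1`, `λ ∣ x + y`. -/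
lemma lam_dvd_add_of_sol {x y w : O} {ε : Oˣ} {m : ℕ} (hm : 1 ≤ m)
    (H : x ^ p + y ^ p = ε * ((z - 1) ^ m * w) ^ p) : z - 1 ∣ x + y := by
  have hp0 : p ≠ 0 := S.prime.ne_zero
  have h1 : z - 1 ∣ (ε : O) * ((z - 1) ^ m * w) ^ p :=
    Dvd.dvd.mul_left (dvd_pow (Dvd.dvd.mul_right (dvd_pow_self _ (by omega)) _) hp0) _
  rw [← H, S.prod_formula] at h1
  obtain ⟨i, _, hi⟩ := (S.lam_prime.dvd_finsetProd_iff _).1 h1
  have : x + y = (x + z ^ i * y) - (z ^ i - 1) * y := by ring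
  rw [this]
  exact dvd_sub hi (Dvd.dvd.mul_right (lam_dvd_pow_sub_one i) _)

/-- The core of the descent, under the normalisation `λ² ∣ x + y`. -/
lemma descent_core {x y w : O} {ε : Oˣ} {m : ℕ} (hm : 1 ≤ m) (hxy : IsCoprime x y)
    (hw : ¬ z - 1 ∣ w) (H : x ^ p + y ^ p = ε * ((z - 1) ^ m * w) ^ p)
    (hsq : (z - 1) ^ 2 ∣ x + y) :
    2 ≤ m ∧ ∃ (x' y' w' : O) (ε' : Oˣ), IsCoprime x' y' ∧ ¬ z - 1 ∣ w' ∧
      x' ^ p + y' ^ p = ε' * ((z - 1) ^ (m - 1) * w') ^ p := by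
  classical
  have hy : ¬ z - 1 ∣ y := S.not_dvd_of_sol hm hxy H
  have hl0 := S.lam_ne_zero
  have hlp := S.lam_prime
  have hp0 : p ≠ 0 := S.prime.ne_zero
  have hppos : 0 < p := S.prime.pos
  have hp2 : 2 < p := S.two_lt
  -- all factors divisible by λ
  have hdiv : ∀ i : ℕ, z - 1 ∣ x + z ^ i * y := by
    intro i
    have h0 : z - 1 ∣ x + y := dvd_trans (dvd_pow_self _ two_ne_zero) hsq
    have : x + z ^ i * y = (x + y) + (z ^ i - 1) * y := by ring
    rw [this]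
    exact dvd_add h0 (Dvd.dvd.mul_right (lam_dvd_pow_sub_one i) _)
  choose b hb using hdiv
  have hb0' : x + y = (z - 1) * b 0 := by
    have h := hb 0
    rwa [pow_zero, one_mul] at h
  -- b 0 divisible by λ
  have hb0 : z - 1 ∣ b 0 := by
    rw [hb0', pow_two] at hsq
    exact (mul_dvd_mul_iff_left hl0).1 hsq
  -- b i not divisible by λ for 0<i<p
  have hbi : ∀ i, 0 < i → i < p → ¬ z - 1 ∣ b i := by
    intro i hi0 hip hdvd
    obtain ⟨u, hu⟩ := S.exists_unit_pow_sub_one hi0 hip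
    have h1 : b i = b 0 + u * y := by
      apply mul_left_cancel₀ hl0
      linear_combination (-1) * hb i + hb0' + y * hu
    rw [h1] at hdvd
    have : z - 1 ∣ (u : O) * y := (dvd_add_right hb0).1 hdvd
    rcases hlp.dvd_or_dvd this with h | h
    · exact hlp.not_isUnit (isUnit_of_dvd_unit h u.isUnit)
    · exact hy h
  -- pairwise coprime
  have hcop : ∀ i j, i < p → j < p → i ≠ j → IsCoprime (b i) (b j) := by
    intro i j hi hj hij
    rcases lt_or_gt_of_ne hij with h | h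
    · exact (S.coprime_b hxy hb h hj).symm
    · exact S.coprime_b hxy hb h hi
  -- product formula
  have hprod : ∏ i ∈ range p, b i = ε * ((z - 1) ^ (m - 1) * w) ^ p := by
    have h1 : ∏ i ∈ range p, (x + z ^ i * y) = (z - 1) ^ p * ∏ i ∈ range p, b i := by
      rw [Finset.prod_congr rfl (fun i _ => hb i), Finset.prod_mul_distrib, Finset.prod_const,
        card_range]
    have h2 : (z - 1) ^ p * ∏ i ∈ range p, b i
        = (z - 1) ^ p * (ε * ((z - 1) ^ (m - 1) * w) ^ p) := by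
      rw [← h1, ← S.prod_formula, H]
      obtain ⟨k, rfl⟩ : ∃ k, m = k + 1 := ⟨m - 1, by omega⟩
      simp only [add_tsub_cancel_right]
      generalize z - 1 = l
      ring
    exact mul_left_cancel₀ (pow_ne_zero _ hl0) h2
  -- m ≥ 2
  have hm2 : 2 ≤ m := by
    by_contra hlt
    have hm1 : m = 1 := by omega
    subst hm1
    have h1 : z - 1 ∣ ∏ i ∈ range p, b i :=
      dvd_trans hb0 (Finset.dvd_prod_of_mem b (mem_range.2 hppos))
    rw [hprod] at h1
    simp only [le_refl, tsub_eq_zero_of_le, pow_zero, one_mul] at h1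
    rcases hlp.dvd_or_dvd h1 with h | h
    · exact hlp.not_isUnit (isUnit_of_dvd_unit h ε.isUnit)
    · exact hw (hlp.dvd_of_dvd_pow h)
  refine ⟨hm2, ?_⟩
  -- coprimality with the rest of the product
  have hrest : ∀ i0, i0 < p → IsCoprime (b i0) (∏ j ∈ (range p).erase i0, b j) := by
    intro i0 hi0
    refine IsCoprime.prod_right fun j hj => ?_
    exact hcop i0 j hi0 (mem_range.1 (mem_of_mem_erase hj)) (ne_of_mem_erase hj).symm
  have hsplit : ∀ i0, i0 < p → b i0 * ∏ j ∈ (range p).erase i0, b j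
      = ε * ((z - 1) ^ (m - 1) * w) ^ p := by
    intro i0 hi0
    rw [Finset.mul_prod_erase _ _ (mem_range.2 hi0), hprod]
  -- p-th powers for i0 ≠ 0
  have hpow : ∀ i0, i0 < p → ∃ (ρ : O) (η : Oˣ), ρ ^ p * η = b i0 := by
    intro i0 hi0
    have hass : Associated (((z - 1) ^ (m - 1) * w) ^ p)
        (b i0 * ∏ j ∈ (range p).erase i0, b j) := by
      rw [hsplit i0 hi0]
      exact associated_unit_mul_right _ _ ε.isUnit
    obtain ⟨ρ, hρ⟩ := exists_associated_pow_of_associated_pow_mul (hrest i0 hi0) hass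
    obtain ⟨η, hη⟩ := hρ
    exact ⟨ρ, η, hη⟩
  -- the special factor b 0
  set N : ℕ := (m - 1) * p with hN
  set R : O := ∏ j ∈ (range p).erase 0, b j with hR
  have hR0 : b 0 * R = (z - 1) ^ N * (ε * w ^ p) := by
    rw [hsplit 0 hppos, mul_pow, ← pow_mul]
    ring
  have hlR : ¬ z - 1 ∣ R := by
    intro h
    obtain ⟨j, hj, hj'⟩ := (hlp.dvd_finsetProd_iff _).1 h
    have hj0 : j ≠ 0 := ne_of_mem_erase hj
    exact hbi j (Nat.pos_of_ne_zero hj0) (mem_range.1 (mem_of_mem_erase hj)) hj'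
  have hcopR : IsCoprime ((z - 1) ^ N) R :=
    (hlp.irreducible.coprime_iff_not_dvd.2 hlR).pow_left
  have hNdvd : (z - 1) ^ N ∣ b 0 := by
    apply hcopR.dvd_of_dvd_mul_right
    rw [hR0]
    exact dvd_mul_right _ _
  obtain ⟨c0, hc0⟩ := hNdvd
  have hc0R : c0 * R = ε * w ^ p := by
    apply mul_left_cancel₀ (pow_ne_zero N hl0)
    rw [← hR0, hc0]
    ring
  have hcopc0 : IsCoprime c0 R := by
    have := hrest 0 hppos
    rw [hc0] at this
    exact this.of_mul_left_right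
  obtain ⟨ρ0, hρ0⟩ := exists_associated_pow_of_associated_pow_mul hcopc0
    (show Associated (w ^ p) (c0 * R) by rw [hc0R]; exact associated_unit_mul_right _ _ ε.isUnit)
  obtain ⟨η0, hη0⟩ := hρ0
  have hlρ0 : ¬ z - 1 ∣ ρ0 := by
    intro h
    have h1 : z - 1 ∣ c0 := by
      rw [← hη0]
      exact Dvd.dvd.mul_right (dvd_pow h hp0) _
    have h2 : z - 1 ∣ (ε : O) * w ^ p := by
      rw [← hc0R]
      exact Dvd.dvd.mul_right h1 _
    rcases hlp.dvd_or_dvd h2 with h | h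
    · exact hlp.not_isUnit (isUnit_of_dvd_unit h ε.isUnit)
    · exact hw (hlp.dvd_of_dvd_pow h)
  -- the two other factors
  obtain ⟨ρ1, η1, h1⟩ := hpow 1 (by omega)
  obtain ⟨ρ2, η2, h2⟩ := hpow (p - 1) (by omega)
  have hlρ2 : ¬ z - 1 ∣ ρ2 := by
    intro h
    apply hbi (p - 1) (by omega) (by omega)
    rw [← h2]
    exact Dvd.dvd.mul_right (dvd_pow h hp0) _
  -- the identity
  have hzp : z * z ^ (p - 1) = 1 := by
    rw [← pow_succ', Nat.sub_add_cancel hppos, S.z_pow]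
  have hid : b 1 + z * b (p - 1) = (1 + z) * b 0 := by
    apply mul_left_cancel₀ hl0
    linear_combination (-1) * hb 1 - z * hb (p - 1) + (1 + z) * hb0' + y * hzp
  obtain ⟨u2, hu2⟩ := S.one_add_z_isUnit
  obtain ⟨zu, hzu⟩ := S.z_isUnit
  -- new equation
  have hnew : ρ1 ^ p + ((zu * η2 * η1⁻¹ : Oˣ) : O) * ρ2 ^ p
      = ((u2 * η0 * η1⁻¹ : Oˣ) : O) * ((z - 1) ^ (m - 1) * ρ0) ^ p := by
    have he : (η1 : O) * ((η1⁻¹ : Oˣ) : O) = 1 := by
      rw [← Units.val_mul, mul_inv_cancel, Units.val_one]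
    rw [mul_pow, ← pow_mul, ← hN]
    push_cast
    rw [hzu, hu2]
    rw [← h1, ← h2, hc0, ← hη0] at hid
    linear_combination ((η1⁻¹ : Oˣ) : O) * hid - ρ1 ^ p * he
  obtain ⟨ξ, hξ⟩ := S.unit_eq_pow hm2 hlρ2 hnew
  refine ⟨ρ1, ξ * ρ2, ρ0, u2 * η0 * η1⁻¹, ?_, hlρ0, ?_⟩
  · -- coprime
    have h12 : IsCoprime (b 1) (b (p - 1)) := hcop 1 (p - 1) (by omega) (by omega) (by omega)
    have hd1 : ρ1 ∣ b 1 := by rw [← h1]; exact Dvd.dvd.mul_right (dvd_pow_self _ hp0) _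
    have hd2 : ρ2 ∣ b (p - 1) := by rw [← h2]; exact Dvd.dvd.mul_right (dvd_pow_self _ hp0) _
    have := (h12.of_isCoprime_of_dvd_left hd1).of_isCoprime_of_dvd_right hd2
    exact (isCoprime_mul_unit_left_right ξ.isUnit _ _).2 this
  · rw [← hnew, hξ, mul_pow]
    push_cast
    ring

end descent3


section descent4

variable [IsPrincipalIdealRing O] (S : Setting O p z)
include S

/-- The descent step without normalisation. -/
lemma descent {x y w : O} {ε : Oˣ} {m : ℕ} (hm : 1 ≤ m) (hxy : IsCoprime x y)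
    (hw : ¬ z - 1 ∣ w) (H : x ^ p + y ^ p = ε * ((z - 1) ^ m * w) ^ p) :
    2 ≤ m ∧ ∃ (x' y' w' : O) (ε' : Oˣ), IsCoprime x' y' ∧ ¬ z - 1 ∣ w' ∧
      x' ^ p + y' ^ p = ε' * ((z - 1) ^ (m - 1) * w') ^ p := by
  have hy := S.not_dvd_of_sol hm hxy H
  have hadd := S.lam_dvd_add_of_sol hm H
  obtain ⟨i, hi⟩ := S.exists_sq_dvd hadd hy
  have hzi : IsUnit (z ^ i) := S.z_isUnit.pow i
  have H' : x ^ p + (z ^ i * y) ^ p = ε * ((z - 1) ^ m * w) ^ p := by
    rw [mul_pow, ← pow_mul, mul_comm i p, pow_mul, S.z_pow, one_pow, one_mul]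
    exact H
  exact S.descent_core hm ((isCoprime_mul_unit_left_right hzi x y).2 hxy) hw H' hi

/-- There is no solution at any level `m ≥ 1`. -/
lemma no_sol : ∀ m : ℕ, 1 ≤ m → ∀ (x y w : O) (ε : Oˣ), IsCoprime x y → ¬ z - 1 ∣ w →
    x ^ p + y ^ p ≠ ε * ((z - 1) ^ m * w) ^ p := by
  intro m
  induction m with
  | zero => intro h; omega
  | succ k ih =>
    intro _ x y w ε hxy hw H
    obtain ⟨h2, x', y', w', ε', hxy', hw', H'⟩ := S.descent (by omega) hxy hw H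
    simp only [add_tsub_cancel_right] at H'
    exact ih (by omega) x' y' w' ε' hxy' hw' H'

/-- Case II in the abstract setting. -/
lemma caseII_abstract (x y c : O) (ε : Oˣ) (hc0 : c ≠ 0) (hc : z - 1 ∣ c)
    (hxy : IsCoprime x y) : x ^ p + y ^ p ≠ ε * c ^ p := by
  obtain ⟨m, w, hw, rfl⟩ := WfDvdMonoid.max_power_factor hc0 S.lam_prime.irreducible
  have hm : 1 ≤ m := by
    by_contra h
    have h0 : m = 0 := by omega
    subst h0
    rw [pow_zero, one_mul] at hc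
    exact hw hc
  exact S.no_sol m hm x y w ε hxy hw

end descent4

end Setting


section NumberFieldPart

open NumberField IsCyclotomicExtension

variable {p : ℕ} [hp : Fact p.Prime] {K : Type*} [Field K] [NumberField K]
  [IsCyclotomicExtension {p} ℚ K] {ζ : K} (hζ : IsPrimitiveRoot ζ p)

lemma adjoin_toInteger_eq_top : Algebra.adjoin ℤ {hζ.toInteger} = ⊤ := by
  have := hζ.integralPowerBasis.adjoin_gen_eq_top
  rwa [hζ.integralPowerBasis_gen] at this

/-- Every algebraic integer of `K` is congruent to a rational integer modulo `ζ - 1`. -/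
lemma exists_int_sub_dvd (α : 𝓞 K) : ∃ n : ℤ, hζ.toInteger - 1 ∣ α - n := by
  have hα : α ∈ Algebra.adjoin ℤ {hζ.toInteger} := by
    rw [adjoin_toInteger_eq_top hζ]; trivial
  induction hα using Algebra.adjoin_induction with
  | mem x hx =>
    rw [Set.mem_singleton_iff] at hx
    subst hx
    exact ⟨1, by simp⟩
  | algebraMap r => exact ⟨r, by simp⟩
  | add x y _ _ hx hy =>
    obtain ⟨a, ha⟩ := hx
    obtain ⟨b, hb⟩ := hy
    refine ⟨a + b, ?_⟩
    have : x + y - ((a + b : ℤ) : 𝓞 K) = (x - a) + (y - b) := by push_cast; ring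
    rw [this]
    exact dvd_add ha hb
  | mul x y _ _ hx hy =>
    obtain ⟨a, ha⟩ := hx
    obtain ⟨b, hb⟩ := hy
    refine ⟨a * b, ?_⟩
    have : x * y - ((a * b : ℤ) : 𝓞 K) = (x - a) * y + a * (y - b) := by push_cast; ring
    rw [this]
    exact dvd_add (Dvd.dvd.mul_right ha _) (Dvd.dvd.mul_left hb _)

include hζ in
/-- Every `p`-th power of an algebraic integer of `K` is congruent to a rational integer
modulo `p`. -/
lemma exists_int_pow_sub_dvd (α : 𝓞 K) : ∃ n : ℤ, (p : 𝓞 K) ∣ α ^ p - n := by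
  have hα : α ∈ Algebra.adjoin ℤ {hζ.toInteger} := by
    rw [adjoin_toInteger_eq_top hζ]; trivial
  induction hα using Algebra.adjoin_induction with
  | mem x hx =>
    rw [Set.mem_singleton_iff] at hx
    subst hx
    refine ⟨1, ?_⟩
    rw [hζ.toInteger_isPrimitiveRoot.pow_eq_one]
    simp
  | algebraMap r => exact ⟨r ^ p, by simp⟩
  | add x y _ _ hx hy =>
    obtain ⟨a, ha⟩ := hx
    obtain ⟨b, hb⟩ := hy
    refine ⟨a + b, ?_⟩
    obtain ⟨r, hr⟩ := exists_add_pow_prime_eq hp.out x y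
    have : (x + y) ^ p - ((a + b : ℤ) : 𝓞 K) = (x ^ p - a) + (y ^ p - b) + p * (x * y * r) := by
      rw [hr]; push_cast; ring
    rw [this]
    exact dvd_add (dvd_add ha hb) (dvd_mul_right _ _)
  | mul x y _ _ hx hy =>
    obtain ⟨a, ha⟩ := hx
    obtain ⟨b, hb⟩ := hy
    refine ⟨a * b, ?_⟩
    have : (x * y) ^ p - ((a * b : ℤ) : 𝓞 K) = (x ^ p - a) * y ^ p + a * (y ^ p - b) := by
      push_cast; ring
    rw [this]
    exact dvd_add (Dvd.dvd.mul_right ha _) (Dvd.dvd.mul_left hb _)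

/-- The cyclotomic ring of integers gives an instance of the abstract setting. -/
lemma setting (hp5 : 5 ≤ p)
    (KL : ∀ u : (𝓞 K)ˣ, (∃ n : ℤ, (p : 𝓞 K) ∣ (u : 𝓞 K) - n) → ∃ v : (𝓞 K)ˣ, u = v ^ p) :
    Setting (𝓞 K) p hζ.toInteger where
  prime := hp.out
  odd := hp.out.odd_of_ne_two (by omega)
  root := hζ.toInteger_isPrimitiveRoot
  lam_prime := hζ.zeta_sub_one_prime'
  p_dvd := (Rat.associated_zeta_sub_one_pow_prime p hζ).symm.dvd
  res := exists_int_sub_dvd hζ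
  ppow := exists_int_pow_sub_dvd hζ
  int := fun _ h => (Rat.zeta_sub_one_dvd_intCast_iff' p hζ).1 h
  kl := KL

end NumberFieldPart


section Export

open NumberField

variable {p : ℕ} [Fact p.Prime] {K : Type*} [Field K] [NumberField K]
  [IsCyclotomicExtension {p} ℚ K] {ζ : K} (hζ : IsPrimitiveRoot ζ p)

/-- The generalised Case II statement over `𝓞 K`. -/
def CaseIIGen : Prop :=
  ∀ x y z : 𝓞 K, ∀ ε : (𝓞 K)ˣ, z ≠ 0 → ¬ (hζ.toInteger - 1) ∣ x → ¬ (hζ.toInteger - 1) ∣ y →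
    (hζ.toInteger - 1) ∣ z → IsCoprime x y → x ^ p + y ^ p ≠ ε * z ^ p

/-- Case II of Fermat's Last Theorem (generalised form over `𝓞 K`) for a prime `p ≥ 5` such that
`𝓞 K` is a PID and Kummer's lemma holds. -/
theorem caseIIGen (hp5 : 5 ≤ p) [IsPrincipalIdealRing (𝓞 K)]
    (KL : ∀ u : (𝓞 K)ˣ, (∃ n : ℤ, (p : 𝓞 K) ∣ (u : 𝓞 K) - n) → ∃ v : (𝓞 K)ˣ, u = v ^ p) :
    CaseIIGen hζ := by
  intro x y z ε hz _ _ hlz hxy
  exact (setting hζ hp5 KL).caseII_abstract x y z ε hz hlz hxy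

include hζ in
/-- Case II over `ℤ` when `p ∣ c`. -/
theorem caseII_of_dvd_c (hp5 : 5 ≤ p) [IsPrincipalIdealRing (𝓞 K)]
    (KL : ∀ u : (𝓞 K)ˣ, (∃ n : ℤ, (p : 𝓞 K) ∣ (u : 𝓞 K) - n) → ∃ v : (𝓞 K)ˣ, u = v ^ p)
    {a b c : ℤ} (hab : IsCoprime a b) (hc0 : c ≠ 0) (hpc : (p : ℤ) ∣ c) :
    a ^ p + b ^ p ≠ c ^ p := by
  intro H
  have S := setting hζ hp5 KL
  have H' : (a : 𝓞 K) ^ p + (b : 𝓞 K) ^ p = ((1 : (𝓞 K)ˣ) : 𝓞 K) * (c : 𝓞 K) ^ p := by
    rw [Units.val_one, one_mul]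
    exact_mod_cast congrArg (Int.cast : ℤ → 𝓞 K) H
  refine S.caseII_abstract (a : 𝓞 K) b c 1 ?_ ?_ ?_ H'
  · exact_mod_cast hc0
  · exact (S.lam_dvd_intCast_iff c).2 hpc
  · exact hab.intCast

lemma isCoprime_of_pow_add_pow_eq {a b c : ℤ} {n : ℕ} (hn : 0 < n) (hab : IsCoprime a b)
    (H : a ^ n + b ^ n = c ^ n) : IsCoprime c b := by
  rw [← IsCoprime.pow_left_iff hn, ← H]
  obtain ⟨u, v, huv⟩ := (hab.pow_left : IsCoprime (a ^ n) b)
  obtain ⟨k, rfl⟩ : ∃ k, n = k + 1 := ⟨n - 1, by omega⟩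
  refine ⟨u, v - u * b ^ k, ?_⟩
  linear_combination huv

include hζ in
/-- Case II of Fermat's Last Theorem over `ℤ` for a prime `p ≥ 5` such that `𝓞 K` is a PID and
Kummer's lemma holds. -/
theorem caseII (hp5 : 5 ≤ p) [IsPrincipalIdealRing (𝓞 K)]
    (KL : ∀ u : (𝓞 K)ˣ, (∃ n : ℤ, (p : 𝓞 K) ∣ (u : 𝓞 K) - n) → ∃ v : (𝓞 K)ˣ, u = v ^ p)
    {a b c : ℤ} (hab : IsCoprime a b) (habc : a * b * c ≠ 0) (hcase : (p : ℤ) ∣ a * b * c) :
    a ^ p + b ^ p ≠ c ^ p := by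
  intro H
  have hprime : p.Prime := Fact.out
  have hpp : Prime (p : ℤ) := Nat.prime_iff_prime_int.1 hprime
  have hodd : Odd p := hprime.odd_of_ne_two (by omega)
  have hppos : 0 < p := hprime.pos
  have ha0 : a ≠ 0 := fun h => habc (by rw [h]; ring)
  have hb0 : b ≠ 0 := fun h => habc (by rw [h]; ring)
  have hc0 : c ≠ 0 := fun h => habc (by rw [h]; ring)
  rcases hpp.dvd_or_dvd hcase with h | h
  · rcases hpp.dvd_or_dvd h with h | h
    · -- p ∣ a : c^p + (-b)^p = a^p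
      have hcb : IsCoprime c (-b) := (isCoprime_of_pow_add_pow_eq hppos hab H).neg_right
      refine caseII_of_dvd_c hζ hp5 KL hcb ha0 h ?_
      rw [hodd.neg_pow]
      linarith
    · -- p ∣ b : c^p + (-a)^p = b^p
      have hca : IsCoprime c (-a) :=
        (isCoprime_of_pow_add_pow_eq hppos hab.symm (by linarith)).neg_right
      refine caseII_of_dvd_c hζ hp5 KL hca hb0 h ?_
      rw [hodd.neg_pow]
      linarith
  · exact caseII_of_dvd_c hζ hp5 KL hab hc0 h H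

end Export

end Fermat.Agent.FLTReg.Alt85
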