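/-
Case II of Fermat's Last Theorem for a regular prime `p`, principal ideal domain version:
the abstract descent.  Everything here happens in an abstract principal ideal domain `R`
containing a primitive `p`-th root of unity `ζ` such that `ζ - 1` is prime, every element is
congruent to a rational integer modulo `ζ - 1`, `(ζ - 1) ^ (p - 1)` is associated to `p`, and
Kummer's lemma holds.  (helper33, independent implementation of FLTREG/CASE2.)
-/
import Mathlib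

set_option autoImplicit false
set_option linter.unusedSectionVars false

namespace Fermat.Agent.FLTReg.CaseIIb

open Polynomial Finset

/-- The abstract hypotheses on `(R, p, ζ)` needed for the Case II descent. -/
structure Setup (R : Type*) [CommRing R] (p : ℕ) (ζ : R) : Prop where
  prime_p : p.Prime
  odd : p ≠ 2
  prim : IsPrimitiveRoot ζ p
  prime_lam : Prime (ζ - 1)
  cong_int : ∀ x : R, ∃ n : ℤ, (ζ - 1) ∣ x - (n : R)
  int_dvd : ∀ n : ℤ, (ζ - 1) ∣ (n : R) → (p : ℤ) ∣ n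
  assoc : Associated ((ζ - 1) ^ (p - 1)) (p : R)
  kummer : ∀ u : Rˣ, (∃ n : ℤ, (p : R) ∣ (u : R) - (n : R)) → ∃ v : Rˣ, u = v ^ p

variable {R : Type*} [CommRing R] [IsDomain R] {p : ℕ} {ζ : R}

namespace Setup

variable (S : Setup R p ζ)
include S

theorem two_lt : 2 < p := lt_of_le_of_ne S.prime_p.two_le (Ne.symm S.odd)

theorem odd_p : Odd p := S.prime_p.odd_of_ne_two S.odd

theorem lam_dvd_p : (ζ - 1) ∣ (p : R) :=
  (dvd_pow_self (ζ - 1) (by have := S.two_lt; omega)).trans S.assoc.dvd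

theorem p_dvd_lam_pow {k : ℕ} (hk : p - 1 ≤ k) : (p : R) ∣ (ζ - 1) ^ k :=
  S.assoc.symm.dvd.trans (pow_dvd_pow _ hk)

theorem lam_dvd_int_iff (n : ℤ) : (ζ - 1) ∣ (n : R) ↔ (p : ℤ) ∣ n := by
  refine ⟨S.int_dvd n, fun h => ?_⟩
  obtain ⟨k, rfl⟩ := h
  push_cast
  exact Dvd.dvd.mul_right S.lam_dvd_p _

theorem one_mem : (1 : R) ∈ nthRootsFinset p (1 : R) :=
  (mem_nthRootsFinset S.prime_p.pos 1).2 (one_pow p)

theorem zeta_pow_mem (i : ℕ) : ζ ^ i ∈ nthRootsFinset p (1 : R) := by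
  refine (mem_nthRootsFinset S.prime_p.pos 1).2 ?_
  rw [← pow_mul, mul_comm, pow_mul, S.prim.pow_eq_one, one_pow]

theorem root_pow {η : R} (hη : η ∈ nthRootsFinset p (1 : R)) : η ^ p = 1 :=
  (mem_nthRootsFinset S.prime_p.pos 1).1 hη

theorem root_isUnit {η : R} (hη : η ∈ nthRootsFinset p (1 : R)) : IsUnit η :=
  IsUnit.of_pow_eq_one (S.root_pow hη) S.prime_p.ne_zero

theorem lam_dvd_root_sub_one {η : R} (hη : η ∈ nthRootsFinset p (1 : R)) : (ζ - 1) ∣ η - 1 :=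
  S.prim.sub_one_dvd_sub S.prime_p hη S.one_mem

theorem assoc_root_sub {η₁ η₂ : R} (h₁ : η₁ ∈ nthRootsFinset p (1 : R))
    (h₂ : η₂ ∈ nthRootsFinset p (1 : R)) (hne : η₁ ≠ η₂) : Associated (ζ - 1) (η₁ - η₂) :=
  S.prim.nthRootsFinset_pairwise_associated_sub_one_sub_of_prime S.prime_p h₁ h₂ hne

theorem card_roots : (nthRootsFinset p (1 : R)).card = p := S.prim.card_nthRootsFinset

/-- every factor is congruent to `x + y` modulo `ζ - 1`. -/
theorem lam_dvd_factor_iff (x y : R) {η : R} (hη : η ∈ nthRootsFinset p (1 : R)) :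
    (ζ - 1) ∣ x + η * y ↔ (ζ - 1) ∣ x + y := by
  have h : x + η * y = (x + y) + (η - 1) * y := by ring
  rw [h]
  exact (dvd_add_left (Dvd.dvd.mul_right (S.lam_dvd_root_sub_one hη) y))

/-- `α ^ p` is congruent to a rational integer modulo `p`. -/
theorem ppow (α : R) : ∃ n : ℤ, (p : R) ∣ α ^ p - (n : R) := by
  obtain ⟨n₀, β, hβ⟩ := S.cong_int α
  refine ⟨n₀ ^ p, ?_⟩
  have hα : α = (n₀ : R) + (ζ - 1) * β := by rw [← hβ]; ring
  obtain ⟨r, hr⟩ := exists_add_pow_prime_eq S.prime_p (n₀ : R) ((ζ - 1) * β)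
  have h1 : (p : R) ∣ ((ζ - 1) * β) ^ p := by
    rw [mul_pow]
    exact Dvd.dvd.mul_right (S.p_dvd_lam_pow (Nat.sub_le p 1)) _
  obtain ⟨t, ht⟩ := h1
  refine ⟨t + (n₀ : R) * ((ζ - 1) * β) * r, ?_⟩
  rw [hα, hr, ht]
  push_cast
  ring

/-- comparing `λ`-adic valuations. -/
theorem pow_mul_eq_pow_mul {a b : ℕ} {A B : R} (hA : ¬ (ζ - 1) ∣ A) (hB : ¬ (ζ - 1) ∣ B)
    (h : (ζ - 1) ^ a * A = (ζ - 1) ^ b * B) : a = b ∧ A = B := by
  have h0 : (ζ - 1) ≠ 0 := S.prime_lam.ne_zero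
  have key : ∀ {a b : ℕ} {A B : R}, ¬ (ζ - 1) ∣ A → a < b →
      (ζ - 1) ^ a * A = (ζ - 1) ^ b * B → False := by
    intro a b A B hA hab h
    obtain ⟨k, rfl⟩ := Nat.exists_eq_add_of_lt hab
    rw [show a + k + 1 = a + (k + 1) by ring, pow_add, mul_assoc] at h
    have h' := mul_left_cancel₀ (pow_ne_zero a h0) h
    exact hA ⟨(ζ - 1) ^ k * B, by rw [h']; ring⟩
  rcases lt_trichotomy a b with hab | hab | hab
  · exact (key hA hab h).elim
  · subst hab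
    exact ⟨rfl, mul_left_cancel₀ (pow_ne_zero a h0) h⟩
  · exact (key hB hab h.symm).elim

/-- Bezout relation between two distinct factors. -/
theorem bezout_factors {x y : R} (hxy : IsCoprime x y) {η₁ η₂ : R}
    (h₁ : η₁ ∈ nthRootsFinset p (1 : R)) (h₂ : η₂ ∈ nthRootsFinset p (1 : R)) (hne : η₁ ≠ η₂) :
    ∃ A B : R, A * (x + η₁ * y) + B * (x + η₂ * y) = ζ - 1 := by
  obtain ⟨s, t, hst⟩ := hxy
  obtain ⟨u, hu⟩ := (S.assoc_root_sub h₁ h₂ hne).symm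
  refine ⟨(t - s * η₂) * u, (s * η₁ - t) * u, ?_⟩
  have : (t - s * η₂) * (x + η₁ * y) + (s * η₁ - t) * (x + η₂ * y) = (η₁ - η₂) * (s * x + t * y) := by
    ring
  calc (t - s * η₂) * u * (x + η₁ * y) + (s * η₁ - t) * u * (x + η₂ * y)
      = ((t - s * η₂) * (x + η₁ * y) + (s * η₁ - t) * (x + η₂ * y)) * u := by ring
    _ = (η₁ - η₂) * u := by rw [this, hst, mul_one]
    _ = ζ - 1 := hu

/-- If `λ² ∣ x + y` and `λ ∤ y` then `λ² ∤ x + η y` for `η ≠ 1`. -/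
theorem not_sq_dvd_factor {x y : R} (hy : ¬ (ζ - 1) ∣ y) (hsq : (ζ - 1) ^ 2 ∣ x + y) {η : R}
    (hη : η ∈ nthRootsFinset p (1 : R)) (hne : η ≠ 1) : ¬ (ζ - 1) ^ 2 ∣ x + η * y := by
  intro h
  obtain ⟨u, hu⟩ := S.assoc_root_sub hη S.one_mem hne
  have h1 : (ζ - 1) ^ 2 ∣ (η - 1) * y := by
    have : (η - 1) * y = (x + η * y) - (x + y) := by ring
    rw [this]
    exact dvd_sub h hsq
  rw [← hu, pow_two, mul_assoc] at h1
  have h2 := (mul_dvd_mul_iff_left S.prime_lam.ne_zero).1 h1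
  rcases S.prime_lam.dvd_or_dvd h2 with h3 | h3
  · exact S.prime_lam.not_isUnit (isUnit_of_dvd_unit h3 u.isUnit)
  · exact hy h3

/-- There is a `p`-th root of unity `η` such that `λ² ∣ x + η y`. -/
theorem exists_root_sq_dvd {x y : R} (hy : ¬ (ζ - 1) ∣ y) (hxy : (ζ - 1) ∣ x + y) :
    ∃ η ∈ nthRootsFinset p (1 : R), (ζ - 1) ^ 2 ∣ x + η * y := by
  obtain ⟨a, ha⟩ := hxy
  obtain ⟨na, hna⟩ := S.cong_int a
  obtain ⟨ny, hny⟩ := S.cong_int y
  have hpny : ¬ (p : ℤ) ∣ ny := by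
    intro h
    apply hy
    have := (S.lam_dvd_int_iff ny).2 h
    have h2 := dvd_add hny this
    simpa using h2
  have hcop : IsCoprime (p : ℤ) ny :=
    ((Nat.prime_iff_prime_int.mp S.prime_p).coprime_iff_not_dvd).2 hpny
  obtain ⟨t, s, hst⟩ := hcop
  -- `t * p + s * ny = 1`
  set i₀ : ℤ := -(na * s) with hi₀
  set i : ℕ := (i₀ % p).toNat with hi
  have hppos : (0 : ℤ) < p := by exact_mod_cast S.prime_p.pos
  have hi' : (i : ℤ) = i₀ % p := Int.toNat_of_nonneg (Int.emod_nonneg _ hppos.ne')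
  have hdvd : (p : ℤ) ∣ na + i * ny := by
    have h1 : (i : ℤ) = i₀ - p * (i₀ / p) := by
      rw [hi']; have := Int.emod_add_mul_ediv i₀ p; linarith
    refine ⟨na * t - (i₀ / p) * ny, ?_⟩
    rw [h1, hi₀]
    linear_combination (-na : ℤ) * hst
  refine ⟨ζ ^ i, S.zeta_pow_mem i, ?_⟩
  -- `ζ ^ i - 1 = (ζ - 1) * g` with `g ≡ i`
  have hgeom : ζ ^ i - 1 = (ζ - 1) * ∑ j ∈ range i, ζ ^ j := (mul_geom_sum ζ i).symm
  have hg : (ζ - 1) ∣ (∑ j ∈ range i, ζ ^ j) - (i : R) := by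
    have : (∑ j ∈ range i, ζ ^ j) - (i : R) = ∑ j ∈ range i, (ζ ^ j - 1) := by
      rw [Finset.sum_sub_distrib]; simp
    rw [this]
    refine Finset.dvd_sum fun j _ => ?_
    simpa using sub_dvd_pow_sub_pow ζ 1 j
  have hexp : x + ζ ^ i * y = (ζ - 1) * (a + (∑ j ∈ range i, ζ ^ j) * y) := by
    have : x + ζ ^ i * y = (x + y) + (ζ ^ i - 1) * y := by ring
    rw [this, ha, hgeom]; ring
  rw [hexp, pow_two]
  refine mul_dvd_mul_left _ ?_
  have hint : (ζ - 1) ∣ ((na + i * ny : ℤ) : R) := (S.lam_dvd_int_iff _).2 hdvd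
  have hdecomp : a + (∑ j ∈ range i, ζ ^ j) * y =
      (a - na) + ((∑ j ∈ range i, ζ ^ j) - (i : R)) * y + (i : R) * (y - ny) +
        ((na + i * ny : ℤ) : R) := by
    push_cast; ring
  rw [hdecomp]
  exact dvd_add (dvd_add (dvd_add hna (Dvd.dvd.mul_right hg _)) (Dvd.dvd.mul_left hny _)) hint

end Setup

/-- A solution of the generalised Fermat equation at level `m`:
`x ^ p + y ^ p = ε * λ ^ (p * m) * w ^ p` with `λ ∤ y`, `λ ∤ w`, `x, y` coprime. -/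
def HasSol (R : Type*) [CommRing R] (p : ℕ) (ζ : R) (m : ℕ) : Prop :=
  ∃ (x y w : R) (ε : Rˣ), ¬ (ζ - 1) ∣ y ∧ ¬ (ζ - 1) ∣ w ∧ IsCoprime x y ∧
    x ^ p + y ^ p = ε * (ζ - 1) ^ (p * m) * w ^ p

namespace Setup

variable (S : Setup R p ζ)
include S

/-- The descent step: a solution at level `m ≥ 1` forces `m ≥ 2` and yields a solution at
level `m - 1`. -/
theorem descent [IsPrincipalIdealRing R] {m : ℕ} (hm : 1 ≤ m) (h : HasSol R p ζ m) :
    2 ≤ m ∧ HasSol R p ζ (m - 1) := by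
  classical
  obtain ⟨x, y₀, w, ε, hy₀, hw, hcop₀, heq₀⟩ := h
  have hprime := S.prime_lam
  have hp := S.prime_p
  -- Step 1: `λ ∣ x + y₀`
  have hprod₀ : x ^ p + y₀ ^ p = ∏ η ∈ nthRootsFinset p (1 : R), (x + η * y₀) :=
    S.prim.pow_add_pow_eq_prod_add_mul x y₀ S.odd_p
  have hlam_dvd₀ : (ζ - 1) ∣ x + y₀ := by
    have h1 : (ζ - 1) ∣ ∏ η ∈ nthRootsFinset p (1 : R), (x + η * y₀) := by
      rw [← hprod₀, heq₀]
      refine Dvd.dvd.mul_right (Dvd.dvd.mul_left (dvd_pow_self _ ?_) _) _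
      exact Nat.mul_ne_zero hp.ne_zero (by omega)
    obtain ⟨η, hη, hdvd⟩ := (hprime.dvd_finsetProd_iff _).1 h1
    exact (S.lam_dvd_factor_iff x y₀ hη).1 hdvd
  -- Step 2: WLOG `λ² ∣ x + y`
  obtain ⟨η₀, hη₀, hsq₀⟩ := S.exists_root_sq_dvd hy₀ hlam_dvd₀
  obtain ⟨y, hy_def⟩ : ∃ y, y = η₀ * y₀ := ⟨_, rfl⟩
  have hy : ¬ (ζ - 1) ∣ y := by
    intro h
    rw [hy_def] at h
    exact hy₀ ((S.root_isUnit hη₀).dvd_mul_left.1 h)
  have hcop : IsCoprime x y := by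
    rw [hy_def]
    exact (isCoprime_mul_unit_left_right (S.root_isUnit hη₀) x y₀).2 hcop₀
  have heq : x ^ p + y ^ p = ε * (ζ - 1) ^ (p * m) * w ^ p := by
    rw [hy_def, mul_pow, S.root_pow hη₀, one_mul, heq₀]
  have hsq : (ζ - 1) ^ 2 ∣ x + y := by rw [hy_def]; exact hsq₀
  have hlam_dvd : (ζ - 1) ∣ x + y := (dvd_pow_self _ two_ne_zero).trans hsq
  clear hy_def hsq₀ hη₀ hlam_dvd₀ hprod₀ heq₀ hcop₀ hy₀
  -- Step 3: decomposition of the factors
  have hprod : ∏ η ∈ nthRootsFinset p (1 : R), (x + η * y) = ε * (ζ - 1) ^ (p * m) * w ^ p := by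
    rw [← heq]; exact (S.prim.pow_add_pow_eq_prod_add_mul x y S.odd_p).symm
  have hw0 : w ≠ 0 := fun h => hw (h ▸ dvd_zero _)
  have hrhs0 : (ε : R) * (ζ - 1) ^ (p * m) * w ^ p ≠ 0 :=
    mul_ne_zero (mul_ne_zero ε.ne_zero (pow_ne_zero _ hprime.ne_zero)) (pow_ne_zero _ hw0)
  have hf0 : ∀ η ∈ nthRootsFinset p (1 : R), x + η * y ≠ 0 := by
    intro η hη h0
    apply hrhs0
    rw [← hprod]
    exact Finset.prod_eq_zero hη h0
  have hdecomp : ∀ η ∈ nthRootsFinset p (1 : R), ∃ (e : ℕ) (c : R),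
      ¬ (ζ - 1) ∣ c ∧ x + η * y = (ζ - 1) ^ e * c := by
    intro η hη
    exact WfDvdMonoid.max_power_factor (hf0 η hη) hprime.irreducible
  choose! e c hc hfe using hdecomp
  -- Step 4: exponents
  have he1 : ∀ η ∈ nthRootsFinset p (1 : R), 1 ≤ e η := by
    intro η hη
    by_contra hlt
    have h0 : e η = 0 := by omega
    have h1 := (S.lam_dvd_factor_iff x y hη).2 hlam_dvd
    rw [hfe η hη, h0, pow_zero, one_mul] at h1
    exact hc η hη h1
  have he_ne : ∀ η ∈ nthRootsFinset p (1 : R), η ≠ 1 → e η = 1 := by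
    intro η hη hne
    have h1 := he1 η hη
    by_contra hne1
    have h2 : 2 ≤ e η := by omega
    apply S.not_sq_dvd_factor hy hsq hη hne
    rw [hfe η hη]
    exact Dvd.dvd.mul_right (pow_dvd_pow _ h2) _
  have he_one : 2 ≤ e 1 := by
    have h1 := he1 1 S.one_mem
    by_contra hlt
    have h2 : e 1 = 1 := by omega
    have h3 := hfe 1 S.one_mem
    rw [one_mul, h2, pow_one] at h3
    rw [h3, pow_two] at hsq
    exact hc 1 S.one_mem ((mul_dvd_mul_iff_left hprime.ne_zero).1 hsq)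
  -- Step 5: the product of the `c η`
  have hprod2 : (ζ - 1) ^ (∑ η ∈ nthRootsFinset p (1 : R), e η) *
      ∏ η ∈ nthRootsFinset p (1 : R), c η = (ζ - 1) ^ (p * m) * (ε * w ^ p) := by
    rw [← Finset.prod_pow_eq_pow_sum, ← Finset.prod_mul_distrib,
      Finset.prod_congr rfl (fun η hη => (hfe η hη).symm), hprod]
    ring
  have hC : ¬ (ζ - 1) ∣ ∏ η ∈ nthRootsFinset p (1 : R), c η := by
    rw [hprime.dvd_finsetProd_iff]
    rintro ⟨η, hη, h⟩
    exact hc η hη h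
  have hεw : ¬ (ζ - 1) ∣ ε * w ^ p := by
    intro h
    rcases hprime.dvd_or_dvd h with h | h
    · exact hprime.not_isUnit (isUnit_of_dvd_unit h ε.isUnit)
    · exact hw (hprime.dvd_of_dvd_pow h)
  obtain ⟨hsum, hprodc⟩ := S.pow_mul_eq_pow_mul hC hεw hprod2
  have hsum' : ∑ η ∈ nthRootsFinset p (1 : R), e η = e 1 + (p - 1) := by
    rw [← Finset.add_sum_erase _ e S.one_mem]
    congr 1
    rw [Finset.sum_congr rfl (fun η hη =>
      he_ne η (Finset.mem_of_mem_erase hη) (Finset.ne_of_mem_erase hη))]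
    simp [Finset.card_erase_of_mem S.one_mem, S.card_roots]
  have he1_eq : e 1 = p * (m - 1) + 1 := by
    obtain ⟨m', rfl⟩ : ∃ m', m = m' + 1 := ⟨m - 1, by omega⟩
    have h2 := S.prime_p.two_le
    have h3 : e 1 + (p - 1) = p * (m' + 1) := by rw [← hsum', hsum]
    rw [Nat.mul_succ] at h3
    simp only [Nat.add_sub_cancel]
    omega
  have hm2 : 2 ≤ m := by
    by_contra hlt
    have h1 : m = 1 := by omega
    subst h1
    simp at he1_eq
    omega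
  -- Step 6: pairwise coprimality
  have hcopc : ∀ η₁ ∈ nthRootsFinset p (1 : R), ∀ η₂ ∈ nthRootsFinset p (1 : R), η₁ ≠ η₂ →
      IsCoprime (c η₁) (c η₂) := by
    intro η₁ h₁ η₂ h₂ hne
    obtain ⟨A, B, hAB⟩ := S.bezout_factors hcop h₁ h₂ hne
    rw [hfe η₁ h₁, hfe η₂ h₂] at hAB
    obtain ⟨k₁, hk₁⟩ : ∃ k, e η₁ = k + 1 := ⟨e η₁ - 1, by have := he1 η₁ h₁; omega⟩
    obtain ⟨k₂, hk₂⟩ : ∃ k, e η₂ = k + 1 := ⟨e η₂ - 1, by have := he1 η₂ h₂; omega⟩
    rw [hk₁, hk₂, pow_succ', pow_succ'] at hAB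
    refine ⟨A * (ζ - 1) ^ k₁, B * (ζ - 1) ^ k₂, ?_⟩
    apply mul_left_cancel₀ hprime.ne_zero
    linear_combination hAB
  -- Step 7: every `c η` is a unit times a `p`-th power
  have hpow : ∀ η ∈ nthRootsFinset p (1 : R), ∃ (d : R) (u : Rˣ), c η = u * d ^ p := by
    intro η hη
    have h1 : c η * ∏ η' ∈ (nthRootsFinset p (1 : R)).erase η, c η' = ε * w ^ p := by
      rw [Finset.mul_prod_erase _ c hη, hprodc]
    have h2 : IsCoprime (c η) (∏ η' ∈ (nthRootsFinset p (1 : R)).erase η, c η') :=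
      IsCoprime.prod_right fun η' hη' =>
        hcopc η hη η' (Finset.mem_of_mem_erase hη') (Finset.ne_of_mem_erase hη').symm
    have h3 : Associated (w ^ p) (c η * ∏ η' ∈ (nthRootsFinset p (1 : R)).erase η, c η') := by
      rw [h1]
      exact ⟨ε, by ring⟩
    obtain ⟨d, u, hd⟩ := exists_associated_pow_of_associated_pow_mul h2 h3
    exact ⟨d, u, by rw [← hd]; ring⟩
  -- Step 8: the three special roots `ζ`, `ζ⁻¹ = ζ ^ (p - 1)`, `1`
  have h2lt := S.two_lt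
  have hζmem : ζ ∈ nthRootsFinset p (1 : R) := by simpa using S.zeta_pow_mem 1
  have hζ'mem : ζ ^ (p - 1) ∈ nthRootsFinset p (1 : R) := S.zeta_pow_mem (p - 1)
  have hζne1 : ζ ≠ 1 := S.prim.ne_one S.prime_p.one_lt
  have hζ'ne1 : ζ ^ (p - 1) ≠ 1 := S.prim.pow_ne_one_of_pos_of_lt (by omega) (by omega)
  have hζζ' : ζ * ζ ^ (p - 1) = 1 := by
    rw [← pow_succ', Nat.sub_add_cancel S.prime_p.one_le, S.prim.pow_eq_one]
  have hne : ζ ≠ ζ ^ (p - 1) := by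
    intro h
    have h2 : ζ ^ 2 = 1 := by
      rw [pow_two]
      nth_rewrite 2 [h]
      exact hζζ'
    exact S.prim.pow_ne_one_of_pos_of_lt (by norm_num) h2lt h2
  have hkey : c ζ + ζ * c (ζ ^ (p - 1)) = (1 + ζ) * (ζ - 1) ^ (p * (m - 1)) * c 1 := by
    have hid : (x + ζ * y) + ζ * (x + ζ ^ (p - 1) * y) = (1 + ζ) * (x + 1 * y) := by
      linear_combination y * hζζ'
    rw [hfe ζ hζmem, hfe _ hζ'mem, hfe 1 S.one_mem, he_ne ζ hζmem hζne1,
      he_ne _ hζ'mem hζ'ne1, he1_eq, pow_one, pow_succ] at hid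
    apply mul_left_cancel₀ hprime.ne_zero
    linear_combination hid
  have hunit : IsUnit (1 + ζ) := by
    have h1 := S.prim.geom_sum_isUnit S.prime_p.two_le (j := 2)
      ((Nat.coprime_primes Nat.prime_two S.prime_p).2 (Ne.symm S.odd))
    simpa [Finset.sum_range_succ] using h1
  obtain ⟨d₁, u₁, hd₁⟩ := hpow ζ hζmem
  obtain ⟨d₂, u₂, hd₂⟩ := hpow _ hζ'mem
  obtain ⟨d₀, u₀, hd₀⟩ := hpow 1 S.one_mem
  have hζu : IsUnit ζ := S.root_isUnit hζmem
  obtain ⟨η', hη'⟩ : ∃ η' : Rˣ, η' = hζu.unit * u₂ * u₁⁻¹ := ⟨_, rfl⟩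
  obtain ⟨ε', hε'⟩ : ∃ ε' : Rˣ, ε' = hunit.unit * u₀ * u₁⁻¹ := ⟨_, rfl⟩
  have heq' : d₁ ^ p + η' * d₂ ^ p = ε' * (ζ - 1) ^ (p * (m - 1)) * d₀ ^ p := by
    rw [hd₁, hd₂, hd₀] at hkey
    have h1 : ((u₁⁻¹ : Rˣ) : R) * (u₁ * d₁ ^ p + ζ * (u₂ * d₂ ^ p)) =
        ((u₁⁻¹ : Rˣ) : R) * ((1 + ζ) * (ζ - 1) ^ (p * (m - 1)) * (u₀ * d₀ ^ p)) := by rw [hkey]
    have hu : ((u₁⁻¹ : Rˣ) : R) * (u₁ : R) = 1 := by simp
    rw [hη', hε']
    simp only [Units.val_mul, IsUnit.unit_spec]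
    linear_combination h1 - d₁ ^ p * hu
  -- Step 9: `η'` is congruent to an integer modulo `p`
  have hpdvd : (p : R) ∣ (ζ - 1) ^ (p * (m - 1)) := S.p_dvd_lam_pow (by
    have h1 : 1 ≤ m - 1 := by omega
    calc p - 1 ≤ p := Nat.sub_le _ _
      _ = p * 1 := (mul_one p).symm
      _ ≤ p * (m - 1) := Nat.mul_le_mul_left p h1)
  have hd₂lam : ¬ (ζ - 1) ∣ d₂ := by
    intro h
    apply hc _ hζ'mem
    rw [hd₂]
    exact Dvd.dvd.mul_left (dvd_pow h S.prime_p.ne_zero) _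
  have hd₀lam : ¬ (ζ - 1) ∣ d₀ := by
    intro h
    apply hc _ S.one_mem
    rw [hd₀]
    exact Dvd.dvd.mul_left (dvd_pow h S.prime_p.ne_zero) _
  obtain ⟨n₁, hn₁⟩ := S.ppow d₁
  obtain ⟨n₂, hn₂⟩ := S.ppow d₂
  have hn₂' : ¬ (p : ℤ) ∣ n₂ := by
    intro h
    have h1 : (ζ - 1) ∣ (n₂ : R) := (S.lam_dvd_int_iff n₂).2 h
    have h2 : (ζ - 1) ∣ d₂ ^ p := by
      have := dvd_add (S.lam_dvd_p.trans hn₂) h1
      simpa using this
    exact hd₂lam (hprime.dvd_of_dvd_pow h2)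
  obtain ⟨t, s, hst⟩ := ((Nat.prime_iff_prime_int.mp S.prime_p).coprime_iff_not_dvd).2 hn₂'
  have hcong : ∃ n : ℤ, (p : R) ∣ (η' : R) - (n : R) := by
    refine ⟨-(s * n₁), ?_⟩
    have h1 : (p : R) ∣ d₁ ^ p + η' * d₂ ^ p := by
      rw [heq']
      exact Dvd.dvd.mul_right (Dvd.dvd.mul_left hpdvd _) _
    have h2 : (p : R) ∣ (n₁ : R) + η' * n₂ := by
      have h3 : (n₁ : R) + η' * n₂ =
          (d₁ ^ p + η' * d₂ ^ p) - (d₁ ^ p - n₁) - η' * (d₂ ^ p - n₂) := by ring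
      rw [h3]
      exact dvd_sub (dvd_sub h1 hn₁) (Dvd.dvd.mul_left hn₂ _)
    have hst' : (t : R) * p + s * n₂ = 1 := by exact_mod_cast congrArg (Int.cast : ℤ → R) hst
    have h4 : (η' : R) - ((-(s * n₁) : ℤ) : R) = s * ((n₁ : R) + η' * n₂) + η' * t * p := by
      push_cast
      linear_combination (-(η' : R)) * hst'
    rw [h4]
    exact dvd_add (Dvd.dvd.mul_left h2 _) (Dvd.intro_left _ rfl)
  obtain ⟨ξ, hξ⟩ := S.kummer η' hcong
  -- Step 10: the new solution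
  refine ⟨hm2, d₁, ξ * d₂, d₀, ε', ?_, hd₀lam, ?_, ?_⟩
  · intro h
    exact hd₂lam (ξ.isUnit.dvd_mul_left.1 h)
  · have h1 := hcopc ζ hζmem _ hζ'mem hne
    rw [hd₁, hd₂] at h1
    have h2 : IsCoprime (d₁ ^ p) (d₂ ^ p) := h1.of_mul_left_right.of_mul_right_right
    have h3 : IsCoprime d₁ d₂ := (IsCoprime.pow_iff S.prime_p.pos S.prime_p.pos).1 h2
    exact (isCoprime_mul_unit_left_right ξ.isUnit d₁ d₂).2 h3
  · rw [mul_pow, ← Units.val_pow_eq_pow_val, ← hξ]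
    exact heq'

/-- There is no solution at any level `m ≥ 1`. -/
theorem no_sol [IsPrincipalIdealRing R] : ∀ m, 1 ≤ m → ¬ HasSol R p ζ m := by
  intro m
  induction m with
  | zero => intro h; omega
  | succ k ih =>
    intro _ hsol
    obtain ⟨h2, hsol'⟩ := S.descent (by omega) hsol
    simp only [Nat.add_sub_cancel] at hsol'
    exact ih (by omega) hsol'

/-- The generalised Case II statement in the abstract setting. -/
theorem gen [IsPrincipalIdealRing R] (x y z : R) (ε : Rˣ) (hz : z ≠ 0) (hy : ¬ (ζ - 1) ∣ y)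
    (hzdvd : (ζ - 1) ∣ z) (hcop : IsCoprime x y) : x ^ p + y ^ p ≠ ε * z ^ p := by
  intro h
  obtain ⟨m, w, hw, hzw⟩ := WfDvdMonoid.max_power_factor hz S.prime_lam.irreducible
  have hm : 1 ≤ m := by
    by_contra hlt
    have h0 : m = 0 := by omega
    rw [h0, pow_zero, one_mul] at hzw
    exact hw (hzw ▸ hzdvd)
  refine S.no_sol m hm ⟨x, y, w, ε, hy, hw, hcop, ?_⟩
  rw [h, hzw, mul_pow, ← pow_mul, mul_comm m p]
  ring

end Setup

end Fermat.Agent.FLTReg.CaseIIb
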