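/-
Case II of Fermat's Last Theorem for a prime `p` such that the ring of integers of the `p`-th
cyclotomic field is a principal ideal domain, assuming Kummer's lemma (as a hypothesis `KL`).
Instantiation of the abstract descent of `CaseIIbCore.lean` to `𝓞 K`, and the statement over `ℤ`.
(helper33, independent implementation of FLTREG/CASE2.)
-/
import Fermat.Agent.FLTReg.CaseIIbCore

set_option autoImplicit false
set_option linter.unusedSectionVars false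

namespace Fermat.Agent.FLTReg.CaseIIb

open NumberField

variable {p : ℕ} [hp : Fact p.Prime] {K : Type*} [Field K] [NumberField K]
  [IsCyclotomicExtension {p} ℚ K] {ζ : K} (hζ : IsPrimitiveRoot ζ p)

/-- Every algebraic integer of the `p`-th cyclotomic field is congruent to a rational integer
modulo `ζ - 1`. -/
theorem exists_int_sub_dvd (x : 𝓞 K) : ∃ n : ℤ, (hζ.toInteger - 1) ∣ x - (n : 𝓞 K) := by
  have hx : x ∈ Algebra.adjoin ℤ ({hζ.toInteger} : Set (𝓞 K)) := by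
    have h := hζ.integralPowerBasis.adjoin_gen_eq_top
    rw [hζ.integralPowerBasis_gen] at h
    rw [h]
    exact Algebra.mem_top
  induction hx using Algebra.adjoin_induction with
  | mem y hy =>
    rw [Set.mem_singleton_iff] at hy
    subst hy
    exact ⟨1, by simp⟩
  | algebraMap r => exact ⟨r, by simp⟩
  | add a b _ _ ha hb =>
    obtain ⟨n, hn⟩ := ha
    obtain ⟨m, hm⟩ := hb
    refine ⟨n + m, ?_⟩
    have h : a + b - ((n + m : ℤ) : 𝓞 K) = (a - n) + (b - m) := by push_cast; ring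
    rw [h]
    exact dvd_add hn hm
  | mul a b _ _ ha hb =>
    obtain ⟨n, hn⟩ := ha
    obtain ⟨m, hm⟩ := hb
    refine ⟨n * m, ?_⟩
    have h : a * b - ((n * m : ℤ) : 𝓞 K) = (a - n) * b + n * (b - m) := by push_cast; ring
    rw [h]
    exact dvd_add (Dvd.dvd.mul_right hn _) (Dvd.dvd.mul_left hm _)

/-- The abstract setup holds for `𝓞 K`, given Kummer's lemma. -/
theorem setup (hp2 : p ≠ 2)
    (KL : ∀ u : (𝓞 K)ˣ, (∃ n : ℤ, (p : 𝓞 K) ∣ (u : 𝓞 K) - (n : 𝓞 K)) → ∃ v : (𝓞 K)ˣ, u = v ^ p) :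
    Setup (𝓞 K) p hζ.toInteger where
  prime_p := hp.out
  odd := hp2
  prim := hζ.toInteger_isPrimitiveRoot
  prime_lam := hζ.zeta_sub_one_prime'
  cong_int := exists_int_sub_dvd hζ
  int_dvd := fun _ h => (IsCyclotomicExtension.Rat.zeta_sub_one_dvd_intCast_iff' p hζ).1 h
  assoc := IsCyclotomicExtension.Rat.associated_zeta_sub_one_pow_prime p hζ
  kummer := KL

/-- `α ^ p` is congruent to a rational integer modulo `p` (no Kummer lemma needed). -/
theorem exists_int_pow_sub_dvd (α : 𝓞 K) :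
    ∃ n : ℤ, (p : 𝓞 K) ∣ α ^ p - (n : 𝓞 K) := by
  have hζ := IsCyclotomicExtension.zeta_spec p ℚ K
  obtain ⟨n₀, β, hβ⟩ := exists_int_sub_dvd hζ α
  refine ⟨n₀ ^ p, ?_⟩
  have hα : α = (n₀ : 𝓞 K) + (hζ.toInteger - 1) * β := by rw [← hβ]; ring
  obtain ⟨r, hr⟩ := exists_add_pow_prime_eq hp.out (n₀ : 𝓞 K) ((hζ.toInteger - 1) * β)
  have h1 : (p : 𝓞 K) ∣ ((hζ.toInteger - 1) * β) ^ p := by
    rw [mul_pow]
    refine Dvd.dvd.mul_right ?_ _
    exact (IsCyclotomicExtension.Rat.associated_zeta_sub_one_pow_prime p hζ).symm.dvd.trans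
      (pow_dvd_pow _ (Nat.sub_le p 1))
  obtain ⟨t, ht⟩ := h1
  refine ⟨t + (n₀ : 𝓞 K) * ((hζ.toInteger - 1) * β) * r, ?_⟩
  rw [hα, hr, ht]
  push_cast
  ring

/-- The generalised Case II statement (same shape as helper15's `CaseIIGen`). -/
def CaseIIGen : Prop :=
  ∀ x y z : 𝓞 K, ∀ ε : (𝓞 K)ˣ, z ≠ 0 → ¬ (hζ.toInteger - 1) ∣ x → ¬ (hζ.toInteger - 1) ∣ y →
    (hζ.toInteger - 1) ∣ z → IsCoprime x y → x ^ p + y ^ p ≠ ε * z ^ p

theorem caseIIGen_of_ne_two (hp2 : p ≠ 2) [IsPrincipalIdealRing (𝓞 K)]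
    (KL : ∀ u : (𝓞 K)ˣ, (∃ n : ℤ, (p : 𝓞 K) ∣ (u : 𝓞 K) - (n : 𝓞 K)) → ∃ v : (𝓞 K)ˣ, u = v ^ p) :
    CaseIIGen hζ := by
  intro x y z ε hz _ hy hzdvd hcop
  exact (setup hζ hp2 KL).gen x y z ε hz hy hzdvd hcop

theorem caseIIGen (hp5 : 5 ≤ p) [IsPrincipalIdealRing (𝓞 K)]
    (KL : ∀ u : (𝓞 K)ˣ, (∃ n : ℤ, (p : 𝓞 K) ∣ (u : 𝓞 K) - (n : 𝓞 K)) → ∃ v : (𝓞 K)ˣ, u = v ^ p) :
    CaseIIGen hζ :=
  caseIIGen_of_ne_two hζ (by omega) KL

/-- Case II over `ℤ` when `p ∣ c`, deduced from the generalised statement. -/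
theorem caseII_aux (hgen : CaseIIGen hζ) {a b c : ℤ} (hab : IsCoprime a b) (hc : c ≠ 0)
    (hpc : (p : ℤ) ∣ c) : a ^ p + b ^ p ≠ c ^ p := by
  intro h
  have hpZ : Prime (p : ℤ) := Nat.prime_iff_prime_int.mp hp.out
  have hp0 : p ≠ 0 := hp.out.ne_zero
  -- `p ∤ a` and `p ∤ b`
  have hpa : ¬ (p : ℤ) ∣ a := by
    intro hpa
    have h1 : (p : ℤ) ∣ b ^ p := by
      have h2 : b ^ p = c ^ p - a ^ p := by rw [← h]; ring
      rw [h2]
      exact dvd_sub (dvd_pow hpc hp0) (dvd_pow hpa hp0)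
    exact hpZ.not_isUnit (hab.isUnit_of_dvd' hpa (hpZ.dvd_of_dvd_pow h1))
  have hpb : ¬ (p : ℤ) ∣ b := by
    intro hpb
    have h1 : (p : ℤ) ∣ a ^ p := by
      have h2 : a ^ p = c ^ p - b ^ p := by rw [← h]; ring
      rw [h2]
      exact dvd_sub (dvd_pow hpc hp0) (dvd_pow hpb hp0)
    exact hpZ.not_isUnit (hab.isUnit_of_dvd' (hpZ.dvd_of_dvd_pow h1) hpb)
  have hiff := fun n : ℤ => IsCyclotomicExtension.Rat.zeta_sub_one_dvd_intCast_iff' p hζ (n := n)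
  refine hgen (a : 𝓞 K) (b : 𝓞 K) (c : 𝓞 K) 1 (by exact_mod_cast hc) ?_ ?_ ?_ hab.intCast ?_
  · rwa [hiff]
  · rwa [hiff]
  · rwa [hiff]
  · rw [Units.val_one, one_mul]
    exact_mod_cast h

/-- Case II over `ℤ`, from the generalised statement. -/
theorem caseII_of_gen (hp2 : p ≠ 2) (hgen : CaseIIGen hζ) {a b c : ℤ} (hab : IsCoprime a b)
    (habc : a * b * c ≠ 0) (hcase : (p : ℤ) ∣ a * b * c) : a ^ p + b ^ p ≠ c ^ p := by
  intro h
  have hpZ : Prime (p : ℤ) := Nat.prime_iff_prime_int.mp hp.out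
  have hodd : Odd p := hp.out.odd_of_ne_two hp2
  have hppos : 0 < p := hp.out.pos
  have ha0 : a ≠ 0 := fun h0 => habc (by rw [h0]; ring)
  have hb0 : b ≠ 0 := fun h0 => habc (by rw [h0]; ring)
  have hc0 : c ≠ 0 := fun h0 => habc (by rw [h0]; ring)
  have hpsub : p - 1 + 1 = p := Nat.sub_add_cancel hp.out.one_le
  -- `c` is coprime to `a` and `b`
  have hcb : IsCoprime c b := by
    have h1 : IsCoprime (a ^ p + b * b ^ (p - 1)) b := (hab.pow_left).add_mul_left_left _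
    rw [← pow_succ', hpsub, h] at h1
    exact (IsCoprime.pow_left_iff hppos).1 h1
  have hca : IsCoprime c a := by
    have h1 : IsCoprime (b ^ p + a * a ^ (p - 1)) a := (hab.symm.pow_left).add_mul_left_left _
    rw [← pow_succ', hpsub, add_comm, h] at h1
    exact (IsCoprime.pow_left_iff hppos).1 h1
  rcases hpZ.dvd_or_dvd hcase with hcase' | hpc
  · rcases hpZ.dvd_or_dvd hcase' with hpa | hpb
    · -- `c ^ p + (-b) ^ p = a ^ p`
      refine caseII_aux hζ hgen (a := c) (b := -b) (c := a) hcb.neg_right ha0 hpa ?_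
      rw [hodd.neg_pow, ← h]
      ring
    · -- `c ^ p + (-a) ^ p = b ^ p`
      refine caseII_aux hζ hgen (a := c) (b := -a) (c := b) hca.neg_right hb0 hpb ?_
      rw [hodd.neg_pow, ← h]
      ring
  · exact caseII_aux hζ hgen hab hc0 hpc h

/-- Case II of Fermat's Last Theorem for exponent `p`, assuming `𝓞 K` is a PID and Kummer's
lemma (same signature as helper15's `caseII`). -/
theorem caseII (hp5 : 5 ≤ p) [IsPrincipalIdealRing (𝓞 K)]
    (KL : ∀ u : (𝓞 K)ˣ, (∃ n : ℤ, (p : 𝓞 K) ∣ (u : 𝓞 K) - (n : 𝓞 K)) → ∃ v : (𝓞 K)ˣ, u = v ^ p)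
    {a b c : ℤ} (hab : IsCoprime a b) (habc : a * b * c ≠ 0) (hcase : (p : ℤ) ∣ a * b * c) :
    a ^ p + b ^ p ≠ c ^ p := by
  have hζ := IsCyclotomicExtension.zeta_spec p ℚ K
  exact caseII_of_gen hζ (by omega) (caseIIGen hζ hp5 KL) hab habc hcase

end Fermat.Agent.FLTReg.CaseIIb
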