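/-
Kummer's logarithmic differential quotients, polynomial level.

For a commutative ring `R`, `theta j f = ((X d/dX)^j f)(1) = ∑ f_n n^j` for `f : R[X]`.
These functionals satisfy a Leibniz rule and kill multiples of `(X-1)^m` for `j < m`.
For a pair `(f, ft)` with `f * ft ≡ 1 mod (X-1)^m` we put
`lam j f ft = theta j (X f' ft)` ("`(d/dv)^j` of `dlog f(e^v)` at `v = 0`"), which is additive
and only depends on the classes mod `(X-1)^m` when `j + 1 < m`.
-/
import Mathlib

set_option autoImplicit false

namespace Fermat.Agent.FLTReg.Dlog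

open Polynomial

section Theta

variable {R : Type*} [CommRing R]

/-- `theta j f = ((X d/dX)^j f)(1) = ∑ f_n n^j`, as a linear functional. -/
noncomputable def theta (j : ℕ) : R[X] →ₗ[R] R :=
  (Polynomial.basisMonomials R).constr R fun n => (n : R) ^ j

theorem theta_monomial (j n : ℕ) (c : R) : theta j (monomial n c) = c * (n : R) ^ j := by
  have h : (monomial n c : R[X]) = c • Polynomial.basisMonomials R n := by
    rw [Polynomial.coe_basisMonomials, Polynomial.smul_monomial, smul_eq_mul, mul_one]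
  rw [h, map_smul, theta, Module.Basis.constr_basis, smul_eq_mul]

theorem theta_X_pow (j n : ℕ) : theta j (X ^ n : R[X]) = (n : R) ^ j := by
  rw [X_pow_eq_monomial, theta_monomial, one_mul]

theorem theta_C (j : ℕ) (c : R) : theta j (C c : R[X]) = if j = 0 then c else 0 := by
  rw [← monomial_zero_left, theta_monomial]
  split_ifs with h
  · subst h; simp
  · simp [h]

theorem theta_one (j : ℕ) : theta j (1 : R[X]) = if j = 0 then 1 else 0 := by
  rw [← C_1, theta_C]

theorem theta_X (j : ℕ) : theta j (X : R[X]) = 1 := by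
  have := theta_X_pow (R := R) j 1
  simpa using this

theorem theta_zero_eq_eval (f : R[X]) : theta 0 f = f.eval 1 := by
  induction f using Polynomial.induction_on' with
  | add f g hf hg => rw [map_add, hf, hg, eval_add]
  | monomial n c => rw [theta_monomial, eval_monomial]; simp

theorem theta_succ (j : ℕ) (f : R[X]) : theta (j + 1) f = theta j (X * derivative f) := by
  induction f using Polynomial.induction_on' with
  | add f g hf hg => rw [map_add, hf, hg, derivative_add, mul_add, map_add]
  | monomial n c =>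
    rw [theta_monomial, derivative_monomial]
    rcases Nat.eq_zero_or_pos n with rfl | hn
    · simp
    · have : X * monomial (n - 1) (c * (n : R)) = monomial n (c * (n : R)) := by
        rw [X_mul_monomial, Nat.sub_add_cancel hn]
      rw [this, theta_monomial]
      ring

/-- Leibniz rule for `theta`. -/
theorem theta_mul (j : ℕ) (f g : R[X]) :
    theta j (f * g) =
      ∑ i ∈ Finset.range (j + 1), (j.choose i : R) * theta i f * theta (j - i) g := by
  induction f using Polynomial.induction_on' with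
  | add f₁ f₂ h₁ h₂ =>
    rw [add_mul, map_add, h₁, h₂, ← Finset.sum_add_distrib]
    refine Finset.sum_congr rfl fun i _ => ?_
    rw [map_add]; ring
  | monomial n c =>
    induction g using Polynomial.induction_on' with
    | add g₁ g₂ h₁ h₂ =>
      rw [mul_add, map_add, h₁, h₂, ← Finset.sum_add_distrib]
      refine Finset.sum_congr rfl fun i _ => ?_
      rw [map_add]; ring
    | monomial m d =>
      rw [monomial_mul_monomial, theta_monomial]
      simp only [theta_monomial]
      rw [Nat.cast_add, add_pow, Finset.mul_sum]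
      refine Finset.sum_congr rfl fun i _ => ?_
      ring

theorem dvd_X_mul_derivative {m : ℕ} {f : R[X]} (h : (X - 1 : R[X]) ^ (m + 1) ∣ f) :
    (X - 1 : R[X]) ^ m ∣ X * derivative f := by
  obtain ⟨g, rfl⟩ := h
  rw [derivative_mul, derivative_pow]
  have h1 : derivative (X - 1 : R[X]) = 1 := by
    rw [derivative_sub, derivative_X, derivative_one, sub_zero]
  rw [h1, mul_one, Nat.add_sub_cancel]
  refine Dvd.dvd.mul_left (dvd_add ?_ ?_) _
  · exact Dvd.dvd.mul_right (Dvd.dvd.mul_left (dvd_refl _) _) _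
  · exact Dvd.dvd.mul_right (pow_dvd_pow _ (Nat.le_succ m)) _

/-- `theta j` kills multiples of `(X-1)^m` when `j < m`. -/
theorem theta_eq_zero_of_dvd {j m : ℕ} (hj : j < m) {f : R[X]} (h : (X - 1 : R[X]) ^ m ∣ f) :
    theta j f = 0 := by
  induction j generalizing m f with
  | zero =>
    rw [theta_zero_eq_eval]
    obtain ⟨g, rfl⟩ := h
    rw [eval_mul, eval_pow, eval_sub, eval_X, eval_one, sub_self, zero_pow (by omega), zero_mul]
  | succ j ih =>
    obtain ⟨m, rfl⟩ : ∃ m', m = m' + 1 := ⟨m - 1, by omega⟩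
    rw [theta_succ]
    exact ih (by omega) (dvd_X_mul_derivative h)

theorem theta_congr {j m : ℕ} (hj : j < m) {f g : R[X]} (h : (X - 1 : R[X]) ^ m ∣ f - g) :
    theta j f = theta j g := by
  have := theta_eq_zero_of_dvd hj h
  rwa [map_sub, sub_eq_zero] at this

end Theta

section Lam

variable {R : Type*} [CommRing R]

/-- `lam j f ft = theta j (X f' ft)`: the `j`-th derivative at `v = 0` of `dlog f(e^v)`, where
`ft` is an inverse of `f` modulo a power of `X - 1`. -/
noncomputable def lam (j : ℕ) (f ft : R[X]) : R := theta j (X * derivative f * ft)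

theorem lam_congr {j m : ℕ} (hj : j + 1 < m) {f g ft gt : R[X]}
    (h : (X - 1 : R[X]) ^ m ∣ f - g) (ht : (X - 1 : R[X]) ^ m ∣ ft - gt) :
    lam j f ft = lam j g gt := by
  unfold lam
  obtain ⟨m', rfl⟩ : ∃ m', m = m' + 1 := ⟨m - 1, by omega⟩
  apply theta_congr (m := m') (by omega)
  have e : X * derivative f * ft - X * derivative g * gt =
      X * derivative (f - g) * ft + X * derivative g * (ft - gt) := by
    rw [derivative_sub]; ring
  rw [e]
  refine dvd_add (Dvd.dvd.mul_right (dvd_X_mul_derivative h) _) ?_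
  exact Dvd.dvd.mul_left ((pow_dvd_pow _ (Nat.le_succ m')).trans ht) _

theorem lam_mul {j m : ℕ} (hj : j < m) {f g ft gt : R[X]}
    (hf : (X - 1 : R[X]) ^ m ∣ f * ft - 1) (hg : (X - 1 : R[X]) ^ m ∣ g * gt - 1) :
    lam j (f * g) (ft * gt) = lam j f ft + lam j g gt := by
  unfold lam
  rw [← map_add]
  apply theta_congr (m := m) hj
  have e : X * derivative (f * g) * (ft * gt) - (X * derivative f * ft + X * derivative g * gt) =
      X * derivative f * ft * (g * gt - 1) + X * derivative g * gt * (f * ft - 1) := by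
    rw [derivative_mul]; ring
  rw [e]
  exact dvd_add (Dvd.dvd.mul_left hg _) (Dvd.dvd.mul_left hf _)

theorem lam_C (j : ℕ) (c : R) (ft : R[X]) : lam j (C c) ft = 0 := by
  unfold lam
  rw [derivative_C, mul_zero, zero_mul, map_zero]

theorem lam_X {j m : ℕ} (hj : j < m) {ft : R[X]} (h : (X - 1 : R[X]) ^ m ∣ X * ft - 1) :
    lam j X ft = if j = 0 then 1 else 0 := by
  unfold lam
  rw [derivative_X, mul_one, theta_congr hj h, theta_one]

/-- The recursion satisfied by the moments of `h = a X^a / (1 + X^a)`. -/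
theorem theta_recursion {m : ℕ} (a : ℕ) {h : R[X]}
    (hh : (X - 1 : R[X]) ^ m ∣ (1 + X ^ a) * h - C (a : R) * X ^ a) {j : ℕ} (hj : j < m) :
    2 * theta j h + ∑ i ∈ Finset.range j,
      (j.choose (i + 1) : R) * (a : R) ^ (i + 1) * theta (j - (i + 1)) h = (a : R) ^ (j + 1) := by
  have h1 := theta_congr hj hh
  rw [theta_mul, Finset.sum_range_succ'] at h1
  have h2 : theta j (C (a : R) * X ^ a : R[X]) = (a : R) ^ (j + 1) := by
    rw [C_mul_X_pow_eq_monomial, theta_monomial, pow_succ']
  rw [h2] at h1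
  have e0 : (j.choose 0 : R) * theta 0 (1 + X ^ a : R[X]) * theta (j - 0) h = 2 * theta j h := by
    rw [Nat.choose_zero_right, Nat.cast_one, one_mul, Nat.sub_zero, map_add, theta_one,
      theta_X_pow, pow_zero, if_pos rfl]
    ring
  have es : ∑ k ∈ Finset.range j,
      (j.choose (k + 1) : R) * theta (k + 1) (1 + X ^ a : R[X]) * theta (j - (k + 1)) h =
      ∑ i ∈ Finset.range j,
        (j.choose (i + 1) : R) * (a : R) ^ (i + 1) * theta (j - (i + 1)) h := by
    refine Finset.sum_congr rfl fun i _ => ?_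
    rw [map_add, theta_one, theta_X_pow, if_neg (Nat.succ_ne_zero i), zero_add]
  rw [es, e0] at h1
  rw [← h1, add_comm]

/-- If a table `t` satisfies the universal recursion `2 t_j + ∑_{i ≥ 1} C(j,i) t_{j-i} = 1`,
then the moments of `h = a X^a / (1 + X^a)` are `a^(j+1) t_j`. -/
theorem theta_eq_of_table {m : ℕ} (a : ℕ) {h : R[X]}
    (hh : (X - 1 : R[X]) ^ m ∣ (1 + X ^ a) * h - C (a : R) * X ^ a) (h2 : IsUnit (2 : R))
    (t : ℕ → R)
    (ht : ∀ j < m, 2 * t j + ∑ i ∈ Finset.range j, (j.choose (i + 1) : R) * t (j - (i + 1)) = 1) :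
    ∀ j < m, theta j h = (a : R) ^ (j + 1) * t j := by
  intro j
  induction j using Nat.strong_induction_on with
  | _ j ih =>
    intro hj
    have hrec := theta_recursion a hh hj
    have hsum : ∑ i ∈ Finset.range j,
        (j.choose (i + 1) : R) * (a : R) ^ (i + 1) * theta (j - (i + 1)) h =
        (a : R) ^ (j + 1) * ∑ i ∈ Finset.range j, (j.choose (i + 1) : R) * t (j - (i + 1)) := by
      rw [Finset.mul_sum]
      refine Finset.sum_congr rfl fun i hi => ?_
      have hi' : i < j := Finset.mem_range.mp hi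
      rw [ih (j - (i + 1)) (by omega) (by omega)]
      have : (a : R) ^ (j + 1) = (a : R) ^ (i + 1) * (a : R) ^ (j - (i + 1) + 1) := by
        rw [← pow_add]; congr 1; omega
      rw [this]; ring
    rw [hsum] at hrec
    have key : 2 * theta j h = 2 * ((a : R) ^ (j + 1) * t j) := by
      have := ht j hj
      linear_combination hrec - (a : R) ^ (j + 1) * this
    exact h2.mul_left_cancel key

/-- The logarithmic differential quotients of `1 + X^a`. -/
theorem lam_one_add_X_pow {m : ℕ} (a : ℕ) {ft : R[X]}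
    (hft : (X - 1 : R[X]) ^ m ∣ (1 + X ^ a) * ft - 1) (h2 : IsUnit (2 : R)) (t : ℕ → R)
    (ht : ∀ j < m, 2 * t j + ∑ i ∈ Finset.range j, (j.choose (i + 1) : R) * t (j - (i + 1)) = 1)
    {j : ℕ} (hj : j < m) :
    lam j (1 + X ^ a) ft = (a : R) ^ (j + 1) * t j := by
  have hder : X * derivative (1 + X ^ a : R[X]) * ft = C (a : R) * X ^ a * ft := by
    rw [derivative_add, derivative_one, zero_add, derivative_X_pow]
    rcases Nat.eq_zero_or_pos a with rfl | ha
    · simp
    · have : (X : R[X]) ^ a = X * X ^ (a - 1) := by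
        rw [← pow_succ', Nat.sub_add_cancel ha]
      rw [this]; ring
  unfold lam
  rw [hder]
  refine theta_eq_of_table a ?_ h2 t ht j hj
  have e : (1 + X ^ a) * (C (a : R) * X ^ a * ft) - C (a : R) * X ^ a =
      C (a : R) * X ^ a * ((1 + X ^ a) * ft - 1) := by ring
  rw [e]
  exact Dvd.dvd.mul_left hft _

end Lam

section Quot

variable (R : Type*) [CommRing R] (m : ℕ)

/-- The truncated ring `R[X]/((X-1)^m)`. -/
abbrev TruncRing : Type _ := R[X] ⧸ Ideal.span {(X - 1 : R[X]) ^ m}

/-- The quotient map `R[X] → R[X]/((X-1)^m)`. -/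
noncomputable abbrev truncMk : R[X] →+* TruncRing R m :=
  Ideal.Quotient.mk (Ideal.span {(X - 1 : R[X]) ^ m})

variable {R m}

theorem truncMk_eq_iff {f g : R[X]} :
    truncMk R m f = truncMk R m g ↔ (X - 1 : R[X]) ^ m ∣ f - g := by
  rw [Ideal.Quotient.eq, Ideal.mem_span_singleton]

theorem truncMk_out (b : TruncRing R m) : truncMk R m (Quotient.out b) = b :=
  Ideal.Quotient.mk_out b

/-- `ell j b`: Kummer's `(j+1)`-st logarithmic differential quotient of a unit `b` of the
truncated ring. -/
noncomputable def ell (j : ℕ) (b : (TruncRing R m)ˣ) : R :=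
  lam j (Quotient.out (b : TruncRing R m))
    (Quotient.out ((b⁻¹ : (TruncRing R m)ˣ) : TruncRing R m))

theorem ell_eq_lam {j : ℕ} (hj : j + 1 < m) (b : (TruncRing R m)ˣ) {f ft : R[X]}
    (hf : truncMk R m f = b) (hft : truncMk R m ft = ((b⁻¹ : (TruncRing R m)ˣ) : TruncRing R m)) :
    ell j b = lam j f ft := by
  unfold ell
  refine lam_congr hj ?_ ?_
  · rw [← truncMk_eq_iff, truncMk_out, hf]
  · rw [← truncMk_eq_iff, truncMk_out, hft]

theorem ell_mul {j : ℕ} (hj : j + 1 < m) (b c : (TruncRing R m)ˣ) :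
    ell j (b * c) = ell j b + ell j c := by
  have hb : truncMk R m (Quotient.out (b : TruncRing R m)) = b := truncMk_out _
  have hc : truncMk R m (Quotient.out (c : TruncRing R m)) = c := truncMk_out _
  have hb' : truncMk R m (Quotient.out ((b⁻¹ : (TruncRing R m)ˣ) : TruncRing R m)) =
      ((b⁻¹ : (TruncRing R m)ˣ) : TruncRing R m) := truncMk_out _
  have hc' : truncMk R m (Quotient.out ((c⁻¹ : (TruncRing R m)ˣ) : TruncRing R m)) =
      ((c⁻¹ : (TruncRing R m)ˣ) : TruncRing R m) := truncMk_out _
  rw [ell_eq_lam hj (b * c)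
    (f := Quotient.out (b : TruncRing R m) * Quotient.out (c : TruncRing R m))
    (ft := Quotient.out ((b⁻¹ : (TruncRing R m)ˣ) : TruncRing R m) *
      Quotient.out ((c⁻¹ : (TruncRing R m)ˣ) : TruncRing R m))]
  · unfold ell
    refine lam_mul (m := m) (by omega) ?_ ?_
    · rw [← truncMk_eq_iff, map_mul, hb, hb', map_one, ← Units.val_mul, mul_inv_cancel,
        Units.val_one]
    · rw [← truncMk_eq_iff, map_mul, hc, hc', map_one, ← Units.val_mul, mul_inv_cancel,
        Units.val_one]
  · rw [map_mul, hb, hc, Units.val_mul]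
  · rw [map_mul, hb', hc', ← Units.val_mul]
    exact congrArg Units.val (mul_inv b c).symm

/-- `ell j` as a monoid homomorphism to `Multiplicative R`. -/
noncomputable def ellHom (j : ℕ) (hj : j + 1 < m) : (TruncRing R m)ˣ →* Multiplicative R where
  toFun b := Multiplicative.ofAdd (ell j b)
  map_one' := by
    have h := ell_mul hj (1 : (TruncRing R m)ˣ) 1
    rw [mul_one] at h
    have h0 : ell j (1 : (TruncRing R m)ˣ) = 0 := by
      have := congrArg (fun x => x - ell j (1 : (TruncRing R m)ˣ)) h
      simpa using this.symm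
    rw [h0]; rfl
  map_mul' b c := by rw [ell_mul hj, ofAdd_add]

@[simp] theorem ellHom_apply (j : ℕ) (hj : j + 1 < m) (b : (TruncRing R m)ˣ) :
    (ellHom j hj b).toAdd = ell j b := rfl

theorem ell_of_eq_C {j : ℕ} (hj : j + 1 < m) (b : (TruncRing R m)ˣ) (c : R)
    (hb : (b : TruncRing R m) = truncMk R m (C c)) : ell j b = 0 := by
  rw [ell_eq_lam hj b hb.symm (truncMk_out _), lam_C]

theorem ell_of_eq_X {j : ℕ} (hj : j + 1 < m) (b : (TruncRing R m)ˣ)
    (hb : (b : TruncRing R m) = truncMk R m X) : ell j b = if j = 0 then 1 else 0 := by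
  rw [ell_eq_lam hj b hb.symm (truncMk_out _)]
  refine lam_X (m := m) (by omega) ?_
  rw [← truncMk_eq_iff, map_mul, truncMk_out, ← hb, map_one, ← Units.val_mul, mul_inv_cancel,
    Units.val_one]

theorem ell_of_eq_one_add_X_pow {j : ℕ} (hj : j + 1 < m) (b : (TruncRing R m)ˣ) (a : ℕ)
    (hb : (b : TruncRing R m) = truncMk R m (1 + X ^ a)) (h2 : IsUnit (2 : R)) (t : ℕ → R)
    (ht : ∀ j < m, 2 * t j + ∑ i ∈ Finset.range j, (j.choose (i + 1) : R) * t (j - (i + 1)) = 1) :
    ell j b = (a : R) ^ (j + 1) * t j := by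
  rw [ell_eq_lam hj b hb.symm (truncMk_out _)]
  refine lam_one_add_X_pow (m := m) a ?_ h2 t ht (by omega)
  rw [← truncMk_eq_iff, map_mul, truncMk_out, ← hb, map_one, ← Units.val_mul, mul_inv_cancel,
    Units.val_one]

end Quot

end Fermat.Agent.FLTReg.Dlog
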