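/-
FLTREG project (S10 + S11): Fermat's Last Theorem for the exponent 5 (owner helper18).
Assembly of: Case I (Sophie Germain, helper26), Case II (descent over the PID `𝓞 K`, helper65),
class number one (helper19 / Mathlib), Kummer's lemma (helper72, `Fermat.Agent.Kummer.KLX`).
-/
import Fermat.Agent.FLTReg.Assembly
import Fermat.Agent.Kummer.KLX5

set_option autoImplicit false

namespace Fermat.Agent.FLTReg

/-- Fermat's Last Theorem for the exponent `5`. -/
theorem flt_five : FermatLastTheoremFor 5 := by
  haveI := Assembly.fact_prime_five
  haveI := Top.isCyclotomicExtension_cyclotomicField 5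
  refine Assembly.flt_five_of_KL fun u h => ?_
  obtain ⟨a, ha⟩ := h
  exact Fermat.Agent.Kummer.KLX.kummer_lemma_five u a ha

end Fermat.Agent.FLTReg
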