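/-
A `FreyPackage` with exponent `p` contradicts `FermatLastTheoremFor p`.
Used to close S10 / S11 by vacuity once FLT is known for the exponents 5, 7, 11, 13.
-/
import Mathlib
import Fermat.Prelude.Def_FLTPrelim_FreyPackage

set_option autoImplicit false

namespace Fermat.Agent.FLTReg.FreyVacuous

/-- A Frey package is a counterexample to Fermat's Last Theorem for its exponent. -/
theorem false_of_flt (P : FreyPackage) (h : FermatLastTheoremFor P.p) : False := by
  rw [fermatLastTheoremFor_iff_int] at h
  exact h P.a P.b P.c P.ha0 P.hb0 P.hc0 P.hFLT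

/-- Variant with the exponent given by an equation. -/
theorem false_of_flt_of_eq (P : FreyPackage) {q : ℕ} (hq : P.p = q)
    (h : FermatLastTheoremFor q) : False :=
  false_of_flt P (hq ▸ h)

/-- S10-shaped closer: FLT for 5, 7, 13 kills every Frey package with `p ∈ {5, 7, 13}`. -/
theorem false_of_flt_5_7_13 (P : FreyPackage) (hp : P.p = 5 ∨ P.p = 7 ∨ P.p = 13)
    (h5 : FermatLastTheoremFor 5) (h7 : FermatLastTheoremFor 7)
    (h13 : FermatLastTheoremFor 13) : False := by
  rcases hp with hp | hp | hp
  · exact false_of_flt_of_eq P hp h5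
  · exact false_of_flt_of_eq P hp h7
  · exact false_of_flt_of_eq P hp h13

end Fermat.Agent.FLTReg.FreyVacuous
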