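import Mathlib

/-!
# Hilbert 92, abstract counting core

`M` a finitely generated abelian group, `σ` an endomorphism with `σ ^ p = 1` (`p` prime),
`N = ∑_{i<p} σ^i`.  If `p * rank (ker (σ - 1)) < rank M` then there is `η` with `N η = 0`
which is not of the form `σ ε - ε`.
-/

namespace Fermat.Agent.FLTReg.H92

open Module Polynomial

section LemmaQ

variable {X : Type*} [AddCommGroup X]

/-- the torsion subgroup of a finitely generated abelian group is finite -/
theorem finite_torsion [Module.Finite ℤ X] : Finite (Submodule.torsion ℤ X) := by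
  have : Module.Finite ℤ (Submodule.torsion ℤ X) := inferInstance
  exact Module.finite_of_fg_torsion _ (Submodule.torsion_isTorsion (R := ℤ) (M := X))

theorem mem_torsion_int_iff (x : X) :
    x ∈ Submodule.torsion ℤ X ↔ ∃ n : ℕ, 0 < n ∧ n • x = 0 := by
  rw [Submodule.mem_torsion_iff]
  constructor
  · rintro ⟨a, ha⟩
    have ha0 : (a : ℤ) ≠ 0 := nonZeroDivisors.coe_ne_zero a
    refine ⟨(a : ℤ).natAbs, Int.natAbs_pos.mpr ha0, ?_⟩
    have h1 : (a : ℤ) • x = 0 := ha
    rcases Int.natAbs_eq (a : ℤ) with h | h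
    · rw [h] at h1; simpa using h1
    · rw [h] at h1; simpa using h1
  · rintro ⟨n, hn, hx⟩
    refine ⟨⟨(n : ℤ), mem_nonZeroDivisors_of_ne_zero (by exact_mod_cast hn.ne')⟩, ?_⟩
    change (n : ℤ) • x = 0
    simpa using hx

/-- Lemma Q, first half (additive hom version) -/
theorem index_range_eq_mul_card_ker_aux [Module.Finite ℤ X] (f : X →+ X)
    (hf : ∀ x, f x ∈ Submodule.torsion ℤ X → x ∈ Submodule.torsion ℤ X) :
    f.range.index =
      (f.range ⊔ (Submodule.torsion ℤ X).toAddSubgroup).index * Nat.card f.ker := by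
  set T : AddSubgroup X := (Submodule.torsion ℤ X).toAddSubgroup with hT
  have hfin : Finite T := finite_torsion (X := X)
  have hmapT : ∀ x ∈ T, f x ∈ T := by
    intro x hx
    rw [hT, Submodule.mem_toAddSubgroup, mem_torsion_int_iff] at hx ⊢
    obtain ⟨n, hn, hx⟩ := hx
    exact ⟨n, hn, by rw [← map_nsmul, hx, map_zero]⟩
  -- restriction of f to T
  let g : T →+ T := (f.comp T.subtype).codRestrict T (fun x => hmapT x x.2)
  have h1 : f.range.relIndex (f.range ⊔ T) * (f.range ⊔ T).index = f.range.index :=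
    AddSubgroup.relIndex_mul_index le_sup_left
  have h2 : f.range.relIndex (f.range ⊔ T) = f.range.relIndex T :=
    AddSubgroup.relIndex_sup_left _ _
  have h3 : f.range.addSubgroupOf T = g.range := by
    ext y
    constructor
    · intro hy
      rw [AddSubgroup.mem_addSubgroupOf] at hy
      obtain ⟨x, hx⟩ := hy
      have hxT : x ∈ T := hf x (by rw [hx]; exact y.2)
      exact ⟨⟨x, hxT⟩, Subtype.ext hx⟩
    · rintro ⟨x, rfl⟩
      rw [AddSubgroup.mem_addSubgroupOf]
      exact ⟨x, rfl⟩
  have h4 : g.range.index = Nat.card g.ker := AddSubgroup.index_range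
  have h5 : Nat.card g.ker = Nat.card f.ker := by
    refine Nat.card_congr ⟨fun x => ⟨x.1.1, ?_⟩, fun x => ⟨⟨x.1, ?_⟩, ?_⟩, ?_, ?_⟩
    · have := x.2
      rw [AddMonoidHom.mem_ker] at this ⊢
      exact congrArg Subtype.val this
    · apply hf
      rw [(AddMonoidHom.mem_ker).mp x.2]
      exact zero_mem _
    · rw [AddMonoidHom.mem_ker]
      apply Subtype.ext
      exact (AddMonoidHom.mem_ker).mp x.2
    · intro x; rfl
    · intro x; rfl
  rw [← h1, h2, AddSubgroup.relIndex, h3, h4, h5, mul_comm]

/-- Lemma Q, first half: `[X : f X] = [X : f X + T] * |ker f|` when `f` reflects torsion. -/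
theorem index_range_eq_mul_card_ker [Module.Finite ℤ X] (f : Module.End ℤ X)
    (hf : ∀ x, f x ∈ Submodule.torsion ℤ X → x ∈ Submodule.torsion ℤ X) :
    (LinearMap.range f).toAddSubgroup.index =
      (LinearMap.range f ⊔ Submodule.torsion ℤ X).toAddSubgroup.index *
        Nat.card (LinearMap.ker f) := by
  have := index_range_eq_mul_card_ker_aux f.toAddMonoidHom hf
  rw [Submodule.sup_toAddSubgroup, LinearMap.range_toAddSubgroup]
  exact this

theorem index_range_pow_of_injective (g : Module.End ℤ X) (hg : Function.Injective g) (k : ℕ) :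
    (LinearMap.range (g ^ k)).toAddSubgroup.index =
      (LinearMap.range g).toAddSubgroup.index ^ k := by
  induction k with
  | zero =>
    have : LinearMap.range (1 : Module.End ℤ X) = ⊤ :=
      LinearMap.range_eq_top.mpr (fun x => ⟨x, rfl⟩)
    simp [this]
  | succ k ih =>
    have h1 : (LinearMap.range (g ^ (k+1))).toAddSubgroup =
        ((LinearMap.range (g ^ k)).toAddSubgroup).map g.toAddMonoidHom := by
      ext x
      simp only [pow_succ', Submodule.mem_toAddSubgroup, LinearMap.mem_range, Module.End.mul_apply,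
        AddSubgroup.mem_map, LinearMap.toAddMonoidHom_coe]
      constructor
      · rintro ⟨y, rfl⟩
        exact ⟨_, ⟨y, rfl⟩, rfl⟩
      · rintro ⟨_, ⟨y, rfl⟩, rfl⟩
        exact ⟨y, rfl⟩
    rw [h1, AddSubgroup.index_map_of_injective _ hg, ih, pow_succ, LinearMap.range_toAddSubgroup]

theorem pow_finrank_dvd_index_pow [Module.Free ℤ X] [Module.Finite ℤ X] (p k : ℕ)
    (g : Module.End ℤ X) (hg : Function.Injective g)
    (hk : ∀ x, ∃ y, (g ^ k) x = p • y) :
    p ^ finrank ℤ X ∣ (LinearMap.range g).toAddSubgroup.index ^ k := by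
  rw [← index_range_pow_of_injective g hg k, ← AddSubgroup.index_range_nsmul X p]
  apply AddSubgroup.index_dvd_of_le
  rintro _ ⟨x, rfl⟩
  obtain ⟨y, hy⟩ := hk x
  exact ⟨y, by simpa using hy.symm⟩

theorem torsion_le_comap (f : Module.End ℤ X) :
    Submodule.torsion ℤ X ≤ (Submodule.torsion ℤ X).comap f := by
  intro x hx
  rw [Submodule.mem_comap]
  rw [mem_torsion_int_iff] at hx ⊢
  obtain ⟨n, hn, hx⟩ := hx
  exact ⟨n, hn, by rw [← map_nsmul, hx, map_zero]⟩

theorem mapQ_pow (f : Module.End ℤ X) (k : ℕ) (x : X) :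
    (((Submodule.torsion ℤ X).mapQ (Submodule.torsion ℤ X) f (torsion_le_comap f)) ^ k)
      (Submodule.Quotient.mk x) = Submodule.Quotient.mk ((f ^ k) x) := by
  induction k generalizing x with
  | zero => simp
  | succ k ih =>
    rw [pow_succ, pow_succ, Module.End.mul_apply, Module.End.mul_apply, Submodule.mapQ_apply, ih]

/-- Lemma Q, second half: `[X : f X + T] = [X/T : f (X/T)]`. -/
theorem index_sup_torsion_eq (f : Module.End ℤ X) :
    (LinearMap.range f ⊔ Submodule.torsion ℤ X).toAddSubgroup.index =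
      (LinearMap.range ((Submodule.torsion ℤ X).mapQ (Submodule.torsion ℤ X) f
        (torsion_le_comap f))).toAddSubgroup.index := by
  set T := Submodule.torsion ℤ X with hT
  set fbar : Module.End ℤ (X ⧸ T) := T.mapQ T f (torsion_le_comap f) with hfbar
  have hcomap : (LinearMap.range f ⊔ T).toAddSubgroup =
      (LinearMap.range fbar).toAddSubgroup.comap (T.mkQ).toAddMonoidHom := by
    ext x
    simp only [Submodule.mem_toAddSubgroup, AddSubgroup.mem_comap, LinearMap.toAddMonoidHom_coe,
      Submodule.mkQ_apply, LinearMap.mem_range]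
    rw [Submodule.mem_sup]
    constructor
    · rintro ⟨_, ⟨y, rfl⟩, t, ht, rfl⟩
      refine ⟨Submodule.Quotient.mk y, ?_⟩
      rw [hfbar, Submodule.mapQ_apply, Submodule.Quotient.mk_add,
        (Submodule.Quotient.mk_eq_zero T).mpr ht, add_zero]
    · rintro ⟨y, hy⟩
      induction y using Submodule.Quotient.induction_on with
      | H y =>
        rw [hfbar, Submodule.mapQ_apply, Submodule.Quotient.eq] at hy
        refine ⟨f y, ⟨y, rfl⟩, x - f y, ?_, by abel⟩
        have := T.neg_mem hy
        rwa [neg_sub] at this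
  rw [hcomap, AddSubgroup.index_comap_of_surjective _ (Submodule.mkQ_surjective T)]

theorem pow_finrank_dvd_sup_torsion_index_pow [Module.Finite ℤ X] (p k : ℕ) (f : Module.End ℤ X)
    (hf : ∀ x, f x ∈ Submodule.torsion ℤ X → x ∈ Submodule.torsion ℤ X)
    (hk : ∀ x, ∃ y, (f ^ k) x = p • y) :
    p ^ finrank ℤ X ∣ (LinearMap.range f ⊔ Submodule.torsion ℤ X).toAddSubgroup.index ^ k := by
  rw [index_sup_torsion_eq]
  set T := Submodule.torsion ℤ X with hT
  set fbar : Module.End ℤ (X ⧸ T) := T.mapQ T f (torsion_le_comap f) with hfbar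
  have hinj : Function.Injective fbar := by
    rw [← LinearMap.ker_eq_bot, Submodule.eq_bot_iff]
    intro x hx
    induction x using Submodule.Quotient.induction_on with
    | H x =>
      rw [LinearMap.mem_ker, hfbar, Submodule.mapQ_apply, Submodule.Quotient.mk_eq_zero] at hx
      rw [Submodule.Quotient.mk_eq_zero]
      exact hf x hx
  have hkbar : ∀ x, ∃ y, (fbar ^ k) x = p • y := by
    intro x
    induction x using Submodule.Quotient.induction_on with
    | H x =>
      obtain ⟨y, hy⟩ := hk x
      refine ⟨Submodule.Quotient.mk y, ?_⟩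
      rw [hfbar, mapQ_pow, hy]
      simp
  have key := pow_finrank_dvd_index_pow p k fbar hinj hkbar
  have hrank : finrank ℤ (X ⧸ T) = finrank ℤ X := finrank_quotient_eq_of_le_torsion le_rfl
  rw [hrank] at key
  exact key

/-- `[X : pX + T] = p ^ rank X`. -/
theorem index_nsmul_sup_torsion [Module.Finite ℤ X] (p : ℕ) :
    (LinearMap.range ((p : ℤ) • (1 : Module.End ℤ X)) ⊔
      Submodule.torsion ℤ X).toAddSubgroup.index = p ^ finrank ℤ X := by
  rw [index_sup_torsion_eq]
  set T := Submodule.torsion ℤ X with hT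
  have hrank : finrank ℤ (X ⧸ T) = finrank ℤ X := finrank_quotient_eq_of_le_torsion le_rfl
  rw [← hrank, ← AddSubgroup.index_range_nsmul (X ⧸ T) p]
  congr 1
  ext x
  simp only [Submodule.mem_toAddSubgroup, LinearMap.mem_range, AddMonoidHom.mem_range,
    nsmulAddMonoidHom_apply]
  constructor
  · rintro ⟨y, rfl⟩
    induction y using Submodule.Quotient.induction_on with
    | H y =>
      refine ⟨Submodule.Quotient.mk y, ?_⟩
      rw [Submodule.mapQ_apply]
      simp
  · rintro ⟨y, rfl⟩
    induction y using Submodule.Quotient.induction_on with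
    | H y =>
      refine ⟨Submodule.Quotient.mk y, ?_⟩
      rw [Submodule.mapQ_apply]
      simp

end LemmaQ

section PolyId

/-- `∑_{i<p} (X+1)^i = X^(p-1) + p (1 + X w)` -/
theorem exists_geom_sum_X_add_one_eq {p : ℕ} (hp : p.Prime) :
    ∃ w : ℤ[X], (∑ i ∈ Finset.range p, (X + 1 : ℤ[X]) ^ i) =
      X ^ (p - 1) + C (p : ℤ) * (1 + X * w) := by
  have : Fact p.Prime := ⟨hp⟩
  have hE := cyclotomic_comp_X_add_one_isEisensteinAt p
  have hΦ : (cyclotomic p ℤ).comp (X + 1) = ∑ i ∈ Finset.range p, (X + 1 : ℤ[X]) ^ i := by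
    rw [cyclotomic_prime]
    simp [Polynomial.sum_comp]
  have hmonic : ((cyclotomic p ℤ).comp (X + 1)).Monic := by
    have := (cyclotomic.monic p ℤ).comp_X_add_C 1
    simpa using this
  have hdeg : ((cyclotomic p ℤ).comp (X + 1)).natDegree = p - 1 := by
    have h1 : (X + 1 : ℤ[X]) = X + C 1 := by simp
    rw [h1, natDegree_comp, natDegree_X_add_C, mul_one, natDegree_cyclotomic, Nat.totient_prime hp]
  rw [← hΦ]
  set Φ := (cyclotomic p ℤ).comp (X + 1) with hΦdef
  have hdvd : C (p : ℤ) ∣ Φ - X ^ (p - 1) := by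
    rw [C_dvd_iff_dvd_coeff]
    intro i
    rw [coeff_sub, coeff_X_pow]
    rcases lt_trichotomy i (p - 1) with hi | hi | hi
    · rw [if_neg hi.ne, sub_zero]
      have := hE.mem (hdeg ▸ hi)
      rwa [Ideal.mem_span_singleton] at this
    · rw [if_pos hi]
      have : Φ.coeff i = 1 := by
        rw [hi, ← hdeg]; exact hmonic.coeff_natDegree
      rw [this, sub_self]; exact dvd_zero _
    · rw [if_neg hi.ne', sub_zero, coeff_eq_zero_of_natDegree_lt (hdeg ▸ hi)]
      exact dvd_zero _
  obtain ⟨h, hh⟩ := hdvd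
  have h0 : h.coeff 0 = 1 := by
    have h1 := congrArg (fun q => q.coeff 0) hh
    simp only [coeff_sub, coeff_C_mul, coeff_X_pow] at h1
    have hp1 : (0 : ℕ) ≠ p - 1 := by have := hp.two_le; omega
    rw [if_neg hp1, sub_zero] at h1
    have h2 : Φ.coeff 0 = p := by
      rw [hΦ, coeff_zero_eq_eval_zero]
      simp [eval_finsetSum]
    rw [h2] at h1
    have hp0 : (p : ℤ) ≠ 0 := by exact_mod_cast hp.ne_zero
    exact (mul_left_cancel₀ hp0 (by rw [mul_one]; exact h1)).symm
  refine ⟨h.divX, ?_⟩
  have h3 : h = 1 + X * h.divX := by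
    conv_lhs => rw [← divX_mul_X_add h, h0]
    simp [add_comm, mul_comm]
  rw [← h3, ← hh]; ring

end PolyId

section Main

variable {M : Type*} [AddCommGroup M] [Module.Finite ℤ M]

theorem exists_norm_eq_zero_not_mem_range {p : ℕ} (hp : p.Prime) (σ : Module.End ℤ M)
    (hσ : σ ^ p = 1)
    (hrank : p * finrank ℤ (LinearMap.ker (σ - 1)) < finrank ℤ M) :
    ∃ η : M, (∑ i ∈ Finset.range p, σ ^ i) η = 0 ∧ η ∉ LinearMap.range (σ - 1) := by
  by_contra hcon
  push Not at hcon
  set lam : Module.End ℤ M := σ - 1 with hlam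
  set Nm : Module.End ℤ M := ∑ i ∈ Finset.range p, σ ^ i with hNm
  have hσlam : σ = lam + 1 := by rw [hlam]; abel
  have hNl : Nm * lam = 0 := by rw [hNm, hlam, geom_sum_mul, hσ, sub_self]
  have hlN : lam * Nm = 0 := by rw [hNm, hlam, mul_geom_sum, hσ, sub_self]
  obtain ⟨w, hw⟩ := exists_geom_sum_X_add_one_eq hp
  set W : Module.End ℤ M := aeval lam w with hW
  have hcomm : Commute lam W := by
    have : Commute (aeval lam (X : ℤ[X])) (aeval lam w) := (Commute.all X w).map (aeval lam)
    rwa [aeval_X] at this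
  have hw' : ∀ x : M, Nm x = (lam ^ (p-1)) x + p • (x + lam (W x)) := by
    intro x
    have := congrArg (aeval lam) hw
    simp only [map_sum, map_pow, map_add, aeval_X, map_one, map_mul, aeval_C] at this
    rw [← hσlam] at this
    rw [hNm, this]
    simp [hW]
  set B : Submodule ℤ M := LinearMap.ker Nm with hB
  set F : Submodule ℤ M := LinearMap.ker lam with hF
  have hlamB : ∀ x, lam x ∈ B := fun x => by
    rw [hB, LinearMap.mem_ker, ← Module.End.mul_apply, hNl]; rfl
  have hNmF : ∀ x, Nm x ∈ F := fun x => by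
    rw [hF, LinearMap.mem_ker, ← Module.End.mul_apply, hlN]; rfl
  have hσF : ∀ x ∈ F, σ x = x := by
    intro x hx
    rw [hF, LinearMap.mem_ker, hlam, LinearMap.sub_apply, Module.End.one_apply, sub_eq_zero] at hx
    exact hx
  have hσiF : ∀ (i : ℕ), ∀ x ∈ F, (σ ^ i) x = x := by
    intro i
    induction i with
    | zero => intro x _; simp
    | succ i ih => intro x hx; rw [pow_succ, Module.End.mul_apply, hσF x hx, ih x hx]
  have hNF : ∀ x ∈ F, Nm x = p • x := by
    intro x hx
    rw [hNm, LinearMap.sum_apply, Finset.sum_congr rfl (fun i _ => hσiF i x hx)]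
    simp
  let lam' : M →ₗ[ℤ] B := lam.codRestrict B hlamB
  let lamB : Module.End ℤ B := lam' ∘ₗ B.subtype
  let N' : M →ₗ[ℤ] F := Nm.codRestrict F hNmF
  let pF : Module.End ℤ F := (p : ℤ) • 1
  have hsurj : Function.Surjective lam' := by
    rintro ⟨b, hb⟩
    obtain ⟨x, hx⟩ := hcon b hb
    exact ⟨x, Subtype.ext hx⟩
  have hkerlam' : LinearMap.ker lam' = F := LinearMap.ker_codRestrict _ _ _
  -- B-step
  have stepB : (B ⊔ F).toAddSubgroup.index = (LinearMap.range lamB).toAddSubgroup.index := by
    have h1 : LinearMap.range lamB = Submodule.map lam' B := by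
      rw [LinearMap.range_comp, Submodule.range_subtype]
    have h2 : Submodule.comap lam' (Submodule.map lam' B) = B ⊔ F := by
      rw [Submodule.comap_map_eq, hkerlam']
    have h3 : (B ⊔ F).toAddSubgroup =
        (LinearMap.range lamB).toAddSubgroup.comap lam'.toAddMonoidHom := by
      rw [h1, ← h2]; rfl
    rw [h3, AddSubgroup.index_comap_of_surjective _ hsurj]
  -- A-step
  have stepA : (B ⊔ F).toAddSubgroup.index ∣ (LinearMap.range pF).toAddSubgroup.index := by
    have h3 : (B ⊔ F).toAddSubgroup =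
        (LinearMap.range pF).toAddSubgroup.comap N'.toAddMonoidHom := by
      ext x
      simp only [Submodule.mem_toAddSubgroup, AddSubgroup.mem_comap, LinearMap.toAddMonoidHom_coe,
        LinearMap.mem_range]
      rw [Submodule.mem_sup]
      constructor
      · rintro ⟨b, hb, f, hf, rfl⟩
        refine ⟨⟨f, hf⟩, ?_⟩
        apply Subtype.ext
        have hb' : Nm b = 0 := hb
        simp [pF, N', hb', hNF f hf]
      · rintro ⟨f, hf⟩
        have hf' : p • (f : M) = Nm x := by
          have := congrArg Subtype.val hf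
          simpa [pF, N'] using this
        refine ⟨x - f, ?_, f, f.2, by abel⟩
        rw [hB, LinearMap.mem_ker, map_sub, hNF f f.2, hf', sub_self]
    rw [h3, AddSubgroup.index_comap]
    exact AddSubgroup.relIndex_dvd_index_of_normal _ _
  have hp2 : 2 ≤ p := hp.two_le
  have hlamB_apply : ∀ x : B, ((lamB x : B) : M) = lam (x : M) := fun x => rfl
  have hlamB_pow : ∀ (k : ℕ) (x : B), (((lamB ^ k) x : B) : M) = (lam ^ k) (x : M) := by
    intro k
    induction k with
    | zero => intro x; simp
    | succ k ih =>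
      intro x
      rw [pow_succ, Module.End.mul_apply, ih, hlamB_apply, pow_succ, Module.End.mul_apply]
  -- torsion reflection on B
  have hfB : ∀ x : B, lamB x ∈ Submodule.torsion ℤ B → x ∈ Submodule.torsion ℤ B := by
    intro x hx
    rw [mem_torsion_int_iff] at hx ⊢
    obtain ⟨n, hn, hx⟩ := hx
    have hx' : lam (n • (x : M)) = 0 := by
      have := congrArg Subtype.val hx
      simpa [hlamB_apply] using this
    set y : M := n • (x : M) with hy
    have hNy : Nm y = 0 := by
      rw [hy, map_nsmul]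
      have : Nm (x : M) = 0 := x.2
      rw [this, smul_zero]
    have h1 : (lam ^ (p - 1)) y = 0 := by
      have : p - 1 = (p - 2) + 1 := by omega
      rw [this, pow_succ, Module.End.mul_apply, hx', map_zero]
    have h2 : lam (W y) = 0 := by
      have := congrArg (fun g : Module.End ℤ M => g y) hcomm.eq
      simp only [Module.End.mul_apply] at this
      rw [this, hx', map_zero]
    have h3 := hw' y
    rw [hNy, h1, h2, add_zero, zero_add] at h3
    refine ⟨p * n, Nat.mul_pos hp.pos hn, ?_⟩
    apply Subtype.ext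
    rw [mul_smul]
    simpa [hy] using h3.symm
  have hkB : ∀ x : B, ∃ y : B, (lamB ^ (p - 1)) x = p • y := by
    intro x
    have hx : Nm (x : M) = 0 := x.2
    have h3 := hw' x
    rw [hx] at h3
    refine ⟨⟨-((x : M) + lam (W x)), ?_⟩, ?_⟩
    · change Nm (-((x : M) + lam (W x))) = 0
      rw [map_neg, map_add, hx, ← Module.End.mul_apply, hNl]
      simp
    · apply Subtype.ext
      rw [hlamB_pow]
      have : (lam ^ (p - 1)) (x : M) = -(p • ((x : M) + lam (W x))) := by
        rw [eq_neg_iff_add_eq_zero]; exact h3.symm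
      rw [this]
      simp
  have hC := pow_finrank_dvd_sup_torsion_index_pow p (p - 1) lamB hfB hkB
  have hQB := index_range_eq_mul_card_ker lamB hfB
  -- torsion reflection on F
  have hfF : ∀ x : F, pF x ∈ Submodule.torsion ℤ F → x ∈ Submodule.torsion ℤ F := by
    intro x hx
    rw [mem_torsion_int_iff] at hx ⊢
    obtain ⟨n, hn, hx⟩ := hx
    refine ⟨n * p, Nat.mul_pos hn hp.pos, ?_⟩
    rw [mul_smul]
    simpa [pF] using hx
  have hQF := index_range_eq_mul_card_ker pF hfF
  have hIF := index_nsmul_sup_torsion (X := F) p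
  -- the two kernels have the same cardinality
  have hcard : Nat.card (LinearMap.ker lamB) = Nat.card (LinearMap.ker pF) := by
    refine Nat.card_congr ⟨fun x => ⟨⟨x.1.1, ?_⟩, ?_⟩, fun x => ⟨⟨x.1.1, ?_⟩, ?_⟩, ?_, ?_⟩
    · -- x ∈ B, lam x = 0 ⟹ x ∈ F
      have := x.2
      rw [LinearMap.mem_ker] at this
      have h := congrArg Subtype.val this
      rw [hlamB_apply] at h
      exact h
    · have hxF : (x.1.1 : M) ∈ F := by
        have := x.2
        rw [LinearMap.mem_ker] at this
        have h := congrArg Subtype.val this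
        rw [hlamB_apply] at h
        exact h
      rw [LinearMap.mem_ker]
      apply Subtype.ext
      have hxB : Nm (x.1.1 : M) = 0 := x.1.2
      have := hNF _ hxF
      rw [hxB] at this
      simpa [pF] using this.symm
    · -- x ∈ F, p x = 0 ⟹ x ∈ B
      have := x.2
      rw [LinearMap.mem_ker] at this
      have h := congrArg Subtype.val this
      change Nm (x.1.1 : M) = 0
      rw [hNF _ x.1.2]
      simpa [pF] using h
    · rw [LinearMap.mem_ker]
      apply Subtype.ext
      rw [hlamB_apply]
      exact x.1.2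
    · intro x; rfl
    · intro x; rfl
  have hfinker : Finite (LinearMap.ker pF) := by
    have hle : LinearMap.ker pF ≤ Submodule.torsion ℤ F := by
      intro x hx
      apply hfF
      rw [LinearMap.mem_ker] at hx
      rw [hx]; exact zero_mem _
    have := finite_torsion (X := F)
    exact Finite.of_injective (Submodule.inclusion hle) (Submodule.inclusion_injective hle)
  have ht : 0 < Nat.card (LinearMap.ker pF) := Nat.card_pos
  -- rank inequality
  have hrk : finrank ℤ M ≤ finrank ℤ B + finrank ℤ F := by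
    have h1 : finrank ℤ (LinearMap.range Nm) + finrank ℤ B = finrank ℤ M := by
      rw [← (LinearMap.quotKerEquivRange Nm).finrank_eq]
      exact Submodule.finrank_quotient_add_finrank _
    have h2 : finrank ℤ (LinearMap.range Nm) ≤ finrank ℤ F := by
      apply Submodule.finrank_mono
      rintro _ ⟨x, rfl⟩
      exact hNmF x
    omega
  -- arithmetic
  set a := finrank ℤ F with ha
  set n := finrank ℤ B with hn
  set t := Nat.card (LinearMap.ker pF) with htdef
  set I' := (LinearMap.range lamB ⊔ Submodule.torsion ℤ B).toAddSubgroup.index with hI'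
  rw [hcard] at hQB
  rw [hIF] at hQF
  rw [stepB, hQB, hQF] at stepA
  have h1 : I' ∣ p ^ a := Nat.dvd_of_mul_dvd_mul_right ht stepA
  have h2 : p ^ n ∣ (p ^ a) ^ (p - 1) := hC.trans (pow_dvd_pow_of_dvd h1 _)
  rw [← pow_mul] at h2
  have h3 : n ≤ a * (p - 1) := (Nat.pow_dvd_pow_iff_le_right hp.one_lt).mp h2
  have h4 : a * (p - 1) + a = p * a := by
    obtain ⟨q, rfl⟩ : ∃ q, p = q + 1 := ⟨p - 1, by omega⟩
    simp; ring
  omega

end Main

end Fermat.Agent.FLTReg.H92
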