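import Fermat.Agent.FLTReg.H92Core

/-!
# Hilbert 92 for cyclic extensions of prime degree of totally complex number fields

`hilbert92`: `L/K` Galois with cyclic group generated by `σ`, `[L:K] = p` prime, `K` totally
complex.  Then there is `η : (𝓞 L)ˣ` with `N_{L/K} η = 1` and `η ≠ ε / σ ε` for all units `ε`.
Proof: apply the abstract counting core `exists_norm_eq_zero_not_mem_range` to
`M = Additive (𝓞 L)ˣ` using Dirichlet's unit theorem for the ranks.
-/

namespace Fermat.Agent.FLTReg.H92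

open NumberField Module NumberField.InfinitePlace

set_option linter.unusedSectionVars false

variable {K L : Type*} [Field K] [Field L] [NumberField K] [NumberField L] [Algebra K L]

/-- the action of `σ ∈ Gal(L/K)` on the units of `𝓞 L`, as a monoid hom. -/
noncomputable def unitsMap (σ : L ≃ₐ[K] L) : (𝓞 L)ˣ →* (𝓞 L)ˣ :=
  Units.map ((MulSemiringAction.toRingHom (L ≃ₐ[K] L) (𝓞 L) σ : 𝓞 L →+* 𝓞 L) : 𝓞 L →* 𝓞 L)

theorem coe_unitsMap (σ : L ≃ₐ[K] L) (u : (𝓞 L)ˣ) :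
    (((unitsMap σ u : (𝓞 L)ˣ) : 𝓞 L) : L) = σ ((u : 𝓞 L) : L) := rfl

theorem unitsMap_one : unitsMap (1 : L ≃ₐ[K] L) = MonoidHom.id _ := by
  ext u
  rw [coe_unitsMap]; rfl

theorem unitsMap_mul (σ τ : L ≃ₐ[K] L) : unitsMap (σ * τ) = (unitsMap σ).comp (unitsMap τ) := by
  ext u
  rw [coe_unitsMap]; rfl

/-- the action of `Gal(L/K)` on `Additive (𝓞 L)ˣ` by `ℤ`-linear maps. -/
noncomputable def rho : (L ≃ₐ[K] L) →* Module.End ℤ (Additive (𝓞 L)ˣ) where
  toFun σ := (MonoidHom.toAdditive (unitsMap σ)).toIntLinearMap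
  map_one' := by
    rw [unitsMap_one]; rfl
  map_mul' σ τ := by
    rw [unitsMap_mul]; rfl

theorem rho_apply (σ : L ≃ₐ[K] L) (x : Additive (𝓞 L)ˣ) :
    rho σ x = Additive.ofMul (unitsMap σ (Additive.toMul x)) := rfl

variable (K L) in
/-- the inclusion of units `(𝓞 K)ˣ → (𝓞 L)ˣ`, additively. -/
noncomputable def unitsIncl : Additive (𝓞 K)ˣ →ₗ[ℤ] Additive (𝓞 L)ˣ :=
  (MonoidHom.toAdditive
    (Units.map ((algebraMap (𝓞 K) (𝓞 L) : 𝓞 K →+* 𝓞 L) : 𝓞 K →* 𝓞 L))).toIntLinearMap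

theorem coe_unitsIncl (x : Additive (𝓞 K)ˣ) :
    (((Additive.toMul (unitsIncl K L x) : (𝓞 L)ˣ) : 𝓞 L) : L) =
      algebraMap K L (((Additive.toMul x : (𝓞 K)ˣ) : 𝓞 K) : K) := rfl

/-- a unit of `𝓞 L` fixed by a generator `σ` of `Gal(L/K)` comes from `𝓞 K`. -/
theorem ker_le_range_unitsIncl [IsGalois K L] (σ : L ≃ₐ[K] L)
    (hσ : ∀ τ : L ≃ₐ[K] L, τ ∈ Subgroup.zpowers σ) :
    LinearMap.ker (rho σ - 1) ≤ LinearMap.range (unitsIncl K L) := by
  intro x hx
  rw [LinearMap.mem_ker, LinearMap.sub_apply, Module.End.one_apply, sub_eq_zero] at hx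
  set u : (𝓞 L)ˣ := Additive.toMul x with hu
  have hfix : σ ((u : 𝓞 L) : L) = ((u : 𝓞 L) : L) := by
    have := congrArg (fun y : Additive (𝓞 L)ˣ => (((Additive.toMul y : (𝓞 L)ˣ) : 𝓞 L) : L)) hx
    simpa [rho_apply, coe_unitsMap] using this
  have hfixall : ∀ τ : L ≃ₐ[K] L, τ ((u : 𝓞 L) : L) = ((u : 𝓞 L) : L) := by
    intro τ
    obtain ⟨n, rfl⟩ := Subgroup.mem_zpowers_iff.mp (hσ τ)
    have hmem : σ ∈ MulAction.stabilizer (L ≃ₐ[K] L) (((u : 𝓞 L) : L)) := hfix
    have := Subgroup.zpow_mem _ hmem n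
    exact this
  obtain ⟨a, ha⟩ := (IsGalois.mem_range_algebraMap_iff_fixed (F := K) (E := L) _).mpr hfixall
  have hinta : IsIntegral ℤ a := by
    have : IsIntegral ℤ (algebraMap K L a) := by rw [ha]; exact (u : 𝓞 L).2
    exact (isIntegral_algebraMap_iff (algebraMap K L).injective).mp this
  have hinta' : IsIntegral ℤ a⁻¹ := by
    have : IsIntegral ℤ (algebraMap K L a⁻¹) := by
      rw [map_inv₀, ha]
      have h1 : ((u : 𝓞 L) : L)⁻¹ = (((u⁻¹ : (𝓞 L)ˣ) : 𝓞 L) : L) := by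
        have hu0 : ((u : 𝓞 L) : L) ≠ 0 := by exact_mod_cast u.ne_zero
        apply inv_eq_of_mul_eq_one_right
        have h2 : (u : 𝓞 L) * ((u⁻¹ : (𝓞 L)ˣ) : 𝓞 L) = 1 := by
          rw [← Units.val_mul, mul_inv_cancel]; rfl
        have := congrArg (fun z : 𝓞 L => (z : L)) h2
        simpa using this
      rw [h1]; exact ((u⁻¹ : (𝓞 L)ˣ) : 𝓞 L).2
    exact (isIntegral_algebraMap_iff (algebraMap K L).injective).mp this
  have ha0 : a ≠ 0 := by
    rintro rfl
    rw [map_zero] at ha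
    have : ((u : 𝓞 L) : L) ≠ 0 := by exact_mod_cast u.ne_zero
    exact this ha.symm
  let v : (𝓞 K)ˣ := ⟨⟨a, hinta⟩, ⟨a⁻¹, hinta'⟩, by
    apply RingOfIntegers.ext; exact mul_inv_cancel₀ ha0, by
    apply RingOfIntegers.ext; exact inv_mul_cancel₀ ha0⟩
  refine ⟨Additive.ofMul v, ?_⟩
  have : unitsIncl K L (Additive.ofMul v) = Additive.ofMul u := by
    apply congrArg Additive.ofMul
    apply Units.ext
    apply RingOfIntegers.ext
    exact ha
  rw [this, hu]; rfl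

theorem rank_lt_of_totallyComplex {p : ℕ} (hp : 2 ≤ p) (hKL : finrank K L = p)
    (hK : nrRealPlaces K = 0) :
    p * NumberField.Units.rank K < NumberField.Units.rank L := by
  have hKc : IsTotallyComplex K := nrRealPlaces_eq_zero_iff.mp hK
  have hLc : IsTotallyComplex L := isTotallyComplex_of_algebra K L
  have hL : nrRealPlaces L = 0 := nrRealPlaces_eq_zero_iff.mpr hLc
  have h1 : finrank ℚ K = 2 * nrComplexPlaces K := IsTotallyComplex.finrank _
  have h2 : finrank ℚ L = 2 * nrComplexPlaces L := IsTotallyComplex.finrank _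
  have h3 : finrank ℚ K * finrank K L = finrank ℚ L := Module.finrank_mul_finrank ℚ K L
  have h4 : Fintype.card (InfinitePlace K) = nrComplexPlaces K := by
    rw [card_eq_nrRealPlaces_add_nrComplexPlaces, hK, zero_add]
  have h5 : Fintype.card (InfinitePlace L) = nrComplexPlaces L := by
    rw [card_eq_nrRealPlaces_add_nrComplexPlaces, hL, zero_add]
  have h6 : 0 < Fintype.card (InfinitePlace K) := Fintype.card_pos
  rw [NumberField.Units.rank, NumberField.Units.rank, h4, h5]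
  rw [h4] at h6
  rw [hKL, h1, h2] at h3
  have h7 : nrComplexPlaces L = p * nrComplexPlaces K := by
    have : 2 * (nrComplexPlaces K * p) = 2 * nrComplexPlaces L := by rw [← h3]; ring
    have := Nat.eq_of_mul_eq_mul_left (by norm_num) this
    rw [← this]; ring
  rw [h7]
  obtain ⟨c, hc⟩ : ∃ c, nrComplexPlaces K = c + 1 := ⟨nrComplexPlaces K - 1, by omega⟩
  rw [hc]
  have : p * (c + 1) = p * c + p := by ring
  rw [this]
  simp only [Nat.add_sub_cancel]
  omega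


theorem prod_aut_eq_prod_range [IsGalois K L] {p : ℕ} (hKL : finrank K L = p) (σ : L ≃ₐ[K] L)
    (hσ : ∀ τ : L ≃ₐ[K] L, τ ∈ Subgroup.zpowers σ) (x : L) :
    ∏ τ : L ≃ₐ[K] L, τ x = ∏ i ∈ Finset.range p, (σ ^ i) x := by
  classical
  have hcard : Nat.card (L ≃ₐ[K] L) = p := by rw [IsGalois.card_aut_eq_finrank, hKL]
  have hord : orderOf σ = p := by rw [orderOf_eq_card_of_forall_mem_zpowers hσ, hcard]
  have himg : Finset.image (fun i => σ ^ i) (Finset.range p) = Finset.univ := by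
    rw [← hord]; exact IsCyclic.image_range_orderOf hσ
  rw [← himg, Finset.prod_image]
  intro i hi j hj hij
  rw [← hord] at hi hj
  exact pow_injOn_Iio_orderOf (by simpa using hi) (by simpa using hj) hij

/-- **Hilbert 92** for a cyclic extension `L/K` of prime degree `p` of a totally complex
number field `K`: there is a unit `η` of `L` of relative norm `1` which is not of the form
`ε / σ ε`. -/
theorem hilbert92 [IsGalois K L] {p : ℕ} (hp : p.Prime) (hKL : finrank K L = p) (σ : L ≃ₐ[K] L)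
    (hσ : ∀ τ : L ≃ₐ[K] L, τ ∈ Subgroup.zpowers σ) (hK : nrRealPlaces K = 0) :
    ∃ η : (𝓞 L)ˣ, Algebra.norm K ((η : 𝓞 L) : L) = 1 ∧
      ∀ ε : (𝓞 L)ˣ, ((η : 𝓞 L) : L) ≠ ((ε : 𝓞 L) : L) / σ ((ε : 𝓞 L) : L) := by
  have hcard : Nat.card (L ≃ₐ[K] L) = p := by rw [IsGalois.card_aut_eq_finrank, hKL]
  have hσp : σ ^ p = 1 := by rw [← hcard]; exact pow_card_eq_one'
  have h1 : (rho σ) ^ p = 1 := by rw [← map_pow, hσp, map_one]
  have hrank : p * finrank ℤ (LinearMap.ker (rho σ - 1)) < finrank ℤ (Additive (𝓞 L)ˣ) := by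
    have h2 : finrank ℤ (LinearMap.ker (rho σ - 1)) ≤ NumberField.Units.rank K := by
      calc finrank ℤ (LinearMap.ker (rho σ - 1))
          ≤ finrank ℤ (LinearMap.range (unitsIncl K L)) :=
            Submodule.finrank_mono (ker_le_range_unitsIncl σ hσ)
        _ ≤ finrank ℤ (Additive (𝓞 K)ˣ) := LinearMap.finrank_range_le _
        _ = NumberField.Units.rank K := NumberField.Units.finrank_eq K
    rw [NumberField.Units.finrank_eq L]
    exact lt_of_le_of_lt (Nat.mul_le_mul_left p h2) (rank_lt_of_totallyComplex hp.two_le hKL hK)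
  obtain ⟨η, hη1, hη2⟩ := exists_norm_eq_zero_not_mem_range hp (rho σ) h1 hrank
  refine ⟨Additive.toMul η, ?_, ?_⟩
  · apply (algebraMap K L).injective
    rw [Algebra.norm_eq_prod_automorphisms, prod_aut_eq_prod_range hKL σ hσ, map_one]
    have h3 : ∀ i : ℕ, (σ ^ i) (((Additive.toMul η : (𝓞 L)ˣ) : 𝓞 L) : L) =
        (((Additive.toMul (((rho σ) ^ i) η) : (𝓞 L)ˣ) : 𝓞 L) : L) := by
      intro i
      rw [← map_pow, rho_apply, toMul_ofMul, coe_unitsMap]
    rw [Finset.prod_congr rfl (fun i _ => h3 i)]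
    rw [LinearMap.sum_apply] at hη1
    have h4 := congrArg (fun y : Additive (𝓞 L)ˣ => (((Additive.toMul y : (𝓞 L)ˣ) : 𝓞 L) : L)) hη1
    simp only [toMul_sum, toMul_zero, Units.val_one, map_one] at h4
    rw [← h4]
    simp [Units.coe_prod]
  · intro ε hε
    apply hη2
    refine ⟨Additive.ofMul ε⁻¹, ?_⟩
    rw [LinearMap.sub_apply, Module.End.one_apply, rho_apply, toMul_ofMul, ← ofMul_div]
    have : η = Additive.ofMul (Additive.toMul η) := rfl
    rw [this]
    apply congrArg Additive.ofMul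
    apply Units.ext
    apply RingOfIntegers.ext
    rw [hε]
    have hε0 : ((ε : 𝓞 L) : L) ≠ 0 := by exact_mod_cast ε.ne_zero
    have hσε0 : σ ((ε : 𝓞 L) : L) ≠ 0 := by
      rw [Ne, map_eq_zero_iff _ σ.injective]; exact hε0
    have h5 : (((unitsMap σ ε⁻¹ / ε⁻¹ : (𝓞 L)ˣ) : 𝓞 L) : L) =
        (((unitsMap σ ε⁻¹ : (𝓞 L)ˣ) : 𝓞 L) : L) / (((ε⁻¹ : (𝓞 L)ˣ) : 𝓞 L) : L) := by
      simp
    rw [h5, coe_unitsMap]
    have h6 : (((ε⁻¹ : (𝓞 L)ˣ) : 𝓞 L) : L) = (((ε : 𝓞 L) : L))⁻¹ := by simp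
    rw [h6, map_inv₀]
    field_simp

end Fermat.Agent.FLTReg.H92
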