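import Mathlib

/-!
# FLTReg / KL4 : invariant elements in unramified cyclic extensions

`L/K` Galois extension of number fields with cyclic group generated by `σ`, `𝓞 K` a PID, and
every nonzero prime of `𝓞 K` has squarefree extension to `𝓞 L` (i.e. `L/K` is unramified at all
finite primes).  If `β ∈ 𝓞 L` is nonzero and `σ • β` is associated to `β`, then `β = a * ε` with
`a ∈ 𝓞 K` and `ε` a unit of `𝓞 L`.

Main statement: `Fermat.Agent.FLTReg.kl4_main`.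
-/

namespace Fermat.Agent.FLTReg

open NumberField

section KL4

variable {K L : Type*} [Field K] [Field L] [NumberField K] [NumberField L] [Algebra K L]

omit [NumberField K] [NumberField L] in
/-- Non-units of `𝓞 K` stay non-units in `𝓞 L`. -/
theorem kl4_isUnit_of_isUnit_algebraMap {a : 𝓞 K}
    (h : IsUnit (algebraMap (𝓞 K) (𝓞 L) a)) : IsUnit a := by
  obtain ⟨u, hu⟩ := h
  have ha0 : (a : K) ≠ 0 := by
    intro h0
    have : a = 0 := by exact_mod_cast h0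
    rw [this, map_zero] at hu
    exact u.ne_zero hu
  have hL : algebraMap K L ((a : K)⁻¹) = ((u⁻¹ : (𝓞 L)ˣ) : 𝓞 L) := by
    have h1 : algebraMap K L (a : K) = ((u : 𝓞 L) : L) := by
      rw [hu]; rfl
    rw [map_inv₀, h1]
    have : ((u : 𝓞 L) : L) * (((u⁻¹ : (𝓞 L)ˣ) : 𝓞 L) : L) = 1 := by
      rw [← map_mul]; simp
    exact inv_eq_of_mul_eq_one_right this
  have hint : IsIntegral ℤ ((a : K)⁻¹) := by
    rw [← isIntegral_algebraMap_iff (algebraMap K L).injective, hL]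
    exact RingOfIntegers.isIntegral_coe _
  let b : 𝓞 K := ⟨(a : K)⁻¹, hint⟩
  have key : a * b = 1 := by
    apply RingOfIntegers.ext
    show (a : K) * (a : K)⁻¹ = 1
    exact mul_inv_cancel₀ ha0
  exact isUnit_iff_exists_inv.2 ⟨_, key⟩

omit [NumberField K] in
/-- Every nonzero `β ∈ 𝓞 L` is `a * β₀` with `a ∈ 𝓞 K` and `β₀` not divisible by any non-unit
of `𝓞 K`. -/
theorem kl4_exists_primitive_part (β : 𝓞 L) (hβ : β ≠ 0) :
    ∃ (a : 𝓞 K) (β₀ : 𝓞 L), β = algebraMap (𝓞 K) (𝓞 L) a * β₀ ∧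
      ∀ π : 𝓞 K, ¬ IsUnit π → ¬ algebraMap (𝓞 K) (𝓞 L) π ∣ β₀ := by
  induction β using (wellFounded_dvdNotUnit (α := 𝓞 L)).induction with
  | _ β ih =>
    by_cases hex : ∃ π : 𝓞 K, ¬ IsUnit π ∧ algebraMap (𝓞 K) (𝓞 L) π ∣ β
    · obtain ⟨π, hπ, β₁, rfl⟩ := hex
      have hβ₁ : β₁ ≠ 0 := right_ne_zero_of_mul hβ
      have hπL : ¬ IsUnit (algebraMap (𝓞 K) (𝓞 L) π) := fun h =>
        hπ (kl4_isUnit_of_isUnit_algebraMap h)
      obtain ⟨a₁, β₀, h1, h2⟩ := ih β₁ ⟨hβ₁, _, hπL, mul_comm _ _⟩ hβ₁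
      refine ⟨π * a₁, β₀, ?_, h2⟩
      rw [map_mul, mul_assoc, ← h1]
    · push Not at hex
      exact ⟨1, β, by simp, fun π hπ => hex π hπ⟩

omit [NumberField K] [NumberField L] in
/-- if `σ • β₀` is associated to `β₀` then so is `τ • β₀` for every `τ` in the powers of `σ`. -/
theorem kl4_smul_associated [IsGalois K L] (σ : Gal(L/K)) (β₀ : 𝓞 L)
    (h : Associated (σ • β₀) β₀) (n : ℕ) : Associated ((σ ^ n) • β₀) β₀ := by
  induction n with
  | zero => simp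
  | succ n ih =>
    rw [pow_succ, mul_smul]
    obtain ⟨u, hu⟩ := h
    -- σ • β₀ * u = β₀
    have h1 : σ • β₀ = β₀ * ((u⁻¹ : (𝓞 L)ˣ) : 𝓞 L) :=
      (Units.eq_mul_inv_iff_mul_eq u).2 hu
    rw [h1, smul_mul']
    have hu' : IsUnit ((σ ^ n) • (((u⁻¹ : (𝓞 L)ˣ) : 𝓞 L))) :=
      (u⁻¹).isUnit.map (MulSemiringAction.toRingHom Gal(L/K) (𝓞 L) (σ ^ n))
    exact (associated_mul_unit_left _ _ hu').trans ih

theorem kl4_main [IsGalois K L] [IsPrincipalIdealRing (𝓞 K)]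
    (hsqf : ∀ p : Ideal (𝓞 K), p.IsMaximal → p ≠ ⊥ →
      Squarefree (p.map (algebraMap (𝓞 K) (𝓞 L))))
    (σ : Gal(L/K)) (hσ : ∀ τ, τ ∈ Subgroup.zpowers σ)
    (β : 𝓞 L) (hβ : β ≠ 0) (hinv : Associated (σ • β) β) :
    ∃ (a : 𝓞 K) (ε : (𝓞 L)ˣ), β = algebraMap (𝓞 K) (𝓞 L) a * ε := by
  obtain ⟨a, β₀, hβ_eq, hprim⟩ := kl4_exists_primitive_part (K := K) β hβ
  have ha0 : algebraMap (𝓞 K) (𝓞 L) a ≠ 0 := by
    intro h; rw [h, zero_mul] at hβ_eq; exact hβ hβ_eq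
  have hβ₀ : β₀ ≠ 0 := by
    intro h; rw [h, mul_zero] at hβ_eq; exact hβ hβ_eq
  -- invariance passes to β₀
  have hinv₀ : Associated (σ • β₀) β₀ := by
    obtain ⟨u, hu⟩ := hinv
    refine ⟨u, ?_⟩
    have hσa : σ • algebraMap (𝓞 K) (𝓞 L) a = algebraMap (𝓞 K) (𝓞 L) a :=
      smul_algebraMap σ a
    rw [hβ_eq, smul_mul', hσa, mul_assoc] at hu
    exact mul_left_cancel₀ ha0 hu
  suffices hunit : IsUnit β₀ by
    exact ⟨a, hunit.unit, by rw [hβ_eq]; simp⟩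
  by_contra hnu
  -- a maximal ideal containing β₀
  obtain ⟨P, hPmax, hP⟩ := Ideal.exists_le_maximal (Ideal.span {β₀})
    (by rwa [Ne, Ideal.span_singleton_eq_top])
  have hβP : β₀ ∈ P := hP (Ideal.mem_span_singleton_self _)
  have hPbot : P ≠ ⊥ := fun h => hβ₀ (by simpa [h] using hβP)
  set p := P.under (𝓞 K) with hp
  have hpmax : p.IsMaximal := Ideal.IsMaximal.under (𝓞 K) P
  have hpbot : p ≠ ⊥ := Ideal.under_ne_bot (𝓞 K) hPbot
  -- all conjugates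
  have hσfin : IsOfFinOrder σ := isOfFinOrder_of_finite σ
  have hall : ∀ τ : Gal(L/K), τ • β₀ ∈ P := by
    intro τ
    obtain ⟨n, rfl⟩ := (hσfin.mem_powers_iff_mem_zpowers.2 (hσ τ))
    obtain ⟨u, hu⟩ := (kl4_smul_associated σ β₀ hinv₀ n).symm
    rw [← hu]
    exact P.mul_mem_right _ hβP
  have hI0 : p.map (algebraMap (𝓞 K) (𝓞 L)) ≠ ⊥ :=
    Ideal.map_ne_bot_of_ne_bot hpbot
  have hJ0 : Ideal.span {β₀} ≠ ⊥ := by
    rwa [Ne, Ideal.span_singleton_eq_bot]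
  have hdvd : p.map (algebraMap (𝓞 K) (𝓞 L)) ∣ Ideal.span {β₀} := by
    rw [UniqueFactorizationMonoid.dvd_iff_normalizedFactors_le_normalizedFactors hI0 hJ0,
      Multiset.le_iff_subset
        ((UniqueFactorizationMonoid.squarefree_iff_nodup_normalizedFactors hI0).1
          (hsqf p hpmax hpbot))]
    intro Q hQ
    rw [Ideal.mem_normalizedFactors_iff hI0] at hQ
    obtain ⟨hQprime, hQle⟩ := hQ
    rw [Ideal.mem_normalizedFactors_iff hJ0]
    refine ⟨hQprime, ?_⟩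
    -- Q lies over p
    have hQover : Q.LiesOver p := by
      constructor
      have h1 : p ≤ Q.under (𝓞 K) := by
        intro x hx
        exact hQle (Ideal.mem_map_of_mem _ hx)
      exact (hpmax.eq_of_le (Ideal.IsPrime.under (𝓞 K) Q).ne_top h1)
    have hPover : P.LiesOver p := ⟨rfl⟩
    obtain ⟨τ, hτ⟩ := Ideal.exists_smul_eq_of_isGaloisGroup p P Q Gal(L/K)
    rw [Ideal.span_singleton_le_iff_mem, ← hτ, Ideal.mem_pointwise_smul_iff_inv_smul_mem]
    exact hall τ⁻¹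
  -- generator of p
  obtain ⟨π, hπ⟩ := (IsPrincipalIdealRing.principal p).principal
  have hπnu : ¬ IsUnit π := by
    intro h
    apply hpmax.ne_top
    rw [hπ]; exact Ideal.span_singleton_eq_top.2 h
  apply hprim π hπnu
  have : β₀ ∈ p.map (algebraMap (𝓞 K) (𝓞 L)) :=
    (Ideal.dvd_iff_le.1 hdvd) (Ideal.mem_span_singleton_self _)
  rw [hπ, Ideal.submodule_span_eq, Ideal.map_span, Set.image_singleton,
    Ideal.mem_span_singleton] at this
  exact this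

end KL4

end Fermat.Agent.FLTReg
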