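import Mathlib

/-!
# KL1: bridge from the classical form of Kummer's lemma hypothesis to the `λ ^ p` form

`K` is a `p`-th cyclotomic field (`p` an odd prime), `λ = ζ - 1`.

* `exists_int_sub_dvd` : every element of `𝓞 K` is congruent to a rational integer mod `λ`;
* `prime_dvd_trace_zeta_sub_one_mul` : `p ∣ Tr (λ * γ)`;
* `lambda_pow_dvd_pow_sub_one` : if a unit `u` is congruent to a rational integer mod `p`, then
  `λ ^ p ∣ u ^ (p - 1) - 1`;
* `kummer_classical_of_KLa` : Kummer's lemma in the form `λ ^ p ∣ u - 1 → u = v ^ p` implies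
  Kummer's lemma in the classical form `u ≡ n mod p → u = v ^ p`.
-/

namespace Fermat.Agent.FLTReg.KL1

open NumberField IsCyclotomicExtension.Rat

variable {p : ℕ} [hp : Fact p.Prime] {K : Type*} [Field K] [NumberField K]
  [hK : IsCyclotomicExtension {p} ℚ K] {ζ : K} (hζ : IsPrimitiveRoot ζ p)

/-- Every element of `𝓞 K` is congruent to a rational integer modulo `ζ - 1`. -/
theorem exists_int_sub_dvd (β : 𝓞 K) : ∃ b : ℤ, hζ.toInteger - 1 ∣ β - (b : 𝓞 K) := by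
  have htop := IsCyclotomicExtension.Rat.adjoin_singleton_eq_top (n := p) hζ
  have hβ : β ∈ Algebra.adjoin ℤ ({hζ.toInteger} : Set (𝓞 K)) := by
    rw [htop]; exact Algebra.mem_top
  induction hβ using Algebra.adjoin_induction with
  | mem x hx =>
    rw [Set.mem_singleton_iff] at hx
    subst hx
    exact ⟨1, by simp⟩
  | algebraMap r =>
    exact ⟨r, by simp⟩
  | add x y _ _ hx hy =>
    obtain ⟨a, ha⟩ := hx
    obtain ⟨b, hb⟩ := hy
    refine ⟨a + b, ?_⟩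
    have : x + y - ((a + b : ℤ) : 𝓞 K) = (x - a) + (y - b) := by push_cast; ring
    rw [this]
    exact dvd_add ha hb
  | mul x y _ _ hx hy =>
    obtain ⟨a, ha⟩ := hx
    obtain ⟨b, hb⟩ := hy
    refine ⟨a * b, ?_⟩
    have : x * y - ((a * b : ℤ) : 𝓞 K) = (x - a) * y + (a : 𝓞 K) * (y - b) := by push_cast; ring
    rw [this]
    exact dvd_add (Dvd.dvd.mul_right ha _) (Dvd.dvd.mul_left hb _)

omit hp in
include hK in
/-- The trace of `x : 𝓞 K`, seen in `𝓞 K`, is the sum of the Galois conjugates of `x`. -/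
theorem trace_eq_sum_galRestrict (x : 𝓞 K) :
    ((Algebra.trace ℤ (𝓞 K) x : ℤ) : 𝓞 K) = ∑ σ : Gal(K/ℚ), galRestrict ℤ ℚ K (𝓞 K) σ x := by
  have : IsGalois ℚ K := IsCyclotomicExtension.isGalois {p} ℚ K
  apply RingOfIntegers.coe_injective
  have h1 : algebraMap (𝓞 K) K ((Algebra.trace ℤ (𝓞 K) x : ℤ) : 𝓞 K) =
      algebraMap ℚ K (Algebra.trace ℚ K (x : K)) := by
    rw [← Algebra.coe_trace_int]
    simp
  rw [h1, trace_eq_sum_automorphisms]
  simp only [map_sum]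
  refine Finset.sum_congr rfl fun σ _ => ?_
  exact (algebraMap_galRestrict_apply ℤ σ x).symm

omit [NumberField K] hK in
/-- Any ring automorphism of `𝓞 K` sends `ζ - 1` to a multiple of `ζ - 1`. -/
theorem zeta_sub_one_dvd_map (τ : 𝓞 K ≃ₐ[ℤ] 𝓞 K) :
    hζ.toInteger - 1 ∣ τ (hζ.toInteger - 1) := by
  have hz := hζ.toInteger_isPrimitiveRoot
  have h1 : (τ hζ.toInteger) ^ p = 1 := by
    rw [← map_pow, hz.pow_eq_one, map_one]
  obtain ⟨k, -, hk⟩ := hz.eq_pow_of_pow_eq_one h1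
  rw [map_sub, map_one, ← hk]
  simpa using sub_dvd_pow_sub_pow hζ.toInteger 1 k

include hK in
/-- `p` divides the trace of any multiple of `ζ - 1`. -/
theorem prime_dvd_trace_zeta_sub_one_mul (γ : 𝓞 K) :
    (p : ℤ) ∣ Algebra.trace ℤ (𝓞 K) ((hζ.toInteger - 1) * γ) := by
  rw [← zeta_sub_one_dvd_intCast_iff' p hζ, trace_eq_sum_galRestrict (p := p)]
  refine Finset.dvd_sum fun σ _ => ?_
  rw [map_mul]
  exact Dvd.dvd.mul_right (zeta_sub_one_dvd_map hζ _) _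

omit hK [NumberField K] in
/-- The norm of the `(p - 1)`-th power of a unit is `1` (`p` odd). -/
theorem norm_unit_pow_eq_one (hp2 : p ≠ 2) (u : (𝓞 K)ˣ) :
    Algebra.norm ℤ ((u : 𝓞 K) ^ (p - 1)) = 1 := by
  have hu : IsUnit (Algebra.norm ℤ (u : 𝓞 K)) := u.isUnit.map (Algebra.norm ℤ)
  have heven : Even (p - 1) := by
    have := hp.out.eq_two_or_odd'
    rcases this with h | h
    · exact absurd h hp2
    · exact Nat.Odd.sub_odd h odd_one
  rw [map_pow]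
  rcases Int.isUnit_iff.mp hu with h | h
  · rw [h, one_pow]
  · rw [h, heven.neg_one_pow]

include hζ hK in
/-- A rational integer congruent to a unit mod `p` is prime to `p`. -/
theorem not_dvd_of_dvd_unit_sub (u : (𝓞 K)ˣ) (n : ℤ) (h : (p : 𝓞 K) ∣ (u : 𝓞 K) - n) :
    ¬ (p : ℤ) ∣ n := by
  intro hn
  have h1 : hζ.toInteger - 1 ∣ (n : 𝓞 K) := (zeta_sub_one_dvd_intCast_iff' p hζ).mpr hn
  have h2 : hζ.toInteger - 1 ∣ (u : 𝓞 K) - n :=
    hζ.toInteger_sub_one_dvd_prime'.trans h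
  have h3 : hζ.toInteger - 1 ∣ (u : 𝓞 K) := by
    have := dvd_add h2 h1
    simpa using this
  exact hζ.zeta_sub_one_prime'.not_isUnit (isUnit_of_dvd_unit h3 u.isUnit)

include hζ hK in
theorem prime_dvd_unit_pow_sub_one (u : (𝓞 K)ˣ) (n : ℤ) (h : (p : 𝓞 K) ∣ (u : 𝓞 K) - n) :
    (p : 𝓞 K) ∣ (u : 𝓞 K) ^ (p - 1) - 1 := by
  have hn := not_dvd_of_dvd_unit_sub hζ u n h
  have hcop : IsCoprime n (p : ℤ) :=
    ((Nat.prime_iff_prime_int.mp hp.out).coprime_iff_not_dvd.mpr hn).symm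
  have h1 : n ^ (p - 1) ≡ 1 [ZMOD p] := Int.ModEq.pow_card_sub_one_eq_one hp.out hcop
  have h2 : (p : ℤ) ∣ n ^ (p - 1) - 1 := (Int.modEq_iff_dvd.mp h1.symm)
  have h3 : (p : 𝓞 K) ∣ (n : 𝓞 K) ^ (p - 1) - 1 := by
    have := (Int.castRingHom (𝓞 K)).map_dvd h2
    simpa using this
  have h4 : (p : 𝓞 K) ∣ (u : 𝓞 K) ^ (p - 1) - (n : 𝓞 K) ^ (p - 1) :=
    h.trans (sub_dvd_pow_sub_pow _ _ _)
  have := dvd_add h4 h3
  simpa using this

include hK in
/-- **KL1**: if the unit `u` is congruent to a rational integer mod `p`, then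
`u ^ (p - 1) ≡ 1 mod (ζ - 1) ^ p`. -/
theorem lambda_pow_dvd_pow_sub_one (hp2 : p ≠ 2) (u : (𝓞 K)ˣ) (n : ℤ)
    (h : (p : 𝓞 K) ∣ (u : 𝓞 K) - n) :
    (hζ.toInteger - 1) ^ p ∣ ((u ^ (p - 1) : (𝓞 K)ˣ) : 𝓞 K) - 1 := by
  obtain ⟨β, hβ⟩ := prime_dvd_unit_pow_sub_one hζ u n h
  -- `u ^ (p - 1) = 1 + p • β`
  have hu : (u : 𝓞 K) ^ (p - 1) = 1 + (p : ℤ) • β := by
    rw [zsmul_eq_mul, Int.cast_natCast, ← hβ]; ring
  -- norm computation
  obtain ⟨r, hr⟩ := Algebra.norm_one_add_smul (p : ℤ) β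
  rw [← hu, norm_unit_pow_eq_one hp2 u] at hr
  have hp0 : (p : ℤ) ≠ 0 := by exact_mod_cast hp.out.ne_zero
  have htr : (p : ℤ) ∣ Algebra.trace ℤ (𝓞 K) β := by
    have h0 : (Algebra.trace ℤ (𝓞 K) β + r * p) * p = 0 := by linear_combination -hr
    have h1 : Algebra.trace ℤ (𝓞 K) β + r * p = 0 := by
      rcases mul_eq_zero.mp h0 with h | h
      · exact h
      · exact absurd h hp0
    exact ⟨-r, by linear_combination h1⟩
  -- `β = b + λ γ`
  obtain ⟨b, γ, hγ⟩ := exists_int_sub_dvd hζ β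
  have hβ' : β = algebraMap ℤ (𝓞 K) b + (hζ.toInteger - 1) * γ := by
    rw [← hγ]; simp
  have htr2 : Algebra.trace ℤ (𝓞 K) β =
      (p - 1 : ℕ) • b + Algebra.trace ℤ (𝓞 K) ((hζ.toInteger - 1) * γ) := by
    rw [hβ', map_add, Algebra.trace_algebraMap, RingOfIntegers.rank,
      IsCyclotomicExtension.finrank K (Polynomial.cyclotomic.irreducible_rat hp.out.pos),
      Nat.totient_prime hp.out]
  have hb : (p : ℤ) ∣ b := by
    have h1 := prime_dvd_trace_zeta_sub_one_mul hζ γ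
    have h2 : (p : ℤ) ∣ (p - 1 : ℕ) • b := by
      rw [htr2] at htr
      exact (Int.dvd_add_left h1).mp htr
    rw [nsmul_eq_mul] at h2
    rcases (Nat.prime_iff_prime_int.mp hp.out).dvd_or_dvd h2 with h3 | h3
    · exfalso
      have hle : p ≤ p - 1 := Nat.le_of_dvd (Nat.sub_pos_of_lt hp.out.one_lt)
        (Int.natCast_dvd_natCast.mp h3)
      have := hp.out.pos
      omega
    · exact h3
  have hlam : hζ.toInteger - 1 ∣ β := by
    have h1 : β = (β - (b : 𝓞 K)) + (b : 𝓞 K) := (sub_add_cancel β (b : 𝓞 K)).symm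
    rw [h1]
    exact dvd_add ⟨γ, hγ⟩ ((zeta_sub_one_dvd_intCast_iff' p hζ).mpr hb)
  obtain ⟨β', hβ'⟩ := hlam
  obtain ⟨v, hv⟩ := (associated_zeta_sub_one_pow_prime p hζ)
  refine ⟨v * β', ?_⟩
  have hpp : (hζ.toInteger - 1) ^ p = (hζ.toInteger - 1) ^ (p - 1) * (hζ.toInteger - 1) := by
    rw [← pow_succ, Nat.sub_add_cancel hp.out.one_le]
  rw [Units.val_pow_eq_pow_val, hβ, hβ', hpp, ← hv]
  ring

include hK in
/-- Kummer's lemma in the form `(ζ - 1) ^ p ∣ u - 1 → u` is a `p`-th power implies Kummer's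
lemma in its classical form: a unit congruent to a rational integer mod `p` is a `p`-th power. -/
theorem kummer_classical_of_KLa (hp2 : p ≠ 2)
    (KLa : ∀ u : (𝓞 K)ˣ, (hζ.toInteger - 1) ^ p ∣ (u : 𝓞 K) - 1 → ∃ v : (𝓞 K)ˣ, u = v ^ p) :
    ∀ u : (𝓞 K)ˣ, (∃ n : ℤ, (p : 𝓞 K) ∣ (u : 𝓞 K) - n) → ∃ v : (𝓞 K)ˣ, u = v ^ p := by
  rintro u ⟨n, hn⟩
  obtain ⟨w, hw⟩ := KLa (u ^ (p - 1)) (lambda_pow_dvd_pow_sub_one hζ hp2 u n hn)
  refine ⟨u * w⁻¹, ?_⟩
  have h1 : u ^ p = u ^ (p - 1) * u := by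
    rw [← pow_succ, Nat.sub_add_cancel hp.out.one_le]
  rw [mul_pow, inv_pow, ← hw, h1]
  simp [mul_comm]

end Fermat.Agent.FLTReg.KL1
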