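import Mathlib

/-!
# Abstract part of Kummer's lemma for a specific prime (package KL of FLTREG)

Let `E` be a commutative group generated by a finite family `g : ι → E`, `p` a prime,
`H ≤ E` a subgroup containing all `p`-th powers and `η : κ → E` a family with
`card ι ≤ card κ` which is "independent modulo `H`":
`∏ η i ^ a i ∈ H → ∀ i, p ∣ a i` (natural exponents).  Then every element of `H` is a `p`-th power.
-/

namespace Fermat.Agent.FLTReg.KL

open scoped BigOperators

section abstract

variable {E : Type*} [CommGroup E] {p : ℕ}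

/-- the subgroup of `p`-th powers -/
def powSubgroup (E : Type*) [CommGroup E] (p : ℕ) : Subgroup E := (powMonoidHom p : E →* E).range

lemma mem_powSubgroup {x : E} : x ∈ powSubgroup E p ↔ ∃ v : E, v ^ p = x := by
  simp [powSubgroup, MonoidHom.mem_range]

lemma pow_mem_powSubgroup (v : E) : v ^ p ∈ powSubgroup E p := mem_powSubgroup.2 ⟨v, rfl⟩

lemma pow_mul_mem_powSubgroup (v : E) (k : ℕ) : v ^ (p * k) ∈ powSubgroup E p := by
  rw [mul_comm, pow_mul]; exact pow_mem_powSubgroup _

lemma mk_pow_eq_one (x : E ⧸ powSubgroup E p) : x ^ p = 1 := by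
  induction x using QuotientGroup.induction_on with
  | H x =>
    rw [← QuotientGroup.mk_pow, QuotientGroup.eq_one_iff]
    exact pow_mem_powSubgroup x

lemma zpow_eq_pow_val [NeZero p] (x : E ⧸ powSubgroup E p) (b : ℤ) :
    x ^ b = x ^ ((b : ZMod p).val) := by
  have h1 : (((b : ZMod p).val : ℕ) : ℤ) = b % p := ZMod.val_intCast b
  have h2 : b = p * (b / p) + b % p := (Int.mul_ediv_add_emod b p).symm
  conv_lhs => rw [h2]
  rw [zpow_add, zpow_mul, zpow_natCast, mk_pow_eq_one, one_zpow, one_mul, ← h1, zpow_natCast]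

variable {ι κ : Type*} [Fintype ι] [Fintype κ]

/-- The quotient by `p`-th powers of a group generated by `ι` has at most `p ^ card ι`
elements. -/
lemma surj_of_generators [NeZero p] (g : ι → E)
    (hg : ∀ u : E, ∃ b : ι → ℤ, u = ∏ i, g i ^ b i) :
    Function.Surjective (fun a : ι → ZMod p =>
      (∏ i, (QuotientGroup.mk (g i) : E ⧸ powSubgroup E p) ^ (a i).val)) := by
  intro q
  induction q using QuotientGroup.induction_on with
  | H u =>
    obtain ⟨b, rfl⟩ := hg u
    refine ⟨fun i => (b i : ZMod p), ?_⟩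
    simp only [QuotientGroup.mk_prod, QuotientGroup.mk_zpow]
    refine Finset.prod_congr rfl fun i _ => ?_
    rw [zpow_eq_pow_val]

theorem eq_pow_of_mem_of_indep (hp : p.Prime) (g : ι → E)
    (hg : ∀ u : E, ∃ b : ι → ℤ, u = ∏ i, g i ^ b i)
    (H : Subgroup E) (hH : powSubgroup E p ≤ H) (η : κ → E)
    (hcard : Fintype.card ι ≤ Fintype.card κ)
    (hind : ∀ a : κ → ℕ, (∏ i, η i ^ a i) ∈ H → ∀ i, p ∣ a i)
    (u : E) (hu : u ∈ H) : ∃ v : E, u = v ^ p := by
  classical
  haveI : NeZero p := ⟨hp.ne_zero⟩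
  haveI : Fact p.Prime := ⟨hp⟩
  set Q := E ⧸ powSubgroup E p
  let f : (ι → ZMod p) → Q := fun a => ∏ i, (QuotientGroup.mk (g i) : Q) ^ (a i).val
  have hf : Function.Surjective f := surj_of_generators g hg
  haveI : Finite Q := Finite.of_surjective f hf
  have hQ : Nat.card Q ≤ p ^ Fintype.card ι := by
    have := Nat.card_le_card_of_surjective f hf
    simpa [Nat.card_eq_fintype_card, ZMod.card] using this
  let h : (κ → ZMod p) → Q := fun a => ∏ i, (QuotientGroup.mk (η i) : Q) ^ (a i).val
  have hinj : Function.Injective h := by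
    intro a b hab
    -- ∏ η^(a + (p-1) b) ∈ powSubgroup
    have key : (∏ i, η i ^ ((a i).val + (p - 1) * (b i).val)) ∈ powSubgroup E p := by
      rw [← QuotientGroup.eq_one_iff]
      have : (∏ i, (QuotientGroup.mk (η i) : Q) ^ ((a i).val + (p - 1) * (b i).val))
          = h a * (h b) ^ (p - 1) := by
        simp only [h, pow_add, Finset.prod_mul_distrib, ← Finset.prod_pow, ← pow_mul]
        congr 1
        refine Finset.prod_congr rfl fun i _ => ?_
        rw [mul_comm]
      rw [QuotientGroup.mk_prod]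
      simp only [QuotientGroup.mk_pow]
      rw [this, hab, ← pow_succ', Nat.sub_add_cancel hp.one_le, mk_pow_eq_one]
    have := hind _ (hH key)
    funext i
    have hi := this i
    have h3 : ((a i).val + (p - 1) * (b i).val : ℕ) = (a i).val + p * (b i).val - (b i).val := by
      have : 1 ≤ p := hp.one_le
      obtain ⟨k, rfl⟩ : ∃ k, p = k + 1 := ⟨p - 1, by omega⟩
      simp only [Nat.add_sub_cancel]
      have : (k + 1) * (b i).val = k * (b i).val + (b i).val := by ring
      omega
    -- cast to ZMod p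
    have h4 : (((a i).val + (p - 1) * (b i).val : ℕ) : ZMod p) = 0 :=
      (ZMod.natCast_eq_zero_iff _ _).2 hi
    have h5 : (((p - 1 : ℕ) : ZMod p)) = -1 := by
      have : ((p - 1 : ℕ) : ZMod p) + 1 = 0 := by
        have : (((p - 1) + 1 : ℕ) : ZMod p) = 0 := by
          rw [Nat.sub_add_cancel hp.one_le]; exact ZMod.natCast_self p
        simpa using this
      exact eq_neg_of_add_eq_zero_left this
    push_cast at h4
    rw [h5, ZMod.natCast_zmod_val, ZMod.natCast_zmod_val] at h4
    linear_combination h4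
  have hbij : Function.Bijective h := by
    refine (Nat.bijective_iff_injective_and_card h).2 ⟨hinj, ?_⟩
    apply le_antisymm
    · exact Nat.card_le_card_of_injective h hinj
    · refine hQ.trans ?_
      rw [Nat.card_eq_fintype_card, Fintype.card_fun, ZMod.card]
      exact Nat.pow_le_pow_right hp.pos hcard
  obtain ⟨a, ha⟩ := hbij.2 (QuotientGroup.mk u)
  -- u = v^p * ∏ η^a
  have h1 : (QuotientGroup.mk (∏ i, η i ^ (a i).val) : Q) = QuotientGroup.mk u := by
    rw [← ha, QuotientGroup.mk_prod]; simp only [QuotientGroup.mk_pow, h]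
  rw [QuotientGroup.eq] at h1
  obtain ⟨v, hv⟩ := mem_powSubgroup.1 h1
  have h2 : (∏ i, η i ^ (a i).val) ∈ H := by
    have : (∏ i, η i ^ (a i).val) = u * (v ^ p)⁻¹ := by
      rw [hv]; simp
    rw [this]
    exact H.mul_mem hu (H.inv_mem (hH (pow_mem_powSubgroup v)))
  have h3 : ∀ i, (a i).val = 0 := fun i =>
    Nat.eq_zero_of_dvd_of_lt (hind _ h2 i) (ZMod.val_lt _)
  refine ⟨v, ?_⟩
  have : (∏ i, η i ^ (a i).val) = 1 := by simp [h3]
  rw [this] at hv
  rw [hv]; simp

end abstract

end Fermat.Agent.FLTReg.KL
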