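import Mathlib

/-!
# Filtration argument for Kummer's lemma (package KL of FLTREG)

`R` a domain, `π : R`, `p` a prime with `π ^ (p - 1) ∣ p` and `π ∣ (n : ℤ) → p ∣ n`.
If `η i ≡ m i * (1 + c i * π ^ k i) (mod π ^ (k i + 1))` with strictly increasing levels
`1 ≤ k i ≤ p - 2` and `p ∤ m i`, `p ∤ c i`, then
`∏ η i ^ a i ≡ integer (mod p) → ∀ i, p ∣ a i`.
-/

namespace Fermat.Agent.FLTReg.KL

open scoped BigOperators

section filtration

variable {R : Type*} [CommRing R] [IsDomain R] {π : R} {p : ℕ}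

/-- `(1 + c x^k)^a = 1 + a c x^k` when `x^(k+1) = 0`, `1 ≤ k`. -/
lemma one_add_pow_of_nilp {A : Type*} [CommRing A] (x c : A) (k : ℕ) (hk : 1 ≤ k)
    (hx : x ^ (k + 1) = 0) (a : ℕ) : (1 + c * x ^ k) ^ a = 1 + a * c * x ^ k := by
  have h2 : x ^ k * x ^ k = 0 := by
    obtain ⟨j, rfl⟩ : ∃ j, k = j + 1 := ⟨k - 1, by omega⟩
    have : x ^ (j + 1) * x ^ (j + 1) = x ^ (j + 1 + 1) * x ^ j := by ring
    rw [this, hx, zero_mul]
  induction a with
  | zero => simp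
  | succ a ih =>
    rw [pow_succ, ih]
    push_cast
    linear_combination (a * c * c) * h2

/-- a level datum: `η ≡ m (1 + c π^k) mod π^(k+1)` -/
def HasLevel (π : R) (η : R) (k : ℕ) (m c : ℤ) : Prop :=
  π ^ (k + 1) ∣ η - m * (1 + c * π ^ k)

lemma HasLevel.dvd_sub_int {η : R} {k : ℕ} {m c : ℤ} (h : HasLevel π η k m c) :
    π ^ k ∣ η - m := by
  have h1 : π ^ k ∣ η - m * (1 + c * π ^ k) := dvd_trans (pow_dvd_pow π (Nat.le_succ k)) h
  have h2 : η - m = (η - m * (1 + c * π ^ k)) + m * c * π ^ k := by ring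
  rw [h2]
  exact dvd_add h1 (Dvd.intro_left _ rfl)

/-- the step lemma -/
lemma step (hp : p.Prime) (hπp : π ^ (p - 1) ∣ (p : R))
    (hπZ : ∀ n : ℤ, π ∣ (n : R) → (p : ℤ) ∣ n) (hπ0 : π ≠ 0)
    {η w : R} {k : ℕ} {m c M s : ℤ} (hk1 : 1 ≤ k) (hkp : k + 2 ≤ p)
    (hη : HasLevel π η k m c) (hw : π ^ (k + 1) ∣ w - M)
    (hm : ¬ (p : ℤ) ∣ m) (hc : ¬ (p : ℤ) ∣ c) (hM : ¬ (p : ℤ) ∣ M)
    (a : ℕ) (hs : (p : R) ∣ η ^ a * w - s) : p ∣ a := by
  have hpZ : Prime (p : ℤ) := Nat.prime_iff_prime_int.mp hp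
  -- work in the quotient by π^(k+1)
  set I : Ideal R := Ideal.span {π ^ (k + 1)} with hI
  let q := Ideal.Quotient.mk I
  have hq0 : ∀ x : R, π ^ (k + 1) ∣ x → q x = 0 := fun x hx =>
    Ideal.Quotient.eq_zero_iff_mem.2 (Ideal.mem_span_singleton.2 hx)
  have hq0' : ∀ x : R, q x = 0 → π ^ (k + 1) ∣ x := fun x hx =>
    Ideal.mem_span_singleton.1 (Ideal.Quotient.eq_zero_iff_mem.1 hx)
  have hle : k + 1 ≤ p - 1 := by omega
  have hpk : π ^ (k + 1) ∣ (p : R) := dvd_trans (pow_dvd_pow π hle) hπp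
  have e1 : q η = (m : R ⧸ I) * (1 + c * (q π) ^ k) := by
    have := hq0 _ hη
    simp only [map_sub, map_mul, map_add, map_one, map_pow, map_intCast] at this
    exact sub_eq_zero.1 this
  have e2 : q w = (M : R ⧸ I) := by
    have := hq0 _ hw
    simp only [map_sub, map_intCast] at this
    exact sub_eq_zero.1 this
  have e3 : (q π) ^ (k + 1) = 0 := by
    rw [← map_pow]; exact hq0 _ dvd_rfl
  have e4 : q (η ^ a * w) = (s : R ⧸ I) := by
    have := hq0 _ (dvd_trans hpk hs)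
    simp only [map_sub, map_intCast] at this
    exact sub_eq_zero.1 this
  have e5 : (s : R ⧸ I) = (m : R ⧸ I) ^ a * M * (1 + a * c * (q π) ^ k) := by
    rw [← e4, map_mul, map_pow, e1, e2, mul_pow, one_add_pow_of_nilp _ _ k hk1 e3]
    ring
  -- back in R
  have d1 : π ^ (k + 1) ∣ (s : R) - (m : R) ^ a * M * (1 + a * c * π ^ k) := by
    apply hq0'
    simp only [map_sub, map_mul, map_add, map_one, map_pow, map_intCast, map_natCast]
    rw [e5]; ring
  -- mod π : s ≡ m^a M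
  have d2 : π ∣ ((s - m ^ a * M : ℤ) : R) := by
    have h1 : π ∣ (s : R) - (m : R) ^ a * M * (1 + a * c * π ^ k) :=
      dvd_trans (dvd_pow_self π (Nat.succ_ne_zero k)) d1
    have h2 : ((s - m ^ a * M : ℤ) : R) =
        ((s : R) - (m : R) ^ a * M * (1 + a * c * π ^ k)) + π * ((m : R) ^ a * M * a * c * π ^ (k - 1)) := by
      obtain ⟨j, rfl⟩ : ∃ j, k = j + 1 := ⟨k - 1, by omega⟩
      push_cast
      ring
    rw [h2]
    exact dvd_add h1 (Dvd.intro _ rfl)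
  have d3 : (p : ℤ) ∣ s - m ^ a * M := hπZ _ d2
  have d4 : π ^ (k + 1) ∣ ((s - m ^ a * M : ℤ) : R) := by
    obtain ⟨t, ht⟩ := d3
    rw [ht]; push_cast
    exact Dvd.dvd.mul_right hpk _
  -- hence π^(k+1) ∣ m^a M a c π^k
  have d5 : π ^ (k + 1) ∣ π ^ k * (((m ^ a * M * a * c : ℤ)) : R) := by
    have : π ^ k * (((m ^ a * M * a * c : ℤ)) : R) =
        ((s - m ^ a * M : ℤ) : R) - ((s : R) - (m : R) ^ a * M * (1 + a * c * π ^ k)) := by
      push_cast; ring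
    rw [this]
    exact dvd_sub d4 d1
  rw [pow_succ] at d5
  have d6 : π ∣ (((m ^ a * M * a * c : ℤ)) : R) :=
    (mul_dvd_mul_iff_left (pow_ne_zero k hπ0)).1 d5
  have d7 : (p : ℤ) ∣ m ^ a * M * a * c := hπZ _ d6
  rcases hpZ.dvd_mul.1 d7 with h | h
  · rcases hpZ.dvd_mul.1 h with h | h
    · rcases hpZ.dvd_mul.1 h with h | h
      · exact absurd (hpZ.dvd_of_dvd_pow h) hm
      · exact absurd h hM
    · exact Int.natCast_dvd_natCast.1 h
  · exact absurd h hc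

/-- a product of elements congruent to integers prime to `p` modulo `π^j` is congruent to an
integer prime to `p`. -/
lemma prod_int_mod (hp : p.Prime) {n : ℕ} (η : Fin n → R) (m : Fin n → ℤ) (j : ℕ)
    (h : ∀ i, π ^ j ∣ η i - m i) (hm : ∀ i, ¬ (p : ℤ) ∣ m i) (a : Fin n → ℕ) :
    ∃ M : ℤ, ¬ (p : ℤ) ∣ M ∧ π ^ j ∣ (∏ i, η i ^ a i) - M := by
  have hpZ : Prime (p : ℤ) := Nat.prime_iff_prime_int.mp hp
  refine ⟨∏ i, m i ^ a i, ?_, ?_⟩
  · intro hdiv
    obtain ⟨i, -, hi⟩ := (Prime.dvd_finsetProd_iff hpZ _).1 hdiv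
    exact hm i (hpZ.dvd_of_dvd_pow hi)
  · push_cast
    -- congruence of products
    have key : ∀ s : Finset (Fin n),
        π ^ j ∣ (∏ i ∈ s, η i ^ a i) - ∏ i ∈ s, ((m i : R)) ^ a i := by
      intro s
      classical
      induction s using Finset.induction_on with
      | empty => simp
      | insert i s hi ih =>
        rw [Finset.prod_insert hi, Finset.prod_insert hi]
        have h1 : π ^ j ∣ η i ^ a i - (m i : R) ^ a i :=
          dvd_trans (h i) (sub_dvd_pow_sub_pow _ _ _)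
        have : η i ^ a i * ∏ x ∈ s, η x ^ a x - (m i : R) ^ a i * ∏ x ∈ s, (m x : R) ^ a x
            = (η i ^ a i - (m i : R) ^ a i) * ∏ x ∈ s, η x ^ a x
              + (m i : R) ^ a i * ((∏ x ∈ s, η x ^ a x) - ∏ x ∈ s, (m x : R) ^ a x) := by ring
        rw [this]
        exact dvd_add (Dvd.dvd.mul_right h1 _) (Dvd.dvd.mul_left ih _)
    exact key Finset.univ

/-- cancel a unit congruent to an integer -/
lemma cancel_unit_mod (hp : p.Prime) (hπp : π ^ (p - 1) ∣ (p : R))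
    (hπZ : ∀ n : ℤ, π ∣ (n : R) → (p : ℤ) ∣ n)
    {x v T : R} {s t : ℤ} (hxv : x * v = 1) (hx : (p : R) ∣ x - t)
    (hs : (p : R) ∣ x * T - s) : ∃ s' : ℤ, (p : R) ∣ T - s' := by
  have hpZ : Prime (p : ℤ) := Nat.prime_iff_prime_int.mp hp
  have hπp1 : π ∣ (p : R) := dvd_trans (dvd_pow_self π (by have := hp.two_le; omega)) hπp
  have ht : ¬ (p : ℤ) ∣ t := by
    intro hdiv
    have h1 : (p : R) ∣ (t : R) := by
      obtain ⟨r, hr⟩ := hdiv
      rw [hr]; push_cast; exact Dvd.intro _ rfl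
    have h2 : (p : R) ∣ x := by
      have : x = (x - t) + t := by ring
      rw [this]; exact dvd_add hx h1
    have h3 : (p : R) ∣ 1 := by
      rw [← hxv]; exact Dvd.dvd.mul_right h2 _
    have h4 : π ∣ ((1 : ℤ) : R) := by
      push_cast; exact dvd_trans hπp1 h3
    have := hπZ 1 h4
    exact hp.one_lt.ne' (by
      have h5 := Int.eq_one_of_dvd_one (by positivity) this
      exact_mod_cast h5)
  have hcop : IsCoprime t (p : ℤ) :=
    (IsCoprime.symm ((Prime.coprime_iff_not_dvd hpZ).2 ht))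
  obtain ⟨t', r, htr⟩ := hcop
  refine ⟨t' * s, ?_⟩
  have e : T - ((t' * s : ℤ) : R) =
      (t' : R) * (x * T - s) - (t' : R) * T * (x - t) + (p : R) * (r * T) := by
    have h1 : ((t' * t + r * p : ℤ) : R) = 1 := by rw [htr]; simp
    push_cast at h1 ⊢
    linear_combination (-T) * h1
  rw [e]
  exact dvd_add (dvd_sub (Dvd.dvd.mul_left hs _) (Dvd.dvd.mul_left hx _)) (Dvd.intro _ rfl)

/-- main independence statement -/
theorem indep_of_levels (hp : p.Prime) (hπp : π ^ (p - 1) ∣ (p : R))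
    (hπZ : ∀ n : ℤ, π ∣ (n : R) → (p : ℤ) ∣ n) (hπ0 : π ≠ 0)
    (hfrob : ∀ x : R, ∃ t : ℤ, (p : R) ∣ x ^ p - t) :
    ∀ (n : ℕ) (η : Fin n → R) (k : Fin n → ℕ) (m c : Fin n → ℤ),
      StrictMono k → (∀ i, 1 ≤ k i) → (∀ i, k i + 2 ≤ p) →
      (∀ i, HasLevel π (η i) (k i) (m i) (c i)) →
      (∀ i, ¬ (p : ℤ) ∣ m i) → (∀ i, ¬ (p : ℤ) ∣ c i) →
      (∀ i, ∃ v : R, η i * v = 1) →
      ∀ a : Fin n → ℕ, (∃ s : ℤ, (p : R) ∣ (∏ i, η i ^ a i) - s) → ∀ i, p ∣ a i := by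
  intro n
  induction n with
  | zero => intro η k m c _ _ _ _ _ _ _ a _ i; exact i.elim0
  | succ n ih =>
    intro η k m c hk hk1 hkp hlev hm hc hunit a ⟨s, hs⟩
    -- the tail
    have htail_lev : ∀ i : Fin n, π ^ (k 0 + 1) ∣ η i.succ - m i.succ := by
      intro i
      have h1 : k 0 + 1 ≤ k i.succ := hk (Fin.succ_pos i)
      exact dvd_trans (pow_dvd_pow π h1) (hlev i.succ).dvd_sub_int
    obtain ⟨M, hMp, hM⟩ := prod_int_mod hp (fun i : Fin n => η i.succ) (fun i => m i.succ)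
      (k 0 + 1) htail_lev (fun i => hm i.succ) (fun i => a i.succ)
    rw [Fin.prod_univ_succ] at hs
    have h0 : p ∣ a 0 := step hp hπp hπZ hπ0 (hk1 0) (hkp 0) (hlev 0) hM (hm 0) (hc 0) hMp (a 0) hs
    obtain ⟨b, hb⟩ := h0
    obtain ⟨t, ht⟩ := hfrob (η 0 ^ b)
    have ht' : (p : R) ∣ η 0 ^ a 0 - t := by
      rw [hb, mul_comm, pow_mul]; exact ht
    obtain ⟨v, hv⟩ := hunit 0
    have hxv : η 0 ^ a 0 * v ^ a 0 = 1 := by rw [← mul_pow, hv, one_pow]
    obtain ⟨s', hs'⟩ := cancel_unit_mod hp hπp hπZ hxv ht' hs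
    have htail := ih (fun i => η i.succ) (fun i => k i.succ) (fun i => m i.succ)
      (fun i => c i.succ) (fun i j hij => hk (Fin.succ_lt_succ_iff.2 hij)) (fun i => hk1 _)
      (fun i => hkp _) (fun i => hlev _) (fun i => hm _) (fun i => hc _) (fun i => hunit _)
      (fun i => a i.succ) ⟨s', hs'⟩
    intro i
    refine Fin.cases ?_ (fun j => htail j) i
    exact ⟨b, hb⟩

end filtration

end Fermat.Agent.FLTReg.KL
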