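import Mathlib
import Fermat.Agent.FLTReg.KLAbstract
import Fermat.Agent.FLTReg.KLFiltration

/-!
# Kummer's lemma from explicit level data (package KL of FLTREG)

`K = ℚ(ζ_p)`.  If we are given `(p - 1) / 2` units `η i` of `𝓞 K` with
`η i ≡ m i (1 + c i π ^ k i) (mod π ^ (k i + 1))`, `π = ζ - 1`, strictly increasing levels
`1 ≤ k i ≤ p - 2` and `p ∤ m i`, `p ∤ c i`, then every unit congruent to an integer modulo `p` is a
`p`-th power.
-/

namespace Fermat.Agent.FLTReg.KL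

open NumberField NumberField.Units IsCyclotomicExtension.Rat

open scoped BigOperators

variable {p : ℕ} [hp : Fact p.Prime] {K : Type*} [Field K] [NumberField K]
  [hK : IsCyclotomicExtension {p} ℚ K] {ζ : K} (hζ : IsPrimitiveRoot ζ p)

include hζ in
/-- Frobenius: every `p`-th power in `ℤ[ζ_p]` is congruent to an integer modulo `p`. -/
theorem exists_int_dvd_pow_sub (x : 𝓞 K) : ∃ t : ℤ, (p : 𝓞 K) ∣ x ^ p - t := by
  have hx : x ∈ Algebra.adjoin ℤ ({hζ.toInteger} : Set (𝓞 K)) := by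
    rw [IsCyclotomicExtension.Rat.adjoin_singleton_eq_top hζ]; trivial
  induction hx using Algebra.adjoin_induction with
  | mem y hy =>
    rw [Set.mem_singleton_iff] at hy
    refine ⟨1, ?_⟩
    rw [hy, hζ.toInteger_isPrimitiveRoot.pow_eq_one]; simp
  | algebraMap r =>
    refine ⟨r ^ p, ?_⟩
    simp
  | add y z _ _ hy hz =>
    obtain ⟨s, hs⟩ := hy
    obtain ⟨t, ht⟩ := hz
    obtain ⟨r, hr⟩ := exists_add_pow_prime_eq hp.out y z
    refine ⟨s + t, ?_⟩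
    rw [hr]
    push_cast
    have : y ^ p + z ^ p + (p : 𝓞 K) * y * z * r - (s + t)
        = (y ^ p - s) + (z ^ p - t) + (p : 𝓞 K) * (y * z * r) := by
      ring
    rw [this]
    exact dvd_add (dvd_add hs ht) (Dvd.intro _ rfl)
  | mul y z _ _ hy hz =>
    obtain ⟨s, hs⟩ := hy
    obtain ⟨t, ht⟩ := hz
    refine ⟨s * t, ?_⟩
    rw [mul_pow]
    push_cast
    have : y ^ p * z ^ p - s * t = (y ^ p - s) * z ^ p + s * (z ^ p - t) := by ring
    rw [this]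
    exact dvd_add (Dvd.dvd.mul_right hs _) (Dvd.dvd.mul_left ht _)

/-- the subgroup of units congruent to an integer modulo `p` -/
def intModSubgroup (p : ℕ) [Fact p.Prime] (K : Type*) [Field K] [NumberField K]
    [IsCyclotomicExtension {p} ℚ K] : Subgroup (𝓞 K)ˣ where
  carrier := {u | ∃ n : ℤ, (p : 𝓞 K) ∣ (u : 𝓞 K) - n}
  one_mem' := ⟨1, by simp⟩
  mul_mem' := by
    rintro u v ⟨s, hs⟩ ⟨t, ht⟩
    refine ⟨s * t, ?_⟩
    push_cast
    have : (u : 𝓞 K) * v - s * t = ((u : 𝓞 K) - s) * v + s * ((v : 𝓞 K) - t) := by ring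
    rw [this]
    exact dvd_add (Dvd.dvd.mul_right hs _) (Dvd.dvd.mul_left ht _)
  inv_mem' := by
    rintro u ⟨s, hs⟩
    have hζ := IsCyclotomicExtension.zeta_spec p ℚ K
    have hπp : (hζ.toInteger - 1) ^ (p - 1) ∣ (p : 𝓞 K) :=
      (associated_zeta_sub_one_pow_prime p hζ).dvd
    have hπZ : ∀ n : ℤ, (hζ.toInteger - 1) ∣ (n : 𝓞 K) → (p : ℤ) ∣ n := fun n hn =>
      (zeta_sub_one_dvd_intCast_iff' p hζ).1 hn
    have h2 : (p : 𝓞 K) ∣ (u : 𝓞 K) * ((u⁻¹ : (𝓞 K)ˣ) : 𝓞 K) - ((1 : ℤ) : 𝓞 K) := by simp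
    exact cancel_unit_mod (p := p) (Fact.out : p.Prime) hπp hπZ (x := (u : 𝓞 K))
      (v := ((u⁻¹ : (𝓞 K)ˣ) : 𝓞 K)) (by simp) hs h2

lemma mem_intModSubgroup {u : (𝓞 K)ˣ} :
    u ∈ intModSubgroup p K ↔ ∃ n : ℤ, (p : 𝓞 K) ∣ (u : 𝓞 K) - n := Iff.rfl

/-- The units of `ℚ(ζ_p)` are generated by `card (InfinitePlace K)` elements. -/
theorem exists_generators :
    ∃ g : Option (Fin (rank K)) → (𝓞 K)ˣ, ∀ u : (𝓞 K)ˣ,
      ∃ b : Option (Fin (rank K)) → ℤ, u = ∏ i, g i ^ b i := by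
  obtain ⟨t, ht⟩ := IsCyclic.exists_generator (α := torsion K)
  refine ⟨fun i => Option.elim i (t : (𝓞 K)ˣ) (fundSystem K), fun u => ?_⟩
  obtain ⟨⟨x, e⟩, hxu, -⟩ := exist_unique_eq_mul_prod K u
  obtain ⟨j, hj⟩ := Subgroup.mem_zpowers_iff.1 (ht x)
  refine ⟨fun i => Option.elim i j e, ?_⟩
  rw [Fintype.prod_option]
  simp only [Option.elim_none, Option.elim_some]
  rw [hxu]
  congr 1
  rw [← hj]; simp

theorem card_generators (h2 : 2 < p) :
    Fintype.card (Option (Fin (rank K))) = (p - 1) / 2 := by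
  have hr : Fintype.card (InfinitePlace K) = (p - 1) / 2 := by
    rw [InfinitePlace.card_eq_nrRealPlaces_add_nrComplexPlaces, nrRealPlaces_eq_zero (n := p) K h2,
      zero_add, nrComplexPlaces_eq_totient_div_two (n := p), Nat.totient_prime hp.out]
  have hpos : 0 < Fintype.card (InfinitePlace K) := Fintype.card_pos
  rw [Fintype.card_option, Fintype.card_fin, rank, ← hr]
  omega

include hζ in
/-- **Kummer's lemma from level data.** -/
theorem kummer_of_levels (h2 : 2 < p) (n : ℕ) (hn : n = (p - 1) / 2)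
    (η : Fin n → (𝓞 K)ˣ) (k : Fin n → ℕ) (m c : Fin n → ℤ)
    (hk : StrictMono k) (hk1 : ∀ i, 1 ≤ k i) (hkp : ∀ i, k i + 2 ≤ p)
    (hlev : ∀ i, HasLevel (hζ.toInteger - 1) ((η i : (𝓞 K)ˣ) : 𝓞 K) (k i) (m i) (c i))
    (hm : ∀ i, ¬ (p : ℤ) ∣ m i) (hc : ∀ i, ¬ (p : ℤ) ∣ c i)
    (u : (𝓞 K)ˣ) (hu : ∃ t : ℤ, (p : 𝓞 K) ∣ (u : 𝓞 K) - t) : ∃ v : (𝓞 K)ˣ, u = v ^ p := by
  have hπp : (hζ.toInteger - 1) ^ (p - 1) ∣ (p : 𝓞 K) :=
    (associated_zeta_sub_one_pow_prime p hζ).dvd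
  have hπZ : ∀ n : ℤ, (hζ.toInteger - 1) ∣ (n : 𝓞 K) → (p : ℤ) ∣ n := fun n hn =>
    (zeta_sub_one_dvd_intCast_iff' p hζ).1 hn
  have hπ0 : hζ.toInteger - 1 ≠ 0 := hζ.zeta_sub_one_prime'.ne_zero
  obtain ⟨g, hg⟩ := exists_generators (K := K)
  refine eq_pow_of_mem_of_indep hp.out g hg (intModSubgroup p K) ?_ η ?_ ?_ u hu
  · -- p-th powers are congruent to integers
    intro x hx
    obtain ⟨v, rfl⟩ := mem_powSubgroup.1 hx
    obtain ⟨t, ht⟩ := exists_int_dvd_pow_sub hζ (v : 𝓞 K)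
    exact ⟨t, by simpa using ht⟩
  · rw [card_generators h2, Fintype.card_fin, hn]
  · intro a ha
    obtain ⟨s, hs⟩ := ha
    refine indep_of_levels hp.out hπp hπZ hπ0 (exists_int_dvd_pow_sub hζ) n
      (fun i => ((η i : (𝓞 K)ˣ) : 𝓞 K)) k m c hk hk1 hkp hlev hm hc
      (fun i => ⟨((η i)⁻¹ : (𝓞 K)ˣ), by simp⟩) a ⟨s, ?_⟩
    simpa using hs

end Fermat.Agent.FLTReg.KL
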