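import Mathlib
import Fermat.Agent.FLTReg.KLCyclo

/-!
# Kummer's lemma for `p = 11` (package KL of FLTREG): explicit independent units

Generated data: for each level `k ∈ {1, 2, 4, …, 8}` a product of `ζ` and the cyclotomic units
`1 + ζ + ⋯ + ζ^(a-1)` which is `≡ m (1 + c π^k) (mod π^(k+1))`, `π = ζ - 1`.
-/

namespace Fermat.Agent.FLTReg.KL

open NumberField IsCyclotomicExtension.Rat

theorem poly_11_2 {R : Type*} [CommRing R] (z x : R) (hz : z = 1 + x) :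
    z ^ 5 * (1 + z) ^ 1 =
      2 + 2 * 7 * x ^ 2 + x ^ 3 * ((30) + (20) * x + (7) * x ^ 2 + (1) * x ^ 3) + 11 * ((1) * x + (1) * x ^ 2) := by
  subst hz
  ring

theorem poly_11_4 {R : Type*} [CommRing R] (z x : R) (hz : z = 1 + x) :
    z ^ 4 * (1 + z) ^ 1 * (1 + z + z ^ 2) ^ 1 =
      6 + 6 * 9 * x ^ 4 + x ^ 5 * ((35) + (9) * x + (1) * x ^ 2) + 11 * ((3) * x + (7) * x ^ 2 + (9) * x ^ 3 + (2) * x ^ 4) := by
  subst hz
  ring

theorem poly_11_6 {R : Type*} [CommRing R] (z x : R) (hz : z = 1 + x) :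
    z ^ 5 * (1 + z) ^ 7 * (1 + z + z ^ 2) ^ 1 * (1 + z + z ^ 2 + z ^ 3) ^ 1 =
      7 + 7 * 1 * x ^ 6 + x ^ 7 * ((1400576) + (1134390) * x + (736378) * x ^ 2 + (383107) * x ^ 3 + (158816) * x ^ 4 + (51806) * x ^ 5 + (13015) * x ^ 6 + (2431) * x ^ 7 + (318) * x ^ 8 + (26) * x ^ 9 + (1) * x ^ 10) + 11 * ((139) + (1536) * x + (7936) * x ^ 2 + (25600) * x ^ 3 + (57792) * x ^ 4 + (96960) * x ^ 5 + (125259) * x ^ 6) := by
  subst hz
  ring

theorem poly_11_8 {R : Type*} [CommRing R] (z x : R) (hz : z = 1 + x) :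
    z ^ 1 * (1 + z) ^ 5 * (1 + z + z ^ 2) ^ 3 * (1 + z + z ^ 2 + z ^ 3) ^ 9 * (1 + z + z ^ 2 + z ^ 3 + z ^ 4) ^ 1 =
      2 + 2 * 2 * x ^ 8 + x ^ 9 * ((2305165798735872) + (4419610328702976) * x + (7547603243409408) * x ^ 2 + (11563406861694976) * x ^ 3 + (15985424996270080) * x ^ 4 + (20033715896656384) * x ^ 5 + (22848215363665408) * x ^ 6 + (23786669523686656) * x ^ 7 + (22660712150194176) * x ^ 8 + (19792769762423040) * x ^ 9 + (15873041340856320) * x ^ 10 + (11699672682272256) * x ^ 11 + (7930706726341632) * x ^ 12 + (4945073649848256) * x ^ 13 + (2835905510736960) * x ^ 14 + (1495000685524192) * x ^ 15 + (723813924216832) * x ^ 16 + (321423505383392) * x ^ 17 + (130687193525184) * x ^ 18 + (48542639750280) * x ^ 19 + (16426416552000) * x ^ 20 + (5046765261202) * x ^ 21 + (1401957402334) * x ^ 22 + (350365597981) * x ^ 23 + (78290476616) * x ^ 24 + (15524915819) * x ^ 25 + (2706633614)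 * x ^ 26 + (410018952) * x ^ 27 + (53159592) * x ^ 28 + (5781714) * x ^ 29 + (513127) * x ^ 30 + (35692) * x ^ 31 + (1825) * x ^ 32 + (61) * x ^ 33 + (1) * x ^ 34) + 11 * ((102951098) + (2264924160) * x + (24631050240) * x ^ 2 + (176380968960) * x ^ 3 + (934767230976) * x ^ 4 + (3907088547840) * x ^ 5 + (13403248787456) * x ^ 6 + (38777602310144) * x ^ 7 + (96490319925620) * x ^ 8) := by
  subst hz
  ring

section
variable {K : Type*} [Field K] [NumberField K] [IsCyclotomicExtension {11} ℚ K]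

/-- **Kummer's lemma for `p = 11`**: a unit of `ℤ[ζ_11]` congruent to an integer modulo `11` is a
`11`-th power. -/
theorem kummer_lemma_11 (u : (𝓞 K)ˣ) (hu : ∃ t : ℤ, (((11 : ℕ) : 𝓞 K)) ∣ (u : 𝓞 K) - t) :
    ∃ v : (𝓞 K)ˣ, u = v ^ 11 := by
  have : Fact (Nat.Prime 11) := ⟨by norm_num⟩
  have hζ := IsCyclotomicExtension.zeta_spec 11 ℚ K
  have hprim := hζ.toInteger_isPrimitiveRoot
  set z : 𝓞 K := hζ.toInteger with hz
  have hzu : IsUnit z := hprim.isUnit (by norm_num)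
  have hu2 : IsUnit (1 + z) := by
    have := hprim.geom_sum_isUnit (j := 2) (by norm_num) (by norm_num)
    simpa [Finset.sum_range_succ] using this
  have hu3 : IsUnit (1 + z + z ^ 2) := by
    have := hprim.geom_sum_isUnit (j := 3) (by norm_num) (by norm_num)
    simpa [Finset.sum_range_succ] using this
  have hu4 : IsUnit (1 + z + z ^ 2 + z ^ 3) := by
    have := hprim.geom_sum_isUnit (j := 4) (by norm_num) (by norm_num)
    simpa [Finset.sum_range_succ] using this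
  have hu5 : IsUnit (1 + z + z ^ 2 + z ^ 3 + z ^ 4) := by
    have := hprim.geom_sum_isUnit (j := 5) (by norm_num) (by norm_num)
    simpa [Finset.sum_range_succ] using this
  have hπp : (z - 1) ^ (11 - 1) ∣ (((11 : ℕ) : 𝓞 K)) :=
    (associated_zeta_sub_one_pow_prime 11 hζ).dvd
  have hP : ∀ j, j ≤ 10 → (z - 1) ^ j ∣ (11 : 𝓞 K) := fun j hj =>
    dvd_trans (pow_dvd_pow _ hj) (by simpa using hπp)
  have hη0 : IsUnit (z ^ 1) := (hzu.pow 1)
  have hη1 : IsUnit (z ^ 5 * (1 + z) ^ 1) := ((hzu.pow 5).mul (hu2.pow 1))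
  have hη2 : IsUnit (z ^ 4 * (1 + z) ^ 1 * (1 + z + z ^ 2) ^ 1) := (((hzu.pow 4).mul (hu2.pow 1)).mul (hu3.pow 1))
  have hη3 : IsUnit (z ^ 5 * (1 + z) ^ 7 * (1 + z + z ^ 2) ^ 1 * (1 + z + z ^ 2 + z ^ 3) ^ 1) := ((((hzu.pow 5).mul (hu2.pow 7)).mul (hu3.pow 1)).mul (hu4.pow 1))
  have hη4 : IsUnit (z ^ 1 * (1 + z) ^ 5 * (1 + z + z ^ 2) ^ 3 * (1 + z + z ^ 2 + z ^ 3) ^ 9 * (1 + z + z ^ 2 + z ^ 3 + z ^ 4) ^ 1) := (((((hzu.pow 1).mul (hu2.pow 5)).mul (hu3.pow 3)).mul (hu4.pow 9)).mul (hu5.pow 1))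
  have hl0 : HasLevel (z - 1) ((hη0.unit : (𝓞 K)ˣ) : 𝓞 K) 1 1 1 := by
    rw [IsUnit.unit_spec]
    unfold HasLevel
    push_cast
    have : z ^ 1 - 1 * (1 + 1 * (z - 1) ^ 1) = 0 := by ring
    rw [this]
    exact dvd_zero _
  have hl1 : HasLevel (z - 1) ((hη1.unit : (𝓞 K)ˣ) : 𝓞 K) 2 2 7 := by
    rw [IsUnit.unit_spec]
    unfold HasLevel
    rw [poly_11_2 z (z - 1) (by ring)]
    push_cast
    have : ∀ A B : 𝓞 K, (2 : 𝓞 K) + 2 * 7 * (z - 1) ^ 2 + (z - 1) ^ (2 + 1) * A + 11 * B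
        - 2 * (1 + 7 * (z - 1) ^ 2) = (z - 1) ^ (2 + 1) * A + 11 * B := by
      intro A B; ring
    rw [this]
    exact dvd_add (Dvd.intro _ rfl) (Dvd.dvd.mul_right (hP _ (by norm_num)) _)
  have hl2 : HasLevel (z - 1) ((hη2.unit : (𝓞 K)ˣ) : 𝓞 K) 4 6 9 := by
    rw [IsUnit.unit_spec]
    unfold HasLevel
    rw [poly_11_4 z (z - 1) (by ring)]
    push_cast
    have : ∀ A B : 𝓞 K, (6 : 𝓞 K) + 6 * 9 * (z - 1) ^ 4 + (z - 1) ^ (4 + 1) * A + 11 * B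
        - 6 * (1 + 9 * (z - 1) ^ 4) = (z - 1) ^ (4 + 1) * A + 11 * B := by
      intro A B; ring
    rw [this]
    exact dvd_add (Dvd.intro _ rfl) (Dvd.dvd.mul_right (hP _ (by norm_num)) _)
  have hl3 : HasLevel (z - 1) ((hη3.unit : (𝓞 K)ˣ) : 𝓞 K) 6 7 1 := by
    rw [IsUnit.unit_spec]
    unfold HasLevel
    rw [poly_11_6 z (z - 1) (by ring)]
    push_cast
    have : ∀ A B : 𝓞 K, (7 : 𝓞 K) + 7 * 1 * (z - 1) ^ 6 + (z - 1) ^ (6 + 1) * A + 11 * B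
        - 7 * (1 + 1 * (z - 1) ^ 6) = (z - 1) ^ (6 + 1) * A + 11 * B := by
      intro A B; ring
    rw [this]
    exact dvd_add (Dvd.intro _ rfl) (Dvd.dvd.mul_right (hP _ (by norm_num)) _)
  have hl4 : HasLevel (z - 1) ((hη4.unit : (𝓞 K)ˣ) : 𝓞 K) 8 2 2 := by
    rw [IsUnit.unit_spec]
    unfold HasLevel
    rw [poly_11_8 z (z - 1) (by ring)]
    push_cast
    have : ∀ A B : 𝓞 K, (2 : 𝓞 K) + 2 * 2 * (z - 1) ^ 8 + (z - 1) ^ (8 + 1) * A + 11 * B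
        - 2 * (1 + 2 * (z - 1) ^ 8) = (z - 1) ^ (8 + 1) * A + 11 * B := by
      intro A B; ring
    rw [this]
    exact dvd_add (Dvd.intro _ rfl) (Dvd.dvd.mul_right (hP _ (by norm_num)) _)
  refine kummer_of_levels hζ (by norm_num) 5 (by norm_num)
    ![hη0.unit, hη1.unit, hη2.unit, hη3.unit, hη4.unit] ![1, 2, 4, 6, 8] ![1, 2, 6, 7, 2] ![1, 7, 9, 1, 2] ?_ ?_ ?_ ?_ ?_ ?_ u hu
  · intro i j hij
    fin_cases i <;> fin_cases j <;> simp at hij ⊢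
  · intro i; fin_cases i <;> simp
  · intro i; fin_cases i <;> simp
  · intro i; fin_cases i
    exacts [hl0, hl1, hl2, hl3, hl4]
  · intro i; fin_cases i <;> norm_num
  · intro i; fin_cases i <;> norm_num

end

end Fermat.Agent.FLTReg.KL
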