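import Mathlib
import Fermat.Agent.FLTReg.KLCyclo

/-!
# Kummer's lemma for `p = 5` (package KL of FLTREG): explicit independent units

Generated data: for each level `k ∈ {1, 2, 4, …, 2}` a product of `ζ` and the cyclotomic units
`1 + ζ + ⋯ + ζ^(a-1)` which is `≡ m (1 + c π^k) (mod π^(k+1))`, `π = ζ - 1`.
-/

namespace Fermat.Agent.FLTReg.KL

open NumberField IsCyclotomicExtension.Rat

theorem poly_5_2 {R : Type*} [CommRing R] (z x : R) (hz : z = 1 + x) :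
    z ^ 2 * (1 + z) ^ 1 =
      2 + 2 * 2 * x ^ 2 + x ^ 3 * ((1)) + 5 * ((1) * x) := by
  subst hz
  ring

section
variable {K : Type*} [Field K] [NumberField K] [IsCyclotomicExtension {5} ℚ K]

/-- **Kummer's lemma for `p = 5`**: a unit of `ℤ[ζ_5]` congruent to an integer modulo `5` is a
`5`-th power. -/
theorem kummer_lemma_5 (u : (𝓞 K)ˣ) (hu : ∃ t : ℤ, (((5 : ℕ) : 𝓞 K)) ∣ (u : 𝓞 K) - t) :
    ∃ v : (𝓞 K)ˣ, u = v ^ 5 := by
  have : Fact (Nat.Prime 5) := ⟨by norm_num⟩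
  have hζ := IsCyclotomicExtension.zeta_spec 5 ℚ K
  have hprim := hζ.toInteger_isPrimitiveRoot
  set z : 𝓞 K := hζ.toInteger with hz
  have hzu : IsUnit z := hprim.isUnit (by norm_num)
  have hu2 : IsUnit (1 + z) := by
    have := hprim.geom_sum_isUnit (j := 2) (by norm_num) (by norm_num)
    simpa [Finset.sum_range_succ] using this
  have hπp : (z - 1) ^ (5 - 1) ∣ (((5 : ℕ) : 𝓞 K)) :=
    (associated_zeta_sub_one_pow_prime 5 hζ).dvd
  have hP : ∀ j, j ≤ 4 → (z - 1) ^ j ∣ (5 : 𝓞 K) := fun j hj =>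
    dvd_trans (pow_dvd_pow _ hj) (by simpa using hπp)
  have hη0 : IsUnit (z ^ 1) := (hzu.pow 1)
  have hη1 : IsUnit (z ^ 2 * (1 + z) ^ 1) := ((hzu.pow 2).mul (hu2.pow 1))
  have hl0 : HasLevel (z - 1) ((hη0.unit : (𝓞 K)ˣ) : 𝓞 K) 1 1 1 := by
    rw [IsUnit.unit_spec]
    unfold HasLevel
    push_cast
    have : z ^ 1 - 1 * (1 + 1 * (z - 1) ^ 1) = 0 := by ring
    rw [this]
    exact dvd_zero _
  have hl1 : HasLevel (z - 1) ((hη1.unit : (𝓞 K)ˣ) : 𝓞 K) 2 2 2 := by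
    rw [IsUnit.unit_spec]
    unfold HasLevel
    rw [poly_5_2 z (z - 1) (by ring)]
    push_cast
    have : ∀ A B : 𝓞 K, (2 : 𝓞 K) + 2 * 2 * (z - 1) ^ 2 + (z - 1) ^ (2 + 1) * A + 5 * B
        - 2 * (1 + 2 * (z - 1) ^ 2) = (z - 1) ^ (2 + 1) * A + 5 * B := by
      intro A B; ring
    rw [this]
    exact dvd_add (Dvd.intro _ rfl) (Dvd.dvd.mul_right (hP _ (by norm_num)) _)
  refine kummer_of_levels hζ (by norm_num) 2 (by norm_num)
    ![hη0.unit, hη1.unit] ![1, 2] ![1, 2] ![1, 2] ?_ ?_ ?_ ?_ ?_ ?_ u hu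
  · intro i j hij
    fin_cases i <;> fin_cases j <;> simp at hij ⊢
  · intro i; fin_cases i <;> simp
  · intro i; fin_cases i <;> simp
  · intro i; fin_cases i
    exacts [hl0, hl1]
  · intro i; fin_cases i <;> norm_num
  · intro i; fin_cases i <;> norm_num

end

end Fermat.Agent.FLTReg.KL
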