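import Fermat.Agent.FLTReg.KummerLemmaH94
import Fermat.Agent.FLTReg.Hilbert92

/-!
# FLTReg : Kummer's lemma for `p`-th cyclotomic fields with class number one (all odd `p` at once)

`K` a `p`-th cyclotomic field (`p` an odd prime) with `𝓞 K` a PID.  Then every unit of `𝓞 K`
congruent to a rational integer modulo `p` is a `p`-th power of a unit.

This is the Hilbert 92 / Hilbert 94 route: `Hilbert92.hilbert92` (helper95) +
`kummer_lemma_classical_of_H92` (KL2 + KL4 + Hilbert 90 + KL1).  No per-prime certificate is used.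
-/

namespace Fermat.Agent.FLTReg

open NumberField

variable {p : ℕ} [hpri : Fact p.Prime] {K : Type} [Field K] [NumberField K]
  [IsCyclotomicExtension {p} ℚ K]

/-- Hilbert 92 holds for cyclic degree-`p` extensions of a `p`-th cyclotomic field, `p` odd. -/
theorem h92Statement_of_cyclotomic (hp2 : p ≠ 2) : H92Statement p K := by
  intro L _ _ _ _ hfin σ hσ
  have hp := hpri.out
  have h2 : 2 < p := lt_of_le_of_ne hp.two_le (Ne.symm hp2)
  have hK : InfinitePlace.nrRealPlaces K = 0 :=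
    IsCyclotomicExtension.Rat.nrRealPlaces_eq_zero K h2
  exact H92.hilbert92 hp hfin σ hσ hK

/-- **Kummer's lemma**, `λ^p`-form: a unit `u ≡ 1 mod (ζ-1)^p` is a `p`-th power. -/
theorem kummer_lemma_lambda_pow {ζ : K} (hζ : IsPrimitiveRoot ζ p) (hp2 : p ≠ 2)
    [IsPrincipalIdealRing (𝓞 K)] (u : (𝓞 K)ˣ)
    (hcong : (hζ.toInteger - 1) ^ p ∣ (u : 𝓞 K) - 1) : ∃ v : (𝓞 K)ˣ, u = v ^ p :=
  kummer_lemma_of_H92 hζ (h92Statement_of_cyclotomic hp2) u hcong

/-- **Kummer's lemma**, classical form: a unit congruent to a rational integer mod `p` is a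
`p`-th power (for `𝓞 K` a PID). -/
theorem kummer_lemma (hp2 : p ≠ 2) [IsPrincipalIdealRing (𝓞 K)] (u : (𝓞 K)ˣ)
    (hcong : ∃ n : ℤ, (p : 𝓞 K) ∣ (u : 𝓞 K) - n) : ∃ v : (𝓞 K)ˣ, u = v ^ p := by
  have hζ := IsCyclotomicExtension.zeta_spec p ℚ K
  exact kummer_lemma_classical_of_H92 hζ hp2 (h92Statement_of_cyclotomic hp2) u hcong

end Fermat.Agent.FLTReg
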