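import Mathlib
import Fermat.Agent.FLTReg.KL5
import Fermat.Agent.FLTReg.KL7
import Fermat.Agent.FLTReg.KL11
import Fermat.Agent.FLTReg.KL13

/-!
# Kummer's lemma for `p ∈ {5, 7, 11, 13}` (package KL of FLTREG)

`kummer_lemma`: for `p ∈ {5, 7, 11, 13}` and `K = ℚ(ζ_p)`, every unit of `𝓞 K` congruent to a
rational integer modulo `p` is a `p`-th power.  (Same shape as flt-regular's
`eq_pow_prime_of_unit_of_congruent`.)

Proof: Dirichlet's unit theorem bounds the `𝔽_p`-dimension of `E / E^p` by `(p - 1) / 2`; explicit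
cyclotomic units at the `π`-adic levels `1, 2, 4, …, p - 3` are independent modulo the subgroup of
units congruent to integers mod `p` (files `KL5`, `KL7`, `KL11`, `KL13`), hence span `E / E^p`, and
the claim follows (`KLAbstract`, `KLFiltration`, `KLCyclo`).
-/

namespace Fermat.Agent.FLTReg.KL

open NumberField

/-- **Kummer's lemma** for the primes `5, 7, 11, 13`. -/
theorem kummer_lemma {p : ℕ} (hp : p = 5 ∨ p = 7 ∨ p = 11 ∨ p = 13)
    {K : Type*} [Field K] [NumberField K] [IsCyclotomicExtension {p} ℚ K]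
    (u : (𝓞 K)ˣ) (hu : ∃ n : ℤ, (p : 𝓞 K) ∣ (u : 𝓞 K) - n) : ∃ v : (𝓞 K)ˣ, u = v ^ p := by
  rcases hp with rfl | rfl | rfl | rfl
  · exact kummer_lemma_5 u hu
  · exact kummer_lemma_7 u hu
  · exact kummer_lemma_11 u hu
  · exact kummer_lemma_13 u hu

end Fermat.Agent.FLTReg.KL
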