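import Mathlib
import Fermat.Agent.FLTReg.KLC.PFive
import Fermat.Agent.FLTReg.KLC.PSeven
import Fermat.Agent.FLTReg.KLC.PEleven
import Fermat.Agent.FLTReg.KLC.PThirteen

/-!
# Kummer's lemma for `p ∈ {5, 7, 11, 13}`

A unit of the ring of integers of the `p`-th cyclotomic field which is congruent to a rational
integer modulo `p` is a `p`-th power.  The proof (Kummer's original argument) uses only Dirichlet's
unit theorem and an explicit computation of logarithmic derivatives of cyclotomic units modulo `p`;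
no class field theory (Hilbert 90/92/94) and no class number hypothesis is needed.
-/

namespace Fermat.Agent.FLTReg.KLC

open NumberField

/-- **Kummer's lemma** for the regular primes `5, 7, 11, 13`. -/
theorem kummers_lemma {p : ℕ} [Fact p.Prime] (hp : p = 5 ∨ p = 7 ∨ p = 11 ∨ p = 13)
    {K : Type*} [Field K] [NumberField K] [IsCyclotomicExtension {p} ℚ K] (u : (𝓞 K)ˣ)
    (hcong : ∃ n : ℤ, (p : 𝓞 K) ∣ (u : 𝓞 K) - n) : ∃ v : (𝓞 K)ˣ, u = v ^ p := by
  rcases hp with rfl | rfl | rfl | rfl
  · exact kummers_lemma_five u hcong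
  · exact kummers_lemma_seven u hcong
  · exact kummers_lemma_eleven u hcong
  · exact kummers_lemma_thirteen u hcong

/-- The same statement in the form used as hypothesis `KL` of the Case II descent. -/
theorem kummers_lemma' {p : ℕ} [Fact p.Prime] (hp : p = 5 ∨ p = 7 ∨ p = 11 ∨ p = 13)
    {K : Type*} [Field K] [NumberField K] [IsCyclotomicExtension {p} ℚ K] :
    ∀ u : (𝓞 K)ˣ, (∃ n : ℤ, (p : 𝓞 K) ∣ (u : 𝓞 K) - n) → ∃ v : (𝓞 K)ˣ, u = v ^ p :=
  fun u h => kummers_lemma hp u h

end Fermat.Agent.FLTReg.KLC
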