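/-
Kummer's lemma for p = 5, 7, 11, 13 via Kummer's logarithmic differential quotients
(no Hilbert 92 / class field theory).
-/
import Mathlib
import Fermat.Agent.FLTReg.DlogPoly
import Fermat.Agent.FLTReg.KLC.UnitsGen

set_option autoImplicit false

namespace Fermat.Agent.FLTReg.Dlog

open Polynomial NumberField

section Phi

variable {p : ℕ} [hp : Fact p.Prime] {K : Type*} [Field K] [NumberField K]
  [IsCyclotomicExtension {p} ℚ K]

theorem cyclotomic_prime_zmod : cyclotomic p (ZMod p) = (X - 1 : (ZMod p)[X]) ^ (p - 1) := by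
  have h := cyclotomic_mul_prime_pow_eq (ZMod p) (p := p) (m := 1)
    (fun h => hp.out.one_lt.ne' (Nat.dvd_one.mp h)) (k := 1) one_pos
  simpa using h

theorem aeval_truncMk_X (q : ℤ[X]) :
    aeval (truncMk (ZMod p) (p - 1) X) q =
      truncMk (ZMod p) (p - 1) (q.map (Int.castRingHom (ZMod p))) := by
  induction q using Polynomial.induction_on' with
  | add f g hf hg => rw [map_add, hf, hg, Polynomial.map_add, map_add]
  | monomial n c =>
    rw [aeval_monomial, Polynomial.map_monomial, ← C_mul_X_pow_eq_monomial, map_mul, map_pow]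
    congr 1

theorem truncMk_pow_self {R : Type*} [CommRing R] {m : ℕ} :
    truncMk R m ((X - 1 : R[X]) ^ m) = 0 := by
  rw [← map_zero (truncMk R m), truncMk_eq_iff, sub_zero]

variable {ζ : K} (hζ : IsPrimitiveRoot ζ p)

omit [IsCyclotomicExtension {p} ℚ K] in
theorem minpoly_toInteger : minpoly ℤ hζ.toInteger = cyclotomic p ℤ := by
  have h1 : minpoly ℤ (algebraMap (𝓞 K) K hζ.toInteger) = minpoly ℤ hζ.toInteger :=
    minpoly.algebraMap_eq (RingOfIntegers.coe_injective) hζ.toInteger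
  rw [← h1, cyclotomic_eq_minpoly hζ hp.out.pos]
  rfl

theorem phi_aux : aeval (truncMk (ZMod p) (p - 1) X) (minpoly ℤ hζ.integralPowerBasis.gen) = 0 := by
  rw [hζ.integralPowerBasis_gen, minpoly_toInteger hζ, aeval_truncMk_X, map_cyclotomic,
    cyclotomic_prime_zmod]
  exact truncMk_pow_self

/-- The ring homomorphism `𝓞 K → 𝔽_p[X]/((X-1)^(p-1))`, `ζ ↦ X`. -/
noncomputable def phi : 𝓞 K →ₐ[ℤ] TruncRing (ZMod p) (p - 1) :=
  hζ.integralPowerBasis.lift (truncMk (ZMod p) (p - 1) X) (phi_aux hζ)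

theorem phi_zeta : phi hζ hζ.toInteger = truncMk (ZMod p) (p - 1) X := by
  have := hζ.integralPowerBasis.lift_gen (truncMk (ZMod p) (p - 1) X) (phi_aux hζ)
  unfold phi
  conv_lhs => rw [← hζ.integralPowerBasis_gen]
  exact this

theorem phi_intCast (a : ℤ) :
    phi hζ (a : 𝓞 K) = truncMk (ZMod p) (p - 1) (C ((a : ZMod p))) := by
  rw [map_intCast]
  exact ((map_intCast (truncMk (ZMod p) (p - 1)) a).symm.trans
    (congrArg _ (map_intCast (C : ZMod p →+* (ZMod p)[X]) a).symm))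

theorem phi_prime : phi hζ (p : 𝓞 K) = 0 := by
  have := phi_intCast hζ (p : ℤ)
  simpa using this

theorem phi_of_dvd_sub {u : 𝓞 K} {a : ℤ} (h : (p : 𝓞 K) ∣ u - a) :
    phi hζ u = truncMk (ZMod p) (p - 1) (C ((a : ZMod p))) := by
  obtain ⟨b, hb⟩ := h
  have : u = a + p * b := by rw [← hb]; ring
  rw [this, map_add, map_mul, phi_prime, zero_mul, add_zero, phi_intCast]

end Phi

section KUnits

variable {p : ℕ} [hp : Fact p.Prime] {K : Type*} [Field K] [NumberField K]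
  [IsCyclotomicExtension {p} ℚ K] {ζ : K} (hζ : IsPrimitiveRoot ζ p)

/-- Kummer's logarithmic differential quotient of a unit of `𝓞 K`, with values in `ZMod p`. -/
noncomputable def kell (j : ℕ) (u : (𝓞 K)ˣ) : ZMod p :=
  ell j (Units.map (phi hζ).toRingHom.toMonoidHom u)

theorem kell_mul {j : ℕ} (hj : j + 1 < p - 1) (u v : (𝓞 K)ˣ) :
    kell hζ j (u * v) = kell hζ j u + kell hζ j v := by
  unfold kell
  rw [map_mul, ell_mul hj]

theorem kell_of_dvd_sub {j : ℕ} (hj : j + 1 < p - 1) (u : (𝓞 K)ˣ) (a : ℤ)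
    (h : (p : 𝓞 K) ∣ (u : 𝓞 K) - a) : kell hζ j u = 0 :=
  ell_of_eq_C hj _ (a : ZMod p) (phi_of_dvd_sub hζ h)

theorem kell_zeta {j : ℕ} (hj : j + 1 < p - 1) (u : (𝓞 K)ˣ) (hu : (u : 𝓞 K) = hζ.toInteger) :
    kell hζ j u = if j = 0 then 1 else 0 := by
  refine ell_of_eq_X hj _ ?_
  change phi hζ (u : 𝓞 K) = _
  rw [hu, phi_zeta]

theorem kell_one_add_zeta_pow {j : ℕ} (hj : j + 1 < p - 1) (u : (𝓞 K)ˣ) (a : ℕ)
    (hu : (u : 𝓞 K) = 1 + hζ.toInteger ^ a) (h2 : IsUnit (2 : ZMod p)) (t : ℕ → ZMod p)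
    (ht : ∀ j < p - 1,
      2 * t j + ∑ i ∈ Finset.range j, (j.choose (i + 1) : ZMod p) * t (j - (i + 1)) = 1) :
    kell hζ j u = (a : ZMod p) ^ (j + 1) * t j := by
  refine ell_of_eq_one_add_X_pow hj _ a ?_ h2 t ht
  change phi hζ (u : 𝓞 K) = _
  rw [hu, map_add, map_one, map_pow, phi_zeta, map_add, map_one, map_pow]

/-- The vector of logarithmic differential quotients as an additive map. -/
noncomputable def kellVec {d : ℕ} (js : Fin d → ℕ) (hjs : ∀ k, js k + 1 < p - 1) :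
    Additive (𝓞 K)ˣ →+ (Fin d → ZMod p) :=
  AddMonoidHom.mk' (fun u k => kell hζ (js k) (Additive.toMul u))
    (fun _ _ => funext fun k => kell_mul hζ (hjs k) _ _)

theorem kellVec_apply {d : ℕ} (js : Fin d → ℕ) (hjs : ∀ k, js k + 1 < p - 1) (u : (𝓞 K)ˣ)
    (k : Fin d) : kellVec hζ js hjs (Additive.ofMul u) k = kell hζ (js k) u := rfl

omit [NumberField K] [IsCyclotomicExtension {p} ℚ K] in
theorem isUnit_one_add_zeta_pow (hp2 : p ≠ 2) {a : ℕ} (ha : ¬ p ∣ a) :
    IsUnit (1 + hζ.toInteger ^ a : 𝓞 K) := by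
  have hprim : IsPrimitiveRoot (hζ.toInteger ^ a) p :=
    hζ.toInteger_isPrimitiveRoot.pow_of_coprime a
      ((Nat.Prime.coprime_iff_not_dvd hp.out).mpr ha).symm
  have h2 : (2 : ℕ).Coprime p := by
    rw [Nat.coprime_comm, Nat.Prime.coprime_iff_not_dvd hp.out]
    intro h
    exact hp2 ((Nat.prime_dvd_prime_iff_eq hp.out Nat.prime_two).mp h)
  have := hprim.geom_sum_isUnit hp.out.two_le h2
  simpa [Finset.sum_range_succ] using this

/-- Kummer's lemma from a certificate: a table `t` of the moments of `X/(1+X)`, functional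
indices `js`, and an invertible matrix of logarithmic differential quotients of the units
`ζ, 1+ζ, 1+ζ², …`. -/
theorem kummer_of_certificate (hp2 : p ≠ 2) (r : ℕ) (hr : (p - 1) / 2 ≤ r + 1) (hrp : r < p)
    (js : Fin (r + 1) → ℕ) (hjs : ∀ k, js k + 1 < p - 1) (t : ℕ → ZMod p)
    (ht : ∀ j < p - 1,
      2 * t j + ∑ i ∈ Finset.range j, (j.choose (i + 1) : ZMod p) * t (j - (i + 1)) = 1)
    (M T : Matrix (Fin (r + 1)) (Fin (r + 1)) (ZMod p))
    (hM0 : ∀ k, M 0 k = if js k = 0 then 1 else 0)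
    (hM : ∀ (a : Fin r) k, M a.succ k = ((a : ℕ) + 1 : ZMod p) ^ (js k + 1) * t (js k))
    (hMT : M * T = 1) (u : (𝓞 K)ˣ) (a : ℤ) (h : (p : 𝓞 K) ∣ (u : 𝓞 K) - a) :
    ∃ w : (𝓞 K)ˣ, u = w ^ p := by
  have hζ : IsPrimitiveRoot (IsCyclotomicExtension.zeta p ℚ K) p :=
    IsCyclotomicExtension.zeta_spec p ℚ K
  have h2 : IsUnit (2 : ZMod p) := by
    have : ((2 : ℕ) : ZMod p) ≠ 0 := by
      rw [Ne, ZMod.natCast_eq_zero_iff]
      intro h
      exact hp2 ((Nat.prime_dvd_prime_iff_eq hp.out Nat.prime_two).mp h)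
    exact (isUnit_iff_ne_zero.mpr (by simpa using this))
  have hunit : ∀ a : Fin r, IsUnit (1 + hζ.toInteger ^ ((a : ℕ) + 1) : 𝓞 K) := fun a =>
    isUnit_one_add_zeta_pow hζ hp2 (fun hd => by
      have := Nat.le_of_dvd (Nat.succ_pos _) hd
      have := a.isLt
      omega)
  let g : Fin (r + 1) → (𝓞 K)ˣ :=
    Fin.cons (hζ.toInteger_isPrimitiveRoot.isUnit hp.out.ne_zero).unit fun a => (hunit a).unit
  have hg : (fun i => kellVec hζ js hjs (Additive.ofMul (g i))) = M.row := by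
    funext i k
    rw [kellVec_apply]
    refine Fin.cases ?_ (fun a => ?_) i
    · rw [Matrix.row, hM0]
      exact kell_zeta hζ (hjs k) _ rfl
    · rw [Matrix.row, hM]
      have := kell_one_add_zeta_pow hζ (hjs k) (g a.succ) ((a : ℕ) + 1) rfl h2 t ht
      rw [this]
      push_cast
      rfl
  refine KLC.exists_pow_eq_of_indep (p := p) hp2 (kellVec hζ js hjs) (κ := Fin (r + 1))
    (by simpa using hr) g ?_ u ?_
  · rw [hg]
    exact Matrix.linearIndependent_rows_of_isUnit ((Matrix.isUnit_iff_isUnit_det M).mpr (Matrix.isUnit_det_of_right_inverse hMT))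
  · funext k
    exact kell_of_dvd_sub hζ (hjs k) u a h

end KUnits

section Certificates

/-- The table of moments of `X/(1+X)` modulo `5`. -/
def tbl_five : ℕ → ZMod 5 := fun j => ([3, 4, 0, 3] : List (ZMod 5)).getD j 0

/-- The indices of the functionals used for `p = 5`. -/
def js_five : Fin (1 + 1) → ℕ := ![0, 1]

/-- The matrix of logarithmic differential quotients of `ζ, 1+ζ, …` for `p = 5`. -/
def matM_five : Matrix (Fin (1 + 1)) (Fin (1 + 1)) (ZMod 5) :=
  !![1, 0; 3, 4]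

/-- The inverse of `matM_five`. -/
def matT_five : Matrix (Fin (1 + 1)) (Fin (1 + 1)) (ZMod 5) :=
  !![1, 0; 3, 4]

theorem tbl_five_spec : ∀ j < 5 - 1,
    2 * tbl_five j + ∑ i ∈ Finset.range j, (j.choose (i + 1) : ZMod 5) * tbl_five (j - (i + 1)) = 1 := by
  decide

theorem js_five_spec : ∀ k, js_five k + 1 < 5 - 1 := by decide

theorem matM_five_zero : ∀ k, matM_five 0 k = if js_five k = 0 then 1 else 0 := by decide

theorem matM_five_succ : ∀ (a : Fin 1) k,
    matM_five a.succ k = ((a : ℕ) + 1 : ZMod 5) ^ (js_five k + 1) * tbl_five (js_five k) := by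
  decide

theorem matM_five_mul : matM_five * matT_five = 1 := by decide

theorem kummer_lemma_five {K : Type*} [Field K] [NumberField K] [Fact (Nat.Prime 5)]
    [IsCyclotomicExtension {5} ℚ K] (u : (𝓞 K)ˣ) (a : ℤ)
    (h : ((5 : ℕ) : 𝓞 K) ∣ (u : 𝓞 K) - a) : ∃ w : (𝓞 K)ˣ, u = w ^ 5 :=
  kummer_of_certificate (p := 5) (by decide) 1 (by decide) (by decide)
    js_five js_five_spec tbl_five tbl_five_spec matM_five matT_five
    matM_five_zero matM_five_succ matM_five_mul u a h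

/-- The table of moments of `X/(1+X)` modulo `7`. -/
def tbl_seven : ℕ → ZMod 7 := fun j => ([4, 2, 0, 6, 0, 2] : List (ZMod 7)).getD j 0

/-- The indices of the functionals used for `p = 7`. -/
def js_seven : Fin (2 + 1) → ℕ := ![0, 1, 3]

/-- The matrix of logarithmic differential quotients of `ζ, 1+ζ, …` for `p = 7`. -/
def matM_seven : Matrix (Fin (2 + 1)) (Fin (2 + 1)) (ZMod 7) :=
  !![1, 0, 0; 4, 2, 6; 1, 1, 5]

/-- The inverse of `matM_seven`. -/
def matT_seven : Matrix (Fin (2 + 1)) (Fin (2 + 1)) (ZMod 7) :=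
  !![1, 0, 0; 0, 3, 2; 4, 5, 4]

theorem tbl_seven_spec : ∀ j < 7 - 1,
    2 * tbl_seven j + ∑ i ∈ Finset.range j, (j.choose (i + 1) : ZMod 7) * tbl_seven (j - (i + 1)) = 1 := by
  decide

theorem js_seven_spec : ∀ k, js_seven k + 1 < 7 - 1 := by decide

theorem matM_seven_zero : ∀ k, matM_seven 0 k = if js_seven k = 0 then 1 else 0 := by decide

theorem matM_seven_succ : ∀ (a : Fin 2) k,
    matM_seven a.succ k = ((a : ℕ) + 1 : ZMod 7) ^ (js_seven k + 1) * tbl_seven (js_seven k) := by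
  decide

theorem matM_seven_mul : matM_seven * matT_seven = 1 := by decide

theorem kummer_lemma_seven {K : Type*} [Field K] [NumberField K] [Fact (Nat.Prime 7)]
    [IsCyclotomicExtension {7} ℚ K] (u : (𝓞 K)ˣ) (a : ℤ)
    (h : ((7 : ℕ) : 𝓞 K) ∣ (u : 𝓞 K) - a) : ∃ w : (𝓞 K)ˣ, u = w ^ 7 :=
  kummer_of_certificate (p := 7) (by decide) 2 (by decide) (by decide)
    js_seven js_seven_spec tbl_seven tbl_seven_spec matM_seven matT_seven
    matM_seven_zero matM_seven_succ matM_seven_mul u a h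

/-- The table of moments of `X/(1+X)` modulo `11`. -/
def tbl_eleven : ℕ → ZMod 11 := fun j => ([6, 3, 0, 4, 0, 3, 0, 1, 0, 5] : List (ZMod 11)).getD j 0

/-- The indices of the functionals used for `p = 11`. -/
def js_eleven : Fin (4 + 1) → ℕ := ![0, 1, 3, 5, 7]

/-- The matrix of logarithmic differential quotients of `ζ, 1+ζ, …` for `p = 11`. -/
def matM_eleven : Matrix (Fin (4 + 1)) (Fin (4 + 1)) (ZMod 11) :=
  !![1, 0, 0, 0, 0; 6, 3, 4, 3, 1; 1, 1, 9, 5, 3; 7, 5, 5, 9, 5; 2, 4, 1, 1, 9]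

/-- The inverse of `matM_eleven`. -/
def matT_eleven : Matrix (Fin (4 + 1)) (Fin (4 + 1)) (ZMod 11) :=
  !![1, 0, 0, 0, 0; 6, 2, 8, 3, 4; 4, 2, 9, 1, 6; 0, 9, 10, 7, 4; 4, 4, 9, 10, 7]

theorem tbl_eleven_spec : ∀ j < 11 - 1,
    2 * tbl_eleven j + ∑ i ∈ Finset.range j, (j.choose (i + 1) : ZMod 11) * tbl_eleven (j - (i + 1)) = 1 := by
  decide

theorem js_eleven_spec : ∀ k, js_eleven k + 1 < 11 - 1 := by decide

theorem matM_eleven_zero : ∀ k, matM_eleven 0 k = if js_eleven k = 0 then 1 else 0 := by decide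

theorem matM_eleven_succ : ∀ (a : Fin 4) k,
    matM_eleven a.succ k = ((a : ℕ) + 1 : ZMod 11) ^ (js_eleven k + 1) * tbl_eleven (js_eleven k) := by
  decide

theorem matM_eleven_mul : matM_eleven * matT_eleven = 1 := by decide

theorem kummer_lemma_eleven {K : Type*} [Field K] [NumberField K] [Fact (Nat.Prime 11)]
    [IsCyclotomicExtension {11} ℚ K] (u : (𝓞 K)ˣ) (a : ℤ)
    (h : ((11 : ℕ) : 𝓞 K) ∣ (u : 𝓞 K) - a) : ∃ w : (𝓞 K)ˣ, u = w ^ 11 :=
  kummer_of_certificate (p := 11) (by decide) 4 (by decide) (by decide)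
    js_eleven js_eleven_spec tbl_eleven tbl_eleven_spec matM_eleven matT_eleven
    matM_eleven_zero matM_eleven_succ matM_eleven_mul u a h

/-- The table of moments of `X/(1+X)` modulo `13`. -/
def tbl_thirteen : ℕ → ZMod 13 := fun j => ([7, 10, 0, 8, 0, 10, 0, 3, 0, 11, 0, 3] : List (ZMod 13)).getD j 0

/-- The indices of the functionals used for `p = 13`. -/
def js_thirteen : Fin (5 + 1) → ℕ := ![0, 1, 3, 5, 7, 9]

/-- The matrix of logarithmic differential quotients of `ζ, 1+ζ, …` for `p = 13`. -/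
def matM_thirteen : Matrix (Fin (5 + 1)) (Fin (5 + 1)) (ZMod 13) :=
  !![1, 0, 0, 0, 0, 0; 7, 10, 8, 10, 3, 11; 1, 1, 11, 3, 1, 6; 8, 12, 11, 10, 1, 7; 2, 4, 7, 10, 9, 8; 9, 3, 8, 3, 3, 2]

/-- The inverse of `matM_thirteen`. -/
def matT_thirteen : Matrix (Fin (5 + 1)) (Fin (5 + 1)) (ZMod 13) :=
  !![1, 0, 0, 0, 0, 0; 4, 11, 4, 8, 12, 1; 12, 7, 5, 5, 0, 7; 12, 10, 0, 10, 10, 0; 0, 1, 4, 4, 0, 1; 8, 4, 7, 12, 6, 2]

theorem tbl_thirteen_spec : ∀ j < 13 - 1,
    2 * tbl_thirteen j + ∑ i ∈ Finset.range j, (j.choose (i + 1) : ZMod 13) * tbl_thirteen (j - (i + 1)) = 1 := by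
  decide

theorem js_thirteen_spec : ∀ k, js_thirteen k + 1 < 13 - 1 := by decide

theorem matM_thirteen_zero : ∀ k, matM_thirteen 0 k = if js_thirteen k = 0 then 1 else 0 := by decide

theorem matM_thirteen_succ : ∀ (a : Fin 5) k,
    matM_thirteen a.succ k = ((a : ℕ) + 1 : ZMod 13) ^ (js_thirteen k + 1) * tbl_thirteen (js_thirteen k) := by
  decide

theorem matM_thirteen_mul : matM_thirteen * matT_thirteen = 1 := by decide

theorem kummer_lemma_thirteen {K : Type*} [Field K] [NumberField K] [Fact (Nat.Prime 13)]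
    [IsCyclotomicExtension {13} ℚ K] (u : (𝓞 K)ˣ) (a : ℤ)
    (h : ((13 : ℕ) : 𝓞 K) ∣ (u : 𝓞 K) - a) : ∃ w : (𝓞 K)ˣ, u = w ^ 13 :=
  kummer_of_certificate (p := 13) (by decide) 5 (by decide) (by decide)
    js_thirteen js_thirteen_spec tbl_thirteen tbl_thirteen_spec matM_thirteen matT_thirteen
    matM_thirteen_zero matM_thirteen_succ matM_thirteen_mul u a h

/-- **Kummer's lemma** for `p = 5, 7, 11, 13`: a unit of the `p`-th cyclotomic field which is
congruent to a rational integer modulo `p` is a `p`-th power. -/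
theorem kummer_lemma {p : ℕ} [Fact p.Prime] (hp : p = 5 ∨ p = 7 ∨ p = 11 ∨ p = 13)
    {K : Type*} [Field K] [NumberField K] [IsCyclotomicExtension {p} ℚ K] (u : (𝓞 K)ˣ) (a : ℤ)
    (h : (p : 𝓞 K) ∣ (u : 𝓞 K) - a) : ∃ w : (𝓞 K)ˣ, u = w ^ p := by
  rcases hp with rfl | rfl | rfl | rfl
  · exact kummer_lemma_five u a h
  · exact kummer_lemma_seven u a h
  · exact kummer_lemma_eleven u a h
  · exact kummer_lemma_thirteen u a h

/-- **Kummer's lemma** for `p = 5, 7, 11, 13`, existential form of the congruence. -/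
theorem kummer_lemma' {p : ℕ} [Fact p.Prime] (hp : p = 5 ∨ p = 7 ∨ p = 11 ∨ p = 13)
    {K : Type*} [Field K] [NumberField K] [IsCyclotomicExtension {p} ℚ K] (u : (𝓞 K)ˣ)
    (hcong : ∃ n : ℤ, (p : 𝓞 K) ∣ (u : 𝓞 K) - n) : ∃ v : (𝓞 K)ˣ, u = v ^ p := by
  obtain ⟨n, hn⟩ := hcong
  exact kummer_lemma hp u n hn

end Certificates

end Fermat.Agent.FLTReg.Dlog
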