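import Mathlib

/-!
# FLTReg / KL2 : the Kummer extension `K(u^(1/p))/K` is unramified when `u ≡ 1 mod λ^p`

`K` a number field containing a primitive `p`-th root of unity `ζ`, `λ = ζ - 1`, `u` a unit of
`𝓞 K` with `λ^p ∣ u - 1`, `L = K(α)` with `α^p = u`.  Then `θ = (α - 1)/λ` is integral, generates
`L/K`, and the derivative of its minimal polynomial at `θ` is a unit; hence the different ideal of
`𝓞 L/𝓞 K` is trivial and every nonzero prime of `𝓞 K` has squarefree extension to `𝓞 L`.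

Main statements: `Fermat.Agent.FLTReg.kl2_differentIdeal_eq_top`, `kl2_squarefree`.
-/

namespace Fermat.Agent.FLTReg

open NumberField Polynomial

/-- Abstract algebra: if `C (lam^p) ∣ (C lam * X + 1)^p - C u` in `A[X]`, `B` is a domain over `A`
with `lam ≠ 0` in `B`, `α^p = u` and `lam θ + 1 = α` in `B`, then the quotient polynomial `g`
satisfies `g(θ) = 0` and `g'(θ) * lam^(p-1) = p * α^(p-1)`. -/
theorem kl2_poly_facts {A : Type*} [CommRing A] (p : ℕ) (hp : 0 < p) (lam u : A) (g : A[X])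
    (hg : (C lam * X + 1) ^ p - C u = C (lam ^ p) * g)
    {B : Type*} [CommRing B] [IsDomain B] [Algebra A B]
    (hlam0 : algebraMap A B lam ≠ 0) (α θ : B)
    (hα : α ^ p = algebraMap A B u)
    (hθ : algebraMap A B lam * θ + 1 = α) :
    aeval θ g = 0 ∧
      aeval θ (derivative g) * algebraMap A B (lam ^ (p - 1)) = (p : B) * α ^ (p - 1) := by
  have hp1 : p = (p - 1) + 1 := by omega
  refine ⟨?_, ?_⟩
  · have h1 := congrArg (aeval θ) hg
    simp only [map_sub, map_pow, map_add, map_mul, aeval_C, aeval_X, map_one] at h1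
    rw [hθ, hα, sub_self] at h1
    exact (mul_eq_zero.1 h1.symm).resolve_left (pow_ne_zero _ hlam0)
  · have h1 := congrArg (fun q => aeval θ (derivative q)) hg
    simp only [derivative_sub, derivative_C, sub_zero, derivative_mul, zero_mul, zero_add,
      map_mul, aeval_C] at h1
    rw [derivative_pow] at h1
    simp only [derivative_mul, derivative_C, zero_mul, derivative_X, mul_one,
      zero_add, derivative_one, add_zero, map_mul, map_pow, map_add, aeval_C, aeval_X, map_one,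
      map_natCast] at h1
    rw [hθ] at h1
    have h2 : algebraMap A B lam *
        (aeval θ (derivative g) * algebraMap A B (lam ^ (p - 1))) =
        algebraMap A B lam * ((p : B) * α ^ (p - 1)) := by
      rw [map_pow]
      have : algebraMap A B lam ^ p =
          algebraMap A B lam ^ (p - 1) * algebraMap A B lam := by
        conv_lhs => rw [hp1, pow_succ]
      rw [this] at h1
      linear_combination -h1
    exact mul_left_cancel₀ hlam0 h2


theorem kl2_monic {A : Type*} [CommRing A] [IsDomain A] (p : ℕ) (hp : 0 < p) (lam u : A)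
    (hlam : lam ≠ 0) (g : A[X])
    (hg : (C lam * X + 1) ^ p - C u = C (lam ^ p) * g) : g.Monic := by
  have hlin : (C lam * X + 1 : A[X]) = C lam * X + C 1 := by simp
  have hdeg1 : (C lam * X + 1 : A[X]).degree = 1 := by
    rw [hlin]; exact degree_linear hlam
  have hlc1 : (C lam * X + 1 : A[X]).leadingCoeff = lam := by
    rw [hlin]; exact leadingCoeff_linear hlam
  have hdegp : ((C lam * X + 1 : A[X]) ^ p).degree = p := by
    rw [degree_pow, hdeg1]; simp
  have hlt : (C u : A[X]).degree < ((C lam * X + 1 : A[X]) ^ p).degree := by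
    rw [hdegp]
    exact lt_of_le_of_lt degree_C_le (by exact_mod_cast hp)
  have hlc : ((C lam * X + 1) ^ p - C u : A[X]).leadingCoeff = lam ^ p := by
    rw [leadingCoeff_sub_of_degree_lt hlt, leadingCoeff_pow, hlc1]
  rw [hg, leadingCoeff_mul, leadingCoeff_C] at hlc
  have : lam ^ p * g.leadingCoeff = lam ^ p * 1 := by rw [hlc, mul_one]
  exact mul_left_cancel₀ (pow_ne_zero _ hlam) this


section KL2nf

variable {K L : Type} [Field K] [NumberField K] [Field L] [NumberField L] [Algebra K L]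

/-- If `α ∈ L` generates `L/K`, `α^p = u` a unit of `𝓞 K`, `lam ∈ 𝓞 K` nonzero with
`p = w * lam^(p-1)` (`w` a unit) and `lam^p` dividing the coefficients of `(lam X + 1)^p - u`,
then the different ideal of `𝓞 L / 𝓞 K` is trivial. -/
theorem kl2_differentIdeal_eq_top_aux (p : ℕ) (hp : 0 < p) (lam : 𝓞 K) (hlam0 : lam ≠ 0)
    (w : (𝓞 K)ˣ) (hw : (p : 𝓞 K) = w * lam ^ (p - 1))
    (u : (𝓞 K)ˣ) (g : (𝓞 K)[X])
    (hg : (C lam * X + 1) ^ p - C (u : 𝓞 K) = C (lam ^ p) * g)
    (α : L) (hα : α ^ p = algebraMap K L ((u : 𝓞 K) : K)) (hadj : Algebra.adjoin K {α} = ⊤) :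
    differentIdeal (𝓞 K) (𝓞 L) = ⊤ := by
  have hgmonic : g.Monic := kl2_monic p hp lam (u : 𝓞 K) hlam0 g hg
  have hinjL : Function.Injective (algebraMap (𝓞 K) L) :=
    FaithfulSMul.algebraMap_injective (𝓞 K) L
  have hlamL : algebraMap (𝓞 K) L lam ≠ 0 := by
    rwa [Ne, map_eq_zero_iff _ hinjL]
  -- θ in L
  set θ : L := (α - 1) / algebraMap (𝓞 K) L lam with hθdef
  have hθα : algebraMap (𝓞 K) L lam * θ + 1 = α := by
    rw [hθdef]; field_simp; ring
  have hαL : α ^ p = algebraMap (𝓞 K) L (u : 𝓞 K) := by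
    rw [hα, IsScalarTower.algebraMap_apply (𝓞 K) K L]
  -- θ is a root of g
  have hgθ : aeval θ g = 0 := (kl2_poly_facts p hp lam u g hg hlamL α θ hαL hθα).1
  have hθintK : IsIntegral (𝓞 K) θ := ⟨g, hgmonic, by rwa [← aeval_def]⟩
  have hθint : IsIntegral ℤ θ := isIntegral_trans θ hθintK
  have hαint : IsIntegral ℤ α := by
    have : IsIntegral ℤ (α ^ p) := by
      rw [hα]
      exact (RingOfIntegers.isIntegral_coe (u : 𝓞 K)).map (IsScalarTower.toAlgHom ℤ K L)
    exact IsIntegral.of_pow hp this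
  let θ' : 𝓞 L := ⟨θ, hθint⟩
  let α' : 𝓞 L := ⟨α, hαint⟩
  have hinjB : Function.Injective (algebraMap (𝓞 L) L) :=
    FaithfulSMul.algebraMap_injective (𝓞 L) L
  have hlamB : algebraMap (𝓞 K) (𝓞 L) lam ≠ 0 := by
    rw [Ne, map_eq_zero_iff _ (FaithfulSMul.algebraMap_injective (𝓞 K) (𝓞 L))]; exact hlam0
  have hα' : α' ^ p = algebraMap (𝓞 K) (𝓞 L) (u : 𝓞 K) := by
    apply hinjB
    rw [map_pow, ← IsScalarTower.algebraMap_apply (𝓞 K) (𝓞 L) L]
    exact hαL
  have hθ' : algebraMap (𝓞 K) (𝓞 L) lam * θ' + 1 = α' := by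
    apply hinjB
    rw [map_add, map_mul, map_one, ← IsScalarTower.algebraMap_apply (𝓞 K) (𝓞 L) L]
    exact hθα
  obtain ⟨h1, h2⟩ := kl2_poly_facts p hp lam u g hg hlamB α' θ' hα' hθ'
  -- α' is a unit
  have hαunit : IsUnit α' := by
    have : IsUnit (α' ^ p) := by
      rw [hα']; exact (u.isUnit).map (algebraMap (𝓞 K) (𝓞 L))
    exact (isUnit_pow_iff hp.ne').1 this
  -- g'(θ') is a unit
  have hg'unit : IsUnit (aeval θ' (derivative g)) := by
    have hX : algebraMap (𝓞 K) (𝓞 L) (lam ^ (p - 1)) ≠ 0 := by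
      rw [map_pow]; exact pow_ne_zero _ hlamB
    have hpB : (p : 𝓞 L) = algebraMap (𝓞 K) (𝓞 L) (w : 𝓞 K) *
        algebraMap (𝓞 K) (𝓞 L) (lam ^ (p - 1)) := by
      rw [← map_mul, ← hw, map_natCast]
    have h3 : aeval θ' (derivative g) * algebraMap (𝓞 K) (𝓞 L) (lam ^ (p - 1)) =
        (algebraMap (𝓞 K) (𝓞 L) (w : 𝓞 K) * α' ^ (p - 1)) *
          algebraMap (𝓞 K) (𝓞 L) (lam ^ (p - 1)) := by
      rw [h2, hpB]; ring
    rw [mul_right_cancel₀ hX h3]
    exact ((w.isUnit).map (algebraMap (𝓞 K) (𝓞 L))).mul (hαunit.pow _)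
  -- minimal polynomial divides g
  have hθ'int : IsIntegral (𝓞 K) θ' := ⟨g, hgmonic, by rwa [← aeval_def]⟩
  obtain ⟨q, hq⟩ := minpoly.isIntegrallyClosed_dvd hθ'int h1
  have hmunit : IsUnit (aeval θ' (derivative (minpoly (𝓞 K) θ'))) := by
    have h4 : aeval θ' (derivative g) =
        aeval θ' (derivative (minpoly (𝓞 K) θ')) * aeval θ' q := by
      rw [hq, derivative_mul, map_add, map_mul, map_mul, minpoly.aeval, zero_mul, add_zero]
    rw [h4] at hg'unit
    exact isUnit_of_mul_isUnit_left hg'unit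
  -- θ generates
  have hx : Algebra.adjoin K {algebraMap (𝓞 L) L θ'} = ⊤ := by
    have hθ'θ : algebraMap (𝓞 L) L θ' = θ := rfl
    rw [hθ'θ, eq_top_iff, ← hadj]
    apply Algebra.adjoin_le
    rintro _ rfl
    rw [← hθα, IsScalarTower.algebraMap_apply (𝓞 K) K L]
    exact add_mem (mul_mem (Subalgebra.algebraMap_mem _ _)
      (Algebra.subset_adjoin (Set.mem_singleton _))) (one_mem _)
  have hmem := aeval_derivative_mem_differentIdeal (𝓞 K) K L θ' hx
  exact Ideal.eq_top_of_isUnit_mem _ hmem hmunit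


theorem kl2_squarefree_of_differentIdeal_eq_top (h : differentIdeal (𝓞 K) (𝓞 L) = ⊤) :
    ∀ 𝔭 : Ideal (𝓞 K), 𝔭.IsMaximal → 𝔭 ≠ ⊥ →
      Squarefree (𝔭.map (algebraMap (𝓞 K) (𝓞 L))) := by
  intro 𝔭 hmax hbot x hx
  by_contra hxu
  have hxtop : x ≠ ⊤ := fun h' => hxu (by rw [h', Ideal.isUnit_iff])
  obtain ⟨P, hPmax, hxP⟩ := Ideal.exists_le_maximal x hxtop
  have hPx : P ∣ x := Ideal.dvd_iff_le.2 hxP
  have hP2 : P ^ 2 ∣ 𝔭.map (algebraMap (𝓞 K) (𝓞 L)) := by
    rw [pow_two]; exact (mul_dvd_mul hPx hPx).trans hx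
  have := pow_sub_one_dvd_differentIdeal_aux (𝓞 K) K L P (e := 2) (by norm_num) hbot hP2
  rw [h] at this
  simp only [Nat.add_one_sub_one, pow_one] at this
  have hle : (⊤ : Ideal (𝓞 L)) ≤ P := Ideal.dvd_iff_le.1 this
  exact hPmax.ne_top (top_le_iff.1 hle)


end KL2nf

section KL2poly

variable {p : ℕ} [hpri : Fact p.Prime] {K : Type} [Field K] [NumberField K]
  [IsCyclotomicExtension {p} ℚ K] {ζ : K} (hζ : IsPrimitiveRoot ζ p)

omit [NumberField K] [IsCyclotomicExtension {p} ℚ K] in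
/-- `λ^(p-1) ∣ p` in `𝓞 K`. -/
theorem kl2_lam_pow_dvd_p : (hζ.toInteger - 1) ^ (p - 1) ∣ (p : 𝓞 K) :=
  (IsCyclotomicExtension.Rat.associated_zeta_sub_one_pow_prime p hζ).dvd

/-- the coefficients of `(C λ * X + 1)^p - C u` are divisible by `λ^p`. -/
theorem kl2_C_dvd (u : 𝓞 K) (hcong : (hζ.toInteger - 1) ^ p ∣ u - 1) :
    C ((hζ.toInteger - 1) ^ p) ∣ (C (hζ.toInteger - 1) * X + 1) ^ p - C u := by
  set lam := hζ.toInteger - 1 with hlam
  rw [C_dvd_iff_dvd_coeff]
  intro k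
  have hcomp : (C lam * X + 1 : (𝓞 K)[X]) ^ p = ((1 + X) ^ p).comp (C lam * X) := by
    simp [add_comm]
  rw [coeff_sub, hcomp, comp_C_mul_X_coeff, coeff_one_add_X_pow, coeff_C]
  have hp := hpri.out
  rcases Nat.eq_zero_or_pos k with rfl | hk
  · simp only [Nat.choose_zero_right, Nat.cast_one, pow_zero, mul_one, if_true]
    have : (1 : 𝓞 K) - u = -(u - 1) := by ring
    rw [this]
    exact (dvd_neg).2 hcong
  · rw [if_neg hk.ne', sub_zero]
    rcases lt_trichotomy k p with hkp | rfl | hkp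
    · -- p ∣ choose
      have h1 : (p : 𝓞 K) ∣ ((p.choose k : ℕ) : 𝓞 K) := by
        have := hp.dvd_choose_self hk.ne' hkp
        exact_mod_cast (Nat.cast_dvd_cast (α := 𝓞 K) this)
      have h2 : lam ^ (p - 1) ∣ ((p.choose k : ℕ) : 𝓞 K) := (kl2_lam_pow_dvd_p hζ).trans h1
      have h3 : lam ^ p ∣ ((p.choose k : ℕ) : 𝓞 K) * lam ^ k := by
        have : lam ^ p = lam ^ (p - 1) * lam ^ 1 := by
          rw [← pow_add]; congr 1; have := hp.pos; omega
        rw [this]
        exact mul_dvd_mul h2 (pow_dvd_pow _ hk)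
      exact h3
    · simp
    · simp [Nat.choose_eq_zero_of_lt hkp]


theorem kl2_lam_ne_zero : hζ.toInteger - 1 ≠ 0 := hζ.zeta_sub_one_prime'.ne_zero

variable {L : Type} [Field L] [NumberField L] [Algebra K L]

/-- If `α ∈ L` generates `L/K`, `α^p = u` a unit of `𝓞 K` with `u ≡ 1 mod λ^p`, then the different
ideal of `𝓞 L / 𝓞 K` is trivial. -/
theorem kl2_differentIdeal_eq_top (u : (𝓞 K)ˣ)
    (hcong : (hζ.toInteger - 1) ^ p ∣ (u : 𝓞 K) - 1)
    (α : L) (hα : α ^ p = algebraMap K L ((u : 𝓞 K) : K)) (hadj : Algebra.adjoin K {α} = ⊤) :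
    differentIdeal (𝓞 K) (𝓞 L) = ⊤ := by
  obtain ⟨g, hg⟩ := kl2_C_dvd hζ (u : 𝓞 K) hcong
  obtain ⟨w, hw⟩ := IsCyclotomicExtension.Rat.associated_zeta_sub_one_pow_prime p hζ
  exact kl2_differentIdeal_eq_top_aux p hpri.out.pos (hζ.toInteger - 1) (kl2_lam_ne_zero hζ)
    w (by rw [← hw, mul_comm]) u g hg α hα hadj

/-- **KL2**: the Kummer extension generated by a `p`-th root of a unit `u ≡ 1 mod λ^p` is
unramified at every finite prime. -/
theorem kl2_squarefree (u : (𝓞 K)ˣ) (hcong : (hζ.toInteger - 1) ^ p ∣ (u : 𝓞 K) - 1)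
    [IsSplittingField K L (X ^ p - C ((u : 𝓞 K) : K))]
    (hirr : Irreducible (X ^ p - C ((u : 𝓞 K) : K))) :
    ∀ 𝔭 : Ideal (𝓞 K), 𝔭.IsMaximal → 𝔭 ≠ ⊥ →
      Squarefree (𝔭.map (algebraMap (𝓞 K) (𝓞 L))) := by
  have hp := hpri.out
  have : NeZero p := ⟨hp.ne_zero⟩
  have hα := rootOfSplitsXPowSubC_pow ((u : 𝓞 K) : K) L (n := p)
  have hprim : (primitiveRoots p K).Nonempty := ⟨ζ, (mem_primitiveRoots hp.pos).2 hζ⟩
  have hadj := Algebra.adjoin_root_eq_top_of_isSplittingField hprim hirr hα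
  exact kl2_squarefree_of_differentIdeal_eq_top
    (kl2_differentIdeal_eq_top hζ u hcong _ hα hadj)

end KL2poly

end Fermat.Agent.FLTReg
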