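import Fermat.Agent.FLTReg.InvariantIdeal
import Fermat.Agent.FLTReg.KummerUnramified
import Fermat.Agent.FLTReg.KL1

/-!
# FLTReg / KL5 : Kummer's lemma over a PID from Hilbert 92 (the "Hilbert 94" argument)

`K` a `p`-th cyclotomic field with `𝓞 K` a PID.  Assuming Hilbert's Theorem 92 for cyclic
extensions of degree `p` of `K` (`H92Statement p K`), every unit `u ≡ 1 mod λ^p` is a `p`-th power
(`kummer_lemma_of_H92`), hence (via `KL1`) every unit congruent to a rational integer mod `p` is a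
`p`-th power (`kummer_lemma_classical_of_H92`).

Proof: otherwise `L = K(u^(1/p))` is cyclic of degree `p` and unramified (`kl2_squarefree`);
H92 gives a unit `η` of norm `1` which is not `ε/σ ε`; Hilbert 90 gives `η = β/σ β` with
`β ∈ 𝓞 L`; `kl4_main` gives `β = a ε`, so `η = ε/σ ε`, contradiction.
-/

namespace Fermat.Agent.FLTReg

open NumberField Polynomial

section KL5

variable {p : ℕ} [hpri : Fact p.Prime] {K : Type} [Field K] [NumberField K]
  [IsCyclotomicExtension {p} ℚ K] {ζ : K} (hζ : IsPrimitiveRoot ζ p)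

/-- The shape of Hilbert's Theorem 92 that the assembly needs. -/
def H92Statement (p : ℕ) (K : Type) [Field K] [NumberField K] : Prop :=
  ∀ (L : Type) [Field L] [NumberField L] [Algebra K L] [IsGalois K L],
    Module.finrank K L = p → ∀ σ : Gal(L/K), (∀ τ, τ ∈ Subgroup.zpowers σ) →
      ∃ η : (𝓞 L)ˣ, Algebra.norm K ((η : 𝓞 L) : L) = 1 ∧
        ∀ ε : (𝓞 L)ˣ, ((η : 𝓞 L) : L) ≠ ((ε : 𝓞 L) : L) / σ ((ε : 𝓞 L) : L)

omit hpri [NumberField K] [IsCyclotomicExtension {p} ℚ K] in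
/-- a unit that is a `p`-th power in `K` is a `p`-th power of a unit. -/
theorem kl5_unit_pow_of_pow (hp : 0 < p) (u : (𝓞 K)ˣ) (b : K) (hb : b ^ p = ((u : 𝓞 K) : K)) :
    ∃ v : (𝓞 K)ˣ, u = v ^ p := by
  have hbint : IsIntegral ℤ b := by
    have : IsIntegral ℤ (b ^ p) := by rw [hb]; exact RingOfIntegers.isIntegral_coe _
    exact IsIntegral.of_pow hp this
  let b' : 𝓞 K := ⟨b, hbint⟩
  have hb' : b' ^ p = (u : 𝓞 K) := by
    apply RingOfIntegers.ext
    show algebraMap (𝓞 K) K (b' ^ p) = _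
    rw [map_pow]; exact hb
  have hunit : IsUnit b' := by
    have : IsUnit (b' ^ p) := by rw [hb']; exact u.isUnit
    exact (isUnit_pow_iff hp.ne').1 this
  refine ⟨hunit.unit, ?_⟩
  ext
  rw [Units.val_pow_eq_pow_val, IsUnit.unit_spec, hb']

/-- **Kummer's lemma** (`λ^p` form) over a PID, from Hilbert 92. -/
theorem kummer_lemma_of_H92 [IsPrincipalIdealRing (𝓞 K)] (H92 : H92Statement p K)
    (u : (𝓞 K)ˣ) (hcong : (hζ.toInteger - 1) ^ p ∣ (u : 𝓞 K) - 1) :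
    ∃ v : (𝓞 K)ˣ, u = v ^ p := by
  have hp := hpri.out
  by_contra hne
  have hnpow : ∀ b : K, b ^ p ≠ ((u : 𝓞 K) : K) := fun b hb =>
    hne (kl5_unit_pow_of_pow hp.pos u b hb)
  have hirr : Irreducible (X ^ p - C ((u : 𝓞 K) : K)) :=
    X_pow_sub_C_irreducible_of_prime hp hnpow
  have hprim : (primitiveRoots p K).Nonempty := ⟨ζ, (mem_primitiveRoots hp.pos).2 hζ⟩
  let L := (X ^ p - C ((u : 𝓞 K) : K)).SplittingField
  have : NumberField L := NumberField.of_module_finite K L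
  have : IsGalois K L := isGalois_of_isSplittingField_X_pow_sub_C hprim hirr L
  have : NeZero p := ⟨hp.ne_zero⟩
  have : IsCyclic Gal(L/K) := isCyclic_of_isSplittingField_X_pow_sub_C hprim hirr L
  have hfin : Module.finrank K L = p := finrank_of_isSplittingField_X_pow_sub_C hprim hirr L
  obtain ⟨σ, hσ⟩ := IsCyclic.exists_generator (α := Gal(L/K))
  obtain ⟨η, hη1, hη2⟩ := H92 L hfin σ hσ
  obtain ⟨β, hβ0, hβ⟩ := groupCohomology.exists_mul_galRestrict_of_norm_eq_one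
    (A := 𝓞 K) (B := 𝓞 L) hσ hη1
  have hgal : ∀ x : 𝓞 L, galRestrict (𝓞 K) K L (𝓞 L) σ x = σ • x := by
    intro x
    apply RingOfIntegers.ext
    exact algebraMap_galRestrict_apply (𝓞 K) σ x
  rw [hgal] at hβ
  have hinv : Associated (σ • β) β := ⟨η, by rw [mul_comm]; exact hβ⟩
  obtain ⟨a, ε, hβeq⟩ := kl4_main (kl2_squarefree hζ u hcong hirr) σ hσ β hβ0 hinv
  have ha0 : algebraMap (𝓞 K) (𝓞 L) a ≠ 0 := by
    intro h; rw [h, zero_mul] at hβeq; exact hβ0 hβeq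
  have hkey : (η : 𝓞 L) * σ • (ε : 𝓞 L) = ε := by
    rw [hβeq, smul_mul', smul_algebraMap, mul_left_comm] at hβ
    exact mul_left_cancel₀ ha0 hβ
  apply hη2 ε
  have hσε : σ ((ε : 𝓞 L) : L) ≠ 0 := by
    rw [Ne, map_eq_zero]
    exact_mod_cast ε.ne_zero
  rw [eq_div_iff hσε]
  have h2 : ((σ • (ε : 𝓞 L) : 𝓞 L) : L) = σ ((ε : 𝓞 L) : L) := rfl
  have h3 : algebraMap (𝓞 L) L ((η : 𝓞 L) * σ • (ε : 𝓞 L)) = algebraMap (𝓞 L) L (ε : 𝓞 L) :=
    congrArg _ hkey
  rw [map_mul] at h3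
  rw [← h2]
  exact h3

include hζ in
/-- **Kummer's lemma** (classical form) over a PID, from Hilbert 92. -/
theorem kummer_lemma_classical_of_H92 (hp2 : p ≠ 2) [IsPrincipalIdealRing (𝓞 K)]
    (H92 : H92Statement p K) :
    ∀ u : (𝓞 K)ˣ, (∃ n : ℤ, (p : 𝓞 K) ∣ (u : 𝓞 K) - n) → ∃ v : (𝓞 K)ˣ, u = v ^ p :=
  KL1.kummer_classical_of_KLa hζ hp2 (fun u h => kummer_lemma_of_H92 hζ H92 u h)

end KL5

end Fermat.Agent.FLTReg
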