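import Fermat.Agent.FLTReg.PIDCert

/-!
# `ℤ[ζ₁₃]` is a principal ideal domain

Minkowski bound `⌊M⌋ = 306`; the only primes `ℓ ≤ 306` having a prime of norm `≤ 306` above them
are `13` (the prime `(ζ - 1)`), `3` (inertia degree `3`, norm `27`) and `53, 79, 131, 157`
(inertia degree `1`).  For each of these an explicit generator is certified via Kummer–Dedekind.
-/

namespace Fermat.Agent.FLTReg

open NumberField Polynomial Ideal RingOfIntegers Module InfinitePlace Nat Real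

section Bound

variable (K : Type*) [Field K] [NumberField K] [IsCyclotomicExtension {13} ℚ K]

theorem minkowski_floor_le_13 :
    ⌊(4 / π) ^ nrComplexPlaces K *
      ((finrank ℚ K)! / (finrank ℚ K) ^ (finrank ℚ K) * √|discr K|)⌋₊ ≤ 306 := by
  have : Fact (Nat.Prime 13) := ⟨by norm_num⟩
  rw [IsCyclotomicExtension.Rat.discr_prime 13 K, IsCyclotomicExtension.finrank (n := 13) K
    (cyclotomic.irreducible_rat (by simp)),
    IsCyclotomicExtension.Rat.nrComplexPlaces_eq_totient_div_two 13,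
    totient_prime (by norm_num : Nat.Prime 13)]
  apply Nat.le_of_lt_succ
  rw [Nat.floor_lt (by positivity)]
  have h1 : ((13 - 1) / 2 : ℕ) = 6 := by norm_num
  have h2 : (13 - 1 : ℕ) = 12 := by norm_num
  have h3 : (13 - 2 : ℕ) = 11 := by norm_num
  rw [h1, h2, h3]
  have hfact : ((12 ! : ℕ) : ℝ) = 479001600 := by
    norm_num [Nat.factorial]
  have habs : |((((-1 : ℤ) ^ 6 * ((13 : ℕ) : ℤ) ^ 11 : ℤ)) : ℝ)| = 13 ^ 11 := by
    norm_num
  rw [habs, hfact]
  have hsqrt : √((13 : ℝ) ^ 11) < 13 ^ 5 * 3.6056 := by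
    rw [Real.sqrt_lt' (by positivity)]
    norm_num
  have hpi : (4 / π) ^ 6 < (4 / 3.1415) ^ 6 := by
    have := Real.pi_gt_d4
    gcongr
  have hpos : (0 : ℝ) < (4 / π) ^ 6 := by positivity
  calc (4 / π) ^ 6 * ((479001600 : ℝ) / ((12 : ℕ) : ℝ) ^ 12 * √((13 : ℝ) ^ 11))
      < (4 / 3.1415) ^ 6 * ((479001600 : ℝ) / ((12 : ℕ) : ℝ) ^ 12 * (13 ^ 5 * 3.6056)) := by
        gcongr
    _ < ((succ 306 : ℕ) : ℝ) := by
        norm_num

end Bound

section Order

theorem orderOf_zmod13_dvd (p : ℕ) (hp : ¬ 13 ∣ p) : orderOf (p : ZMod 13) ∣ 12 := by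
  have : Fact (Nat.Prime 13) := ⟨by norm_num⟩
  apply orderOf_dvd_of_pow_eq_one
  have h0 : (p : ZMod 13) ≠ 0 := by
    rwa [Ne, ZMod.natCast_eq_zero_iff]
  exact ZMod.pow_card_sub_one_eq_one h0

theorem pow_orderOf_gt_13 (p : ℕ) (hp : p.Prime) (hle : p ≤ 306) (h13 : p ≠ 13) (h3 : p ≠ 3)
    (h53 : p ≠ 53) (h79 : p ≠ 79) (h131 : p ≠ 131) (h157 : p ≠ 157) :
    306 < p ^ orderOf (p : ZMod 13) := by
  have hnd : ¬ 13 ∣ p := by
    intro h
    exact h13 ((Nat.prime_dvd_prime_iff_eq (by norm_num) hp).mp h).symm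
  have hdvd := orderOf_zmod13_dvd p hnd
  have hpow := pow_orderOf_eq_one (p : ZMod 13)
  have hmem : orderOf (p : ZMod 13) ∈ Nat.divisors 12 := by
    rw [Nat.mem_divisors]; exact ⟨hdvd, by norm_num⟩
  have hdiv : Nat.divisors 12 = {1, 2, 3, 4, 6, 12} := by decide
  rw [hdiv] at hmem
  simp only [Finset.mem_insert, Finset.mem_singleton] at hmem
  by_cases hbig : 18 ≤ p
  · -- enough: order ≥ 2
    have h1 : orderOf (p : ZMod 13) ≠ 1 := by
      intro h
      rw [orderOf_eq_one_iff] at h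
      have h' : ((p : ℕ) : ZMod 13) = ((1 : ℕ) : ZMod 13) := by simpa using h
      rw [ZMod.natCast_eq_natCast_iff'] at h'
      norm_num at h'
      obtain ⟨k, hk⟩ : ∃ k, p = 13 * k + 1 := ⟨p / 13, by omega⟩
      have hk23 : k ≤ 23 := by omega
      have hk2 : 2 ≤ k := by omega
      subst hk
      interval_cases k <;> first | omega | (norm_num at hp)
    have h2 : 2 ≤ orderOf (p : ZMod 13) := by
      rcases hmem with h | h | h | h | h | h <;> omega
    calc 306 < 18 ^ 2 := by norm_num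
      _ ≤ p ^ 2 := Nat.pow_le_pow_left hbig 2
      _ ≤ p ^ orderOf (p : ZMod 13) := Nat.pow_le_pow_right hp.pos h2
  · rw [not_le] at hbig
    interval_cases p <;> first | omega | (exfalso; norm_num at hp; done) | skip
    all_goals
      rcases hmem with h | h | h | h | h | h <;> rw [h] at hpow ⊢ <;>
        first | (norm_num; done) | (exfalso; revert hpow; decide)

end Order

section Certs

variable {K : Type*} [Field K] [NumberField K] [IsCyclotomicExtension {13} ℚ K]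

omit [NumberField K] [IsCyclotomicExtension {13} ℚ K] in
theorem zeta13_sum {ζ : K} (hζ : IsPrimitiveRoot ζ 13) :
    1 + hζ.toInteger + hζ.toInteger ^ 2 + hζ.toInteger ^ 3 + hζ.toInteger ^ 4 +
      hζ.toInteger ^ 5 + hζ.toInteger ^ 6 + hζ.toInteger ^ 7 + hζ.toInteger ^ 8 +
      hζ.toInteger ^ 9 + hζ.toInteger ^ 10 + hζ.toInteger ^ 11 + hζ.toInteger ^ 12 = 0 := by
  have := hζ.toInteger_isPrimitiveRoot.geom_sum_eq_zero (by norm_num)
  simpa [Finset.sum_range_succ] using this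

theorem cert13_53 {ζ : K} (hζ : IsPrimitiveRoot ζ 13) :
    ∃ P ∈ primesOver (span {((53 : ℕ) : ℤ)}) (𝓞 K), Submodule.IsPrincipal P := by
  have : Fact (Nat.Prime 53) := ⟨by norm_num⟩
  have hz := zeta13_sum hζ
  set z := hζ.toInteger with hzdef
  refine exists_isPrincipal_primesOver_of_linear_cert hζ (ℓ := 53) (-17) ?_
    (α := (1) + (1)*z + (1)*z^3)
    (β := (1) + (-24)*z + (-35)*z^2 + (-25)*z^3 + (-10)*z^4 + (-14)*z^5 + (-20)*z^6 + (-29)*z^7 + (-16)*z^8 + (-23)*z^9 + (-7)*z^10 + (-36)*z^11)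
    (γ := (1) + (-7)*z + (-11)*z^2 + (-8)*z^3 + (-3)*z^4 + (-4)*z^5 + (-6)*z^6 + (-9)*z^7 + (-5)*z^8 + (-7)*z^9 + (-2)*z^10 + (-11)*z^11)
    (s := -93) (t := (290) + (-17)*z + (1)*z^2) ?_ ?_ ?_
  · have : Fact (Nat.Prime 13) := ⟨by norm_num⟩
    exact isRoot_cyclotomic_prime_of_dvd _ (by decide)
  · push_cast
    linear_combination ((-52) + (29)*z + (-36)*z^2) * hz
  · push_cast
    linear_combination ((-16) + (9)*z + (-11)*z^2) * hz
  · push_cast
    ring

theorem cert13_79 {ζ : K} (hζ : IsPrimitiveRoot ζ 13) :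
    ∃ P ∈ primesOver (span {((79 : ℕ) : ℤ)}) (𝓞 K), Submodule.IsPrincipal P := by
  have : Fact (Nat.Prime 79) := ⟨by norm_num⟩
  have hz := zeta13_sum hζ
  set z := hζ.toInteger with hzdef
  refine exists_isPrincipal_primesOver_of_linear_cert hζ (ℓ := 79) (-15) ?_
    (α := (1) + (1)*z + (-1)*z^4)
    (β := (24) + (-25)*z + (-27)*z^2 + (10)*z^3 + (-3)*z^4 + (-39)*z^5 + (-5)*z^6 + (-2)*z^7 + (-18)*z^8 + (-38)*z^9 + (16)*z^10 + (-35)*z^11)
    (γ := (5) + (-4)*z + (-5)*z^2 + (2)*z^3 + (-7)*z^5 + (-1)*z^6 + (-3)*z^8 + (-7)*z^9 + (3)*z^10 + (-6)*z^11)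
    (s := -641) (t := (3376) + (-225)*z + (15)*z^2 + (-1)*z^3) ?_ ?_ ?_
  · have : Fact (Nat.Prime 13) := ⟨by norm_num⟩
    exact isRoot_cyclotomic_prime_of_dvd _ (by decide)
  · push_cast
    linear_combination ((-55) + (54)*z + (-51)*z^2 + (35)*z^3) * hz
  · push_cast
    linear_combination ((-10) + (10)*z + (-9)*z^2 + (6)*z^3) * hz
  · push_cast
    ring

theorem cert13_131 {ζ : K} (hζ : IsPrimitiveRoot ζ 13) :
    ∃ P ∈ primesOver (span {((131 : ℕ) : ℤ)}) (𝓞 K), Submodule.IsPrincipal P := by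
  have : Fact (Nat.Prime 131) := ⟨by norm_num⟩
  have hz := zeta13_sum hζ
  set z := hζ.toInteger with hzdef
  refine exists_isPrincipal_primesOver_of_linear_cert hζ (ℓ := 131) (-51) ?_
    (α := (1) + (-1)*z + (-1)*z^3)
    (β := (111) + (78)*z + (17)*z^2 + (67)*z^3 + (84)*z^4 + (40)*z^5 + (46)*z^6 + (69)*z^7 + (48)*z^8 + (33)*z^9 + (41)*z^10 + (28)*z^11)
    (γ := (43) + (31)*z + (7)*z^2 + (26)*z^3 + (33)*z^4 + (16)*z^5 + (18)*z^6 + (27)*z^7 + (19)*z^8 + (13)*z^9 + (16)*z^10 + (11)*z^11)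
    (s := 1013) (t := (-2602) + (51)*z + (-1)*z^2) ?_ ?_ ?_
  · have : Fact (Nat.Prime 13) := ⟨by norm_num⟩
    exact isRoot_cyclotomic_prime_of_dvd _ (by decide)
  · push_cast
    linear_combination ((-20) + (-13)*z + (-28)*z^2) * hz
  · push_cast
    linear_combination ((-8) + (-5)*z + (-11)*z^2) * hz
  · push_cast
    ring

theorem cert13_157 {ζ : K} (hζ : IsPrimitiveRoot ζ 13) :
    ∃ P ∈ primesOver (span {((157 : ℕ) : ℤ)}) (𝓞 K), Submodule.IsPrincipal P := by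
  have : Fact (Nat.Prime 157) := ⟨by norm_num⟩
  have hz := zeta13_sum hζ
  set z := hζ.toInteger with hzdef
  refine exists_isPrincipal_primesOver_of_linear_cert hζ (ℓ := 157) (75) ?_
    (α := (1) + (-1)*z + (1)*z^2 + (1)*z^4)
    (β := (89) + (86)*z + (42)*z^2 + (77)*z^3 + (67)*z^4 + (25)*z^5 + (37)*z^6 + (56)*z^7 + (73)*z^8 + (113)*z^9 + (124)*z^10 + (76)*z^11)
    (γ := (-43) + (-41)*z + (-20)*z^2 + (-37)*z^3 + (-32)*z^4 + (-12)*z^5 + (-18)*z^6 + (-27)*z^7 + (-35)*z^8 + (-54)*z^9 + (-59)*z^10 + (-36)*z^11)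
    (s := 201568) (t := (421949) + (5626)*z + (75)*z^2 + (1)*z^3) ?_ ?_ ?_
  · have : Fact (Nat.Prime 13) := ⟨by norm_num⟩
    exact isRoot_cyclotomic_prime_of_dvd _ (by decide)
  · push_cast
    linear_combination ((-68) + (65)*z + (48)*z^2 + (76)*z^3) * hz
  · push_cast
    linear_combination ((32) + (-31)*z + (-23)*z^2 + (-36)*z^3) * hz
  · push_cast
    ring


/-- `X³ - X - 1` is an irreducible factor of `Φ₁₃` modulo `3`. -/
theorem cubic_dvd_cyclotomic13_mod3 :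
    (X ^ 3 - X - 1 : ℤ[X]).map (Int.castRingHom (ZMod 3)) ∣ cyclotomic 13 (ZMod 3) := by
  have : Fact (Nat.Prime 13) := ⟨by norm_num⟩
  have key : cyclotomic 13 ℤ = (X ^ 3 - X - 1 : ℤ[X]) *
      (-1 - X ^ 2 - X ^ 3 + X ^ 5 - X ^ 7 + X ^ 8 + X ^ 9) +
      C 3 * (X ^ 5 + X ^ 6 + X ^ 9 + X ^ 10) := by
    rw [cyclotomic_prime]
    simp only [Finset.sum_range_succ, Finset.range_zero, Finset.sum_empty]
    simp only [map_ofNat]
    ring
  refine ⟨(-1 - X ^ 2 - X ^ 3 + X ^ 5 - X ^ 7 + X ^ 8 + X ^ 9 : ℤ[X]).map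
    (Int.castRingHom (ZMod 3)), ?_⟩
  rw [← map_cyclotomic_int, key, Polynomial.map_add, Polynomial.map_mul, Polynomial.map_mul,
    Polynomial.map_C]
  have h3 : (Int.castRingHom (ZMod 3)) 3 = 0 := by decide
  rw [h3, map_zero, zero_mul, add_zero]

theorem cubic_irreducible_mod3 :
    Irreducible ((X ^ 3 - X - 1 : ℤ[X]).map (Int.castRingHom (ZMod 3))) := by
  have hmap : (X ^ 3 - X - 1 : ℤ[X]).map (Int.castRingHom (ZMod 3)) =
      (X ^ 3 - X - 1 : (ZMod 3)[X]) := by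
    simp
  rw [hmap]
  have hdeg : (X ^ 3 - X - 1 : (ZMod 3)[X]).natDegree = 3 := by
    compute_degree!
  apply irreducible_of_degree_le_three_of_not_isRoot
  · rw [hdeg]; decide
  · intro x
    simp only [IsRoot.def, eval_sub, eval_pow, eval_X, eval_one]
    revert x
    decide

theorem cert13_3 {ζ : K} (hζ : IsPrimitiveRoot ζ 13) :
    ∃ P ∈ primesOver (span {((3 : ℕ) : ℤ)}) (𝓞 K), Submodule.IsPrincipal P := by
  have : Fact (Nat.Prime 3) := ⟨by norm_num⟩
  have hz := zeta13_sum hζ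
  have hmonic : (X ^ 3 - X - 1 : ℤ[X]).Monic := by monicity!
  have hQ := mem_monicFactorsMod_toInteger hζ (ℓ := 3) hmonic cubic_irreducible_mod3
    cubic_dvd_cyclotomic13_mod3
  have hav : aeval hζ.toInteger (X ^ 3 - X - 1 : ℤ[X]) =
      hζ.toInteger ^ 3 - hζ.toInteger - 1 := by
    simp
  set z := hζ.toInteger with hzdef
  refine exists_isPrincipal_primesOver_of_cert (not_dvd_exponent_toInteger hζ 3) hQ
    (α := 1 + z - z ^ 3)
    (β := (-1) + (-1)*z^2 + (-1)*z^3 + (-2)*z^5 + (-1)*z^7 + (-2)*z^8 + (1)*z^9 + (-3)*z^10)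
    (γ := -1) (s := 0) (t := -1) ?_ ?_ ?_
  · push_cast
    linear_combination ((-4) + (3)*z) * hz
  · rw [hav]; ring
  · rw [hav]; ring

end Certs

section Main

variable (K : Type*) [Field K] [NumberField K] [IsCyclotomicExtension {13} ℚ K]

theorem cert13_13 :
    ∃ P ∈ primesOver (span {((13 : ℕ) : ℤ)}) (𝓞 K), Submodule.IsPrincipal P := by
  have : Fact (Nat.Prime 13) := ⟨by norm_num⟩
  have hζ := IsCyclotomicExtension.zeta_spec 13 ℚ K
  refine ⟨span {hζ.toInteger - 1}, ⟨?_, ?_⟩, ⟨_, rfl⟩⟩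
  · exact IsCyclotomicExtension.Rat.isPrime_span_zeta_sub_one' 13 hζ
  · have hK : IsCyclotomicExtension {13 ^ (0 + 1)} ℚ K := by
      simp only [zero_add, pow_one]; infer_instance
    have hζ' : IsPrimitiveRoot (IsCyclotomicExtension.zeta 13 ℚ K) (13 ^ (0 + 1)) := by
      simp only [zero_add, pow_one]; exact hζ
    exact IsCyclotomicExtension.Rat.liesOver_span_zeta_sub_one 13 0 hζ'

/-- The ring of integers of the `13`-th cyclotomic field is a principal ideal domain. -/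
theorem thirteen_pid : IsPrincipalIdealRing (𝓞 K) := by
  have : IsGalois ℚ K := IsCyclotomicExtension.isGalois {13} ℚ K
  have hζ := IsCyclotomicExtension.zeta_spec 13 ℚ K
  have hM := minkowski_floor_le_13 K
  apply RingOfIntegers.isPrincipalIdealRing_of_isPrincipal_of_lt_or_isPrincipal_of_mem_primesOver_of_mem_Icc
  intro p hpmem hp
  rw [Finset.mem_Icc] at hpmem
  have hp306 : p ≤ 306 := hpmem.2.trans hM
  by_cases h13 : p = 13
  · subst h13
    obtain ⟨P, hP, hPp⟩ := cert13_13 K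
    exact ⟨P, hP, Or.inr hPp⟩
  by_cases h3 : p = 3
  · subst h3
    obtain ⟨P, hP, hPp⟩ := cert13_3 hζ
    exact ⟨P, hP, Or.inr hPp⟩
  by_cases h53 : p = 53
  · subst h53
    obtain ⟨P, hP, hPp⟩ := cert13_53 hζ
    exact ⟨P, hP, Or.inr hPp⟩
  by_cases h79 : p = 79
  · subst h79
    obtain ⟨P, hP, hPp⟩ := cert13_79 hζ
    exact ⟨P, hP, Or.inr hPp⟩
  by_cases h131 : p = 131
  · subst h131
    obtain ⟨P, hP, hPp⟩ := cert13_131 hζ
    exact ⟨P, hP, Or.inr hPp⟩
  by_cases h157 : p = 157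
  · subst h157
    obtain ⟨P, hP, hPp⟩ := cert13_157 hζ
    exact ⟨P, hP, Or.inr hPp⟩
  -- generic prime: inertia degree is the order of `p` mod `13`
  have : Fact p.Prime := ⟨hp⟩
  obtain ⟨⟨P, hP1, hP2⟩⟩ := (span {(p : ℤ)}).nonempty_primesOver (S := 𝓞 K)
  refine ⟨P, ⟨hP1, hP2⟩, Or.inl ?_⟩
  have hnd : ¬ p ∣ 13 := by
    intro h
    exact h13 ((Nat.prime_dvd_prime_iff_eq hp (by norm_num)).mp h)
  rw [IsCyclotomicExtension.Rat.inertiaDeg_eq_of_not_dvd p K P hnd]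
  exact lt_of_le_of_lt hM (pow_orderOf_gt_13 p hp hp306 h13 h3 h53 h79 h131 h157)

end Main

end Fermat.Agent.FLTReg
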