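import Mathlib

/-!
# Certificates for principal primes in cyclotomic rings of integers

Reusable lemmas for proving `IsPrincipalIdealRing (𝓞 K)` for cyclotomic fields via the Minkowski
bound criterion of `Mathlib/NumberTheory/NumberField/ClassNumber.lean`.
-/

namespace Fermat.Agent.FLTReg

open NumberField Polynomial Ideal RingOfIntegers

section Cert

variable {K : Type*} [Field K] [NumberField K]

/-- If `Q mod ℓ` is a monic irreducible factor of `minpoly ℤ θ mod ℓ` (with `ℓ ∤ exponent θ`), and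
`α` generates the same ideal as `{ℓ, Q(θ)}` (as witnessed by explicit cofactors), then `(α)` is a
principal prime above `ℓ`. -/
theorem exists_isPrincipal_primesOver_of_cert {ℓ : ℕ} [Fact ℓ.Prime] {θ : 𝓞 K}
    (hθ : ¬ ℓ ∣ exponent θ) {Q : ℤ[X]}
    (hQ : Q.map (Int.castRingHom (ZMod ℓ)) ∈ monicFactorsMod θ ℓ)
    {α β γ s t : 𝓞 K} (h1 : α * β = (ℓ : 𝓞 K)) (h2 : α * γ = aeval θ Q)
    (h3 : α = (ℓ : 𝓞 K) * s + aeval θ Q * t) :
    ∃ P ∈ primesOver (span {(ℓ : ℤ)}) (𝓞 K), Submodule.IsPrincipal P := by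
  have key : span {α} = span {(ℓ : 𝓞 K), aeval θ Q} := by
    apply le_antisymm
    · rw [span_singleton_le_iff_mem, h3]
      exact add_mem (Ideal.mul_mem_right _ _ (subset_span (by simp)))
        (Ideal.mul_mem_right _ _ (subset_span (by simp)))
    · rw [span_le]
      rintro x hx
      rcases hx with rfl | hx
      · exact mem_span_singleton.mpr ⟨β, h1.symm⟩
      · rw [Set.mem_singleton_iff] at hx
        subst hx
        exact mem_span_singleton.mpr ⟨γ, h2.symm⟩
  refine ⟨span {α}, ?_, ⟨α, rfl⟩⟩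
  rw [key, ← NumberField.Ideal.primesOverSpanEquivMonicFactorsMod_symm_apply_eq_span hθ hQ]
  exact ((NumberField.Ideal.primesOverSpanEquivMonicFactorsMod hθ).symm ⟨_, hQ⟩).prop

end Cert

section Cyclo

variable {K : Type*} [Field K] [NumberField K] {n : ℕ} [NeZero n] [IsCyclotomicExtension {n} ℚ K]
  {ζ : K} (hζ : IsPrimitiveRoot ζ n)

include hζ in
theorem not_dvd_exponent_toInteger (ℓ : ℕ) [Fact ℓ.Prime] : ¬ ℓ ∣ exponent hζ.toInteger := by
  rw [exponent_eq_one_iff.mpr <| IsCyclotomicExtension.Rat.adjoin_singleton_eq_top hζ]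
  exact (Fact.out : ℓ.Prime).not_dvd_one

omit [IsCyclotomicExtension {n} ℚ K] in
theorem minpoly_toInteger : minpoly ℤ hζ.toInteger = cyclotomic n ℤ := by
  rw [cyclotomic_eq_minpoly hζ (NeZero.pos _), ← RingOfIntegers.minpoly_coe hζ.toInteger]
  rfl

omit [IsCyclotomicExtension {n} ℚ K] in
theorem mem_monicFactorsMod_toInteger {ℓ : ℕ} [Fact ℓ.Prime] {Q : ℤ[X]} (hmonic : Q.Monic)
    (hirr : Irreducible (Q.map (Int.castRingHom (ZMod ℓ))))
    (hdvd : Q.map (Int.castRingHom (ZMod ℓ)) ∣ cyclotomic n (ZMod ℓ)) :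
    Q.map (Int.castRingHom (ZMod ℓ)) ∈ monicFactorsMod hζ.toInteger ℓ := by
  rw [Multiset.mem_toFinset, Polynomial.mem_normalizedFactors_iff
    (map_monic_ne_zero (minpoly.monic hζ.toInteger.isIntegral))]
  refine ⟨hirr, hmonic.map _, ?_⟩
  rwa [minpoly_toInteger hζ, map_cyclotomic_int]

/-- Degree one certificate. -/
theorem exists_isPrincipal_primesOver_of_linear_cert {ℓ : ℕ} [Fact ℓ.Prime] (r : ℤ)
    (hr : (cyclotomic n (ZMod ℓ)).IsRoot (r : ZMod ℓ))
    {α β γ s t : 𝓞 K} (h1 : α * β = (ℓ : 𝓞 K)) (h2 : α * γ = hζ.toInteger - (r : 𝓞 K))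
    (h3 : α = (ℓ : 𝓞 K) * s + (hζ.toInteger - (r : 𝓞 K)) * t) :
    ∃ P ∈ primesOver (span {(ℓ : ℤ)}) (𝓞 K), Submodule.IsPrincipal P := by
  have hQ : (X - C r : ℤ[X]).map (Int.castRingHom (ZMod ℓ)) ∈ monicFactorsMod hζ.toInteger ℓ := by
    apply mem_monicFactorsMod_toInteger hζ (monic_X_sub_C r)
    · rw [Polynomial.map_sub, map_X, map_C]
      exact irreducible_X_sub_C _
    · rw [Polynomial.map_sub, map_X, map_C]
      exact dvd_iff_isRoot.mpr (by simpa using hr)
  have hav : aeval hζ.toInteger (X - C r : ℤ[X]) = hζ.toInteger - (r : 𝓞 K) := by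
    simp
  exact exists_isPrincipal_primesOver_of_cert (not_dvd_exponent_toInteger hζ ℓ) hQ h1
    (by rw [hav]; exact h2) (by rw [hav]; exact h3)

end Cyclo

/-- For a prime `n`, roots of `Φₙ` modulo `ℓ` can be checked by an integer divisibility. -/
theorem isRoot_cyclotomic_prime_of_dvd {n ℓ : ℕ} [Fact n.Prime] (r : ℤ)
    (h : (ℓ : ℤ) ∣ ∑ i ∈ Finset.range n, r ^ i) :
    (cyclotomic n (ZMod ℓ)).IsRoot (r : ZMod ℓ) := by
  rw [cyclotomic_prime, IsRoot.def, eval_geom_sum]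
  have := (ZMod.intCast_zmod_eq_zero_iff_dvd _ ℓ).mpr h
  push_cast at this
  exact this

end Fermat.Agent.FLTReg
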