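import Mathlib

/-!
# Sophie Germain's theorem and Case I of Fermat for `p = 5, 7, 11, 13`

Independent backup of the FLTREG package CASE1 (helper97).  Mathlib only.

Main exports (namespace `Fermat.Agent.FLTReg.SG97`):

* `sophie_germain` : the general theorem with an auxiliary prime `q`;
* `caseI` : for `p ∈ {5, 7, 11, 13}`, coprime `a b`, `a ^ p + b ^ p = c ^ p` and `p ∤ a * b * c`
  is contradictory.
-/

set_option autoImplicit false

namespace Fermat.Agent.FLTReg.SG97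

open Finset

/-- The cofactor `(u ^ p + v ^ p) / (u + v)` for odd `p`, as an explicit sum. -/
def cof (p : ℕ) (u v : ℤ) : ℤ := ∑ i ∈ range p, u ^ i * (-v) ^ (p - 1 - i)

theorem cof_mul (p : ℕ) (hp : Odd p) (u v : ℤ) : cof p u v * (u + v) = u ^ p + v ^ p := by
  have h := geom_sum₂_mul u (-v) p
  rw [hp.neg_pow, sub_neg_eq_add, sub_neg_eq_add] at h
  exact h

theorem add_dvd_cof_sub (p : ℕ) (u v : ℤ) : (u + v) ∣ cof p u v - p * u ^ (p - 1) := by
  have h1 : (p : ℤ) * u ^ (p - 1) = ∑ i ∈ range p, u ^ i * u ^ (p - 1 - i) := by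
    have : ∀ i ∈ range p, u ^ i * u ^ (p - 1 - i) = u ^ (p - 1) := by
      intro i hi
      rw [mem_range] at hi
      rw [← pow_add]
      congr 1
      omega
    rw [sum_congr rfl this, sum_const, card_range, nsmul_eq_mul]
  rw [h1, cof, ← sum_sub_distrib]
  refine dvd_sum fun i _ => ?_
  rw [← mul_sub]
  refine Dvd.dvd.mul_left ?_ _
  have h2 : (-v - u) ∣ (-v) ^ (p - 1 - i) - u ^ (p - 1 - i) := sub_dvd_pow_sub_pow _ _ _
  have h3 : (u + v) ∣ (-v - u) := ⟨-1, by ring⟩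
  exact h3.trans h2

theorem dvd_cof_sub (p : ℕ) (hp : 0 < p) (u v : ℤ) : u ∣ cof p u v - (-v) ^ (p - 1) := by
  obtain ⟨n, rfl⟩ : ∃ n, p = n + 1 := ⟨p - 1, by omega⟩
  rw [cof, sum_range_succ']
  simp only [pow_zero, one_mul, Nat.add_sub_cancel, Nat.sub_zero, add_sub_cancel_right]
  refine dvd_sum fun i _ => ?_
  exact Dvd.dvd.mul_right (dvd_pow_self u (Nat.succ_ne_zero i)) _

theorem isCoprime_add_cof (p : ℕ) (hp : p.Prime) (u v : ℤ) (huv : IsCoprime u v)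
    (hpn : ¬ (p : ℤ) ∣ u + v) : IsCoprime (u + v) (cof p u v) := by
  refine isCoprime_of_prime_dvd ?_ ?_
  · rintro ⟨h0, -⟩
    exact hpn (h0 ▸ dvd_zero _)
  · intro r hr hr1 hr2
    have h3 : r ∣ (p : ℤ) * u ^ (p - 1) := by
      have h4 : r ∣ cof p u v - p * u ^ (p - 1) := hr1.trans (add_dvd_cof_sub p u v)
      have := dvd_sub hr2 h4
      simpa using this
    rcases hr.dvd_or_dvd h3 with h5 | h5
    · have hpZ : Prime (p : ℤ) := Nat.prime_iff_prime_int.mp hp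
      have := (hr.dvd_prime_iff_associated hpZ).mp h5
      exact hpn (this.symm.dvd.trans hr1)
    · have h6 : r ∣ u := hr.dvd_of_dvd_pow h5
      have h7 : r ∣ v := by
        have := dvd_sub hr1 h6
        simpa using this
      exact hr.not_isUnit (huv.isUnit_of_dvd' h6 h7)

/-- From `u ^ p + v ^ p + w ^ p = 0` with `u, v` coprime and `p ∤ w`: both `u + v` and the
cofactor are `p`-th powers. -/
theorem exists_pow_eq (p : ℕ) (hp : p.Prime) (hodd : Odd p) (u v w : ℤ) (huv : IsCoprime u v)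
    (h : u ^ p + v ^ p + w ^ p = 0) (hpw : ¬ (p : ℤ) ∣ w) :
    (∃ a : ℤ, u + v = a ^ p) ∧ ∃ t : ℤ, cof p u v = t ^ p := by
  have hmul : (u + v) * cof p u v = (-w) ^ p := by
    rw [mul_comm, cof_mul p hodd, hodd.neg_pow]
    linarith
  have hpn : ¬ (p : ℤ) ∣ u + v := by
    intro hdvd
    have h1 : (p : ℤ) ∣ (-w) ^ p := hmul ▸ Dvd.dvd.mul_right hdvd _
    have hpZ : Prime (p : ℤ) := Nat.prime_iff_prime_int.mp hp
    have h2 := hpZ.dvd_of_dvd_pow h1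
    exact hpw ((dvd_neg).mp h2)
  have hcop := isCoprime_add_cof p hp u v huv hpn
  exact Int.eq_pow_of_mul_eq_pow_odd hcop hodd hmul

section core

variable (p q : ℕ) (hp : p.Prime) (hodd : Odd p) (hq : q.Prime)
  (h1 : ∀ x y z : ZMod q, x ^ p + y ^ p + z ^ p = 0 → x = 0 ∨ y = 0 ∨ z = 0)
  (h2 : ∀ x : ZMod q, x ^ p ≠ (p : ZMod q))

include hp hodd hq h1 h2

theorem core (x y z : ℤ) (hxy : IsCoprime x y) (hyz : IsCoprime y z) (hzx : IsCoprime z x)
    (h : x ^ p + y ^ p + z ^ p = 0) (hpx : ¬ (p : ℤ) ∣ x) (hpy : ¬ (p : ℤ) ∣ y)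
    (hpz : ¬ (p : ℤ) ∣ z) (hqx : (q : ℤ) ∣ x) : False := by
  have : Fact q.Prime := ⟨hq⟩
  have hqZ : Prime (q : ℤ) := Nat.prime_iff_prime_int.mp hq
  obtain ⟨⟨a, ha⟩, ⟨t, ht⟩⟩ := exists_pow_eq p hp hodd y z x hyz (by linarith) hpx
  obtain ⟨⟨b, hb⟩, -⟩ := exists_pow_eq p hp hodd z x y hzx (by linarith) hpy
  obtain ⟨⟨c, hc⟩, ⟨s, hs⟩⟩ := exists_pow_eq p hp hodd x y z hxy h hpz
  have hx0 : (x : ZMod q) = 0 := (ZMod.intCast_zmod_eq_zero_iff_dvd x q).2 hqx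
  have hy0 : (y : ZMod q) ≠ 0 := by
    intro hy
    have hqy : (q : ℤ) ∣ y := (ZMod.intCast_zmod_eq_zero_iff_dvd y q).1 hy
    exact hqZ.not_isUnit (hxy.isUnit_of_dvd' hqx hqy)
  have hz0 : (z : ZMod q) ≠ 0 := by
    intro hz
    have hqz : (q : ℤ) ∣ z := (ZMod.intCast_zmod_eq_zero_iff_dvd z q).1 hz
    exact hqZ.not_isUnit (hzx.isUnit_of_dvd' hqz hqx)
  have haq : (y : ZMod q) + z = (a : ZMod q) ^ p := by
    have := congrArg (Int.cast : ℤ → ZMod q) ha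
    push_cast at this
    exact this
  have hbq : (z : ZMod q) + x = (b : ZMod q) ^ p := by
    have := congrArg (Int.cast : ℤ → ZMod q) hb
    push_cast at this
    exact this
  have hcq : (x : ZMod q) + y = (c : ZMod q) ^ p := by
    have := congrArg (Int.cast : ℤ → ZMod q) hc
    push_cast at this
    exact this
  have hsum : (b : ZMod q) ^ p + (c : ZMod q) ^ p + (-(a : ZMod q)) ^ p = 0 := by
    rw [hodd.neg_pow, ← haq, ← hbq, ← hcq, hx0]
    ring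
  rcases h1 _ _ _ hsum with hb0 | hc0 | ha0
  · rw [hb0, zero_pow hp.ne_zero, hx0, add_zero] at hbq
    exact hz0 hbq
  · rw [hc0, zero_pow hp.ne_zero, hx0, zero_add] at hcq
    exact hy0 hcq
  · have ha0' : (a : ZMod q) = 0 := neg_eq_zero.mp ha0
    have hyz0 : (q : ℤ) ∣ y + z := by
      apply (ZMod.intCast_zmod_eq_zero_iff_dvd (y + z) q).1
      push_cast
      rw [haq, ha0', zero_pow hp.ne_zero]
    -- `t ^ p = p * y ^ (p - 1)` in `ZMod q`
    have htq : (t : ZMod q) ^ p = (p : ZMod q) * (y : ZMod q) ^ (p - 1) := by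
      have hd : (q : ℤ) ∣ cof p y z - p * y ^ (p - 1) := hyz0.trans (add_dvd_cof_sub p y z)
      have := (ZMod.intCast_zmod_eq_zero_iff_dvd _ q).2 hd
      rw [ht] at this
      push_cast at this
      exact sub_eq_zero.mp this
    -- `s ^ p = y ^ (p - 1)` in `ZMod q`
    have hsq : (s : ZMod q) ^ p = (y : ZMod q) ^ (p - 1) := by
      have hd : (q : ℤ) ∣ cof p x y - (-y) ^ (p - 1) := hqx.trans (dvd_cof_sub p hp.pos x y)
      have := (ZMod.intCast_zmod_eq_zero_iff_dvd _ q).2 hd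
      rw [hs] at this
      push_cast at this
      have heven : Even (p - 1) := by
        obtain ⟨k, hk⟩ := hodd
        exact ⟨k, by omega⟩
      rw [heven.neg_pow] at this
      exact sub_eq_zero.mp this
    have hs0 : (s : ZMod q) ^ p ≠ 0 := by
      rw [hsq]
      exact pow_ne_zero _ hy0
    apply h2 ((t : ZMod q) * ((s : ZMod q))⁻¹)
    rw [mul_pow, inv_pow, htq, ← hsq]
    field_simp

theorem sophie_germain (x y z : ℤ) (hxy : IsCoprime x y) (hyz : IsCoprime y z)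
    (hzx : IsCoprime z x) (h : x ^ p + y ^ p + z ^ p = 0) : (p : ℤ) ∣ x * y * z := by
  by_contra hnot
  have hpx : ¬ (p : ℤ) ∣ x := fun hd => hnot ((hd.mul_right y).mul_right z)
  have hpy : ¬ (p : ℤ) ∣ y := fun hd => hnot ((hd.mul_left x).mul_right z)
  have hpz : ¬ (p : ℤ) ∣ z := fun hd => hnot (hd.mul_left (x * y))
  have hq0 : (x : ZMod q) ^ p + (y : ZMod q) ^ p + (z : ZMod q) ^ p = 0 := by
    have := congrArg (Int.cast : ℤ → ZMod q) h
    push_cast at this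
    exact this
  rcases h1 _ _ _ hq0 with hx | hy | hz
  · exact core p q hp hodd hq h1 h2 x y z hxy hyz hzx h hpx hpy hpz
      ((ZMod.intCast_zmod_eq_zero_iff_dvd x q).1 hx)
  · exact core p q hp hodd hq h1 h2 y z x hyz hzx hxy (by linarith) hpy hpz hpx
      ((ZMod.intCast_zmod_eq_zero_iff_dvd y q).1 hy)
  · exact core p q hp hodd hq h1 h2 z x y hzx hxy hyz (by linarith) hpz hpx hpy
      ((ZMod.intCast_zmod_eq_zero_iff_dvd z q).1 hz)

end core

section checks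

theorem pow5_mod11 : ∀ x : ZMod 11, x ^ 5 = 0 ∨ x ^ 5 = 1 ∨ x ^ 5 = -1 := by decide

theorem pow11_mod23 : ∀ x : ZMod 23, x ^ 11 = 0 ∨ x ^ 11 = 1 ∨ x ^ 11 = -1 := by decide

theorem pow7_mod29 :
    ∀ x : ZMod 29, x ^ 7 = 0 ∨ x ^ 7 = 1 ∨ x ^ 7 = -1 ∨ x ^ 7 = 12 ∨ x ^ 7 = -12 := by decide

theorem pow13_mod53 :
    ∀ x : ZMod 53, x ^ 13 = 0 ∨ x ^ 13 = 1 ∨ x ^ 13 = -1 ∨ x ^ 13 = 23 ∨ x ^ 13 = -23 := by
  decide

theorem key11 : ∀ u v w : ZMod 11, (u = 0 ∨ u = 1 ∨ u = -1) → (v = 0 ∨ v = 1 ∨ v = -1) →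
    (w = 0 ∨ w = 1 ∨ w = -1) → u + v + w = 0 → u = 0 ∨ v = 0 ∨ w = 0 := by
  rintro u v w (rfl | rfl | rfl) (rfl | rfl | rfl) (rfl | rfl | rfl) <;> decide

theorem key23 : ∀ u v w : ZMod 23, (u = 0 ∨ u = 1 ∨ u = -1) → (v = 0 ∨ v = 1 ∨ v = -1) →
    (w = 0 ∨ w = 1 ∨ w = -1) → u + v + w = 0 → u = 0 ∨ v = 0 ∨ w = 0 := by
  rintro u v w (rfl | rfl | rfl) (rfl | rfl | rfl) (rfl | rfl | rfl) <;> decide

theorem key29 : ∀ u v w : ZMod 29, (u = 0 ∨ u = 1 ∨ u = -1 ∨ u = 12 ∨ u = -12) →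
    (v = 0 ∨ v = 1 ∨ v = -1 ∨ v = 12 ∨ v = -12) →
    (w = 0 ∨ w = 1 ∨ w = -1 ∨ w = 12 ∨ w = -12) → u + v + w = 0 → u = 0 ∨ v = 0 ∨ w = 0 := by
  rintro u v w (rfl | rfl | rfl | rfl | rfl) (rfl | rfl | rfl | rfl | rfl)
    (rfl | rfl | rfl | rfl | rfl) <;> decide

theorem key53 : ∀ u v w : ZMod 53, (u = 0 ∨ u = 1 ∨ u = -1 ∨ u = 23 ∨ u = -23) →
    (v = 0 ∨ v = 1 ∨ v = -1 ∨ v = 23 ∨ v = -23) →
    (w = 0 ∨ w = 1 ∨ w = -1 ∨ w = 23 ∨ w = -23) → u + v + w = 0 → u = 0 ∨ v = 0 ∨ w = 0 := by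
  rintro u v w (rfl | rfl | rfl | rfl | rfl) (rfl | rfl | rfl | rfl | rfl)
    (rfl | rfl | rfl | rfl | rfl) <;> decide

theorem cond1_5 : ∀ x y z : ZMod 11, x ^ 5 + y ^ 5 + z ^ 5 = 0 → x = 0 ∨ y = 0 ∨ z = 0 := by
  intro x y z h
  have : Fact (Nat.Prime 11) := ⟨by norm_num⟩
  rcases key11 _ _ _ (pow5_mod11 x) (pow5_mod11 y) (pow5_mod11 z) h with h | h | h
  · exact Or.inl ((pow_eq_zero_iff (by norm_num)).mp h)
  · exact Or.inr (Or.inl ((pow_eq_zero_iff (by norm_num)).mp h))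
  · exact Or.inr (Or.inr ((pow_eq_zero_iff (by norm_num)).mp h))

theorem cond1_11 : ∀ x y z : ZMod 23, x ^ 11 + y ^ 11 + z ^ 11 = 0 → x = 0 ∨ y = 0 ∨ z = 0 := by
  intro x y z h
  have : Fact (Nat.Prime 23) := ⟨by norm_num⟩
  rcases key23 _ _ _ (pow11_mod23 x) (pow11_mod23 y) (pow11_mod23 z) h with h | h | h
  · exact Or.inl ((pow_eq_zero_iff (by norm_num)).mp h)
  · exact Or.inr (Or.inl ((pow_eq_zero_iff (by norm_num)).mp h))
  · exact Or.inr (Or.inr ((pow_eq_zero_iff (by norm_num)).mp h))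

theorem cond1_7 : ∀ x y z : ZMod 29, x ^ 7 + y ^ 7 + z ^ 7 = 0 → x = 0 ∨ y = 0 ∨ z = 0 := by
  intro x y z h
  have : Fact (Nat.Prime 29) := ⟨by norm_num⟩
  rcases key29 _ _ _ (pow7_mod29 x) (pow7_mod29 y) (pow7_mod29 z) h with h | h | h
  · exact Or.inl ((pow_eq_zero_iff (by norm_num)).mp h)
  · exact Or.inr (Or.inl ((pow_eq_zero_iff (by norm_num)).mp h))
  · exact Or.inr (Or.inr ((pow_eq_zero_iff (by norm_num)).mp h))

theorem cond1_13 : ∀ x y z : ZMod 53, x ^ 13 + y ^ 13 + z ^ 13 = 0 → x = 0 ∨ y = 0 ∨ z = 0 := by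
  intro x y z h
  have : Fact (Nat.Prime 53) := ⟨by norm_num⟩
  rcases key53 _ _ _ (pow13_mod53 x) (pow13_mod53 y) (pow13_mod53 z) h with h | h | h
  · exact Or.inl ((pow_eq_zero_iff (by norm_num)).mp h)
  · exact Or.inr (Or.inl ((pow_eq_zero_iff (by norm_num)).mp h))
  · exact Or.inr (Or.inr ((pow_eq_zero_iff (by norm_num)).mp h))

theorem cond2_5 : ∀ x : ZMod 11, x ^ 5 ≠ ((5 : ℕ) : ZMod 11) := by decide

theorem cond2_11 : ∀ x : ZMod 23, x ^ 11 ≠ ((11 : ℕ) : ZMod 23) := by decide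

theorem cond2_7 : ∀ x : ZMod 29, x ^ 7 ≠ ((7 : ℕ) : ZMod 29) := by decide

theorem cond2_13 : ∀ x : ZMod 53, x ^ 13 ≠ ((13 : ℕ) : ZMod 53) := by decide

end checks

/-- Sophie Germain for a fixed pair `(p, q)`, in the `a ^ p + b ^ p = c ^ p` form. -/
theorem caseI_of (p q : ℕ) (hp : p.Prime) (hodd : Odd p) (hq : q.Prime)
    (h1 : ∀ x y z : ZMod q, x ^ p + y ^ p + z ^ p = 0 → x = 0 ∨ y = 0 ∨ z = 0)
    (h2 : ∀ x : ZMod q, x ^ p ≠ (p : ZMod q))
    (a b c : ℤ) (hab : IsCoprime a b) (h : a ^ p + b ^ p = c ^ p)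
    (hpabc : ¬ (p : ℤ) ∣ a * b * c) : False := by
  have hp0 : 0 < p := hp.pos
  have hac : IsCoprime a c := by
    have h3 : IsCoprime a (b ^ p + a * a ^ (p - 1)) :=
      (hab.pow_right (n := p)).add_mul_left_right _
    have h4 : b ^ p + a * a ^ (p - 1) = c ^ p := by
      rw [← pow_succ', Nat.sub_add_cancel hp0, add_comm, h]
    rw [h4] at h3
    exact (IsCoprime.pow_right_iff hp0).mp h3
  have hbc : IsCoprime b c := by
    have h3 : IsCoprime b (a ^ p + b * b ^ (p - 1)) :=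
      (hab.symm.pow_right (n := p)).add_mul_left_right _
    have h4 : a ^ p + b * b ^ (p - 1) = c ^ p := by
      rw [← pow_succ', Nat.sub_add_cancel hp0, h]
    rw [h4] at h3
    exact (IsCoprime.pow_right_iff hp0).mp h3
  have hsum : a ^ p + b ^ p + (-c) ^ p = 0 := by
    rw [hodd.neg_pow, h]
    ring
  have hdvd := sophie_germain p q hp hodd hq h1 h2 a b (-c) hab hbc.neg_right hac.symm.neg_left
    hsum
  apply hpabc
  have : a * b * -c = -(a * b * c) := by ring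
  rw [this] at hdvd
  exact (dvd_neg).mp hdvd

/-- **Case I** of Fermat's Last Theorem for the exponents `5, 7, 11, 13` (Sophie Germain with the
auxiliary primes `11, 29, 23, 53`). -/
theorem caseI (p : ℕ) (hp : p = 5 ∨ p = 7 ∨ p = 11 ∨ p = 13) (a b c : ℤ) (hab : IsCoprime a b)
    (h : a ^ p + b ^ p = c ^ p) (hpabc : ¬ (p : ℤ) ∣ a * b * c) : False := by
  rcases hp with rfl | rfl | rfl | rfl
  · exact caseI_of 5 11 (by norm_num) (by decide) (by norm_num) cond1_5 cond2_5 a b c hab h hpabc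
  · exact caseI_of 7 29 (by norm_num) (by decide) (by norm_num) cond1_7 cond2_7 a b c hab h hpabc
  · exact caseI_of 11 23 (by norm_num) (by decide) (by norm_num) cond1_11 cond2_11 a b c hab h
      hpabc
  · exact caseI_of 13 53 (by norm_num) (by decide) (by norm_num) cond1_13 cond2_13 a b c hab h
      hpabc

end Fermat.Agent.FLTReg.SG97
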