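/-
FLTREG project (S10 + S11), top-level assembly (owner helper18).
`FermatLastTheoremFor p` from the two classical cases over `ℤ`, and the consequence for
Frey packages.  No `sorry`; imports Mathlib and the Prelude definition of `FreyPackage` only.
-/
import Mathlib
import Fermat.Prelude.Def_FLTPrelim_FreyPackage

set_option autoImplicit false

namespace Fermat.Agent.FLTReg.Top

/-- If `gcd {a, b, c} = 1` and `a ^ n + b ^ n = c ^ n` with `n ≠ 0` then `a` and `b` are coprime. -/
theorem wire_isCoprime_of_gcd_eq_one {n : ℕ} (hn : n ≠ 0) {a b c : ℤ}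
    (hgcd : ({a, b, c} : Finset ℤ).gcd id = 1) (h : a ^ n + b ^ n = c ^ n) : IsCoprime a b := by
  refine isCoprime_of_prime_dvd ?_ fun q hq hqa hqb => hq.not_dvd_one ?_
  · rintro ⟨rfl, rfl⟩
    have hc : c = 0 := by
      have : c ^ n = 0 := by rw [← h]; simp [hn]
      exact pow_eq_zero_iff hn |>.mp this
    subst hc
    simp at hgcd
  · have hqc : q ∣ c := by
      refine hq.dvd_of_dvd_pow (n := n) ?_
      rw [← h]
      exact dvd_add (dvd_pow hqa hn) (dvd_pow hqb hn)
    rw [← hgcd]
    refine Finset.dvd_gcd_iff.mpr fun x hx => ?_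
    simp only [Finset.mem_insert, Finset.mem_singleton] at hx
    rcases hx with rfl | rfl | rfl <;> simpa using by assumption

/-- **Wiring**: Fermat's Last Theorem for the exponent `p` follows from its two cases for
coprime integers. -/
theorem fermatLastTheoremFor_of_cases {p : ℕ} (hp0 : p ≠ 0)
    (caseI : ∀ a b c : ℤ, IsCoprime a b → a ^ p + b ^ p = c ^ p → ¬ (p : ℤ) ∣ a * b * c → False)
    (caseII : ∀ a b c : ℤ, IsCoprime a b → a * b * c ≠ 0 → (p : ℤ) ∣ a * b * c →
      a ^ p + b ^ p ≠ c ^ p) :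
    FermatLastTheoremFor p := by
  rw [fermatLastTheoremFor_iff_int]
  refine fermatLastTheoremWith_of_fermatLastTheoremWith_coprime fun a b c ha hb hc hgcd heq => ?_
  have hcop : IsCoprime a b := wire_isCoprime_of_gcd_eq_one hp0 hgcd heq
  by_cases hdvd : (p : ℤ) ∣ a * b * c
  · exact caseII a b c hcop (mul_ne_zero (mul_ne_zero ha hb) hc) hdvd heq
  · exact caseI a b c hcop heq hdvd

/-- A Frey package with exponent `p` contradicts Fermat's Last Theorem for `p`. -/
theorem freyPackage_false_of_flt (P : FreyPackage) (h : FermatLastTheoremFor P.p) : False :=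
  (fermatLastTheoremFor_iff_int.mp h) P.a P.b P.c P.ha0 P.hb0 P.hc0 P.hFLT

end Fermat.Agent.FLTReg.Top

namespace Fermat.Agent.FLTReg.Top

open NumberField

/-- The cyclotomic field `CyclotomicField p ℚ` is a `p`-th cyclotomic extension of `ℚ` for the
canonical `ℚ`-algebra structure of a division ring (instance search does not find this because of
the `Algebra ℚ` diamond). -/
theorem isCyclotomicExtension_cyclotomicField (p : ℕ) [NeZero p] :
    @IsCyclotomicExtension {p} ℚ (CyclotomicField p ℚ) _ _ DivisionRing.toRatAlgebra := by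
  have h := CyclotomicField.isCyclotomicExtension p ℚ
  have e : (DivisionRing.toRatAlgebra : Algebra ℚ (CyclotomicField p ℚ)) =
      CyclotomicField.algebra p ℚ := Subsingleton.elim _ _
  rw [e]; exact h

/-- **Assembly**: Fermat's Last Theorem for `p` from the four inputs of the FLTREG project, for an
arbitrary model `K` of the `p`-th cyclotomic field:
* `caseI`: the first case (Sophie Germain),
* `[IsPrincipalIdealRing (𝓞 K)]`: class number one,
* `KL`: Kummer's lemma,
* `caseII`: the second case, which takes Kummer's lemma as a hypothesis. -/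
theorem flt_of_inputs (p : ℕ) (hp0 : p ≠ 0)
    (K : Type) [Field K] [NumberField K]
    (caseI : ∀ a b c : ℤ, IsCoprime a b → a ^ p + b ^ p = c ^ p → ¬ (p : ℤ) ∣ a * b * c → False)
    (KL : ∀ u : (𝓞 K)ˣ, (∃ n : ℤ, (p : 𝓞 K) ∣ (u : 𝓞 K) - n) → ∃ v : (𝓞 K)ˣ, u = v ^ p)
    (caseII : (∀ u : (𝓞 K)ˣ, (∃ n : ℤ, (p : 𝓞 K) ∣ (u : 𝓞 K) - n) → ∃ v : (𝓞 K)ˣ, u = v ^ p) →
      ∀ {a b c : ℤ}, IsCoprime a b → a * b * c ≠ 0 → (p : ℤ) ∣ a * b * c →
        a ^ p + b ^ p ≠ c ^ p) :
    FermatLastTheoremFor p :=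
  fermatLastTheoremFor_of_cases hp0 caseI fun _ _ _ hab habc hdvd => caseII KL hab habc hdvd

end Fermat.Agent.FLTReg.Top
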