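import Mathlib

set_option autoImplicit false

namespace Fermat.Agent.FLTReg.UnitsGen

open NumberField NumberField.Units

section generation

variable (K : Type*) [Field K] [NumberField K]

/-- The unit group is generated by one torsion element and the fundamental system. -/
theorem exists_gen : ∃ τ : (𝓞 K)ˣ, τ ∈ torsion K ∧ ∀ u : (𝓞 K)ˣ,
    ∃ (a : ℤ) (e : Fin (rank K) → ℤ), u = τ ^ a * ∏ i, (fundSystem K i) ^ (e i) := by
  obtain ⟨⟨τ, hτ⟩, hgen⟩ := IsCyclic.exists_generator (α := torsion K)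
  refine ⟨τ, hτ, fun u => ?_⟩
  obtain ⟨⟨x, e⟩, hxu, -⟩ := exist_unique_eq_mul_prod K u
  obtain ⟨a, ha⟩ := Subgroup.mem_zpowers_iff.mp (hgen x)
  refine ⟨a, e, ?_⟩
  have : (x : (𝓞 K)ˣ) = τ ^ a := by
    rw [← ha]; simp
  rw [hxu, this]

/-- The unit group is generated by `rank K + 1` elements. -/
theorem exists_gen_fin : ∃ h : Fin (rank K + 1) → (𝓞 K)ˣ, ∀ u : (𝓞 K)ˣ,
    ∃ c : Fin (rank K + 1) → ℤ, u = ∏ j, h j ^ c j := by
  obtain ⟨τ, -, hgen⟩ := exists_gen K
  refine ⟨Fin.cons τ (fundSystem K), fun u => ?_⟩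
  obtain ⟨a, e, rfl⟩ := hgen u
  refine ⟨Fin.cons a e, ?_⟩
  rw [Fin.prod_univ_succ]
  simp

variable {K}

/-- **Kernel lemma.** If an additive hom `Λ` from the units to a `ZMod p`-module has
`rank K + 1` units with linearly independent images, then `Λ u = 0` forces `u` to be a `p`-th
power. -/
theorem eq_pow_of_map_eq_zero {p : ℕ} [Fact p.Prime] {V : Type*} [AddCommGroup V]
    [Module (ZMod p) V] (Λ : Additive (𝓞 K)ˣ →+ V) {n : ℕ} (hn : n = rank K + 1)
    (g : Fin n → (𝓞 K)ˣ)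
    (hg : LinearIndependent (ZMod p) (fun i => Λ (Additive.ofMul (g i))))
    (u : (𝓞 K)ˣ) (hu : Λ (Additive.ofMul u) = 0) : ∃ v : (𝓞 K)ˣ, u = v ^ p := by
  subst hn
  obtain ⟨h, hgen'⟩ := exists_gen_fin K
  set L : (Fin (rank K + 1) → ZMod p) →ₗ[ZMod p] V :=
    Fintype.linearCombination (ZMod p) (fun j => Λ (Additive.ofMul (h j))) with hL
  have hΛ : ∀ c : Fin (rank K + 1) → ℤ,
      Λ (Additive.ofMul (∏ j, h j ^ c j)) = L (fun j => (c j : ZMod p)) := by
    intro c
    rw [ofMul_prod, map_sum, hL, Fintype.linearCombination_apply]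
    refine Finset.sum_congr rfl fun j _ => ?_
    rw [ofMul_zpow, map_zsmul]
    exact (Int.cast_smul_eq_zsmul (ZMod p) (c j) _).symm
  have hrange : ∀ u, Λ (Additive.ofMul u) ∈ LinearMap.range L := by
    intro u
    obtain ⟨c, rfl⟩ := hgen' u
    rw [hΛ]
    exact LinearMap.mem_range_self _ _
  have hspan : Submodule.span (ZMod p) (Set.range fun i => Λ (Additive.ofMul (g i))) ≤
      LinearMap.range L := by
    rw [Submodule.span_le]
    rintro _ ⟨i, rfl⟩
    exact hrange _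
  have h1 : Module.finrank (ZMod p)
      (Submodule.span (ZMod p) (Set.range fun i => Λ (Additive.ofMul (g i)))) = rank K + 1 := by
    rw [finrank_span_eq_card hg]
    simp
  have h2 : rank K + 1 ≤ Module.finrank (ZMod p) (LinearMap.range L) := by
    exact h1.symm.le.trans (Submodule.finrank_mono hspan)
  have h3 := LinearMap.finrank_range_add_finrank_ker L
  have h4 : Module.finrank (ZMod p) (Fin (rank K + 1) → ZMod p) = rank K + 1 := by simp
  have hker : LinearMap.ker L = ⊥ := by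
    apply Submodule.finrank_eq_zero.mp
    omega
  have hinj : Function.Injective L := LinearMap.ker_eq_bot.mp hker
  obtain ⟨c, rfl⟩ := hgen' u
  rw [hΛ] at hu
  have hc : (fun j => (c j : ZMod p)) = 0 := hinj (by rw [hu, map_zero])
  have hdvd : ∀ j, (p : ℤ) ∣ c j := fun j =>
    (ZMod.intCast_zmod_eq_zero_iff_dvd _ _).mp (congrFun hc j)
  choose d hd using hdvd
  refine ⟨∏ j, h j ^ d j, ?_⟩
  rw [← Finset.prod_pow]
  refine Finset.prod_congr rfl fun j _ => ?_
  rw [hd j, mul_comm, zpow_mul, zpow_natCast]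

/-- Multiplicative version of `eq_pow_of_map_eq_zero`. -/
theorem eq_pow_of_map_eq_one {p : ℕ} [Fact p.Prime] {V : Type*} [AddCommGroup V]
    [Module (ZMod p) V] (Λ : (𝓞 K)ˣ →* Multiplicative V) {n : ℕ} (hn : n = rank K + 1)
    (g : Fin n → (𝓞 K)ˣ)
    (hg : LinearIndependent (ZMod p) (fun i => Multiplicative.toAdd (Λ (g i))))
    (u : (𝓞 K)ˣ) (hu : Λ u = 1) : ∃ v : (𝓞 K)ˣ, u = v ^ p := by
  refine eq_pow_of_map_eq_zero (MonoidHom.toAdditiveLeft Λ) hn g ?_ u ?_
  · exact hg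
  · change Multiplicative.toAdd (Λ u) = 0
    rw [hu]
    rfl

end generation

section cyclotomic

open NumberField.InfinitePlace

variable (K : Type*) [Field K] [NumberField K]

/-- For the `p`-th cyclotomic field (`p` an odd prime), `rank K + 1 = (p - 1) / 2`. -/
theorem rank_add_one_cyclotomic (p : ℕ) [hp : Fact p.Prime] (hp2 : p ≠ 2)
    [IsCyclotomicExtension {p} ℚ K] : rank K + 1 = (p - 1) / 2 := by
  have hp3 : 2 < p := lt_of_le_of_ne hp.out.two_le (Ne.symm hp2)
  have hcard : Fintype.card (InfinitePlace K) = (p - 1) / 2 := by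
    rw [card_eq_nrRealPlaces_add_nrComplexPlaces,
      IsCyclotomicExtension.Rat.nrRealPlaces_eq_zero (n := p) K hp3, zero_add,
      IsCyclotomicExtension.Rat.nrComplexPlaces_eq_totient_div_two (n := p),
      Nat.totient_prime hp.out]
  have : 1 ≤ (p - 1) / 2 := by omega
  unfold rank
  omega

variable {K}

/-- **Kernel lemma, cyclotomic form.** `K` the `p`-th cyclotomic field, `p` an odd prime.
If `(p - 1) / 2` units have `ZMod p`-independent images under `Λ`, then `Λ u = 0` forces `u`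
to be a `p`-th power. -/
theorem eq_pow_of_map_eq_zero_cyclotomic {p : ℕ} [Fact p.Prime] (hp2 : p ≠ 2)
    [IsCyclotomicExtension {p} ℚ K] {V : Type*} [AddCommGroup V]
    [Module (ZMod p) V] (Λ : Additive (𝓞 K)ˣ →+ V) (g : Fin ((p - 1) / 2) → (𝓞 K)ˣ)
    (hg : LinearIndependent (ZMod p) (fun i => Λ (Additive.ofMul (g i))))
    (u : (𝓞 K)ˣ) (hu : Λ (Additive.ofMul u) = 0) : ∃ v : (𝓞 K)ˣ, u = v ^ p :=
  eq_pow_of_map_eq_zero Λ (rank_add_one_cyclotomic K p hp2).symm g hg u hu

end cyclotomic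

end Fermat.Agent.FLTReg.UnitsGen
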