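/-
FLT for an odd prime exponent `p` from Case I and the "p divides only c" form of Case II,
and the bridge from integers to the ring of integers of the `p`-th cyclotomic field.
Template: Mathlib `NumberTheory/FLT/Three.lean` with `3 → p`.
-/
import Mathlib

set_option autoImplicit false

namespace Fermat.Agent.FLTReg.Wire

open NumberField

section Ints

variable {p : ℕ}

lemma wire_dvd_b_of_dvd_a {a b c : ℤ} (hp : p.Prime) (hodd : Odd p) (ha : a ≠ 0)
    (Hgcd : Finset.gcd {a, b, c} id = 1) (hpa : (p : ℤ) ∣ a) (HF : a ^ p + b ^ p + c ^ p = 0)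
    (H : ∀ a b c : ℤ, c ≠ 0 → ¬ (p : ℤ) ∣ a → ¬ (p : ℤ) ∣ b → (p : ℤ) ∣ c → IsCoprime a b →
      a ^ p + b ^ p ≠ c ^ p) :
    (p : ℤ) ∣ b := by
  have hpZ : Prime (p : ℤ) := Nat.prime_iff_prime_int.mp hp
  have hbc : IsCoprime (-b) (-c) := by
    refine IsCoprime.neg_neg ?_
    rw [add_comm (a ^ p), add_assoc, add_comm (a ^ p), ← add_assoc] at HF
    refine isCoprime_of_gcd_eq_one_of_FLT ?_ HF
    convert Hgcd using 2
    rw [Finset.pair_comm, Finset.insert_comm]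
  by_contra! hpb
  by_cases hpc : (p : ℤ) ∣ c
  · apply hpb
    rw [add_assoc, add_comm (b ^ p), ← add_assoc] at HF
    exact dvd_c_of_prime_of_dvd_a_of_dvd_b_of_FLT hpZ hpa hpc HF
  · refine H (-b) (-c) a ha (by simpa using hpb) (by simpa using hpc) hpa hbc ?_
    rw [add_eq_zero_iff_eq_neg, ← hodd.neg_pow] at HF
    rw [hodd.neg_pow, hodd.neg_pow]
    have : a ^ p = -(b ^ p) - c ^ p := by
      have h2 : a ^ p + b ^ p = (-c) ^ p := HF
      rw [hodd.neg_pow] at h2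
      linarith
    linarith

open Finset in
lemma wire_ne_zero_of_dvd_a {a b c : ℤ} (hp : p.Prime) (hodd : Odd p) (ha : a ≠ 0)
    (hpa : (p : ℤ) ∣ a) (Hgcd : Finset.gcd {a, b, c} id = 1)
    (H : ∀ a b c : ℤ, c ≠ 0 → ¬ (p : ℤ) ∣ a → ¬ (p : ℤ) ∣ b → (p : ℤ) ∣ c → IsCoprime a b →
      a ^ p + b ^ p ≠ c ^ p) :
    a ^ p + b ^ p + c ^ p ≠ 0 := by
  intro HF
  have hpZ : Prime (p : ℤ) := Nat.prime_iff_prime_int.mp hp
  apply hpZ.not_dvd_one
  rw [← Hgcd]
  refine dvd_gcd (fun x hx ↦ ?_)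
  simp only [mem_insert, mem_singleton] at hx
  have hpb : (p : ℤ) ∣ b := wire_dvd_b_of_dvd_a hp hodd ha Hgcd hpa HF H
  rcases hx with hx | hx | hx
  · exact hx ▸ hpa
  · exact hx ▸ hpb
  · simpa [hx] using dvd_c_of_prime_of_dvd_a_of_dvd_b_of_FLT hpZ hpa hpb HF

open Finset Int in
/-- To prove Fermat's Last Theorem for an odd prime `p`, it is enough to treat Case I
(`p ∤ a b c`, with `a`, `b` coprime) and the case where `p` divides only `c`. -/
theorem flt_of_caseI_of_dvd_only_c (hp : p.Prime) (hodd : Odd p)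
    (H1 : ∀ a b c : ℤ, IsCoprime a b → ¬ (p : ℤ) ∣ a * b * c → a ^ p + b ^ p ≠ c ^ p)
    (H : ∀ a b c : ℤ, c ≠ 0 → ¬ (p : ℤ) ∣ a → ¬ (p : ℤ) ∣ b → (p : ℤ) ∣ c → IsCoprime a b →
      a ^ p + b ^ p ≠ c ^ p) :
    FermatLastTheoremFor p := by
  have hpZ : Prime (p : ℤ) := Nat.prime_iff_prime_int.mp hp
  rw [fermatLastTheoremFor_iff_int]
  refine fermatLastTheoremWith_of_fermatLastTheoremWith_coprime (fun a b c ha hb hc Hgcd hF ↦ ?_)
  by_cases h1 : (p : ℤ) ∣ a * b * c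
  swap
  · refine H1 a b c ?_ h1 hF
    have hF' : a ^ p + b ^ p + (-c) ^ p = 0 := by rw [hodd.neg_pow, hF]; ring
    refine isCoprime_of_gcd_eq_one_of_FLT ?_ hF'
    simp only [← Hgcd, gcd_insert, gcd_singleton, id_eq, ← abs_eq_normalize, abs_neg]
  rw [hpZ.dvd_mul, hpZ.dvd_mul] at h1
  rw [← sub_eq_zero, sub_eq_add_neg, ← hodd.neg_pow] at hF
  rcases h1 with (hpa | hpb) | hpc
  · refine wire_ne_zero_of_dvd_a hp hodd ha hpa ?_ H hF
    simp only [← Hgcd, gcd_insert, gcd_singleton, id_eq, ← abs_eq_normalize, abs_neg]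
  · rw [add_comm (a ^ p)] at hF
    refine wire_ne_zero_of_dvd_a hp hodd hb hpb ?_ H hF
    simp only [← Hgcd, insert_comm, gcd_insert, gcd_singleton, id_eq, ← abs_eq_normalize, abs_neg]
  · rw [add_comm _ ((-c) ^ p), ← add_assoc] at hF
    refine wire_ne_zero_of_dvd_a hp hodd (neg_ne_zero.2 hc) (by simpa using hpc) ?_ H hF
    rw [Finset.insert_comm (-c), Finset.pair_comm (-c) b]
    simp only [← Hgcd, gcd_insert, gcd_singleton, id_eq, ← abs_eq_normalize, abs_neg]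

end Ints

section Bridge

variable {p : ℕ} [hp : Fact p.Prime] {K : Type*} [Field K] {ζ : K}

/-- The generalised Case II statement over the ring of integers of the `p`-th cyclotomic field:
`a ^ p + b ^ p = u * c ^ p` has no solution with `c ≠ 0`, `λ ∤ a`, `λ ∤ b`, `λ ∣ c`, `a`, `b` coprime
(`λ = ζ - 1`, `u` any unit). This is exactly Mathlib's `FermatLastTheoremForThreeGen` with `3 → p`. -/
def CaseIIGen (hζ : IsPrimitiveRoot ζ p) : Prop :=
  ∀ a b c : 𝓞 K, ∀ u : (𝓞 K)ˣ, c ≠ 0 → ¬ (hζ.toInteger - 1) ∣ a → ¬ (hζ.toInteger - 1) ∣ b →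
    (hζ.toInteger - 1) ∣ c → IsCoprime a b → a ^ p + b ^ p ≠ u * c ^ p

variable [NumberField K] [IsCyclotomicExtension {p} ℚ K]

/-- For a rational integer `n`, `λ ∣ n` in `𝓞 K` iff `p ∣ n`. -/
lemma lambda_dvd_intCast_iff (hζ : IsPrimitiveRoot ζ p) (hp2 : p ≠ 2) (n : ℤ) :
    (hζ.toInteger - 1) ∣ (n : 𝓞 K) ↔ (p : ℤ) ∣ n := by
  constructor
  · intro h
    rwa [← Ideal.norm_dvd_iff (hζ.prime_norm_toInteger_sub_one_of_prime_ne_two' hp2),
      hζ.norm_toInteger_sub_one_of_prime_ne_two' hp2] at h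
  · rintro ⟨x, rfl⟩
    exact dvd_trans hζ.toInteger_sub_one_dvd_prime' ⟨x, by simp⟩

/-- The generalised Case II over `𝓞 K` implies the integer statement "`p` divides only `c`". -/
theorem dvd_only_c_of_caseIIGen (hζ : IsPrimitiveRoot ζ p) (hp2 : p ≠ 2) (H : CaseIIGen hζ) :
    ∀ a b c : ℤ, c ≠ 0 → ¬ (p : ℤ) ∣ a → ¬ (p : ℤ) ∣ b → (p : ℤ) ∣ c → IsCoprime a b →
      a ^ p + b ^ p ≠ c ^ p := by
  intro a b c hc ha hb hpc hcoprime h
  refine H a b c 1 (by simpa using hc) (fun hdvd ↦ ha ?_) (fun hdvd ↦ hb ?_) ?_ ?_ ?_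
  · exact (lambda_dvd_intCast_iff hζ hp2 a).1 hdvd
  · exact (lambda_dvd_intCast_iff hζ hp2 b).1 hdvd
  · exact (lambda_dvd_intCast_iff hζ hp2 c).2 hpc
  · exact IsCoprime.intCast hcoprime
  · simpa using mod_cast h

/-- FLT for the odd prime `p` from Case I (integers) and the generalised Case II (over `𝓞 K`). -/
theorem flt_of_caseI_of_caseIIGen (hζ : IsPrimitiveRoot ζ p) (hp2 : p ≠ 2)
    (H1 : ∀ a b c : ℤ, IsCoprime a b → ¬ (p : ℤ) ∣ a * b * c → a ^ p + b ^ p ≠ c ^ p)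
    (H2 : CaseIIGen hζ) : FermatLastTheoremFor p :=
  flt_of_caseI_of_dvd_only_c hp.out (hp.out.odd_of_ne_two hp2) H1
    (dvd_only_c_of_caseIIGen hζ hp2 H2)

end Bridge

end Fermat.Agent.FLTReg.Wire
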